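import Mathlib
import Fermat.Prelude.Def_FLTPrelim_Ramification

set_option autoImplicit false

namespace Fermat.Agent.S13

open scoped Pointwise

section Horner

variable {L : Type*} [Field L]

/-- The Horner tails `∑_{i} c_{i+m} a^i` of an integer polynomial evaluated at `a`. -/
noncomputable def h24_tail (f : Polynomial ℤ) (a : L) (m : ℕ) : L :=
  ∑ i ∈ Finset.range (f.natDegree + 1), (f.coeff (i + m) : L) * a ^ i

theorem h24_tail_zero (f : Polynomial ℤ) (a : L) : h24_tail f a 0 = Polynomial.aeval a f := by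
  rw [Polynomial.aeval_eq_sum_range]
  refine Finset.sum_congr rfl fun i _ => ?_
  simp [zsmul_eq_mul]

theorem h24_tail_succ (f : Polynomial ℤ) (a : L) (m : ℕ) :
    h24_tail f a m = (f.coeff m : L) + a * h24_tail f a (m + 1) := by
  unfold h24_tail
  rw [Finset.sum_range_succ', Finset.mul_sum]
  have hlast : (f.coeff (f.natDegree + (m + 1)) : L) = 0 := by
    rw [Polynomial.coeff_eq_zero_of_natDegree_lt (by omega)]
    simp
  rw [Finset.sum_range_succ (fun i => a * ((f.coeff (i + (m + 1)) : L) * a ^ i)), hlast]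
  simp only [pow_zero, mul_one, zero_add, zero_mul, mul_zero, add_zero]
  rw [add_comm]
  congr 1
  refine Finset.sum_congr rfl fun i _ => ?_
  rw [show i + 1 + m = i + (m + 1) by omega]
  ring

theorem h24_pow_mul_tail (f : Polynomial ℤ) (a : L) (hf : Polynomial.aeval a f = 0) (m : ℕ) :
    a ^ m * h24_tail f a m = - ∑ i ∈ Finset.range m, (f.coeff i : L) * a ^ i := by
  induction m with
  | zero => simp [h24_tail_zero, hf]
  | succ m ih =>
    rw [Finset.sum_range_succ, neg_add, ← ih, h24_tail_succ f a m]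
    ring

/-- **Horner integrality.** If `f(a) = 0` with `f ∈ ℤ[X]`, every Horner tail is integral. -/
theorem h24_tail_isIntegral (f : Polynomial ℤ) (a : L) (hf : Polynomial.aeval a f = 0) (m : ℕ) :
    IsIntegral ℤ (h24_tail f a m) := by
  classical
  set n := f.natDegree with hn
  rcases Nat.eq_zero_or_pos n with h0 | hpos
  · have : h24_tail f a m = algebraMap ℤ L (f.coeff m) := by
      unfold h24_tail
      rw [← hn, h0]
      simp
    rw [this]
    exact isIntegral_algebraMap
  let M : Submodule ℤ L := Submodule.span ℤ ((fun i : ℕ => a ^ i) '' (Finset.range n : Set ℕ))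
  have hpow : ∀ i, i < n → a ^ i ∈ M := fun i hi =>
    Submodule.subset_span ⟨i, by simpa using hi, rfl⟩
  have hM0 : M ≠ ⊥ := by
    intro h
    have h1 : (a ^ 0 : L) ∈ M := hpow 0 hpos
    rw [h, Submodule.mem_bot, pow_zero] at h1
    exact one_ne_zero h1
  have hMfg : M.FG := Submodule.fg_span ((Finset.range n).finite_toSet.image _)
  refine isIntegral_of_smul_mem_submodule M hM0 hMfg _ ?_
  intro x hx
  induction hx using Submodule.span_induction with
  | mem x hx =>
    obtain ⟨j, hj, rfl⟩ := hx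
    have hj : j < n := by simpa using hj
    change h24_tail f a m * a ^ j ∈ M
    rcases lt_or_ge j m with hjm | hjm
    · unfold h24_tail
      rw [Finset.sum_mul]
      refine Submodule.sum_mem _ fun i _ => ?_
      by_cases hi : i + m ≤ n
      · have : (f.coeff (i + m) : L) * a ^ i * a ^ j = (f.coeff (i + m)) • a ^ (i + j) := by
          rw [zsmul_eq_mul, pow_add]; ring
        rw [this]
        exact M.smul_mem _ (hpow _ (by omega))
      · rw [Polynomial.coeff_eq_zero_of_natDegree_lt (by omega)]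
        simp
    · have h1 : h24_tail f a m * a ^ j = a ^ (j - m) * (a ^ m * h24_tail f a m) := by
        rw [← mul_assoc, ← pow_add, Nat.sub_add_cancel hjm]; ring
      rw [h1, h24_pow_mul_tail f a hf, mul_neg, Finset.mul_sum]
      refine M.neg_mem (Submodule.sum_mem _ fun i hi => ?_)
      have hi : i < m := by simpa using hi
      have : a ^ (j - m) * ((f.coeff i : L) * a ^ i) = (f.coeff i) • a ^ (j - m + i) := by
        rw [zsmul_eq_mul, pow_add]; ring
      rw [this]
      exact M.smul_mem _ (hpow _ (by omega))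
  | zero => simp
  | add x y _ _ hx hy => rw [smul_add]; exact M.add_mem hx hy
  | smul r x _ hx => rw [smul_comm]; exact M.smul_mem r hx

end Horner

section Localisation

variable {L : Type*} [Field L]

/-- An element integral over `ℤ` lies in every valuation subring. -/
theorem h24_integral_mem (A : ValuationSubring L) {b : L} (hb : IsIntegral ℤ b) : b ∈ A := by
  have h1 : IsIntegral A b := hb.tower_top
  obtain ⟨y, hy⟩ := IsIntegrallyClosed.isIntegral_iff.mp h1
  rw [← hy]
  exact y.2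

theorem h24_add_mem_nonunits (A : ValuationSubring L) {x y : L} (hx : x ∈ A.nonunits)
    (hy : y ∈ A.nonunits) : x + y ∈ A.nonunits := by
  rw [ValuationSubring.mem_nonunits_iff] at hx hy ⊢
  exact Valuation.map_add_lt _ hx hy

theorem h24_neg_mem_nonunits (A : ValuationSubring L) {x : L} (hx : x ∈ A.nonunits) :
    -x ∈ A.nonunits := by
  rw [ValuationSubring.mem_nonunits_iff] at hx ⊢
  rwa [Valuation.map_neg]

theorem h24_sub_mem_nonunits (A : ValuationSubring L) {x y : L} (hx : x ∈ A.nonunits)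
    (hy : y ∈ A.nonunits) : x - y ∈ A.nonunits := by
  rw [sub_eq_add_neg]
  exact h24_add_mem_nonunits A hx (h24_neg_mem_nonunits A hy)

theorem h24_mul_mem_nonunits (A : ValuationSubring L) {x y : L} (hx : x ∈ A)
    (hy : y ∈ A.nonunits) : x * y ∈ A.nonunits := by
  rw [ValuationSubring.mem_nonunits_iff] at hy ⊢
  rw [map_mul]
  have h1 : A.valuation x ≤ 1 := (A.valuation_le_one_iff x).mpr hx
  calc A.valuation x * A.valuation y ≤ 1 * A.valuation y := mul_le_mul_left h1 _
    _ = A.valuation y := one_mul _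
    _ < 1 := hy

theorem h24_zero_mem_nonunits (A : ValuationSubring L) : (0 : L) ∈ A.nonunits := by
  rw [ValuationSubring.mem_nonunits_iff, map_zero]
  exact zero_lt_one

theorem h24_one_not_mem_nonunits (A : ValuationSubring L) : (1 : L) ∉ A.nonunits := by
  rw [ValuationSubring.mem_nonunits_iff, map_one]
  exact lt_irrefl _

theorem h24_nonunits_subset (A : ValuationSubring L) {x : L} (hx : x ∈ A.nonunits) : x ∈ A := by
  rw [ValuationSubring.mem_nonunits_iff] at hx
  exact (A.valuation_le_one_iff x).mp hx.le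

/-- An element that is not a nonunit has its inverse in `A`. -/
theorem h24_inv_mem (A : ValuationSubring L) {x : L} (hx' : x ∉ A.nonunits) :
    x⁻¹ ∈ A := by
  by_contra h
  apply hx'
  rw [ValuationSubring.mem_nonunits_iff_or]
  exact Or.inr h

/-- **A valuation subring is the localisation of the ring of algebraic integers.**
Every `a ∈ A` that is algebraic over `ℤ` has a denominator `s`, integral over `ℤ` and a unit of
`A`, with `s * a` integral over `ℤ`. -/
theorem h24_exists_den [CharZero L] (A : ValuationSubring L) {a : L} (ha : a ∈ A)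
    (halg : IsAlgebraic ℤ a) :
    ∃ s : L, IsIntegral ℤ s ∧ s ∉ A.nonunits ∧ IsIntegral ℤ (s * a) := by
  obtain ⟨f₀, hf₀, hf₀a⟩ := halg
  set f := f₀.primPart with hf
  have hfa : Polynomial.aeval a f = 0 := Polynomial.aeval_primPart_eq_zero hf₀ hf₀a
  have hprim : f.IsPrimitive := Polynomial.isPrimitive_primPart f₀
  -- some coefficient is a unit of `A`
  have hcoeff : ∃ i, ((f.coeff i : ℤ) : L) ∉ A.nonunits := by
    by_contra hcon
    push Not at hcon
    let I : Ideal ℤ := Ideal.comap (algebraMap ℤ A) (IsLocalRing.maximalIdeal A)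
    have hI : ∀ n : ℤ, n ∈ I ↔ (n : L) ∈ A.nonunits := by
      intro n
      have h0 : ((algebraMap ℤ A n : A) : L) = (n : L) := by simp
      rw [← h0, ValuationSubring.coe_mem_nonunits_iff]
      rfl
    obtain ⟨d, hd⟩ : ∃ d : ℤ, I = Ideal.span {d} :=
      ⟨_, (Submodule.IsPrincipal.span_singleton_generator I).symm⟩
    have hdvd : ∀ i, d ∣ f.coeff i := by
      intro i
      have : f.coeff i ∈ I := (hI _).mpr (hcon i)
      rw [hd, Ideal.mem_span_singleton] at this
      exact this
    have hCd : Polynomial.C d ∣ f := (Polynomial.C_dvd_iff_dvd_coeff d f).mpr hdvd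
    have hdu : IsUnit d := hprim d hCd
    have h1 : (1 : ℤ) ∈ I := by
      rw [hd, Ideal.mem_span_singleton]
      exact hdu.dvd
    have := (hI 1).mp h1
    rw [Int.cast_one] at this
    exact h24_one_not_mem_nonunits A this
  -- some Horner tail of positive index is a unit of `A`
  have htail : ∃ m, 1 ≤ m ∧ h24_tail f a m ∉ A.nonunits := by
    by_contra hcon
    push Not at hcon
    obtain ⟨i, hi⟩ := hcoeff
    apply hi
    have hrec := h24_tail_succ f a i
    have hc : ((f.coeff i : ℤ) : L) = h24_tail f a i - a * h24_tail f a (i + 1) := by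
      rw [hrec]; ring
    rw [hc]
    refine h24_sub_mem_nonunits A ?_ (h24_mul_mem_nonunits A ha (hcon (i + 1) (by omega)))
    rcases Nat.eq_zero_or_pos i with h0 | hpos
    · rw [h0, h24_tail_zero, hfa]
      exact h24_zero_mem_nonunits A
    · exact hcon i hpos
  obtain ⟨m, hm, hs⟩ := htail
  refine ⟨h24_tail f a m, h24_tail_isIntegral f a hfa m, hs, ?_⟩
  obtain ⟨k, rfl⟩ : ∃ k, m = k + 1 := ⟨m - 1, by omega⟩
  have hrec := h24_tail_succ f a k
  have : h24_tail f a (k + 1) * a = h24_tail f a k - ((f.coeff k : ℤ) : L) := by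
    rw [hrec]; ring
  rw [this]
  exact (h24_tail_isIntegral f a hfa k).sub (by
    have : ((f.coeff k : ℤ) : L) = algebraMap ℤ L (f.coeff k) := by simp
    rw [this]
    exact isIntegral_algebraMap)

end Localisation

section Dictionary

variable {K L : Type*} [Field K] [Field L] [Algebra K L] [CharZero L] [Algebra.IsAlgebraic ℤ L]

/-- A field automorphism preserving the prime `m_A ∩ ℤ̄` of the algebraic integers maps `A` into
`A`. -/
theorem h24_map_mem_of_nonunits_iff (A : ValuationSubring L) (σ : L ≃+* L)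
    (h : ∀ b : L, IsIntegral ℤ b → (σ b ∈ A.nonunits ↔ b ∈ A.nonunits)) {a : L} (ha : a ∈ A) :
    σ a ∈ A := by
  obtain ⟨s, hs, hsA, hsa⟩ := h24_exists_den A ha (Algebra.IsAlgebraic.isAlgebraic a)
  have hs0 : s ≠ 0 := by
    rintro rfl
    exact hsA (h24_zero_mem_nonunits A)
  have h1 : σ s ∉ A.nonunits := fun hc => hsA ((h s hs).mp hc)
  have h2 : σ (s * a) ∈ A := h24_integral_mem A (map_isIntegral_int (σ : L →+* L) hsa)
  have h3 : σ a = σ (s * a) * (σ s)⁻¹ := by
    rw [map_mul]
    field_simp [(map_ne_zero_iff σ σ.injective).mpr hs0]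
  rw [h3]
  exact A.mul_mem _ _ h2 (h24_inv_mem A h1)

/-- **Dictionary, decomposition group.** `σ` lies in the decomposition group of `A` as soon as it
preserves the prime ideal `m_A ∩ ℤ̄` of the ring of algebraic integers. -/
theorem h24_mem_decompositionSubgroup (A : ValuationSubring L) (σ : L ≃ₐ[K] L)
    (h : ∀ b : L, IsIntegral ℤ b → (σ b ∈ A.nonunits ↔ b ∈ A.nonunits)) :
    σ ∈ A.decompositionSubgroup K := by
  rw [MulAction.mem_stabilizer_iff]
  have hsymm : ∀ b : L, IsIntegral ℤ b → (σ.symm b ∈ A.nonunits ↔ b ∈ A.nonunits) := by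
    intro b hb
    have hb' : IsIntegral ℤ (σ.symm b) := map_isIntegral_int (σ.symm : L →+* L) hb
    have := h (σ.symm b) hb'
    rw [AlgEquiv.apply_symm_apply] at this
    exact this.symm
  ext x
  rw [ValuationSubring.mem_smul_pointwise_iff_exists]
  constructor
  · rintro ⟨a, ha, rfl⟩
    exact h24_map_mem_of_nonunits_iff A (σ : L ≃+* L) h ha
  · intro hx
    refine ⟨σ.symm x, h24_map_mem_of_nonunits_iff A (σ.symm : L ≃+* L) hsymm hx, ?_⟩
    exact σ.apply_symm_apply x

/-- If `σ` acts trivially on the algebraic integers modulo `m_A`, it acts trivially on `A`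
modulo `m_A`. -/
theorem h24_sub_mem_nonunits_of_integral (A : ValuationSubring L) (σ : L ≃+* L)
    (h : ∀ b : L, IsIntegral ℤ b → σ b - b ∈ A.nonunits) {a : L} (ha : a ∈ A) :
    σ a - a ∈ A.nonunits := by
  obtain ⟨s, hs, hsA, hsa⟩ := h24_exists_den A ha (Algebra.IsAlgebraic.isAlgebraic a)
  have hs0 : s ≠ 0 := by
    rintro rfl
    exact hsA (h24_zero_mem_nonunits A)
  have hσs0 : σ s ≠ 0 := (map_ne_zero_iff σ σ.injective).mpr hs0
  have hsmem : s ∈ A := h24_integral_mem A hs
  have hsamem : s * a ∈ A := h24_integral_mem A hsa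
  have h1 : σ s ∉ A.nonunits := by
    intro hc
    apply hsA
    have : s = σ s - (σ s - s) := by ring
    rw [this]
    exact h24_sub_mem_nonunits A hc (h s hs)
  have h3 : σ a - a = (s * (σ (s * a) - s * a) - s * a * (σ s - s)) * ((σ s)⁻¹ * s⁻¹) := by
    rw [map_mul]
    field_simp
    ring
  rw [h3, mul_comm]
  refine h24_mul_mem_nonunits A (A.mul_mem _ _ (h24_inv_mem A h1) (h24_inv_mem A hsA)) ?_
  exact h24_sub_mem_nonunits A (h24_mul_mem_nonunits A hsmem (h _ hsa))
    (h24_mul_mem_nonunits A hsamem (h s hs))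

/-- **Dictionary, inertia group.** `σ` lies in the inertia group of `A` as soon as it acts
trivially on the algebraic integers modulo `m_A`. -/
theorem h24_mem_inertiaSubgroupIn (A : ValuationSubring L) (σ : L ≃ₐ[K] L)
    (h : ∀ b : L, IsIntegral ℤ b → σ b - b ∈ A.nonunits) :
    σ ∈ A.inertiaSubgroupIn K := by
  have hD : σ ∈ A.decompositionSubgroup K := by
    refine h24_mem_decompositionSubgroup A σ fun b hb => ⟨fun hc => ?_, fun hc => ?_⟩
    · have : b = σ b - (σ b - b) := by ring
      rw [this]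
      exact h24_sub_mem_nonunits A hc (h b hb)
    · have : σ b = b + (σ b - b) := by ring
      rw [this]
      exact h24_add_mem_nonunits A hc (h b hb)
  refine ⟨⟨σ, hD⟩, ?_, rfl⟩
  change MulSemiringAction.toRingAut (A.decompositionSubgroup K)
      (IsLocalRing.ResidueField A) ⟨σ, hD⟩ = 1
  ext x
  obtain ⟨a, rfl⟩ := IsLocalRing.residue_surjective x
  change (⟨σ, hD⟩ : A.decompositionSubgroup K) • IsLocalRing.residue A a = IsLocalRing.residue A a
  have h1 : (⟨σ, hD⟩ : A.decompositionSubgroup K) • IsLocalRing.residue A a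
      = IsLocalRing.residue A ((⟨σ, hD⟩ : A.decompositionSubgroup K) • a) := rfl
  rw [h1]
  change Ideal.Quotient.mk _ _ = Ideal.Quotient.mk _ _
  rw [Ideal.Quotient.eq, ← ValuationSubring.coe_mem_nonunits_iff]
  exact h24_sub_mem_nonunits_of_integral A (σ : L ≃+* L) h a.2

end Dictionary

section Lift

variable {K L : Type*} [Field K] [Field L] [Algebra K L]

/-- The inclusion of the ring of algebraic integers into a valuation subring. -/
noncomputable def h24_toVal (A : ValuationSubring L) : integralClosure ℤ L →+* A where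
  toFun b := ⟨b, h24_integral_mem A b.2⟩
  map_one' := rfl
  map_mul' _ _ := rfl
  map_zero' := rfl
  map_add' _ _ := rfl

/-- The prime of the ring of algebraic integers cut out by a valuation subring. -/
noncomputable def h24_prime (A : ValuationSubring L) : Ideal (integralClosure ℤ L) :=
  (IsLocalRing.maximalIdeal A).comap (h24_toVal A)

instance h24_prime_isPrime (A : ValuationSubring L) : (h24_prime A).IsPrime :=
  Ideal.comap_isPrime _ _

theorem h24_mem_prime (A : ValuationSubring L) (b : integralClosure ℤ L) :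
    b ∈ h24_prime A ↔ (b : L) ∈ A.nonunits := by
  have h0 : ((h24_toVal A b : A) : L) = (b : L) := rfl
  rw [← h0, ValuationSubring.coe_mem_nonunits_iff]
  rfl

variable [IsGalois K L]

/-- Elements of the ring of integers fixed by `Gal(L/E)` lie in `E`. -/
theorem h24_fixed_mem (E : IntermediateField K L)
    (x : FixedPoints.subalgebra ℤ (integralClosure ℤ L) (L ≃ₐ[E] L)) :
    ((x : integralClosure ℤ L) : L) ∈ E := by
  have h := (InfiniteGalois.mem_range_algebraMap_iff_fixed (k := E) (K := L)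
    ((x : integralClosure ℤ L) : L)).mpr (fun f => congrArg Subtype.val (x.2 f))
  obtain ⟨e, he⟩ := h
  rw [← he]
  exact e.2

theorem h24_continuousSMul (E : IntermediateField K L) :
    letI : TopologicalSpace (integralClosure ℤ L) := ⊥
    ContinuousSMul (L ≃ₐ[E] L) (integralClosure ℤ L) := by
  let _ : TopologicalSpace (integralClosure ℤ L) := ⊥
  have : DiscreteTopology (integralClosure ℤ L) := ⟨rfl⟩
  rw [continuousSMul_iff_stabilizer_isOpen]
  intro b
  have := stabilizer_isOpen_of_isIntegral (K := E) (L := L) (b : L)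
  convert this using 1
  ext g
  simp [MulAction.mem_stabilizer_iff, Subtype.ext_iff]

/-- **Transitivity.** If `τ` preserves the prime `m_A ∩ 𝓞_E`, some `ρ ∈ Gal(L/E)` makes `τ ∘ ρ`
preserve the prime `m_A ∩ ℤ̄`. -/
theorem h24_exists_stab_core (E : IntermediateField K L) (A : ValuationSubring L)
    (τ : L ≃ₐ[K] L)
    (hτ : ∀ x ∈ E, IsIntegral ℤ x → (τ x ∈ A.nonunits ↔ x ∈ A.nonunits)) :
    ∃ ρ : L ≃ₐ[E] L, ∀ b : L, IsIntegral ℤ b → (τ (ρ b) ∈ A.nonunits ↔ b ∈ A.nonunits) := by
  classical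
  let _ : TopologicalSpace (integralClosure ℤ L) := ⊥
  have : DiscreteTopology (integralClosure ℤ L) := ⟨rfl⟩
  have : ContinuousSMul (L ≃ₐ[E] L) (integralClosure ℤ L) := h24_continuousSMul E
  have : Algebra.IsInvariant (FixedPoints.subalgebra ℤ (integralClosure ℤ L) (L ≃ₐ[E] L))
      (integralClosure ℤ L) (L ≃ₐ[E] L) := ⟨fun b hb => ⟨⟨b, hb⟩, rfl⟩⟩
  let τB : integralClosure ℤ L ≃+* integralClosure ℤ L :=
    MulSemiringAction.toRingEquiv (L ≃ₐ[K] L) (integralClosure ℤ L) τ
  have hτB : ∀ b : integralClosure ℤ L, ((τB b : integralClosure ℤ L) : L) = τ (b : L) :=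
    fun b => rfl
  let Q₂ : Ideal (integralClosure ℤ L) := (h24_prime A).comap (τB : _ →+* _)
  have : Q₂.IsPrime := Ideal.comap_isPrime _ _
  have hQ₂ : ∀ b : integralClosure ℤ L, b ∈ Q₂ ↔ τ (b : L) ∈ A.nonunits := by
    intro b
    change τB b ∈ h24_prime A ↔ _
    rw [h24_mem_prime, hτB]
  have hunder : (h24_prime A).under
        (FixedPoints.subalgebra ℤ (integralClosure ℤ L) (L ≃ₐ[E] L)) =
      Q₂.under (FixedPoints.subalgebra ℤ (integralClosure ℤ L) (L ≃ₐ[E] L)) := by
    ext x
    rw [Ideal.mem_comap, Ideal.mem_comap]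
    change (x : integralClosure ℤ L) ∈ h24_prime A ↔ (x : integralClosure ℤ L) ∈ Q₂
    rw [h24_mem_prime, hQ₂]
    exact (hτ _ (h24_fixed_mem E x) (x : integralClosure ℤ L).2).symm
  obtain ⟨ρ, hρ⟩ := Algebra.IsInvariant.exists_smul_of_under_eq_of_profinite
    (A := FixedPoints.subalgebra ℤ (integralClosure ℤ L) (L ≃ₐ[E] L)) (G := L ≃ₐ[E] L)
    (h24_prime A) Q₂ hunder
  refine ⟨ρ, fun b hb => ?_⟩
  have h1 : (ρ • (⟨b, hb⟩ : integralClosure ℤ L)) ∈ Q₂ ↔
      (⟨b, hb⟩ : integralClosure ℤ L) ∈ h24_prime A := by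
    rw [hρ]
    exact Ideal.smul_mem_pointwise_smul_iff
  rw [hQ₂, h24_mem_prime] at h1
  exact h1

/-- **Residue surjectivity.** If `σ₁` preserves the prime `m_A ∩ ℤ̄` and acts trivially on
`𝓞_E` modulo `m_A`, some `δ ∈ Gal(L/E)` agrees with `σ₁` on all algebraic integers modulo
`m_A`. -/
theorem h24_exists_inertia_core (E : IntermediateField K L) (A : ValuationSubring L)
    (σ₁ : L ≃ₐ[K] L)
    (hstab : ∀ b : L, IsIntegral ℤ b → (σ₁ b ∈ A.nonunits ↔ b ∈ A.nonunits))
    (hE : ∀ x ∈ E, IsIntegral ℤ x → σ₁ x - x ∈ A.nonunits) :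
    ∃ δ : L ≃ₐ[E] L, ∀ b : L, IsIntegral ℤ b → σ₁ b - δ b ∈ A.nonunits := by
  classical
  let _ : TopologicalSpace (integralClosure ℤ L) := ⊥
  have : DiscreteTopology (integralClosure ℤ L) := ⟨rfl⟩
  have : ContinuousSMul (L ≃ₐ[E] L) (integralClosure ℤ L) := h24_continuousSMul E
  have : Algebra.IsInvariant (FixedPoints.subalgebra ℤ (integralClosure ℤ L) (L ≃ₐ[E] L))
      (integralClosure ℤ L) (L ≃ₐ[E] L) := ⟨fun b hb => ⟨⟨b, hb⟩, rfl⟩⟩
  let σB : integralClosure ℤ L ≃+* integralClosure ℤ L :=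
    MulSemiringAction.toRingEquiv (L ≃ₐ[K] L) (integralClosure ℤ L) σ₁
  have hσB : ∀ b : integralClosure ℤ L, ((σB b : integralClosure ℤ L) : L) = σ₁ (b : L) :=
    fun b => rfl
  let P' : Ideal (FixedPoints.subalgebra ℤ (integralClosure ℤ L) (L ≃ₐ[E] L)) :=
    (h24_prime A).under _
  have : (h24_prime A).LiesOver P' := ⟨rfl⟩
  have hmap : h24_prime A = (h24_prime A).map (σB : _ →+* _) := by
    ext b
    rw [Ideal.mem_map_iff_of_surjective
      (σB : integralClosure ℤ L →+* integralClosure ℤ L) σB.surjective]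
    constructor
    · intro hb
      refine ⟨σB.symm b, ?_, σB.apply_symm_apply b⟩
      rw [h24_mem_prime] at hb ⊢
      have := hstab (σB.symm b : L) (σB.symm b).2
      rw [← hσB, σB.apply_symm_apply] at this
      exact this.mp hb
    · rintro ⟨c, hc, rfl⟩
      rw [h24_mem_prime] at hc ⊢
      change ((σB c : integralClosure ℤ L) : L) ∈ A.nonunits
      rw [hσB]
      exact (hstab _ c.2).mpr hc
  let φ₀ : (integralClosure ℤ L ⧸ h24_prime A) ≃+* (integralClosure ℤ L ⧸ h24_prime A) :=
    Ideal.quotientEquiv (h24_prime A) (h24_prime A) σB hmap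
  have hφ₀ : ∀ b : integralClosure ℤ L,
      φ₀ (Ideal.Quotient.mk _ b) = Ideal.Quotient.mk _ (σB b) := fun b => rfl
  let φ : (integralClosure ℤ L ⧸ h24_prime A) ≃ₐ[
      FixedPoints.subalgebra ℤ (integralClosure ℤ L) (L ≃ₐ[E] L) ⧸ P']
      (integralClosure ℤ L ⧸ h24_prime A) :=
    AlgEquiv.ofRingEquiv (f := φ₀) (by
      intro r
      obtain ⟨x, rfl⟩ := Ideal.Quotient.mk_surjective r
      rw [Ideal.Quotient.algebraMap_mk_of_liesOver, hφ₀, Ideal.Quotient.eq, h24_mem_prime]
      exact hE _ (h24_fixed_mem E x) (x : integralClosure ℤ L).2)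
  obtain ⟨δ, hδ⟩ := Ideal.Quotient.stabilizerHom_surjective_of_profinite
    (G := L ≃ₐ[E] L) P' (h24_prime A) φ
  refine ⟨δ.1, fun b hb => ?_⟩
  have h1 := DFunLike.congr_fun hδ (Ideal.Quotient.mk _ (⟨b, hb⟩ : integralClosure ℤ L))
  rw [Ideal.Quotient.stabilizerHom_apply] at h1
  have h2 : φ (Ideal.Quotient.mk _ (⟨b, hb⟩ : integralClosure ℤ L)) =
      Ideal.Quotient.mk _ (σB ⟨b, hb⟩) := rfl
  rw [h2] at h1
  have h3 := (Ideal.Quotient.eq.mp h1.symm)
  rw [h24_mem_prime] at h3
  exact h3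

variable [CharZero L] [Algebra.IsAlgebraic ℤ L]

/-- **`D_A ↠ D(P)`.** Let `E` be any intermediate field and `A` a valuation subring of `L`. If
`τ ∈ Gal(L/K)` preserves the prime `m_A ∩ 𝓞_E`, then some element of the decomposition group of
`A` agrees with `τ` on `E`. -/
theorem h24_exists_decomposition_lift (E : IntermediateField K L) (A : ValuationSubring L)
    (τ : L ≃ₐ[K] L)
    (hτ : ∀ x ∈ E, IsIntegral ℤ x → (τ x ∈ A.nonunits ↔ x ∈ A.nonunits)) :
    ∃ σ ∈ A.decompositionSubgroup K, ∀ x ∈ E, σ x = τ x := by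
  obtain ⟨ρ, hρ⟩ := h24_exists_stab_core E A τ hτ
  refine ⟨τ * ρ.restrictScalars K, h24_mem_decompositionSubgroup A _ fun b hb => hρ b hb,
    fun x hx => ?_⟩
  change τ (ρ x) = τ x
  congr 1
  exact ρ.commutes ⟨x, hx⟩

/-- **`I_A ↠ I(P)`.** Let `E` be any intermediate field and `A` a valuation subring of `L`. If
`τ ∈ Gal(L/K)` acts trivially on `𝓞_E` modulo `m_A`, then some element of the inertia group of
`A` agrees with `τ` on `E`. -/
theorem h24_exists_inertia_lift (E : IntermediateField K L) (A : ValuationSubring L)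
    (τ : L ≃ₐ[K] L)
    (hτ : ∀ x ∈ E, IsIntegral ℤ x → τ x - x ∈ A.nonunits) :
    ∃ σ ∈ A.inertiaSubgroupIn K, ∀ x ∈ E, σ x = τ x := by
  have hτ' : ∀ x ∈ E, IsIntegral ℤ x → (τ x ∈ A.nonunits ↔ x ∈ A.nonunits) := by
    intro x hx hxi
    constructor
    · intro hc
      have : x = τ x - (τ x - x) := by ring
      rw [this]
      exact h24_sub_mem_nonunits A hc (hτ x hx hxi)
    · intro hc
      have : τ x = x + (τ x - x) := by ring
      rw [this]
      exact h24_add_mem_nonunits A hc (hτ x hx hxi)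
  obtain ⟨ρ, hρ⟩ := h24_exists_stab_core E A τ hτ'
  have hρE : ∀ x ∈ E, ρ x = x := fun x hx => ρ.commutes ⟨x, hx⟩
  obtain ⟨δ, hδ⟩ := h24_exists_inertia_core E A (τ * ρ.restrictScalars K)
    (fun b hb => hρ b hb) (fun x hx hxi => by
      change τ (ρ x) - x ∈ A.nonunits
      rw [hρE x hx]
      exact hτ x hx hxi)
  have hδE : ∀ x ∈ E, δ.symm x = x := fun x hx => δ.symm.commutes ⟨x, hx⟩
  refine ⟨τ * ρ.restrictScalars K * (δ.symm.restrictScalars K),
    h24_mem_inertiaSubgroupIn A _ fun b hb => ?_, fun x hx => ?_⟩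
  · have hb' : IsIntegral ℤ (δ.symm b) := map_isIntegral_int (δ.symm : L →+* L) hb
    have := hδ (δ.symm b) hb'
    rw [AlgEquiv.apply_symm_apply] at this
    exact this
  · change τ (ρ (δ.symm x)) = τ x
    rw [hδE x hx, hρE x hx]

end Lift

section Rat

/-! ### Specialisation to `ℚ̄ / ℚ` (the prelude's setting) -/

local instance h24_isAlgebraicQbar : Algebra.IsAlgebraic ℚ (AlgebraicClosure ℚ) :=
  AlgebraicClosure.isAlgebraic ℚ
local instance h24_isAlgClosureQbar : IsAlgClosure ℚ (AlgebraicClosure ℚ) :=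
  ⟨inferInstance, inferInstance⟩

theorem h24_isGalois_Qbar : IsGalois ℚ (AlgebraicClosure ℚ) := inferInstance

theorem h24_isAlgebraic_int_Qbar : Algebra.IsAlgebraic ℤ (AlgebraicClosure ℚ) :=
  (IsFractionRing.comap_isAlgebraic_iff (A := ℤ) (K := ℚ) (C := AlgebraicClosure ℚ)).mpr
    inferInstance

local instance h24_isAlgebraicIntQbar :
    @Algebra.IsAlgebraic ℤ (AlgebraicClosure ℚ) _ _ (Ring.toIntAlgebra _) :=
  h24_isAlgebraic_int_Qbar

theorem h24_exists_den_Qbar (A : ValuationSubring (AlgebraicClosure ℚ))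
    {a : AlgebraicClosure ℚ} (ha : a ∈ A) :
    ∃ s : AlgebraicClosure ℚ, IsIntegral ℤ s ∧ s ∉ A.nonunits ∧ IsIntegral ℤ (s * a) :=
  h24_exists_den A ha (h24_isAlgebraic_int_Qbar.isAlgebraic a)

theorem h24_mem_decompositionSubgroup_Qbar (A : ValuationSubring (AlgebraicClosure ℚ))
    (σ : AlgebraicClosure ℚ ≃ₐ[ℚ] AlgebraicClosure ℚ)
    (h : ∀ b : AlgebraicClosure ℚ, IsIntegral ℤ b → (σ b ∈ A.nonunits ↔ b ∈ A.nonunits)) :
    σ ∈ A.decompositionSubgroup ℚ :=
  h24_mem_decompositionSubgroup A σ h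

theorem h24_mem_inertiaSubgroupIn_Qbar (A : ValuationSubring (AlgebraicClosure ℚ))
    (σ : AlgebraicClosure ℚ ≃ₐ[ℚ] AlgebraicClosure ℚ)
    (h : ∀ b : AlgebraicClosure ℚ, IsIntegral ℤ b → σ b - b ∈ A.nonunits) :
    σ ∈ A.inertiaSubgroupIn ℚ :=
  h24_mem_inertiaSubgroupIn A σ h

theorem h24_exists_decomposition_lift_Qbar (E : IntermediateField ℚ (AlgebraicClosure ℚ))
    (A : ValuationSubring (AlgebraicClosure ℚ))
    (τ : AlgebraicClosure ℚ ≃ₐ[ℚ] AlgebraicClosure ℚ)
    (hτ : ∀ x ∈ E, IsIntegral ℤ x → (τ x ∈ A.nonunits ↔ x ∈ A.nonunits)) :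
    ∃ σ ∈ A.decompositionSubgroup ℚ, ∀ x ∈ E, σ x = τ x :=
  h24_exists_decomposition_lift E A τ hτ

theorem h24_exists_inertia_lift_Qbar (E : IntermediateField ℚ (AlgebraicClosure ℚ))
    (A : ValuationSubring (AlgebraicClosure ℚ))
    (τ : AlgebraicClosure ℚ ≃ₐ[ℚ] AlgebraicClosure ℚ)
    (hτ : ∀ x ∈ E, IsIntegral ℤ x → τ x - x ∈ A.nonunits) :
    ∃ σ ∈ A.inertiaSubgroupIn ℚ, ∀ x ∈ E, σ x = τ x :=
  h24_exists_inertia_lift E A τ hτ

end Rat

end Fermat.Agent.S13
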