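import Mathlib
import Fermat.Agent.S05.Defs

set_option autoImplicit false

/-!
# x-only Montgomery ladder and the odd division polynomial on `Y² = X³ + aX² + bX`

Block [A] of the S13 project (helper3).
-/

namespace Fermat.Agent.S13

open Polynomial

section Defs

variable {R : Type*} [CommRing R] (a b : R)

/-- x-only doubling on `Y² = X³ + aX² + bX`, projective coordinates `(X : Z)`. -/
noncomputable def h3_dbl (P : R[X] × R[X]) : R[X] × R[X] :=
  ((P.1 ^ 2 - C b * P.2 ^ 2) ^ 2,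
    4 * P.1 * P.2 * (P.1 ^ 2 + C a * P.1 * P.2 + C b * P.2 ^ 2))

/-- x-only differential addition, the difference being the base point (x-coordinate `X`). -/
noncomputable def h3_dadd (P Q : R[X] × R[X]) : R[X] × R[X] :=
  (2 * (P.1 * Q.2 + Q.1 * P.2) * (P.1 * Q.1 + C b * P.2 * Q.2)
      + 4 * C a * P.1 * Q.1 * P.2 * Q.2 - X * (P.1 * Q.2 - Q.1 * P.2) ^ 2,
    (P.1 * Q.2 - Q.1 * P.2) ^ 2)

/-- The ladder: `h3_XZ a b n = (X_n, Z_n)` with `x(n • T) = X_n(x(T)) / Z_n(x(T))`. -/
noncomputable def h3_XZ : ℕ → R[X] × R[X]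
  | 0 => (1, 0)
  | 1 => (X, 1)
  | (n + 2) =>
      if _h : n % 2 = 0 then h3_dbl a b (h3_XZ (n / 2 + 1))
      else h3_dadd a b (h3_XZ (n / 2 + 1)) (h3_XZ (n / 2 + 2))
  decreasing_by all_goals omega

/-- The odd division polynomial `D_{2n+1} = X_n Z_{n+1} - X_{n+1} Z_n`. -/
noncomputable def h3_divPoly (n : ℕ) : R[X] :=
  (h3_XZ a b n).1 * (h3_XZ a b (n + 1)).2 - (h3_XZ a b (n + 1)).1 * (h3_XZ a b n).2

@[simp] lemma h3_XZ_zero : h3_XZ a b 0 = (1, 0) := by
  rw [h3_XZ]

@[simp] lemma h3_XZ_one : h3_XZ a b 1 = (X, 1) := by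
  rw [h3_XZ]

lemma h3_XZ_even (m : ℕ) : h3_XZ a b (2 * m) = h3_dbl a b (h3_XZ a b m) := by
  rcases m with _ | m
  · simp [h3_dbl]
  · have h1 : 2 * (m + 1) = 2 * m + 2 := by ring
    rw [h1, h3_XZ]
    have h2 : (2 * m) % 2 = 0 := by omega
    have h3 : 2 * m / 2 + 1 = m + 1 := by omega
    rw [dif_pos h2, h3]

lemma h3_XZ_odd (m : ℕ) :
    h3_XZ a b (2 * m + 1) = h3_dadd a b (h3_XZ a b m) (h3_XZ a b (m + 1)) := by
  rcases m with _ | m
  · simp [h3_dadd]
    ring
  · have h1 : 2 * (m + 1) + 1 = (2 * m + 1) + 2 := by ring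
    rw [h1, h3_XZ]
    have h2 : ¬ (2 * m + 1) % 2 = 0 := by omega
    have h3 : (2 * m + 1) / 2 + 1 = m + 1 := by omega
    have h4 : (2 * m + 1) / 2 + 2 = m + 1 + 1 := by omega
    rw [dif_neg h2, h3, h4]

end Defs

section Degree

variable {R : Type*} [CommRing R]

/-- `p` has degree at most `m` and coefficient `c` at `m`. -/
def h3_Top (p : R[X]) (m : ℕ) (c : R) : Prop := p.natDegree ≤ m ∧ p.coeff m = c

lemma h3_Top_mul {p q : R[X]} {m n : ℕ} {c d : R} (hp : h3_Top p m c) (hq : h3_Top q n d) :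
    h3_Top (p * q) (m + n) (c * d) :=
  ⟨natDegree_mul_le_of_le hp.1 hq.1, by rw [coeff_mul_add_eq_of_natDegree_le hp.1 hq.1, hp.2, hq.2]⟩

lemma h3_Top_pow {p : R[X]} {m : ℕ} {c : R} (hp : h3_Top p m c) (k : ℕ) :
    h3_Top (p ^ k) (k * m) (c ^ k) :=
  ⟨natDegree_pow_le_of_le k hp.1, by rw [coeff_pow_of_natDegree_le hp.1, hp.2]⟩

lemma h3_Top_add {p q : R[X]} {m : ℕ} {c d : R} (hp : h3_Top p m c) (hq : h3_Top q m d) :
    h3_Top (p + q) m (c + d) :=
  ⟨natDegree_add_le_of_degree_le hp.1 hq.1, by rw [coeff_add, hp.2, hq.2]⟩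

lemma h3_Top_sub {p q : R[X]} {m : ℕ} {c d : R} (hp : h3_Top p m c) (hq : h3_Top q m d) :
    h3_Top (p - q) m (c - d) :=
  ⟨(natDegree_sub_le_of_le hp.1 hq.1).trans (by simp), by rw [coeff_sub, hp.2, hq.2]⟩

lemma h3_Top_of_lt {p : R[X]} {m n : ℕ} {c : R} (hp : h3_Top p m c) (h : m < n) :
    h3_Top p n 0 :=
  ⟨hp.1.trans h.le, coeff_eq_zero_of_natDegree_lt (lt_of_le_of_lt hp.1 h)⟩

lemma h3_Top_C_mul {p : R[X]} {m : ℕ} {c : R} (r : R) (hp : h3_Top p m c) :
    h3_Top (C r * p) m (r * c) :=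
  ⟨(natDegree_C_mul_le r p).trans hp.1, by rw [coeff_C_mul, hp.2]⟩

lemma h3_Top_X : h3_Top (X : R[X]) 1 1 := ⟨natDegree_X_le, coeff_X_one⟩

lemma h3_Top_one : h3_Top (1 : R[X]) 0 1 := ⟨by simp, by simp⟩

lemma h3_Top_natCast (k : ℕ) : h3_Top ((k : R[X])) 0 (k : R) :=
  ⟨by simp, by simp⟩

lemma h3_Top_congr {p : R[X]} {m n : ℕ} {c d : R} (hp : h3_Top p m c) (hmn : m = n) (hcd : c = d) :
    h3_Top p n d := by
  subst hmn; subst hcd; exact hp

variable (a b : R)

lemma h3_dbl_top {P : R[X] × R[X]} {q : ℕ} {c : R} (hq : 1 ≤ q)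
    (h1 : h3_Top P.1 q 1) (h2 : h3_Top P.2 (q - 1) c) :
    h3_Top (h3_dbl a b P).1 (4 * q) 1 ∧ h3_Top (h3_dbl a b P).2 (4 * q - 1) (4 * c) := by
  have h22 : h3_Top (P.2 ^ 2) (2 * q) 0 := h3_Top_of_lt (h3_Top_pow h2 2) (by omega)
  have h12 : h3_Top (P.1 ^ 2) (2 * q) 1 := h3_Top_congr (h3_Top_pow h1 2) rfl (by ring)
  constructor
  · have h := h3_Top_pow (h3_Top_sub h12 (h3_Top_C_mul b h22)) 2
    exact h3_Top_congr h (by ring) (by ring)
  · have hm : h3_Top (C a * P.1 * P.2) (2 * q) 0 := by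
      have := h3_Top_mul (h3_Top_C_mul a h1) h2
      exact h3_Top_of_lt this (by omega)
    have hs := h3_Top_add (h3_Top_add h12 hm) (h3_Top_C_mul b h22)
    have h4 : h3_Top (4 : R[X]) 0 4 := by
      have := h3_Top_natCast (R := R) 4
      simpa using this
    have h := h3_Top_mul (h3_Top_mul (h3_Top_mul h4 h1) h2) hs
    exact h3_Top_congr h (by omega) (by ring)

lemma h3_dadd_top {P Q : R[X] × R[X]} {q q' : ℕ} {c c' : R} (hq : 1 ≤ q) (hq' : 1 ≤ q')
    (h1 : h3_Top P.1 q 1) (h2 : h3_Top P.2 (q - 1) c)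
    (h1' : h3_Top Q.1 q' 1) (h2' : h3_Top Q.2 (q' - 1) c') :
    h3_Top (h3_dadd a b P Q).1 (2 * q + 2 * q' - 1) (2 * (c' + c) - (c' - c) ^ 2) ∧
      h3_Top (h3_dadd a b P Q).2 (2 * q + 2 * q' - 2) ((c' - c) ^ 2) := by
  -- cross terms
  have hA : h3_Top (P.1 * Q.2) (q + q' - 1) c' :=
    h3_Top_congr (h3_Top_mul h1 h2') (by omega) (by ring)
  have hB : h3_Top (Q.1 * P.2) (q + q' - 1) c :=
    h3_Top_congr (h3_Top_mul h1' h2) (by omega) (by ring)
  have hD : h3_Top (P.1 * Q.2 - Q.1 * P.2) (q + q' - 1) (c' - c) := h3_Top_sub hA hB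
  have hD2 : h3_Top ((P.1 * Q.2 - Q.1 * P.2) ^ 2) (2 * q + 2 * q' - 2) ((c' - c) ^ 2) :=
    h3_Top_congr (h3_Top_pow hD 2) (by omega) rfl
  refine ⟨?_, hD2⟩
  have hS : h3_Top (P.1 * Q.2 + Q.1 * P.2) (q + q' - 1) (c' + c) := h3_Top_add hA hB
  have hXX : h3_Top (P.1 * Q.1) (q + q') 1 :=
    h3_Top_congr (h3_Top_mul h1 h1') rfl (by ring)
  have hZZ : h3_Top (C b * P.2 * Q.2) (q + q') 0 := by
    have := h3_Top_mul (h3_Top_C_mul b h2) h2'
    exact h3_Top_of_lt this (by omega)
  have hM := h3_Top_add hXX hZZ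
  have h2c : h3_Top (2 : R[X]) 0 2 := by
    have := h3_Top_natCast (R := R) 2
    simpa using this
  have hT1 : h3_Top (2 * (P.1 * Q.2 + Q.1 * P.2) * (P.1 * Q.1 + C b * P.2 * Q.2))
      (2 * q + 2 * q' - 1) (2 * (c' + c)) :=
    h3_Top_congr (h3_Top_mul (h3_Top_mul h2c hS) hM) (by omega) (by ring)
  have hT2 : h3_Top (4 * C a * P.1 * Q.1 * P.2 * Q.2) (2 * q + 2 * q' - 1) 0 := by
    have h4 : h3_Top (4 : R[X]) 0 4 := by
      have := h3_Top_natCast (R := R) 4
      simpa using this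
    have hCa : h3_Top (C a : R[X]) 0 a := ⟨by simp, by simp⟩
    have := h3_Top_mul (h3_Top_mul (h3_Top_mul (h3_Top_mul (h3_Top_mul h4 hCa) h1) h1') h2) h2'
    exact h3_Top_of_lt this (by omega)
  have hT3 : h3_Top (X * (P.1 * Q.2 - Q.1 * P.2) ^ 2) (2 * q + 2 * q' - 1) ((c' - c) ^ 2) :=
    h3_Top_congr (h3_Top_mul h3_Top_X hD2) (by omega) (by ring)
  have := h3_Top_sub (h3_Top_add hT1 hT2) hT3
  exact h3_Top_congr this rfl (by ring)

/-- (A1) degrees and leading coefficients of the ladder polynomials. -/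
theorem h3_XZ_top (n : ℕ) (hn : 1 ≤ n) :
    h3_Top (h3_XZ a b n).1 (n ^ 2) 1 ∧ h3_Top (h3_XZ a b n).2 (n ^ 2 - 1) ((n : R) ^ 2) := by
  induction n using Nat.strong_induction_on with
  | _ n ih =>
    rcases Nat.even_or_odd' n with ⟨m, rfl | rfl⟩
    · -- n = 2m
      have hm : 1 ≤ m := by omega
      obtain ⟨h1, h2⟩ := ih m (by omega) hm
      rw [h3_XZ_even]
      obtain ⟨k1, k2⟩ := h3_dbl_top a b (Nat.one_le_pow _ _ hm) h1 h2
      refine ⟨h3_Top_congr k1 (by ring) rfl, h3_Top_congr k2 ?_ ?_⟩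
      · have : (2 * m) ^ 2 = 4 * m ^ 2 := by ring
        rw [this]
      · push_cast; ring
    · -- n = 2m+1
      rcases Nat.eq_zero_or_pos m with rfl | hm
      · simp only [Nat.mul_zero, Nat.zero_add, h3_XZ_one]
        exact ⟨h3_Top_congr h3_Top_X (by norm_num) rfl,
          h3_Top_congr h3_Top_one (by norm_num) (by norm_num)⟩
      · obtain ⟨h1, h2⟩ := ih m (by omega) hm
        obtain ⟨h1', h2'⟩ := ih (m + 1) (by omega) (by omega)
        rw [h3_XZ_odd]
        obtain ⟨k1, k2⟩ := h3_dadd_top a b (Nat.one_le_pow _ _ hm)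
          (Nat.one_le_pow _ _ (by omega : 0 < m + 1)) h1 h2 h1' h2'
        refine ⟨h3_Top_congr k1 ?_ ?_, h3_Top_congr k2 ?_ ?_⟩
        · have : (2 * m + 1) ^ 2 = 2 * m ^ 2 + 2 * (m + 1) ^ 2 - 1 := by
            have : 2 * m ^ 2 + 2 * (m + 1) ^ 2 = (2 * m + 1) ^ 2 + 1 := by ring
            omega
          rw [this]
        · push_cast; ring
        · have : 2 * m ^ 2 + 2 * (m + 1) ^ 2 = (2 * m + 1) ^ 2 + 1 := by ring
          omega
        · push_cast; ring

/-- (A2) degree and leading coefficient of the odd division polynomial. -/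
theorem h3_divPoly_top (n : ℕ) :
    h3_Top (h3_divPoly a b n) (2 * n ^ 2 + 2 * n) ((2 * n + 1 : ℕ) : R) := by
  rcases Nat.eq_zero_or_pos n with rfl | hn
  · simp only [h3_divPoly, h3_XZ_zero, Nat.zero_add, h3_XZ_one]
    refine ⟨by simp, by simp⟩
  · obtain ⟨h1, h2⟩ := h3_XZ_top a b n hn
    obtain ⟨h1', h2'⟩ := h3_XZ_top a b (n + 1) (by omega)
    have hq : 1 ≤ n ^ 2 := Nat.one_le_pow _ _ hn
    have hA : h3_Top ((h3_XZ a b n).1 * (h3_XZ a b (n + 1)).2) (2 * n ^ 2 + 2 * n)
        (((n + 1 : ℕ) : R) ^ 2) := by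
      refine h3_Top_congr (h3_Top_mul h1 h2') ?_ (by ring)
      have : (n + 1) ^ 2 = n ^ 2 + 2 * n + 1 := by ring
      omega
    have hB : h3_Top ((h3_XZ a b (n + 1)).1 * (h3_XZ a b n).2) (2 * n ^ 2 + 2 * n)
        ((n : R) ^ 2) := by
      refine h3_Top_congr (h3_Top_mul h1' h2) ?_ (by ring)
      have : (n + 1) ^ 2 = n ^ 2 + 2 * n + 1 := by ring
      omega
    refine h3_Top_congr (h3_Top_sub hA hB) rfl ?_
    push_cast; ring

end Degree

section Map

variable {R S : Type*} [CommRing R] [CommRing S] (f : R →+* S) (a b : R)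

lemma h3_dbl_map (P : R[X] × R[X]) :
    h3_dbl (f a) (f b) (P.1.map f, P.2.map f) =
      ((h3_dbl a b P).1.map f, (h3_dbl a b P).2.map f) := by
  simp [h3_dbl, Polynomial.map_mul, Polynomial.map_add, Polynomial.map_sub, Polynomial.map_pow]

lemma h3_dadd_map (P Q : R[X] × R[X]) :
    h3_dadd (f a) (f b) (P.1.map f, P.2.map f) (Q.1.map f, Q.2.map f) =
      ((h3_dadd a b P Q).1.map f, (h3_dadd a b P Q).2.map f) := by
  simp [h3_dadd, Polynomial.map_mul, Polynomial.map_add, Polynomial.map_sub, Polynomial.map_pow]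

/-- Base change of the ladder polynomials. -/
theorem h3_XZ_map (n : ℕ) :
    h3_XZ (f a) (f b) n = ((h3_XZ a b n).1.map f, (h3_XZ a b n).2.map f) := by
  induction n using Nat.strong_induction_on with
  | _ n ih =>
    rcases Nat.even_or_odd' n with ⟨m, rfl | rfl⟩
    · rcases Nat.eq_zero_or_pos m with rfl | hm
      · simp
      · rw [h3_XZ_even, h3_XZ_even, ih m (by omega), h3_dbl_map]
    · rcases Nat.eq_zero_or_pos m with rfl | hm
      · simp
      · rw [h3_XZ_odd, h3_XZ_odd, ih m (by omega), ih (m + 1) (by omega), h3_dadd_map]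

/-- Base change of the odd division polynomial. -/
theorem h3_divPoly_map (n : ℕ) : h3_divPoly (f a) (f b) n = (h3_divPoly a b n).map f := by
  simp [h3_divPoly, h3_XZ_map f a b, Polynomial.map_mul, Polynomial.map_sub]

end Map

section Invariant

open WeierstrassCurve Fermat.Agent.S05

variable {K : Type*} [Field K] [DecidableEq K] (a b : K)

/-- `(u : w)` represents the x-coordinate of the point `P` (with `(1 : 0)` for the origin). -/
def h3_Rep (P : (shortW a b).toAffine.Point) (u w : K) : Prop :=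
  (P = 0 ∧ u ≠ 0 ∧ w = 0) ∨
    ∃ (x' y' : K) (h' : (shortW a b).toAffine.Nonsingular x' y'),
      P = Affine.Point.some x' y' h' ∧ w ≠ 0 ∧ u = x' * w

variable {a b}

lemma h3_rep_dbl (h2 : (2 : K) ≠ 0) (hb : b ≠ 0) (hd : a ^ 2 - 4 * b ≠ 0)
    {P : (shortW a b).toAffine.Point} {u w : K} (hP : h3_Rep a b P u w) :
    h3_Rep a b (P + P) ((u ^ 2 - b * w ^ 2) ^ 2) (4 * u * w * (u ^ 2 + a * u * w + b * w ^ 2)) := by
  rcases hP with ⟨rfl, hu, rfl⟩ | ⟨x', y', h', rfl, hw, rfl⟩
  · left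
    refine ⟨by simp, ?_, by ring⟩
    have : (u ^ 2 - b * 0 ^ 2) ^ 2 = u ^ 4 := by ring
    rw [this]
    exact pow_ne_zero _ hu
  · have heq : y' ^ 2 = x' ^ 3 + a * x' ^ 2 + b * x' := (shortW_equation_iff a b x' y').mp h'.1
    by_cases hy : y' = 0
    · left
      refine ⟨?_, ?_, ?_⟩
      · apply Affine.Point.add_self_of_Y_eq
        rw [shortW_negY, hy, neg_zero]
      · have h0 : x' * (x' ^ 2 + a * x' + b) = 0 := by
          rw [hy] at heq
          linear_combination -heq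
        have hx2 : x' ^ 2 - b ≠ 0 := by
          intro hx2
          have hx0 : x' ≠ 0 := by
            rintro rfl
            apply hb
            linear_combination -hx2
          have h3 : a * x' + 2 * b = 0 := by
            have := (mul_eq_zero.mp h0).resolve_left hx0
            linear_combination this - hx2
          apply hd
          have : b * (a ^ 2 - 4 * b) = 0 := by
            linear_combination (-a ^ 2) * hx2 + (a * x' - 2 * b) * h3
          exact (mul_eq_zero.mp this).resolve_left hb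
        have : ((x' * w) ^ 2 - b * w ^ 2) ^ 2 = (w ^ 2 * (x' ^ 2 - b)) ^ 2 := by ring
        rw [this]
        exact pow_ne_zero _ (mul_ne_zero (pow_ne_zero _ hw) hx2)
      · rw [hy] at heq
        linear_combination (-4 * w ^ 4) * heq
    · right
      have hne : y' ≠ (shortW a b).toAffine.negY x' y' := by
        rw [shortW_negY]
        intro h
        apply hy
        have : 2 * y' = 0 := by linear_combination h
        exact (mul_eq_zero.mp this).resolve_left h2
      refine ⟨_, _, _, Affine.Point.add_self_of_Y_ne hne, ?_, ?_⟩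
      · have : 4 * (x' * w) * w * ((x' * w) ^ 2 + a * (x' * w) * w + b * w ^ 2)
            = 4 * w ^ 4 * y' ^ 2 := by
          rw [heq]; ring
        rw [this]
        have h4 : (4 : K) ≠ 0 := by
          have : (4 : K) = 2 * 2 := by norm_num
          rw [this]; exact mul_ne_zero h2 h2
        exact mul_ne_zero (mul_ne_zero h4 (pow_ne_zero _ hw)) (pow_ne_zero _ hy)
      · rw [Affine.slope_of_Y_ne rfl hne, shortW_negY]
        simp only [Affine.addX, shortW_a₁, shortW_a₂, shortW_a₄]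
        have e : y' - -y' = 2 * y' := by ring
        rw [e]
        field_simp
        linear_combination (4 * (x' ^ 2 - b) ^ 2 +
          16 * (x' ^ 3 + a * x' ^ 2 + b * x') * (a + 2 * x')) * heq

omit [DecidableEq K] in
lemma h3_rep_zero_iff {P : (shortW a b).toAffine.Point} {u w : K} (hP : h3_Rep a b P u w) :
    P = 0 ↔ w = 0 := by
  rcases hP with ⟨rfl, -, rfl⟩ | ⟨x', y', h', rfl, hw, rfl⟩
  · simp
  · constructor
    · intro h; exact absurd h (Affine.Point.some_ne_zero h')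
    · intro h; exact absurd h hw

lemma h3_rep_dadd (h2 : (2 : K) ≠ 0)
    {P Q : (shortW a b).toAffine.Point} {x y : K} (h : (shortW a b).toAffine.Nonsingular x y)
    (hQ : Q = P + Affine.Point.some x y h) {u₁ w₁ u₂ w₂ : K}
    (hP : h3_Rep a b P u₁ w₁) (hQr : h3_Rep a b Q u₂ w₂) :
    h3_Rep a b (P + Q)
      (2 * (u₁ * w₂ + u₂ * w₁) * (u₁ * u₂ + b * w₁ * w₂) + 4 * a * u₁ * u₂ * w₁ * w₂
        - x * (u₁ * w₂ - u₂ * w₁) ^ 2)
      ((u₁ * w₂ - u₂ * w₁) ^ 2) := by
  rcases hP with ⟨rfl, hu₁, rfl⟩ | ⟨x₁, y₁, h₁, rfl, hw₁, rfl⟩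
  · -- P = 0, Q = T
    rw [zero_add] at hQ
    subst hQ
    rcases hQr with ⟨h0, -, -⟩ | ⟨x₂, y₂, h₂, hE, hw₂, rfl⟩
    · exact absurd h0 (Affine.Point.some_ne_zero h)
    · have hx : x = x₂ := by
        rw [Affine.Point.some.injEq] at hE
        exact hE.1
      subst hx
      right
      refine ⟨x, y, h, by rw [zero_add], ?_, by ring⟩
      have : (u₁ * w₂ - x * w₂ * 0) ^ 2 = (u₁ * w₂) ^ 2 := by ring
      rw [this]
      exact pow_ne_zero _ (mul_ne_zero hu₁ hw₂)
  · rcases hQr with ⟨rfl, hu₂, rfl⟩ | ⟨x₂, y₂, h₂, rfl, hw₂, rfl⟩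
    · -- Q = 0, P = -T
      have hPT : Affine.Point.some x₁ y₁ h₁ = -Affine.Point.some x y h :=
        eq_neg_of_add_eq_zero_left hQ.symm
      have hx : x₁ = x := by
        rw [Affine.Point.neg_some, Affine.Point.some.injEq] at hPT
        exact hPT.1
      subst hx
      right
      refine ⟨x₁, y₁, h₁, by rw [add_zero], ?_, by ring⟩
      have : (x₁ * w₁ * 0 - u₂ * w₁) ^ 2 = (u₂ * w₁) ^ 2 := by ring
      rw [this]
      exact pow_ne_zero _ (mul_ne_zero hu₂ hw₁)
    · -- both affine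
      have heq₁ : y₁ ^ 2 = x₁ ^ 3 + a * x₁ ^ 2 + b * x₁ :=
        (shortW_equation_iff a b x₁ y₁).mp h₁.1
      have heq₂ : y₂ ^ 2 = x₂ ^ 3 + a * x₂ ^ 2 + b * x₂ :=
        (shortW_equation_iff a b x₂ y₂).mp h₂.1
      have hPQ : Affine.Point.some x₁ y₁ h₁ ≠ Affine.Point.some x₂ y₂ h₂ := by
        intro hE
        rw [← hE] at hQ
        have : Affine.Point.some x y h = 0 := by
          have h3 := hQ
          rw [left_eq_add] at h3
          exact h3
        exact Affine.Point.some_ne_zero h this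
      by_cases hx : x₁ = x₂
      · -- P = -Q
        subst hx
        have hneg : Affine.Point.some x₁ y₁ h₁ = -Affine.Point.some x₁ y₂ h₂ :=
          (Affine.Point.X_eq_iff.mp rfl).resolve_left hPQ
        have hy : y₁ = -y₂ := by
          have h3 := hneg
          rw [Affine.Point.neg_some, Affine.Point.some.injEq] at h3
          rw [h3.2, shortW_negY]
        have hy₁ : y₁ ≠ 0 := by
          intro h0
          apply hPQ
          have hy₂ : y₂ = 0 := by
            rw [h0] at hy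
            linear_combination hy
          subst h0
          subst hy₂
          rfl
        left
        refine ⟨?_, ?_, ?_⟩
        · rw [hneg, neg_add_cancel]
        · have : 2 * (x₁ * w₁ * w₂ + x₁ * w₂ * w₁) * (x₁ * w₁ * (x₁ * w₂) + b * w₁ * w₂)
              + 4 * a * (x₁ * w₁) * (x₁ * w₂) * w₁ * w₂
              - x * (x₁ * w₁ * w₂ - x₁ * w₂ * w₁) ^ 2 = 4 * w₁ ^ 2 * w₂ ^ 2 * y₁ ^ 2 := by
            linear_combination (-4 * w₁ ^ 2 * w₂ ^ 2) * heq₁
          rw [this]
          have h4 : (4 : K) ≠ 0 := by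
            have : (4 : K) = 2 * 2 := by norm_num
            rw [this]; exact mul_ne_zero h2 h2
          exact mul_ne_zero (mul_ne_zero (mul_ne_zero h4 (pow_ne_zero _ hw₁)) (pow_ne_zero _ hw₂))
            (pow_ne_zero _ hy₁)
        · ring
      · -- generic case
        have hT : Affine.Point.some x y h =
            Affine.Point.some x₂ y₂ h₂ + -Affine.Point.some x₁ y₁ h₁ := by
          rw [hQ]; abel
        rw [Affine.Point.neg_some, Affine.Point.add_of_X_ne (Ne.symm hx),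
          Affine.Point.some.injEq] at hT
        have hxT := hT.1
        rw [Affine.slope_of_X_ne (Ne.symm hx), shortW_negY] at hxT
        simp only [Affine.addX, shortW_a₁, shortW_a₂] at hxT
        have hd₁ : x₁ - x₂ ≠ 0 := sub_ne_zero.mpr hx
        have hd₂ : x₂ - x₁ ≠ 0 := sub_ne_zero.mpr (Ne.symm hx)
        right
        refine ⟨_, _, _, Affine.Point.add_of_X_ne hx, ?_, ?_⟩
        · have : (x₁ * w₁ * w₂ - x₂ * w₂ * w₁) ^ 2 = (w₁ * w₂ * (x₁ - x₂)) ^ 2 := by ring
          rw [this]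
          exact pow_ne_zero _ (mul_ne_zero (mul_ne_zero hw₁ hw₂) hd₁)
        · rw [Affine.slope_of_X_ne hx]
          simp only [Affine.addX, shortW_a₁, shortW_a₂]
          rw [hxT]
          field_simp
          linear_combination (-2 * (x₁ - x₂) ^ 2) * heq₁ + (-2 * (x₁ - x₂) ^ 2) * heq₂

lemma h3_rep_add_eq_zero_iff
    {P Q : (shortW a b).toAffine.Point} {x y : K} (h : (shortW a b).toAffine.Nonsingular x y)
    (hQ : Q = P + Affine.Point.some x y h) {u₁ w₁ u₂ w₂ : K}
    (hP : h3_Rep a b P u₁ w₁) (hQr : h3_Rep a b Q u₂ w₂) :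
    P + Q = 0 ↔ u₁ * w₂ - u₂ * w₁ = 0 := by
  rcases hP with ⟨rfl, hu₁, rfl⟩ | ⟨x₁, y₁, h₁, rfl, hw₁, rfl⟩
  · rw [zero_add] at hQ
    subst hQ
    rcases hQr with ⟨h0, -, -⟩ | ⟨x₂, y₂, h₂, hE, hw₂, rfl⟩
    · exact absurd h0 (Affine.Point.some_ne_zero h)
    · rw [zero_add]
      constructor
      · intro h0; exact absurd h0 (Affine.Point.some_ne_zero h)
      · intro h0
        have : u₁ * w₂ = 0 := by linear_combination h0
        rcases mul_eq_zero.mp this with h3 | h3
        · exact absurd h3 hu₁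
        · exact absurd h3 hw₂
  · rcases hQr with ⟨rfl, hu₂, rfl⟩ | ⟨x₂, y₂, h₂, rfl, hw₂, rfl⟩
    · rw [add_zero]
      constructor
      · intro h0; exact absurd h0 (Affine.Point.some_ne_zero h₁)
      · intro h0
        have : u₂ * w₁ = 0 := by linear_combination -h0
        rcases mul_eq_zero.mp this with h3 | h3
        · exact absurd h3 hu₂
        · exact absurd h3 hw₁
    · have hPQ : Affine.Point.some x₁ y₁ h₁ ≠ Affine.Point.some x₂ y₂ h₂ := by
        intro hE
        rw [← hE] at hQ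
        have : Affine.Point.some x y h = 0 := by
          have h3 := hQ
          rw [left_eq_add] at h3
          exact h3
        exact Affine.Point.some_ne_zero h this
      constructor
      · intro h0
        have hneg : Affine.Point.some x₁ y₁ h₁ = -Affine.Point.some x₂ y₂ h₂ :=
          eq_neg_of_add_eq_zero_left h0
        have hx : x₁ = x₂ := Affine.Point.X_eq_iff.mpr (Or.inr hneg)
        rw [hx]; ring
      · intro h0
        have h3 : w₁ * w₂ * (x₁ - x₂) = 0 := by linear_combination h0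
        have hx : x₁ = x₂ :=
          sub_eq_zero.mp ((mul_eq_zero.mp h3).resolve_left (mul_ne_zero hw₁ hw₂))
        have hneg : Affine.Point.some x₁ y₁ h₁ = -Affine.Point.some x₂ y₂ h₂ :=
          (Affine.Point.X_eq_iff.mp hx).resolve_left hPQ
        rw [hneg, neg_add_cancel]

omit [DecidableEq K] in
lemma h3_dbl_eval (a b x : K) (P : K[X] × K[X]) :
    ((h3_dbl a b P).1.eval x, (h3_dbl a b P).2.eval x) =
      (((P.1.eval x) ^ 2 - b * (P.2.eval x) ^ 2) ^ 2,
        4 * P.1.eval x * P.2.eval x *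
          ((P.1.eval x) ^ 2 + a * P.1.eval x * P.2.eval x + b * (P.2.eval x) ^ 2)) := by
  simp [h3_dbl]

omit [DecidableEq K] in
lemma h3_dadd_eval (a b x : K) (P Q : K[X] × K[X]) :
    ((h3_dadd a b P Q).1.eval x, (h3_dadd a b P Q).2.eval x) =
      (2 * (P.1.eval x * Q.2.eval x + Q.1.eval x * P.2.eval x) *
            (P.1.eval x * Q.1.eval x + b * P.2.eval x * Q.2.eval x)
          + 4 * a * P.1.eval x * Q.1.eval x * P.2.eval x * Q.2.eval x
          - x * (P.1.eval x * Q.2.eval x - Q.1.eval x * P.2.eval x) ^ 2,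
        (P.1.eval x * Q.2.eval x - Q.1.eval x * P.2.eval x) ^ 2) := by
  simp [h3_dadd]

/-- (A3) the ladder invariant: `(X_n(x) : Z_n(x))` represents `x(n • T)`. -/
theorem h3_rep (h2 : (2 : K) ≠ 0) (hb : b ≠ 0) (hd : a ^ 2 - 4 * b ≠ 0)
    {x y : K} (h : (shortW a b).toAffine.Nonsingular x y) (n : ℕ) :
    h3_Rep a b (n • Affine.Point.some x y h)
      ((h3_XZ a b n).1.eval x) ((h3_XZ a b n).2.eval x) := by
  induction n using Nat.strong_induction_on with
  | _ n ih =>
    rcases Nat.even_or_odd' n with ⟨m, rfl | rfl⟩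
    · rcases Nat.eq_zero_or_pos m with rfl | hm
      · left
        simp
      · have := h3_rep_dbl h2 hb hd (ih m (by omega))
        rw [h3_XZ_even]
        have e := h3_dbl_eval a b x (h3_XZ a b m)
        rw [Prod.mk.injEq] at e
        rw [e.1, e.2, two_mul, add_nsmul]
        exact this
    · rcases Nat.eq_zero_or_pos m with rfl | hm
      · right
        refine ⟨x, y, h, by simp, by simp, by simp⟩
      · have hQ : (m + 1) • Affine.Point.some x y h
            = m • Affine.Point.some x y h + Affine.Point.some x y h := succ_nsmul _ _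
        have := h3_rep_dadd h2 h hQ (ih m (by omega)) (ih (m + 1) (by omega))
        rw [h3_XZ_odd]
        have e := h3_dadd_eval a b x (h3_XZ a b m) (h3_XZ a b (m + 1))
        rw [Prod.mk.injEq] at e
        have e2 : (2 * m + 1) • Affine.Point.some x y h
            = m • Affine.Point.some x y h + (m + 1) • Affine.Point.some x y h := by
          rw [← add_nsmul]; congr 1; ring
        rw [e.1, e.2, e2]
        exact this

/-- (A4) `(2n+1) • T = 0` iff the x-coordinate of `T` is a root of the odd division polynomial. -/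
theorem h3_nsmul_eq_zero_iff (h2 : (2 : K) ≠ 0) (hb : b ≠ 0) (hd : a ^ 2 - 4 * b ≠ 0)
    {x y : K} (h : (shortW a b).toAffine.Nonsingular x y) (n : ℕ) :
    (2 * n + 1) • Affine.Point.some x y h = 0 ↔ (h3_divPoly a b n).eval x = 0 := by
  have hQ : (n + 1) • Affine.Point.some x y h
      = n • Affine.Point.some x y h + Affine.Point.some x y h := succ_nsmul _ _
  have key := h3_rep_add_eq_zero_iff h hQ (h3_rep h2 hb hd h n) (h3_rep h2 hb hd h (n + 1))
  have e2 : (2 * n + 1) • Affine.Point.some x y h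
      = n • Affine.Point.some x y h + (n + 1) • Affine.Point.some x y h := by
    rw [← add_nsmul]; congr 1; ring
  rw [e2, key]
  simp [h3_divPoly]

end Invariant

section Torsion

open WeierstrassCurve Fermat.Agent.S05

variable {K : Type*} [Field K] [DecidableEq K] {a b : K}

omit [DecidableEq K] in
lemma h3_divPoly_ne_zero (n : ℕ) (hp : ((2 * n + 1 : ℕ) : K) ≠ 0) : h3_divPoly a b n ≠ 0 := by
  intro h0
  have := (h3_divPoly_top a b n).2
  rw [h0, coeff_zero] at this
  exact hp this.symm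

omit [DecidableEq K] in
lemma h3_divPoly_natDegree (n : ℕ) (hp : ((2 * n + 1 : ℕ) : K) ≠ 0) :
    (h3_divPoly a b n).natDegree = 2 * n ^ 2 + 2 * n := by
  refine le_antisymm (h3_divPoly_top a b n).1 ?_
  apply le_natDegree_of_ne_zero
  rw [(h3_divPoly_top a b n).2]
  exact hp

/-- (A5a) existence of a nonzero `(2n+1)`-torsion point over an algebraically closed field. -/
theorem h3_exists_torsion [IsAlgClosed K] (h2 : (2 : K) ≠ 0) (hb : b ≠ 0)
    (hd : a ^ 2 - 4 * b ≠ 0) (n : ℕ) (hn : 1 ≤ n) (hp : ((2 * n + 1 : ℕ) : K) ≠ 0) :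
    ∃ T : (shortW a b).toAffine.Point, T ≠ 0 ∧ (2 * n + 1) • T = 0 := by
  have hdeg : (h3_divPoly a b n).degree ≠ 0 := by
    rw [degree_eq_natDegree (h3_divPoly_ne_zero n hp), h3_divPoly_natDegree n hp]
    have : 0 < 2 * n ^ 2 + 2 * n := by positivity
    exact_mod_cast this.ne'
  obtain ⟨x, hx⟩ := IsAlgClosed.exists_root (h3_divPoly a b n) hdeg
  obtain ⟨y, hy⟩ := IsAlgClosed.exists_pow_nat_eq (x ^ 3 + a * x ^ 2 + b * x) (n := 2) (by norm_num)
  have hE : (shortW a b).toAffine.Equation x y := (shortW_equation_iff a b x y).mpr hy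
  have := shortW_isElliptic a b h2 hb hd
  have hN : (shortW a b).toAffine.Nonsingular x y :=
    (Affine.equation_iff_nonsingular).mp hE
  exact ⟨Affine.Point.some x y hN, Affine.Point.some_ne_zero hN,
    (h3_nsmul_eq_zero_iff h2 hb hd hN n).mpr hx⟩

/-- Coordinates of a point. -/
def h3_coords : (shortW a b).toAffine.Point → Option (K × K)
  | .zero => none
  | .some x y _ => some (x, y)

omit [DecidableEq K] in
lemma h3_coords_injective : Function.Injective (h3_coords (a := a) (b := b)) := by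
  intro P Q h
  rcases P with _ | ⟨x, y, hP⟩ <;> rcases Q with _ | ⟨x', y', hQ⟩
  · rfl
  · simp [h3_coords] at h
  · simp [h3_coords] at h
  · simp only [h3_coords, Option.some.injEq, Prod.mk.injEq] at h
    obtain ⟨rfl, rfl⟩ := h
    rfl

/-- (A5b) there are at most `(2n+1)^2` points killed by `2n+1`. -/
theorem h3_torsion_finite_card (h2 : (2 : K) ≠ 0) (hb : b ≠ 0)
    (hd : a ^ 2 - 4 * b ≠ 0) (n : ℕ) (hp : ((2 * n + 1 : ℕ) : K) ≠ 0) :
    {T : (shortW a b).toAffine.Point | (2 * n + 1) • T = 0}.Finite ∧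
      {T : (shortW a b).toAffine.Point | (2 * n + 1) • T = 0}.ncard ≤ (2 * n + 1) ^ 2 := by
  classical
  set D := h3_divPoly a b n with hD
  have hD0 : D ≠ 0 := h3_divPoly_ne_zero n hp
  set Rts : Finset K := D.roots.toFinset with hRts
  have hRcard : Rts.card ≤ 2 * n ^ 2 + 2 * n := by
    calc Rts.card ≤ Multiset.card D.roots := Multiset.toFinset_card_le _
      _ ≤ D.natDegree := D.card_roots'
      _ = 2 * n ^ 2 + 2 * n := h3_divPoly_natDegree n hp
  let ys : K → Finset K := fun x => (X ^ 2 - C (x ^ 3 + a * x ^ 2 + b * x) : K[X]).roots.toFinset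
  have hys : ∀ x, (ys x).card ≤ 2 := by
    intro x
    calc (ys x).card ≤ Multiset.card (X ^ 2 - C (x ^ 3 + a * x ^ 2 + b * x) : K[X]).roots :=
          Multiset.toFinset_card_le _
      _ ≤ (X ^ 2 - C (x ^ 3 + a * x ^ 2 + b * x) : K[X]).natDegree := Polynomial.card_roots' _
      _ = 2 := natDegree_X_pow_sub_C
  let F : Finset (K × K) := Rts.biUnion (fun x => (ys x).image (fun y => (x, y)))
  have hF : F.card ≤ 2 * (2 * n ^ 2 + 2 * n) := by
    calc F.card ≤ ∑ x ∈ Rts, ((ys x).image (fun y => (x, y))).card := Finset.card_biUnion_le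
      _ ≤ ∑ _x ∈ Rts, 2 := Finset.sum_le_sum (fun x _ => Finset.card_image_le.trans (hys x))
      _ = Rts.card * 2 := by rw [Finset.sum_const, smul_eq_mul]
      _ ≤ 2 * (2 * n ^ 2 + 2 * n) := by nlinarith
  let G : Finset (Option (K × K)) := insert none (F.image some)
  have hG : G.card ≤ (2 * n + 1) ^ 2 := by
    calc G.card ≤ (F.image some).card + 1 := Finset.card_insert_le _ _
      _ ≤ F.card + 1 := by
        have := Finset.card_image_le (s := F) (f := (some : K × K → Option (K × K)))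
        omega
      _ ≤ 2 * (2 * n ^ 2 + 2 * n) + 1 := by omega
      _ = (2 * n + 1) ^ 2 := by ring
  have hsub : h3_coords '' {T : (shortW a b).toAffine.Point | (2 * n + 1) • T = 0} ⊆ (G : Set _) := by
    rintro _ ⟨T, hT, rfl⟩
    rcases T with _ | ⟨x, y, hN⟩
    · simp [h3_coords, G]
    · have hx : D.eval x = 0 := (h3_nsmul_eq_zero_iff h2 hb hd hN n).mp hT
      have hy : y ^ 2 = x ^ 3 + a * x ^ 2 + b * x := (shortW_equation_iff a b x y).mp hN.1
      have hxR : x ∈ Rts := by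
        rw [hRts, Multiset.mem_toFinset, mem_roots hD0]
        exact hx
      have hyR : y ∈ ys x := by
        have hne : (X ^ 2 - C (x ^ 3 + a * x ^ 2 + b * x) : K[X]) ≠ 0 :=
          X_pow_sub_C_ne_zero (by norm_num) _
        simp only [ys, Multiset.mem_toFinset, mem_roots hne, IsRoot, eval_sub, eval_pow, eval_X,
          eval_C]
        rw [hy, sub_self]
      have : (x, y) ∈ F := by
        simp only [F, Finset.mem_biUnion, Finset.mem_image]
        exact ⟨x, hxR, y, hyR, rfl⟩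
      simp only [h3_coords, G, Finset.coe_insert, Finset.coe_image, Set.mem_insert_iff,
        Set.mem_image, Finset.mem_coe]
      right
      exact ⟨(x, y), this, rfl⟩
  have hfin : (h3_coords '' {T : (shortW a b).toAffine.Point | (2 * n + 1) • T = 0}).Finite :=
    (Finset.finite_toSet G).subset hsub
  have hfin' : {T : (shortW a b).toAffine.Point | (2 * n + 1) • T = 0}.Finite :=
    hfin.of_finite_image h3_coords_injective.injOn
  refine ⟨hfin', ?_⟩
  calc {T : (shortW a b).toAffine.Point | (2 * n + 1) • T = 0}.ncard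
      = (h3_coords '' {T : (shortW a b).toAffine.Point | (2 * n + 1) • T = 0}).ncard :=
        (Set.ncard_image_of_injective _ h3_coords_injective).symm
    _ ≤ (G : Set (Option (K × K))).ncard := Set.ncard_le_ncard hsub (Finset.finite_toSet G)
    _ = G.card := Set.ncard_coe_finset G
    _ ≤ (2 * n + 1) ^ 2 := hG

end Torsion

/-! ### Wrappers in terms of an odd number `p` (with `n = p / 2`) -/

section OddForm

open WeierstrassCurve Fermat.Agent.S05

lemma h3_divPoly_top_odd {R : Type*} [CommRing R] (a b : R) {p : ℕ} (hodd : p % 2 = 1) :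
    h3_Top (h3_divPoly a b (p / 2)) ((p ^ 2 - 1) / 2) (p : R) := by
  have hp : 2 * (p / 2) + 1 = p := by omega
  have h := h3_divPoly_top a b (p / 2)
  rw [hp] at h
  refine h3_Top_congr h ?_ rfl
  have h1 : p ^ 2 = (2 * (p / 2) + 1) ^ 2 := by rw [hp]
  have h2 : (2 * (p / 2) + 1) ^ 2 = 2 * (2 * (p / 2) ^ 2 + 2 * (p / 2)) + 1 := by ring
  omega

variable {K : Type*} [Field K] [DecidableEq K] {a b : K}

theorem h3_nsmul_eq_zero_iff_odd (h2 : (2 : K) ≠ 0) (hb : b ≠ 0) (hd : a ^ 2 - 4 * b ≠ 0)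
    {x y : K} (h : (shortW a b).toAffine.Nonsingular x y) {p : ℕ} (hodd : p % 2 = 1) :
    p • Affine.Point.some x y h = 0 ↔ (h3_divPoly a b (p / 2)).eval x = 0 := by
  have hp : 2 * (p / 2) + 1 = p := by omega
  have := h3_nsmul_eq_zero_iff h2 hb hd h (p / 2)
  rwa [hp] at this

theorem h3_exists_torsion_odd [IsAlgClosed K] (h2 : (2 : K) ≠ 0) (hb : b ≠ 0)
    (hd : a ^ 2 - 4 * b ≠ 0) {p : ℕ} (hodd : p % 2 = 1) (hp3 : 3 ≤ p) (hpK : (p : K) ≠ 0) :
    ∃ T : (shortW a b).toAffine.Point, T ≠ 0 ∧ p • T = 0 := by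
  have hp : 2 * (p / 2) + 1 = p := by omega
  have := h3_exists_torsion (a := a) (b := b) h2 hb hd (p / 2) (by omega) (by rw [hp]; exact hpK)
  rwa [hp] at this

theorem h3_torsion_finite_card_odd (h2 : (2 : K) ≠ 0) (hb : b ≠ 0)
    (hd : a ^ 2 - 4 * b ≠ 0) {p : ℕ} (hodd : p % 2 = 1) (hpK : (p : K) ≠ 0) :
    {T : (shortW a b).toAffine.Point | p • T = 0}.Finite ∧
      {T : (shortW a b).toAffine.Point | p • T = 0}.ncard ≤ p ^ 2 := by
  have hp : 2 * (p / 2) + 1 = p := by omega
  have := h3_torsion_finite_card (a := a) (b := b) h2 hb hd (p / 2) (by rw [hp]; exact hpK)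
  rwa [hp] at this

end OddForm

end Fermat.Agent.S13
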