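import Mathlib
import Fermat.Agent.S05.InertiaVal

set_option autoImplicit false

namespace Fermat.Agent.S13

open Polynomial

section Newton

variable {K Γ₀ : Type*} [Field K] [LinearOrderedCommGroupWithZero Γ₀] (v : Valuation K Γ₀)

/-- Linear-factor Gauss lemma: a bound on the coefficients of `(X - ξ) * h` with `1 ≤ v ξ`
gives the same bound, improved by the factor `v ξ`, on the coefficients of `h`. -/
theorem h42_coeff_bound_of_mul_X_sub_C (ξ : K) (hξ : 1 ≤ v ξ) (h : K[X]) (d c : Γ₀)
    (hf : ∀ i, d * v (((X - C ξ) * h).coeff i) ≤ c) :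
    ∀ i, d * v ξ * v (h.coeff i) ≤ c := by
  intro i
  induction i with
  | zero =>
    have h0 := hf 0
    have hc : ((X - C ξ) * h).coeff 0 = - (ξ * h.coeff 0) := by
      simp [sub_mul]
    rw [hc, Valuation.map_neg, Valuation.map_mul] at h0
    rwa [mul_assoc]
  | succ n ih =>
    have hn := hf (n + 1)
    have hc : ((X - C ξ) * h).coeff (n + 1) = h.coeff n - ξ * h.coeff (n + 1) := by
      simp [sub_mul, coeff_X_mul]
    have hc' : ξ * h.coeff (n + 1) = h.coeff n - ((X - C ξ) * h).coeff (n + 1) := by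
      rw [hc]; ring
    have h1 : v ξ * v (h.coeff (n + 1)) ≤
        max (v (h.coeff n)) (v (((X - C ξ) * h).coeff (n + 1))) := by
      rw [← Valuation.map_mul, hc']
      exact Valuation.map_sub _ _ _
    have h2 : d * v (h.coeff n) ≤ c := by
      calc d * v (h.coeff n) = d * 1 * v (h.coeff n) := by rw [mul_one]
        _ ≤ d * v ξ * v (h.coeff n) := by gcongr
        _ ≤ c := ih
    calc d * v ξ * v (h.coeff (n + 1)) = d * (v ξ * v (h.coeff (n + 1))) := by rw [mul_assoc]
      _ ≤ d * max (v (h.coeff n)) (v (((X - C ξ) * h).coeff (n + 1))) := by gcongr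
      _ ≤ c := by
        rcases le_total (v (h.coeff n)) (v (((X - C ξ) * h).coeff (n + 1))) with hle | hle
        · rw [max_eq_right hle]; exact hn
        · rw [max_eq_left hle]; exact h2

/-- Splitting off a finite set of distinct roots of valuation `≥ 1`, with the Gauss bound. -/
theorem h42_exists_factor (s : Finset K) :
    ∀ (f : K[X]) (d c : Γ₀), (∀ i, d * v (f.coeff i) ≤ c) → (∀ ξ ∈ s, f.IsRoot ξ) →
      (∀ ξ ∈ s, 1 ≤ v ξ) →
      ∃ h : K[X], f = (∏ ξ ∈ s, (X - C ξ)) * h ∧
        ∀ i, d * (∏ ξ ∈ s, v ξ) * v (h.coeff i) ≤ c := by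
  classical
  induction s using Finset.induction_on with
  | empty =>
    intro f d c hf _ _
    exact ⟨f, by simp, by simpa using hf⟩
  | insert a s ha ih =>
    intro f d c hf hroot hbig
    have hra : f.IsRoot a := hroot a (Finset.mem_insert_self a s)
    obtain ⟨g, rfl⟩ := dvd_iff_isRoot.mpr hra
    have hg := h42_coeff_bound_of_mul_X_sub_C v a (hbig a (Finset.mem_insert_self a s)) g d c hf
    have hrootg : ∀ ξ ∈ s, g.IsRoot ξ := by
      intro ξ hξ
      have h1 := hroot ξ (Finset.mem_insert_of_mem hξ)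
      have hne : ξ ≠ a := fun h => ha (h ▸ hξ)
      rw [IsRoot.def, eval_mul, eval_sub, eval_X, eval_C] at h1
      exact (mul_eq_zero.mp h1).resolve_left (sub_ne_zero.mpr hne)
    obtain ⟨h, rfl, hh⟩ := ih g (d * v a) c hg hrootg
      (fun ξ hξ => hbig ξ (Finset.mem_insert_of_mem hξ))
    refine ⟨h, ?_, ?_⟩
    · rw [Finset.prod_insert ha, mul_assoc]
    · intro i
      rw [Finset.prod_insert ha]
      have := hh i
      rwa [mul_assoc d (v a)] at this

/-- **Newton / Gauss bound.** If `f ≠ 0` has all coefficients of valuation `≤ 1` and `s` is a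
finite set of roots of `f` of valuation `> 1`, then `v (leading coeff) * ∏_{ξ ∈ s} v ξ ≤ 1`. -/
theorem h42_newton_bound (f : K[X]) (hf : ∀ i, v (f.coeff i) ≤ 1) (s : Finset K)
    (hroot : ∀ ξ ∈ s, f.IsRoot ξ) (hbig : ∀ ξ ∈ s, 1 < v ξ) :
    v f.leadingCoeff * ∏ ξ ∈ s, v ξ ≤ 1 := by
  obtain ⟨h, rfl, hh⟩ := h42_exists_factor v s f 1 1 (by simpa using hf) hroot
    (fun ξ hξ => (hbig ξ hξ).le)
  have hmonic : (∏ ξ ∈ s, (X - C ξ)).Monic := monic_prod_of_monic _ _ (fun ξ _ => monic_X_sub_C ξ)
  have hlc : ((∏ ξ ∈ s, (X - C ξ)) * h).leadingCoeff = h.leadingCoeff := by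
    rw [leadingCoeff_mul, hmonic.leadingCoeff, one_mul]
  rw [hlc]
  have := hh h.natDegree
  rw [one_mul, coeff_natDegree] at this
  rw [mul_comm]
  exact this

/-- Family version of `h42_newton_bound`. -/
theorem h42_newton_bound_family {ι : Type*} [Fintype ι] (f : K[X]) (hf : ∀ i, v (f.coeff i) ≤ 1)
    (x : ι → K) (hx : Function.Injective x) (hroot : ∀ i, f.IsRoot (x i))
    (hbig : ∀ i, 1 < v (x i)) :
    v f.leadingCoeff * ∏ i, v (x i) ≤ 1 := by
  classical
  have := h42_newton_bound v f hf (Finset.univ.image x)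
    (fun ξ hξ => by obtain ⟨i, -, rfl⟩ := Finset.mem_image.mp hξ; exact hroot i)
    (fun ξ hξ => by obtain ⟨i, -, rfl⟩ := Finset.mem_image.mp hξ; exact hbig i)
  rwa [Finset.prod_image (fun i _ j _ h => hx h)] at this

end Newton

section Rat

variable {L : Type*} [Field L]

/-- **Rational bound.** A rational number which is not integral at a valuation subring over the
prime `q` has valuation at least `(v q)⁻¹`. -/
theorem h42_rat_bound [CharZero L] (B : ValuationSubring L) (q : ℕ) (hq : q.Prime)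
    (hB : B.LiesOverPrime q) (r : ℚ) (hr : 1 < B.valuation ((r : ℚ) : L)) :
    1 ≤ B.valuation (q : L) * B.valuation ((r : ℚ) : L) := by
  have hden0 : (r.den : L) ≠ 0 := Nat.cast_ne_zero.mpr r.den_nz
  have hmul : ((r : ℚ) : L) * (r.den : L) = (r.num : L) := by
    rw [Rat.cast_def, div_mul_cancel₀ _ hden0]
  have hvmul : B.valuation ((r : ℚ) : L) * B.valuation (r.den : L) = B.valuation (r.num : L) := by
    rw [← Valuation.map_mul, hmul]
  have hnum_le := (Fermat.Agent.S05.valuation_intCast B q hq hB r.num).1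
  by_cases hqd : q ∣ r.den
  · obtain ⟨d, hd⟩ := hqd
    have hqnum : ¬ (q : ℤ) ∣ r.num := by
      intro hdiv
      have h1 : q ∣ r.num.natAbs := Int.natCast_dvd.mp hdiv
      have h2 : q ∣ Nat.gcd r.num.natAbs r.den := Nat.dvd_gcd h1 ⟨d, hd⟩
      rw [r.reduced] at h2
      exact hq.one_lt.ne' (Nat.dvd_one.mp h2)
    have hnum1 := Fermat.Agent.S05.valuation_intCast_eq_one B q hq hB r.num hqnum
    have hd_le : B.valuation ((d : ℕ) : L) ≤ 1 := by
      have := (Fermat.Agent.S05.valuation_intCast B q hq hB (d : ℤ)).1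
      rwa [Int.cast_natCast] at this
    have hdenv : B.valuation (r.den : L) = B.valuation (q : L) * B.valuation ((d : ℕ) : L) := by
      rw [hd, Nat.cast_mul, Valuation.map_mul]
    rw [hdenv, hnum1] at hvmul
    calc (1 : _) = B.valuation ((r : ℚ) : L) * (B.valuation (q : L) * B.valuation ((d : ℕ) : L)) :=
          hvmul.symm
      _ ≤ B.valuation ((r : ℚ) : L) * (B.valuation (q : L) * 1) := by gcongr
      _ = B.valuation (q : L) * B.valuation ((r : ℚ) : L) := by rw [mul_one, mul_comm]
  · exfalso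
    have hden1 := Fermat.Agent.S05.valuation_natCast_eq_one B q hq hB r.den hqd
    rw [hden1, mul_one] at hvmul
    rw [hvmul] at hr
    exact absurd hnum_le (not_le.mpr hr)

/-- **Comparison.** Let `f` have integral coefficients and leading coefficient of the valuation
of `q`.  If `s ⊆ t` are finite sets of roots of `f` of valuation `> 1`, `s` is nonempty and the
product of `s` is a rational number, then `s = t`. -/
theorem h42_roots_eq_of_prod_rat [CharZero L] (B : ValuationSubring L) (q : ℕ) (hq : q.Prime)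
    (hB : B.LiesOverPrime q) (f : L[X]) (hf : ∀ i, B.valuation (f.coeff i) ≤ 1)
    (hlead : B.valuation f.leadingCoeff = B.valuation (q : L)) (s t : Finset L) (hst : s ⊆ t)
    (hroot : ∀ ξ ∈ t, f.IsRoot ξ) (hbig : ∀ ξ ∈ t, 1 < B.valuation ξ) (hs : s.Nonempty)
    (r : ℚ) (hr : ∏ ξ ∈ s, ξ = ((r : ℚ) : L)) : s = t := by
  classical
  have hNP := h42_newton_bound B.valuation f hf t hroot hbig
  rw [hlead] at hNP
  have hprod_s : B.valuation ((r : ℚ) : L) = ∏ ξ ∈ s, B.valuation ξ := by
    rw [← hr, map_prod]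
  have hone_lt : ∀ u : Finset L, u ⊆ t → u.Nonempty → 1 < ∏ ξ ∈ u, B.valuation ξ := by
    intro u
    induction u using Finset.induction_on with
    | empty => intro _ h; exact absurd h Finset.not_nonempty_empty
    | insert a u ha ih =>
      intro hut _
      rw [Finset.prod_insert ha]
      have h1 : 1 < B.valuation a := hbig a (hut (Finset.mem_insert_self a u))
      rcases u.eq_empty_or_nonempty with h0 | h0
      · subst h0; simpa using h1
      · have h2 := ih (fun x hx => hut (Finset.mem_insert_of_mem hx)) h0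
        calc (1 : _) < B.valuation a := h1
          _ = B.valuation a * 1 := (mul_one _).symm
          _ ≤ B.valuation a * ∏ ξ ∈ u, B.valuation ξ := by gcongr
  have hRAT := h42_rat_bound B q hq hB r (by rw [hprod_s]; exact hone_lt s hst hs)
  rw [hprod_s] at hRAT
  by_contra hne
  have hdiff : (t \ s).Nonempty := by
    rw [Finset.nonempty_iff_ne_empty]
    intro h0
    exact hne (Finset.Subset.antisymm hst (Finset.sdiff_eq_empty_iff_subset.mp h0))
  have h3 := hone_lt (t \ s) Finset.sdiff_subset hdiff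
  have hsplit : ∏ ξ ∈ t, B.valuation ξ =
      (∏ ξ ∈ t \ s, B.valuation ξ) * ∏ ξ ∈ s, B.valuation ξ :=
    (Finset.prod_sdiff hst).symm
  rw [hsplit] at hNP
  have hpos : 0 < B.valuation (q : L) * ∏ ξ ∈ s, B.valuation ξ := lt_of_lt_of_le zero_lt_one hRAT
  have h4 : B.valuation (q : L) * ∏ ξ ∈ s, B.valuation ξ <
      B.valuation (q : L) * ((∏ ξ ∈ t \ s, B.valuation ξ) * ∏ ξ ∈ s, B.valuation ξ) := by
    calc B.valuation (q : L) * ∏ ξ ∈ s, B.valuation ξ
        = 1 * (B.valuation (q : L) * ∏ ξ ∈ s, B.valuation ξ) := (one_mul _).symm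
      _ < (∏ ξ ∈ t \ s, B.valuation ξ) * (B.valuation (q : L) * ∏ ξ ∈ s, B.valuation ξ) :=
          mul_lt_mul_of_pos_right h3 hpos
      _ = B.valuation (q : L) * ((∏ ξ ∈ t \ s, B.valuation ξ) * ∏ ξ ∈ s, B.valuation ξ) := by
          rw [mul_left_comm]
  exact absurd (lt_of_lt_of_le h4 hNP) (not_lt.mpr hRAT)

end Rat

end Fermat.Agent.S13
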