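import Mathlib
import Fermat.Agent.S13.h42_Newton

set_option autoImplicit false

namespace Fermat.Agent.S13

open Polynomial

local notation "Qbar" => AlgebraicClosure ℚ

/-- An injective self-map of a finite set is a permutation of it. -/
theorem h42_image_eq_of_maps_to {α : Type*} [DecidableEq α] (s : Finset α) (g : α → α)
    (hg : Function.Injective g) (hs : ∀ ξ ∈ s, g ξ ∈ s) : s.image g = s := by
  apply Finset.eq_of_subset_of_card_le
  · intro x hx
    obtain ⟨ξ, hξ, rfl⟩ := Finset.mem_image.mp hx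
    exact hs ξ hξ
  · rw [Finset.card_image_of_injective s hg]

/-- The product of a Galois-stable finite subset of `Qbar` is rational. -/
theorem h42_prod_rat_of_galois_stable (s : Finset Qbar)
    (hstable : ∀ σ : Qbar ≃ₐ[ℚ] Qbar, ∀ ξ ∈ s, σ ξ ∈ s) :
    ∃ r : ℚ, ∏ ξ ∈ s, ξ = ((r : ℚ) : Qbar) := by
  classical
  have h1 : Algebra.IsAlgebraic ℚ Qbar := AlgebraicClosure.isAlgebraic ℚ
  have h2 : IsAlgClosure ℚ Qbar := ⟨inferInstance, h1⟩
  have h3 : IsGalois ℚ Qbar := IsAlgClosure.isGalois ℚ Qbar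
  have hfix : ∀ σ : Qbar ≃ₐ[ℚ] Qbar, σ (∏ ξ ∈ s, ξ) = ∏ ξ ∈ s, ξ := by
    intro σ
    rw [map_prod]
    have himg := h42_image_eq_of_maps_to s σ σ.injective (hstable σ)
    conv_rhs => rw [← himg]
    rw [Finset.prod_image (fun x _ y _ h => σ.injective h)]
  obtain ⟨r, hr⟩ :=
    (InfiniteGalois.mem_range_algebraMap_iff_fixed (k := ℚ) (K := Qbar) (∏ ξ ∈ s, ξ)).2 hfix
  exact ⟨r, by rw [← hr, eq_ratCast]⟩

/-- **Comparison, Galois form.** `f` over `Qbar` with coefficients integral at `B` (over the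
prime `q`), of degree `≤ m` with `m`-th coefficient `q`; `s ⊆ t` finite sets of roots of `f`
outside `B` (valuation `> 1`); `s` nonempty and stable under `Gal(Qbar/ℚ)`. Then `s = t`. -/
theorem h42_roots_eq_of_galois_stable (B : ValuationSubring Qbar) (q : ℕ) (hq : q.Prime)
    (hB : B.LiesOverPrime q) (f : Qbar[X]) (hf : ∀ i, B.valuation (f.coeff i) ≤ 1) (m : ℕ)
    (hdeg : f.natDegree ≤ m) (hcoeff : f.coeff m = (q : Qbar)) (s t : Finset Qbar) (hst : s ⊆ t)
    (hroot : ∀ ξ ∈ t, f.IsRoot ξ) (hbig : ∀ ξ ∈ t, 1 < B.valuation ξ) (hs : s.Nonempty)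
    (hstable : ∀ σ : Qbar ≃ₐ[ℚ] Qbar, ∀ ξ ∈ s, σ ξ ∈ s) : s = t := by
  obtain ⟨r, hr⟩ := h42_prod_rat_of_galois_stable s hstable
  have hq0 : (q : Qbar) ≠ 0 := Nat.cast_ne_zero.mpr hq.ne_zero
  have hm : f.natDegree = m := by
    apply le_antisymm hdeg
    apply le_natDegree_of_ne_zero
    rw [hcoeff]; exact hq0
  have hlead : B.valuation f.leadingCoeff = B.valuation (q : Qbar) := by
    rw [leadingCoeff, hm, hcoeff]
  exact h42_roots_eq_of_prod_rat B q hq hB f hf hlead s t hst hroot hbig hs r hr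

/-- Coefficients of the base change of a polynomial over a valuation subring are integral. -/
theorem h42_coeff_map_subtype_le_one {L : Type*} [Field L] (B : ValuationSubring L)
    (g : Polynomial B) (i : ℕ) : B.valuation ((g.map B.subtype).coeff i) ≤ 1 := by
  rw [coeff_map, B.valuation_le_one_iff]
  exact (g.coeff i).2

/-- Coefficients of the base change of an integer polynomial are integral. -/
theorem h42_coeff_map_int_le_one {L : Type*} [Field L] (B : ValuationSubring L)
    (g : Polynomial ℤ) (i : ℕ) : B.valuation ((g.map (Int.castRingHom L)).coeff i) ≤ 1 := by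
  rw [coeff_map, B.valuation_le_one_iff]
  exact intCast_mem B (g.coeff i)

end Fermat.Agent.S13
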