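import Fermat.Agent.S13.h75_P1
import Fermat.Agent.S13.h42_NewtonGal
import Fermat.Agent.S05.InertiaVal
import Fermat.Prelude.Def_FLTPrelim_Ramification

/-
helper75, project S13, block [B] (B-MAIN), model level: the dichotomy at `p` for a Galois-stable
subgroup `N₀` of order `p` of the `p`-torsion of `Y² = X³ + a X² + b X` (`a b : ℤ`), at a
valuation subring `A` of `Qbar` over `p`:
either inertia fixes `N₀` pointwise, or inertia moves every `p`-torsion point inside `N₀`.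
-/

set_option autoImplicit false

namespace Fermat.Agent.S13

open WeierstrassCurve Polynomial Fermat.Agent.S05

local notation "Qbar" => AlgebraicClosure ℚ

/-- The kernel of reduction as a subgroup. -/
def h75_E1sub {K : Type*} [Field K] [DecidableEq K] (A : ValuationSubring K) (a b : K)
    (ha : A.valuation a ≤ 1) (hb : A.valuation b ≤ 1) (h2 : A.valuation (2 : K) = 1) :
    AddSubgroup (shortW a b).toAffine.Point where
  carrier := {T | IsE1 a b A T}
  add_mem' := fun hP hQ => isE1_add A a b ha hb h2 hP hQ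
  zero_mem' := Or.inl rfl
  neg_mem' := fun hP => isE1_neg A a b hP

/-- Two affine points of `shortW a b` with the same `X` are equal or opposite. -/
theorem h75_same_X {K : Type*} [Field K] [DecidableEq K] (a b : K) {X Y Y' : K}
    (h : (shortW a b).toAffine.Nonsingular X Y) (h' : (shortW a b).toAffine.Nonsingular X Y') :
    Affine.Point.some X Y' h' = Affine.Point.some X Y h ∨
      Affine.Point.some X Y' h' = -Affine.Point.some X Y h := by
  have e1 := (shortW_equation_iff a b X Y).mp h.1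
  have e2 := (shortW_equation_iff a b X Y').mp h'.1
  have e3 : Y' ^ 2 = Y ^ 2 := by rw [e1, e2]
  rcases sq_eq_sq_iff_eq_or_eq_neg.mp e3 with h1 | h1
  · left
    subst h1
    rfl
  · right
    rw [Affine.Point.neg_some, Affine.Point.some.injEq]
    exact ⟨rfl, by rw [shortW_negY, h1]⟩

/-- A point of `E₁` which is affine has non-integral `X`. -/
theorem h75_isE1_some {K : Type*} [Field K] [DecidableEq K] (A : ValuationSubring K) (a b : K)
    {X Y : K} {h : (shortW a b).toAffine.Nonsingular X Y}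
    (hE : IsE1 a b A (Affine.Point.some X Y h)) : 1 < A.valuation X := by
  rcases hE with h0 | ⟨X', Y', h', e, hX'⟩
  · exact absurd h0 (Affine.Point.some_ne_zero h)
  · rw [Affine.Point.some.injEq] at e
    rw [e.1]
    exact hX'

/-- **Block [B], model level.** -/
theorem h75_atP_shortW (a b : ℤ) (p : ℕ) (hp : p.Prime) (hp2 : p ≠ 2)
    (A : ValuationSubring Qbar) (hA : A.LiesOverPrime p)
    (h2 : A.valuation (2 : Qbar) = 1)
    (hcase : (A.valuation (a : Qbar) ≤ 1 ∧ A.valuation (b : Qbar) = 1 ∧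
        A.valuation ((a : Qbar) ^ 2 - 4 * (b : Qbar)) = 1) ∨
      (A.valuation (a : Qbar) = 1 ∧ ∃ g : ℤ, g ≠ 0 ∧ A.valuation (g : Qbar) < 1 ∧
        A.valuation (b : Qbar) = A.valuation (g : Qbar) ^ p))
    (f : Qbar[X]) (hf : ∀ i, A.valuation (f.coeff i) ≤ 1) (m : ℕ) (hdeg : f.natDegree ≤ m)
    (hcoeff : f.coeff m = (p : Qbar))
    (hroot : ∀ (X Y : Qbar) (h : (shortW (a : Qbar) (b : Qbar)).toAffine.Nonsingular X Y),
      p • Affine.Point.some X Y h = 0 → f.IsRoot X)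
    (N₀ : AddSubgroup (shortW (a : Qbar) (b : Qbar)).toAffine.Point)
    (htors : ∀ T ∈ N₀, p • T = 0) (hcard : Nat.card N₀ = p)
    (hstab : ∀ (σ : Qbar ≃ₐ[ℚ] Qbar) (X Y : Qbar)
      (h : (shortW (a : Qbar) (b : Qbar)).toAffine.Nonsingular X Y)
      (h' : (shortW (a : Qbar) (b : Qbar)).toAffine.Nonsingular (σ X) (σ Y)),
      Affine.Point.some X Y h ∈ N₀ → Affine.Point.some (σ X) (σ Y) h' ∈ N₀) :
    (∀ σ ∈ A.inertiaSubgroupIn ℚ, ∀ (X Y : Qbar)
      (h : (shortW (a : Qbar) (b : Qbar)).toAffine.Nonsingular X Y),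
      Affine.Point.some X Y h ∈ N₀ → σ X = X ∧ σ Y = Y) ∨
    (∀ σ ∈ A.inertiaSubgroupIn ℚ, ∀ (X Y : Qbar)
      (h : (shortW (a : Qbar) (b : Qbar)).toAffine.Nonsingular X Y)
      (h' : (shortW (a : Qbar) (b : Qbar)).toAffine.Nonsingular (σ X) (σ Y)),
      p • Affine.Point.some X Y h = 0 →
        Affine.Point.some (σ X) (σ Y) h' - Affine.Point.some X Y h ∈ N₀) := by
  classical
  have : Fact p.Prime := ⟨hp⟩
  -- integrality of the coefficients
  have ha : A.valuation (a : Qbar) ≤ 1 := by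
    rcases hcase with ⟨h, -, -⟩ | ⟨h, -⟩
    · exact h
    · exact h.le
  have hb : A.valuation (b : Qbar) ≤ 1 := by
    rcases hcase with ⟨-, h, -⟩ | ⟨-, g, -, hg, h⟩
    · exact h.le
    · rw [h]; exact pow_le_one₀ zero_le hg.le
  -- the Galois action on points
  have hσint : ∀ (σ : Qbar ≃ₐ[ℚ] Qbar) (n : ℤ), σ.toRingEquiv (n : Qbar) = (n : Qbar) :=
    fun σ n => map_intCast σ.toRingEquiv n
  let φ : (Qbar ≃ₐ[ℚ] Qbar) → (shortW (a : Qbar) (b : Qbar)).toAffine.Point →+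
      (shortW (a : Qbar) (b : Qbar)).toAffine.Point :=
    fun σ => Sigma_hom (a : Qbar) (b : Qbar) σ.toRingEquiv (hσint σ a) (hσint σ b)
  have hφ : ∀ (σ : Qbar ≃ₐ[ℚ] Qbar) (X Y : Qbar)
      (h : (shortW (a : Qbar) (b : Qbar)).toAffine.Nonsingular X Y)
      (h' : (shortW (a : Qbar) (b : Qbar)).toAffine.Nonsingular (σ X) (σ Y)),
      φ σ (Affine.Point.some X Y h) = Affine.Point.some (σ X) (σ Y) h' := fun σ X Y h h' => rfl
  have hns : ∀ (σ : Qbar ≃ₐ[ℚ] Qbar) (X Y : Qbar)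
      (h : (shortW (a : Qbar) (b : Qbar)).toAffine.Nonsingular X Y),
      (shortW (a : Qbar) (b : Qbar)).toAffine.Nonsingular (σ X) (σ Y) := fun σ X Y h =>
    Sigma_nonsingular (a : Qbar) (b : Qbar) σ.toRingEquiv (hσint σ a) (hσint σ b) h
  have hφN : ∀ (σ : Qbar ≃ₐ[ℚ] Qbar) (T : (shortW (a : Qbar) (b : Qbar)).toAffine.Point),
      T ∈ N₀ → φ σ T ∈ N₀ := by
    intro σ T hT
    rcases T with _ | ⟨X, Y, h⟩
    · exact hT
    · rw [hφ σ X Y h (hns σ X Y h)]
      exact hstab σ X Y h _ hT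
  -- (P1)
  have hP1 : ∀ σ ∈ A.inertiaSubgroupIn ℚ,
      ∀ T : (shortW (a : Qbar) (b : Qbar)).toAffine.Point, p • T = 0 →
        IsE1 (a : Qbar) (b : Qbar) A (φ σ T - T) := by
    intro σ hσ T hT
    obtain ⟨hσA, hσm⟩ := inertia_valuation A σ hσ
    rcases hcase with ⟨ha', hb', hd'⟩ | ⟨ha', g, hg0, hg, hbg⟩
    · exact h75_good_isE1 A (a : Qbar) (b : Qbar) h2 ha' hb' hd' σ.toRingEquiv hσA hσm
        (hσint σ a) (hσint σ b) T
    · exact h75_mult_isE1 A (a : Qbar) (b : Qbar) (g : Qbar) p hp hp2 h2 ha' hg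
        (Int.cast_ne_zero.mpr hg0) hbg σ.toRingEquiv hσA hσm (hσint σ a) (hσint σ b)
        (hσint σ g) T hT
  have hptors : ∀ (σ : Qbar ≃ₐ[ℚ] Qbar) (T : (shortW (a : Qbar) (b : Qbar)).toAffine.Point),
      p • T = 0 → p • (φ σ T - T) = 0 := by
    intro σ T hT
    rw [nsmul_sub, ← map_nsmul, hT, map_zero, sub_zero]
  by_cases hex : ∃ T ∈ N₀, T ≠ 0 ∧ IsE1 (a : Qbar) (b : Qbar) A T
  · -- `N₀ ⊆ E₁`, hence `E[p] ∩ E₁ ⊆ N₀`
    right
    obtain ⟨T₀, hT₀N, hT₀0, hT₀E⟩ := hex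
    have hNE1 : ∀ T ∈ N₀, IsE1 (a : Qbar) (b : Qbar) A T := by
      intro T hT
      have hne : (⟨T₀, hT₀N⟩ : N₀) ≠ 0 := fun h => hT₀0 (congrArg Subtype.val h)
      have hmem : (⟨T, hT⟩ : N₀) ∈ AddSubgroup.zmultiples (⟨T₀, hT₀N⟩ : N₀) :=
        mem_zmultiples_of_prime_card hcard hne
      obtain ⟨k, hk⟩ := AddSubgroup.mem_zmultiples_iff.mp hmem
      have hk' : k • T₀ = T := by
        have := congrArg Subtype.val hk
        simpa using this
      rw [← hk']
      exact (h75_E1sub A (a : Qbar) (b : Qbar) ha hb h2).zsmul_mem hT₀E k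
    have hp0 : (p : Qbar) ≠ 0 := Nat.cast_ne_zero.mpr hp.ne_zero
    have hf0 : f ≠ 0 := by
      intro h
      rw [h, coeff_zero] at hcoeff
      exact hp0 hcoeff.symm
    have hLN : ∀ T₁ : (shortW (a : Qbar) (b : Qbar)).toAffine.Point, p • T₁ = 0 →
        IsE1 (a : Qbar) (b : Qbar) A T₁ → T₁ ∈ N₀ := by
      intro T₁ hT₁ hE₁
      by_contra hnot
      rcases T₁ with _ | ⟨x₁, y₁, h₁⟩
      · exact hnot N₀.zero_mem
      have hx₁ : 1 < A.valuation x₁ := h75_isE1_some A _ _ hE₁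
      let s : Finset Qbar := f.roots.toFinset.filter
        (fun ξ => ∃ (Y : Qbar) (h : (shortW (a : Qbar) (b : Qbar)).toAffine.Nonsingular ξ Y),
          Affine.Point.some ξ Y h ∈ N₀)
      have hs_mem : ∀ ξ : Qbar, ξ ∈ s ↔ f.IsRoot ξ ∧
          ∃ (Y : Qbar) (h : (shortW (a : Qbar) (b : Qbar)).toAffine.Nonsingular ξ Y),
            Affine.Point.some ξ Y h ∈ N₀ := by
        intro ξ
        simp only [s, Finset.mem_filter, Multiset.mem_toFinset, mem_roots hf0]
      have hmem_of : ∀ (ξ Y : Qbar) (h : (shortW (a : Qbar) (b : Qbar)).toAffine.Nonsingular ξ Y),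
          Affine.Point.some ξ Y h ∈ N₀ → ξ ∈ s := fun ξ Y h hN =>
        (hs_mem ξ).mpr ⟨hroot ξ Y h (htors _ hN), Y, h, hN⟩
      have hx₁s : x₁ ∉ s := by
        intro hx
        obtain ⟨-, Y, h, hN⟩ := (hs_mem x₁).mp hx
        rcases h75_same_X (a : Qbar) (b : Qbar) h h₁ with e | e
        · exact hnot (e ▸ hN)
        · exact hnot (e ▸ N₀.neg_mem hN)
      have hst : s ⊆ insert x₁ s := Finset.subset_insert _ _
      have hroot_t : ∀ ξ ∈ insert x₁ s, f.IsRoot ξ := by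
        intro ξ hξ
        rcases Finset.mem_insert.mp hξ with rfl | hξ
        · exact hroot _ y₁ h₁ hT₁
        · exact ((hs_mem ξ).mp hξ).1
      have hbig : ∀ ξ ∈ insert x₁ s, 1 < A.valuation ξ := by
        intro ξ hξ
        rcases Finset.mem_insert.mp hξ with rfl | hξ
        · exact hx₁
        · obtain ⟨-, Y, h, hN⟩ := (hs_mem ξ).mp hξ
          exact h75_isE1_some A _ _ (hNE1 _ hN)
      have hsne : s.Nonempty := by
        rcases T₀ with _ | ⟨x₀, y₀, h₀⟩
        · exact absurd rfl hT₀0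
        · exact ⟨x₀, hmem_of x₀ y₀ h₀ hT₀N⟩
      have hstable : ∀ σ : Qbar ≃ₐ[ℚ] Qbar, ∀ ξ ∈ s, σ ξ ∈ s := by
        intro σ ξ hξ
        obtain ⟨-, Y, h, hN⟩ := (hs_mem ξ).mp hξ
        exact hmem_of (σ ξ) (σ Y) (hns σ ξ Y h) (hstab σ ξ Y h _ hN)
      have heq := h42_roots_eq_of_galois_stable A p hp hA f hf m hdeg hcoeff s (insert x₁ s) hst
        hroot_t hbig hsne hstable
      exact hx₁s (heq ▸ Finset.mem_insert_self x₁ s)
    intro σ hσ X Y h h' hT
    have h3 := hLN _ (hptors σ _ hT) (hP1 σ hσ _ hT)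
    rw [hφ σ X Y h h'] at h3
    exact h3
  · -- `N₀ ∩ E₁ = 0`
    left
    intro σ hσ X Y h hN
    have hE := hP1 σ hσ _ (htors _ hN)
    have hmem : φ σ (Affine.Point.some X Y h) - Affine.Point.some X Y h ∈ N₀ :=
      N₀.sub_mem (hφN σ _ hN) hN
    have hzero : φ σ (Affine.Point.some X Y h) - Affine.Point.some X Y h = 0 := by
      by_contra hne
      exact hex ⟨_, hmem, hne, hE⟩
    have h4 := sub_eq_zero.mp hzero
    rw [hφ σ X Y h (hns σ X Y h), Affine.Point.some.injEq] at h4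
    exact h4

end Fermat.Agent.S13
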