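import Fermat.Agent.S13.h26_FreyP
import Fermat.Agent.S13.h3_Ladder
import Fermat.Agent.S13.h75_AtP

/-
helper26, project S13: unconditional Frey-level statements (CARD and the dichotomy at `p`),
obtained by plugging the ladder (helper3, `h3_Ladder`) and the model-level dichotomy
(helper75, `h75_atP_shortW`) into the transports of `h26_FreyP`.
-/

set_option autoImplicit false

namespace Fermat.Agent.S13

open WeierstrassCurve WeierstrassCurve.Affine WeierstrassCurve.Affine.Point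
open Fermat.Agent.S05 Polynomial

/-- (FP2') The `p`-torsion of the Frey curve over `ℚ̄` is nontrivial, finite and has at most
`p²` elements. -/
theorem h26_frey_card' (P : FreyPackage) :
    Nontrivial (Submodule.torsionBy ℤ (P.freyCurve⁄(AlgebraicClosure ℚ)).Point P.p) ∧
    Finite (Submodule.torsionBy ℤ (P.freyCurve⁄(AlgebraicClosure ℚ)).Point P.p) ∧
    Nat.card (Submodule.torsionBy ℤ (P.freyCurve⁄(AlgebraicClosure ℚ)).Point P.p) ≤ P.p ^ 2 := by
  classical
  have hodd : P.p % 2 = 1 := Nat.odd_iff.mp P.hp_odd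
  have hp3 : 3 ≤ P.p := by have := P.hp5; omega
  have hpK : ((P.p : ℕ) : AlgebraicClosure ℚ) ≠ 0 := Nat.cast_ne_zero.mpr P.hp0
  have h2 : (2 : AlgebraicClosure ℚ) ≠ 0 := two_ne_zero
  refine h26_frey_card P (fun a b hb hd => ⟨?_, ?_⟩)
  · exact h3_exists_torsion_odd h2 hb hd hodd hp3 hpK
  · obtain ⟨hfin, hcard⟩ := h3_torsion_finite_card_odd (a := a) (b := b) h2 hb hd hodd hpK
    refine ⟨hfin.toFinset, ?_, fun T hT => hfin.mem_toFinset.mpr hT⟩
    rw [← Set.ncard_eq_toFinset_card _ hfin]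
    exact hcard

/-- The model-level dichotomy at `p`, in the form of the interface `h26_AtPModel`. -/
theorem h26_atPModel (a b : ℤ) (p : ℕ) (hp : p.Prime) (hp2 : p ≠ 2)
    (A : ValuationSubring (AlgebraicClosure ℚ)) (hA : A.LiesOverPrime p)
    (hcase : (¬ (p : ℤ) ∣ b ∧ ¬ (p : ℤ) ∣ (a ^ 2 - 4 * b)) ∨
      (¬ (p : ℤ) ∣ a ∧ ∃ g : ℤ, g ≠ 0 ∧ (p : ℤ) ∣ g ∧ b = g ^ p)) :
    h26_AtPModel A p a b := by
  classical
  intro N₀ htors hcard hstab
  have hodd : p % 2 = 1 := by
    rcases hp.eq_two_or_odd with h | h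
    · exact absurd h hp2
    · exact h
  obtain ⟨hb0, hd0⟩ := h26_model_ne hp a b hcase hp.ne_zero
  have h20 : (2 : AlgebraicClosure ℚ) ≠ 0 := two_ne_zero
  have hv2 : A.valuation (2 : AlgebraicClosure ℚ) = 1 := by
    have := valuation_natCast_eq_one A p hp hA 2
      (fun h => hp2 ((Nat.prime_dvd_prime_iff_eq hp Nat.prime_two).mp h))
    exact_mod_cast this
  have hcase' : (A.valuation ((a : ℤ) : AlgebraicClosure ℚ) ≤ 1 ∧
        A.valuation ((b : ℤ) : AlgebraicClosure ℚ) = 1 ∧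
        A.valuation (((a : ℤ) : AlgebraicClosure ℚ) ^ 2 - 4 * ((b : ℤ) : AlgebraicClosure ℚ)) = 1) ∨
      (A.valuation ((a : ℤ) : AlgebraicClosure ℚ) = 1 ∧ ∃ g : ℤ, g ≠ 0 ∧
        A.valuation ((g : ℤ) : AlgebraicClosure ℚ) < 1 ∧
        A.valuation ((b : ℤ) : AlgebraicClosure ℚ)
          = A.valuation ((g : ℤ) : AlgebraicClosure ℚ) ^ p) := by
    rcases hcase with ⟨hb, hd⟩ | ⟨ha, g, hg0, hg, hbg⟩
    · left
      refine ⟨(valuation_intCast A p hp hA a).1, valuation_intCast_eq_one A p hp hA b hb, ?_⟩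
      have := valuation_intCast_eq_one A p hp hA (a ^ 2 - 4 * b) hd
      push_cast at this
      exact this
    · right
      refine ⟨valuation_intCast_eq_one A p hp hA a ha, g, hg0,
        (valuation_intCast A p hp hA g).2.mpr hg, ?_⟩
      rw [hbg]
      push_cast
      rw [map_pow]
  -- the division polynomial
  have hfmap : h3_divPoly ((a : ℤ) : AlgebraicClosure ℚ) ((b : ℤ) : AlgebraicClosure ℚ) (p / 2)
      = (h3_divPoly a b (p / 2)).map (Int.castRingHom (AlgebraicClosure ℚ)) :=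
    h3_divPoly_map (Int.castRingHom (AlgebraicClosure ℚ)) a b (p / 2)
  have hf : ∀ i, A.valuation
      ((h3_divPoly ((a : ℤ) : AlgebraicClosure ℚ) ((b : ℤ) : AlgebraicClosure ℚ) (p / 2)).coeff i)
        ≤ 1 := by
    intro i
    rw [hfmap]
    exact h42_coeff_map_int_le_one A _ i
  obtain ⟨hdeg, hcoeff⟩ := h3_divPoly_top_odd ((a : ℤ) : AlgebraicClosure ℚ)
    ((b : ℤ) : AlgebraicClosure ℚ) hodd
  have key := h75_atP_shortW a b p hp hp2 A hA hv2 hcase'
    (h3_divPoly ((a : ℤ) : AlgebraicClosure ℚ) ((b : ℤ) : AlgebraicClosure ℚ) (p / 2)) hf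
    ((p ^ 2 - 1) / 2) hdeg hcoeff
    (fun X Y h hT => (h3_nsmul_eq_zero_iff_odd h20 hb0 hd0 h hodd).mp hT)
    N₀ htors hcard
    (fun σ X Y h h' hmem => hstab σ _ hmem)
  rcases key with h1 | h2
  · left
    intro σ hσ T hT
    rcases T with _ | ⟨X, Y, h⟩
    · exact h26_sig_zero a b σ
    · obtain ⟨hX, hY⟩ := h1 σ hσ X Y h hT
      obtain ⟨h', e⟩ := h26_sig_some a b σ h
      rw [e, Affine.Point.some.injEq]
      exact ⟨hX, hY⟩
  · right
    intro σ hσ T hT
    rcases T with _ | ⟨X, Y, h⟩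
    · have e : h26_sig a b σ (Affine.Point.zero) - Affine.Point.zero = 0 := by
        change h26_sig a b σ 0 - 0 = 0
        rw [h26_sig_zero, sub_zero]
      rw [e]
      exact N₀.zero_mem
    · obtain ⟨h', e⟩ := h26_sig_some a b σ h
      rw [e]
      exact h2 σ hσ X Y h h' hT

/-- (FP3') The dichotomy at `p` on the Frey curve: for a Galois-stable submodule `N` of order
`p` of the `p`-torsion and a valuation subring `A` of `ℚ̄` over `p`, either the inertia group
of `A` fixes `N` pointwise, or it acts trivially on the quotient by `N`. -/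
theorem h26_frey_atP' (P : FreyPackage) (A : ValuationSubring (AlgebraicClosure ℚ))
    (hA : A.LiesOverPrime P.p)
    (N : Submodule (ZMod P.p) (Submodule.torsionBy ℤ (P.freyCurve⁄(AlgebraicClosure ℚ)).Point P.p))
    (hN : IsGaloisStable ℚ N) (hcard : Nat.card N = P.p) :
    (∀ σ ∈ A.inertiaSubgroupIn ℚ, ∀ x ∈ N, σ • x = x) ∨
    (∀ σ ∈ A.inertiaSubgroupIn ℚ,
      ∀ x : Submodule.torsionBy ℤ (P.freyCurve⁄(AlgebraicClosure ℚ)).Point P.p, σ • x - x ∈ N) := by
  have hp2 : P.p ≠ 2 := by have := P.hp5; omega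
  exact h26_frey_atP P A (fun a b hcase => h26_atPModel a b P.p P.pp hp2 A hA hcase) N hN hcard

end Fermat.Agent.S13
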