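import Mathlib
import Fermat.Agent.S54.Frob
import Fermat.Agent.S05.h26_Inertia
import Fermat.Prelude.Def_FLTPrelim_Ramification

set_option autoImplicit false

/-!
# S13 block [E]: the Minkowski bridge

An open normal subgroup `H ≠ ⊤` of `Gal(Qbar/ℚ)` is "ramified" at some prime `q`: for every
valuation subring `A` of `Qbar` over `q` the inertia subgroup of `A` is not contained in `H`.
-/

namespace Fermat.Agent.S13

open Fermat.Agent.S54
open scoped Pointwise NumberField

section inertiaMembership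

variable {K L : Type*} [Field K] [Field L] [Algebra K L]

/-- Converse characterisation of the inertia subgroup: an automorphism stabilising `A` and acting
trivially modulo the maximal ideal is in the inertia subgroup. -/
theorem h6_mem_inertia_of (A : ValuationSubring L) (σ : L ≃ₐ[K] L) (hσA : σ • A = A)
    (h : ∀ x ∈ A, σ x - x ∈ A.nonunits) : σ ∈ A.inertiaSubgroupIn K := by
  have hmem : σ ∈ A.decompositionSubgroup K := MulAction.mem_stabilizer_iff.mpr hσA
  refine ⟨⟨σ, hmem⟩, ?_, rfl⟩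
  show (⟨σ, hmem⟩ : A.decompositionSubgroup K) ∈ A.inertiaSubgroup K
  rw [ValuationSubring.inertiaSubgroup, MonoidHom.mem_ker]
  ext y
  obtain ⟨a, rfl⟩ := IsLocalRing.residue_surjective y
  show (⟨σ, hmem⟩ : A.decompositionSubgroup K) • (IsLocalRing.residue A a) = IsLocalRing.residue A a
  rw [← IsLocalRing.ResidueField.residue_smul]
  apply Ideal.Quotient.eq.mpr
  have h1 := h a.1 a.2
  rw [← ValuationSubring.coe_mem_nonunits_iff]
  exact h1

end inertiaMembership

section lifting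

attribute [local instance] isAlgebraicQbar isAlgClosureQbar normalQbar isGaloisQbar
attribute [local instance] algIntAction algIntTopology algInt_discreteTopology
  algInt_smulCommClass algInt_isInvariant algInt_continuousSMul

/-- The algebraic integers are invariant over their `H`-fixed points. -/
theorem h6_isInvariant_fixed (H : Subgroup (AlgebraicClosure ℚ ≃ₐ[ℚ] AlgebraicClosure ℚ)) :
    Algebra.IsInvariant (FixedPoints.subalgebra ℤ (integralClosure ℤ (AlgebraicClosure ℚ)) H)
      (integralClosure ℤ (AlgebraicClosure ℚ)) H where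
  isInvariant b hb := ⟨⟨b, hb⟩, rfl⟩

/-- The action of `H` commutes with multiplication by `H`-fixed elements. -/
theorem h6_smulCommClass_fixed (H : Subgroup (AlgebraicClosure ℚ ≃ₐ[ℚ] AlgebraicClosure ℚ)) :
    SMulCommClass H (FixedPoints.subalgebra ℤ (integralClosure ℤ (AlgebraicClosure ℚ)) H)
      (integralClosure ℤ (AlgebraicClosure ℚ)) where
  smul_comm g a b := by
    show g • ((a : integralClosure ℤ (AlgebraicClosure ℚ)) * b) =
      (a : integralClosure ℤ (AlgebraicClosure ℚ)) * g • b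
    rw [smul_mul', a.2 g]

/-- Conjugation invariance of fixed points of a normal subgroup. -/
theorem h6_fixed_smul (H : Subgroup (AlgebraicClosure ℚ ≃ₐ[ℚ] AlgebraicClosure ℚ)) [H.Normal]
    (g : AlgebraicClosure ℚ ≃ₐ[ℚ] AlgebraicClosure ℚ)
    (b : integralClosure ℤ (AlgebraicClosure ℚ)) (hb : ∀ h ∈ H, h • b = b) :
    ∀ h ∈ H, h • (g • b) = g • b := by
  intro h hh
  have h1 : g⁻¹ * h * g ∈ H := Subgroup.Normal.conj_mem' inferInstance h hh g
  have h2 := hb _ h1
  calc h • g • b = g • ((g⁻¹ * h * g) • b) := by simp [mul_smul]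
    _ = g • b := by rw [h2]

/-- Lifting an "inertia-like" element: if `τ` acts trivially modulo `P` on the `H`-fixed
algebraic integers, then some `σ ∈ τ H` stabilises `P` and acts trivially on all algebraic
integers modulo `P`. -/
theorem h6_lift_inertia (H : Subgroup (AlgebraicClosure ℚ ≃ₐ[ℚ] AlgebraicClosure ℚ)) [H.Normal]
    (hcl : IsClosed (H : Set (AlgebraicClosure ℚ ≃ₐ[ℚ] AlgebraicClosure ℚ)))
    (P : Ideal (integralClosure ℤ (AlgebraicClosure ℚ))) [P.IsPrime]
    (τ : AlgebraicClosure ℚ ≃ₐ[ℚ] AlgebraicClosure ℚ)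
    (hτ : ∀ b : integralClosure ℤ (AlgebraicClosure ℚ), (∀ h ∈ H, h • b = b) → τ • b - b ∈ P) :
    ∃ σ : AlgebraicClosure ℚ ≃ₐ[ℚ] AlgebraicClosure ℚ, σ • P = P ∧
      (∀ b : integralClosure ℤ (AlgebraicClosure ℚ), σ • b - b ∈ P) ∧ σ⁻¹ * τ ∈ H := by
  classical
  have : CompactSpace H := isCompact_iff_compactSpace.mp hcl.isCompact
  have := h6_smulCommClass_fixed H
  have := h6_isInvariant_fixed H
  have hτinv : ∀ b : integralClosure ℤ (AlgebraicClosure ℚ), (∀ h ∈ H, h • b = b) →
      τ⁻¹ • b - b ∈ P := by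
    intro b hb
    have h1 := hτ (τ⁻¹ • b) (h6_fixed_smul H τ⁻¹ b hb)
    rw [smul_inv_smul] at h1
    have h2 : τ⁻¹ • b - b = -(b - τ⁻¹ • b) := by ring
    rw [h2]
    exact neg_mem h1
  -- step (i): move `τ • P` back to `P` by an element of `H`
  have hunder : (τ • P).under (FixedPoints.subalgebra ℤ (integralClosure ℤ (AlgebraicClosure ℚ)) H)
      = P.under (FixedPoints.subalgebra ℤ (integralClosure ℤ (AlgebraicClosure ℚ)) H) := by
    ext x
    rw [Ideal.under_def, Ideal.under_def, Ideal.mem_comap, Ideal.mem_comap,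
      Ideal.mem_pointwise_smul_iff_inv_smul_mem]
    have hx : ∀ h ∈ H, h • (x : integralClosure ℤ (AlgebraicClosure ℚ)) = x :=
      fun h hh => x.2 ⟨h, hh⟩
    have h1 := hτinv x hx
    constructor
    · intro h2
      have := sub_mem h2 h1
      simpa using this
    · intro h2
      have := add_mem h1 h2
      simpa using this
  obtain ⟨h, hh⟩ := Algebra.IsInvariant.exists_smul_of_under_eq_of_profinite
    (A := FixedPoints.subalgebra ℤ (integralClosure ℤ (AlgebraicClosure ℚ)) H) (G := H)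
    (τ • P) P hunder
  -- step (ii): `τ' = h τ` stabilises `P` and acts trivially on the fixed ring modulo `P`
  have hτ'P : ((h : AlgebraicClosure ℚ ≃ₐ[ℚ] AlgebraicClosure ℚ) * τ) • P = P := by
    rw [mul_smul]
    exact hh.symm
  have hτ'fix : ∀ b : integralClosure ℤ (AlgebraicClosure ℚ), (∀ g ∈ H, g • b = b) →
      ((h : AlgebraicClosure ℚ ≃ₐ[ℚ] AlgebraicClosure ℚ) * τ) • b - b ∈ P := by
    intro b hb
    have h1 : ((h : AlgebraicClosure ℚ ≃ₐ[ℚ] AlgebraicClosure ℚ) * τ) • b = τ • b := by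
      rw [mul_smul]
      exact h6_fixed_smul H τ b hb h h.2
    rw [h1]
    exact hτ b hb
  let e0 := Ideal.Quotient.stabilizerHom P (P.under ℤ)
    (AlgebraicClosure ℚ ≃ₐ[ℚ] AlgebraicClosure ℚ)
    ⟨(h : AlgebraicClosure ℚ ≃ₐ[ℚ] AlgebraicClosure ℚ) * τ, MulAction.mem_stabilizer_iff.mpr hτ'P⟩
  let e : (integralClosure ℤ (AlgebraicClosure ℚ) ⧸ P) ≃ₐ[
      FixedPoints.subalgebra ℤ (integralClosure ℤ (AlgebraicClosure ℚ)) H ⧸
        P.under (FixedPoints.subalgebra ℤ (integralClosure ℤ (AlgebraicClosure ℚ)) H)]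
      (integralClosure ℤ (AlgebraicClosure ℚ) ⧸ P) :=
    AlgEquiv.ofRingEquiv (f := e0.toRingEquiv) (by
      intro x
      obtain ⟨x, rfl⟩ := Ideal.Quotient.mk_surjective x
      rw [Ideal.Quotient.algebraMap_mk_of_liesOver]
      show e0 (Ideal.Quotient.mk P (x : integralClosure ℤ (AlgebraicClosure ℚ))) = _
      rw [Ideal.Quotient.stabilizerHom_apply]
      exact Ideal.Quotient.eq.mpr (hτ'fix x (fun g hg => x.2 ⟨g, hg⟩)))
  obtain ⟨h', hh'⟩ := Ideal.Quotient.stabilizerHom_surjective_of_profinite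
    (A := FixedPoints.subalgebra ℤ (integralClosure ℤ (AlgebraicClosure ℚ)) H) (G := H)
    (P.under (FixedPoints.subalgebra ℤ (integralClosure ℤ (AlgebraicClosure ℚ)) H)) P e
  have hh'P : ((h' : H) : AlgebraicClosure ℚ ≃ₐ[ℚ] AlgebraicClosure ℚ) • P = P := h'.2
  have hcong : ∀ b : integralClosure ℤ (AlgebraicClosure ℚ),
      ((h' : H) : AlgebraicClosure ℚ ≃ₐ[ℚ] AlgebraicClosure ℚ) • b -
        ((h : AlgebraicClosure ℚ ≃ₐ[ℚ] AlgebraicClosure ℚ) * τ) • b ∈ P := by
    intro b
    have h2 := DFunLike.congr_fun hh' (Ideal.Quotient.mk P b)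
    rw [Ideal.Quotient.stabilizerHom_apply] at h2
    have h3 : e (Ideal.Quotient.mk P b) = Ideal.Quotient.mk P
        (((h : AlgebraicClosure ℚ ≃ₐ[ℚ] AlgebraicClosure ℚ) * τ) • b) := by
      show e0 (Ideal.Quotient.mk P b) = _
      rw [Ideal.Quotient.stabilizerHom_apply]
      rfl
    rw [h3] at h2
    exact Ideal.Quotient.eq.mp h2
  refine ⟨((h' : H) : AlgebraicClosure ℚ ≃ₐ[ℚ] AlgebraicClosure ℚ)⁻¹ *
    ((h : AlgebraicClosure ℚ ≃ₐ[ℚ] AlgebraicClosure ℚ) * τ), ?_, ?_, ?_⟩
  · rw [mul_smul, hτ'P, inv_smul_eq_iff, hh'P]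
  · intro b
    have h1 := hcong b
    have h2 : (((h' : H) : AlgebraicClosure ℚ ≃ₐ[ℚ] AlgebraicClosure ℚ)⁻¹ *
        ((h : AlgebraicClosure ℚ ≃ₐ[ℚ] AlgebraicClosure ℚ) * τ)) • b - b =
        ((h' : H) : AlgebraicClosure ℚ ≃ₐ[ℚ] AlgebraicClosure ℚ)⁻¹ •
          (-(((h' : H) : AlgebraicClosure ℚ ≃ₐ[ℚ] AlgebraicClosure ℚ) • b -
            ((h : AlgebraicClosure ℚ ≃ₐ[ℚ] AlgebraicClosure ℚ) * τ) • b)) := by
      rw [smul_neg, smul_sub, inv_smul_smul, mul_smul]
      ring
    rw [h2, ← Ideal.mem_pointwise_smul_iff_inv_smul_mem, hh'P]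
    exact neg_mem h1
  · have h1 : (((h' : H) : AlgebraicClosure ℚ ≃ₐ[ℚ] AlgebraicClosure ℚ)⁻¹ *
        ((h : AlgebraicClosure ℚ ≃ₐ[ℚ] AlgebraicClosure ℚ) * τ))⁻¹ * τ =
        τ⁻¹ * ((h : AlgebraicClosure ℚ ≃ₐ[ℚ] AlgebraicClosure ℚ)⁻¹ *
          ((h' : H) : AlgebraicClosure ℚ ≃ₐ[ℚ] AlgebraicClosure ℚ)) * τ := by
      group
    rw [h1]
    exact Subgroup.Normal.conj_mem' inferInstance _
      (H.mul_mem (H.inv_mem h.2) (h' : H).2) τ

/-- Membership in the centre in terms of nonunits. -/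
theorem h6_mem_centre_iff (A : ValuationSubring (AlgebraicClosure ℚ))
    (b : integralClosure ℤ (AlgebraicClosure ℚ)) :
    b ∈ centre A ↔ (b : AlgebraicClosure ℚ) ∈ A.nonunits := by
  rw [mem_centre_iff, ← ValuationSubring.coe_mem_nonunits_iff]
  rfl

/-- An automorphism stabilising the centre of `A` and acting trivially on the algebraic integers
modulo the centre lies in the inertia subgroup of `A`. -/
theorem h6_mem_inertia_of_centre (A : ValuationSubring (AlgebraicClosure ℚ)) (q : ℕ)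
    (hq : q.Prime) (hA : A.LiesOverPrime q)
    (σ : AlgebraicClosure ℚ ≃ₐ[ℚ] AlgebraicClosure ℚ) (hσP : σ • centre A = centre A)
    (hσ : ∀ b : integralClosure ℤ (AlgebraicClosure ℚ), σ • b - b ∈ centre A) :
    σ ∈ A.inertiaSubgroupIn ℚ := by
  have hσ_inv : σ⁻¹ • centre A = centre A := by rw [inv_smul_eq_iff, hσP]
  have hσA : σ • A = A := by
    apply SetLike.ext
    intro x
    rw [ValuationSubring.mem_pointwise_smul_iff_inv_smul_mem]
    constructor
    · intro hx
      have := smul_mem_valuationSubring A q hq hA σ hσP _ hx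
      simpa using this
    · intro hx
      exact smul_mem_valuationSubring A q hq hA σ⁻¹ hσ_inv x hx
  refine h6_mem_inertia_of A σ hσA ?_
  intro x hx
  obtain ⟨s, hs, hsx⟩ := exists_unit_mul_isIntegral A q hq hA x hx
  have h1 : σ ((s : AlgebraicClosure ℚ) * x) - (s : AlgebraicClosure ℚ) * x ∈ A.nonunits := by
    have := (h6_mem_centre_iff A _).mp (hσ ⟨(s : AlgebraicClosure ℚ) * x, hsx⟩)
    exact this
  have h2 : σ (s : AlgebraicClosure ℚ) - (s : AlgebraicClosure ℚ) ∈ A.nonunits := by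
    have := (h6_mem_centre_iff A _).mp (hσ s)
    exact this
  have hsA : (s : AlgebraicClosure ℚ) ∈ A := mem_valuationSubring_of_isIntegral A s.2
  have hσsA : σ (s : AlgebraicClosure ℚ) ∈ A :=
    mem_valuationSubring_of_isIntegral A (map_isIntegral_int σ s.2)
  have hs' : (s : AlgebraicClosure ℚ) ∉ A.nonunits := fun h => hs ((h6_mem_centre_iff A s).mpr h)
  -- valuation form
  rw [ValuationSubring.mem_nonunits_iff] at h1 h2 hs' ⊢
  rw [← ValuationSubring.valuation_le_one_iff] at hsA hσsA hx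
  have hs1 : A.valuation (s : AlgebraicClosure ℚ) = 1 := le_antisymm hsA (not_lt.mp hs')
  have hσs1 : A.valuation (σ (s : AlgebraicClosure ℚ)) = 1 := by
    have h3 : σ (s : AlgebraicClosure ℚ) =
        (s : AlgebraicClosure ℚ) + (σ (s : AlgebraicClosure ℚ) - (s : AlgebraicClosure ℚ)) := by
      ring
    rw [h3, Valuation.map_add_eq_of_lt_left _ (by rw [hs1]; exact h2), hs1]
  have h4 : σ (s : AlgebraicClosure ℚ) * (σ x - x) =
      (σ ((s : AlgebraicClosure ℚ) * x) - (s : AlgebraicClosure ℚ) * x) -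
        (σ (s : AlgebraicClosure ℚ) - (s : AlgebraicClosure ℚ)) * x := by
    rw [map_mul]
    ring
  have h5 : A.valuation (σ (s : AlgebraicClosure ℚ) * (σ x - x)) < 1 := by
    rw [h4]
    refine Valuation.map_sub_lt _ h1 ?_
    rw [map_mul]
    calc A.valuation (σ (s : AlgebraicClosure ℚ) - (s : AlgebraicClosure ℚ)) * A.valuation x
        ≤ A.valuation (σ (s : AlgebraicClosure ℚ) - (s : AlgebraicClosure ℚ)) * 1 :=
          mul_le_mul_right hx _
      _ < 1 := by rw [mul_one]; exact h2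
  rwa [map_mul, hσs1, one_mul] at h5

end lifting

section numberField

/-- A ramified prime of a Galois number field has a nontrivial inertia element. -/
theorem h6_exists_inertia_ne_one (K : Type*) [Field K] [NumberField K] [IsGalois ℚ K]
    (Q : Ideal (𝓞 K)) [Q.IsPrime]
    (hram : ¬ Algebra.IsUnramifiedAt ℤ Q) :
    ∃ τ : K ≃ₐ[ℚ] K, τ ≠ 1 ∧ ∀ x : 𝓞 K, τ • x - x ∈ Q := by
  have := IsGaloisGroup.of_isFractionRing Gal(K/ℚ) ℤ (𝓞 K) ℚ K
  have hcard := Ideal.card_inertia_eq_ramificationIdxIn (G := Gal(K/ℚ)) (Q.under ℤ) Q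
  rw [Ideal.ramificationIdxIn_eq_ramificationIdx (Q.under ℤ) Q Gal(K/ℚ)] at hcard
  have hne : Q.ramificationIdx ℤ ≠ 1 := fun h => hram (Ideal.ramificationIdx_eq_one_iff.mp h)
  rw [← hcard] at hne
  have hnt : Nontrivial (Ideal.inertia Gal(K/ℚ) Q) := by
    by_contra hcon
    rw [not_nontrivial_iff_subsingleton] at hcon
    exact hne (Nat.card_unique)
  obtain ⟨⟨τ, hτ⟩, hτ1⟩ := exists_ne (1 : Ideal.inertia Gal(K/ℚ) Q)
  refine ⟨τ, fun h => hτ1 (Subtype.ext h), fun x => ?_⟩
  exact hτ x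

/-- The inclusion of the ring of integers of a subfield of `Qbar` into the algebraic integers. -/
noncomputable def h6_iota (K : IntermediateField ℚ (AlgebraicClosure ℚ)) [NumberField K] :
    𝓞 K →+* integralClosure ℤ (AlgebraicClosure ℚ) :=
  ((algebraMap K (AlgebraicClosure ℚ)).comp (algebraMap (𝓞 K) K)).codRestrict
    (integralClosure ℤ (AlgebraicClosure ℚ)) (fun x =>
      (isIntegral_algebraMap_iff (algebraMap K (AlgebraicClosure ℚ)).injective).mpr
        (NumberField.RingOfIntegers.isIntegral_coe x))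

theorem h6_iota_coe (K : IntermediateField ℚ (AlgebraicClosure ℚ)) [NumberField K] (x : 𝓞 K) :
    ((h6_iota K x : integralClosure ℤ (AlgebraicClosure ℚ)) : AlgebraicClosure ℚ) =
      ((x : K) : AlgebraicClosure ℚ) := rfl

end numberField

section bridge

attribute [local instance] isAlgebraicQbar isAlgClosureQbar normalQbar isGaloisQbar
attribute [local instance] algIntAction algIntTopology algInt_discreteTopology
  algInt_smulCommClass algInt_isInvariant algInt_continuousSMul

/-- **Minkowski bridge.** A proper open normal subgroup of the absolute Galois group of `ℚ` is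
ramified at some prime `q`: no inertia subgroup above `q` is contained in it. -/
theorem h6_minkowski_bridge (H : Subgroup (AlgebraicClosure ℚ ≃ₐ[ℚ] AlgebraicClosure ℚ))
    [H.Normal] (hopen : IsOpen (H : Set (AlgebraicClosure ℚ ≃ₐ[ℚ] AlgebraicClosure ℚ)))
    (hH : H ≠ ⊤) :
    ∃ q : ℕ, q.Prime ∧ ∀ A : ValuationSubring (AlgebraicClosure ℚ), A.LiesOverPrime q →
      ∃ σ ∈ A.inertiaSubgroupIn ℚ, σ ∉ H := by
  have hclosed : IsClosed (H : Set (AlgebraicClosure ℚ ≃ₐ[ℚ] AlgebraicClosure ℚ)) :=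
    Subgroup.isClosed_of_isOpen H hopen
  obtain ⟨K, hK⟩ : ∃ K : IntermediateField ℚ (AlgebraicClosure ℚ),
      K = IntermediateField.fixedField H := ⟨_, rfl⟩
  have hfix : K.fixingSubgroup = H := by
    rw [hK]
    exact InfiniteGalois.fixingSubgroup_fixedField ⟨H, hclosed⟩
  have hfin : FiniteDimensional ℚ K := (InfiniteGalois.isOpen_iff_finite K).mp (by
    rw [hfix]; exact hopen)
  have hgal : IsGalois ℚ K := (InfiniteGalois.normal_iff_isGalois K).mp (by
    rw [hfix]; infer_instance)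
  have hnormal : Normal ℚ K := hgal.to_normal
  have hnf : NumberField K := { to_charZero := inferInstance, to_finiteDimensional := hfin }
  have hrank : 1 < Module.finrank ℚ K := by
    by_contra hcon
    have h0 := Module.finrank_pos (R := ℚ) (M := K)
    have h1 : Module.finrank ℚ K = 1 := by omega
    have h2 : K = ⊥ := IntermediateField.finrank_eq_one_iff.mp h1
    apply hH
    rw [← hfix, h2]
    exact IntermediateField.fixingSubgroup_bot
  obtain ⟨q, hq, hram⟩ :=
    NumberField.exists_not_isUnramifiedAt_int_of_isGalois (K := K) (𝒪 := 𝓞 K) hrank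
  refine ⟨q, hq, fun A hA => ?_⟩
  have hPprime : (centre A).IsPrime := centre_isPrime A
  have hQprime : ((centre A).comap (h6_iota K)).IsPrime := Ideal.comap_isPrime _ _
  have hqQ : ((q : ℕ) : 𝓞 K) ∈ (centre A).comap (h6_iota K) := by
    rw [Ideal.mem_comap, map_natCast]
    exact natCast_mem_centre A q hA
  obtain ⟨τbar, hτbar1, hτbar⟩ := h6_exists_inertia_ne_one K _ (hram _ hQprime hqQ)
  obtain ⟨τ, hτ⟩ := AlgEquiv.restrictNormalHom_surjective (F := ℚ) (K₁ := K)
    (AlgebraicClosure ℚ) τbar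
  have hτfix : ∀ b : integralClosure ℤ (AlgebraicClosure ℚ), (∀ h ∈ H, h • b = b) →
      τ • b - b ∈ centre A := by
    intro b hb
    have hbK : (b : AlgebraicClosure ℚ) ∈ K := by
      rw [hK, IntermediateField.mem_fixedField_iff]
      intro f hf
      exact congrArg Subtype.val (hb f hf)
    let x : 𝓞 K := ⟨⟨(b : AlgebraicClosure ℚ), hbK⟩,
      (isIntegral_algebraMap_iff (algebraMap K (AlgebraicClosure ℚ)).injective).mp b.2⟩
    have hx : h6_iota K x = b := Subtype.ext rfl
    have hτx : h6_iota K (τbar • x) = τ • b := by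
      apply Subtype.ext
      rw [h6_iota_coe, algIntAction_coe, ← hτ]
      exact AlgEquiv.restrictNormal_commutes τ K ⟨(b : AlgebraicClosure ℚ), hbK⟩
    have h1 := hτbar x
    rw [Ideal.mem_comap, map_sub, hτx, hx] at h1
    exact h1
  obtain ⟨σ, hσP, hσ, hστ⟩ := h6_lift_inertia H hclosed (centre A) τ hτfix
  refine ⟨σ, h6_mem_inertia_of_centre A q hq hA σ hσP hσ, fun hσH => ?_⟩
  have hτH : τ ∈ K.fixingSubgroup := by
    rw [hfix]
    have := H.mul_mem hσH hστ
    simpa using this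
  apply hτbar1
  rw [← hτ]
  ext x
  have h1 := AlgEquiv.restrictNormal_commutes τ K x
  exact h1.trans ((IntermediateField.mem_fixingSubgroup_iff K τ).mp hτH x x.2)

end bridge



end Fermat.Agent.S13
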