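import Mathlib
import Fermat.Agent.S13.h6_Mink
import Fermat.Prelude.Def_FLTPrelim_CofixedLine

set_option autoImplicit false

/-!
# S13 blocks [E]/[F]: the two subgroups `H1`, `H2` attached to a stable line and the abstract finish

`V` is an abstract `ZMod p`-module with an additive action of `Gal(Qbar/ℚ)`; the statements are
applied to `V = E[p](Qbar)`.
-/

namespace Fermat.Agent.S13

open scoped Pointwise

section subgroups

variable {G : Type*} [Group G] {p : ℕ} {V : Type*} [AddCommGroup V] [Module (ZMod p) V]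
  [DistribMulAction G V]

/-- The pointwise fixer of a submodule. -/
def h6_H1 (N : Submodule (ZMod p) V) : Subgroup G where
  carrier := {σ | ∀ x ∈ N, σ • x = x}
  one_mem' := fun x _ => one_smul _ x
  mul_mem' := by
    intro a b ha hb x hx
    rw [mul_smul, hb x hx, ha x hx]
  inv_mem' := by
    intro a ha x hx
    rw [inv_smul_eq_iff, ha x hx]

theorem h6_mem_H1 (N : Submodule (ZMod p) V) (σ : G) :
    σ ∈ (h6_H1 N : Subgroup G) ↔ ∀ x ∈ N, σ • x = x := Iff.rfl

/-- The subgroup acting trivially on `V ⧸ N`, for a stable submodule `N`. -/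
def h6_H2 (N : Submodule (ZMod p) V) (hN : ∀ σ : G, ∀ x ∈ N, σ • x ∈ N) : Subgroup G where
  carrier := {σ | ∀ x, σ • x - x ∈ N}
  one_mem' := fun x => by simp
  mul_mem' := by
    intro a b ha hb x
    have h1 : (a * b) • x - x = a • (b • x - x) + (a • x - x) := by
      rw [mul_smul, smul_sub]; abel
    rw [h1]
    exact N.add_mem (hN a _ (hb x)) (ha x)
  inv_mem' := by
    intro a ha x
    have h1 : a⁻¹ • x - x = -(a⁻¹ • (a • x - x)) := by
      rw [smul_sub, inv_smul_smul]; abel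
    rw [h1]
    exact N.neg_mem (hN a⁻¹ _ (ha x))

theorem h6_mem_H2 (N : Submodule (ZMod p) V) (hN : ∀ σ : G, ∀ x ∈ N, σ • x ∈ N) (σ : G) :
    σ ∈ h6_H2 N hN ↔ ∀ x, σ • x - x ∈ N := Iff.rfl

theorem h6_H1_normal (N : Submodule (ZMod p) V) (hN : ∀ σ : G, ∀ x ∈ N, σ • x ∈ N) :
    (h6_H1 N : Subgroup G).Normal := ⟨fun σ hσ g x hx => by
  show (g * σ * g⁻¹) • x = x
  rw [mul_smul, mul_smul, hσ _ (hN g⁻¹ x hx), smul_inv_smul]⟩

theorem h6_H2_normal (N : Submodule (ZMod p) V) (hN : ∀ σ : G, ∀ x ∈ N, σ • x ∈ N) :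
    (h6_H2 N hN).Normal := ⟨fun σ hσ g x => by
  show (g * σ * g⁻¹) • x - x ∈ N
  have h1 : (g * σ * g⁻¹) • x - x = g • (σ • (g⁻¹ • x) - g⁻¹ • x) := by
    rw [mul_smul, mul_smul, smul_sub, smul_inv_smul]
  rw [h1]
  exact hN g _ (hσ _)⟩

variable [TopologicalSpace G]

theorem h6_H1_isOpen [Finite V] (hopen : ∀ x : V, IsOpen {σ : G | σ • x = x})
    (N : Submodule (ZMod p) V) : IsOpen ((h6_H1 N : Subgroup G) : Set G) := by
  have h1 : ((h6_H1 N : Subgroup G) : Set G) = ⋂ x : N, {σ : G | σ • (x : V) = x} := by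
    ext σ
    simp only [SetLike.mem_coe, h6_mem_H1, Set.mem_iInter, Set.mem_ofPred_eq, Subtype.forall]
  rw [h1]
  exact isOpen_iInter_of_finite (fun x => hopen x)

theorem h6_H2_isOpen [IsTopologicalGroup G] [Finite V] (hopen : ∀ x : V, IsOpen {σ : G | σ • x = x})
    (N : Submodule (ZMod p) V) (hN : ∀ σ : G, ∀ x ∈ N, σ • x ∈ N) :
    IsOpen ((h6_H2 N hN : Subgroup G) : Set G) := by
  have h1 : (h6_H1 (⊤ : Submodule (ZMod p) V) : Subgroup G) ≤ h6_H2 N hN := by
    intro σ hσ x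
    rw [(h6_mem_H1 _ σ).mp hσ x trivial, sub_self]
    exact N.zero_mem
  exact Subgroup.isOpen_mono h1 (h6_H1_isOpen hopen ⊤)

end subgroups

section unipotent

variable {G : Type*} [Group G] {p : ℕ} [Fact p.Prime] {V : Type*} [AddCommGroup V]
  [Module (ZMod p) V] [DistribMulAction G V]

/-- The group action commutes with `ZMod p`-scalars. -/
theorem h6_smul_zmod_smul (σ : G) (c : ZMod p) (x : V) : σ • (c • x) = c • (σ • x) := by
  have h1 : ∀ y : V, c • y = c.val • y := by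
    intro y
    rw [← Nat.cast_smul_eq_nsmul (ZMod p), ZMod.natCast_zmod_val]
  rw [h1, h1]
  exact map_nsmul (DistribSMul.toAddMonoidHom V σ) c.val x

/-- The fixed points of `σ` as a submodule. -/
def h6_fixedSub (σ : G) : Submodule (ZMod p) V where
  carrier := {x | σ • x = x}
  zero_mem' := smul_zero σ
  add_mem' := by
    intro a b ha hb
    show σ • (a + b) = a + b
    rw [smul_add, ha, hb]
  smul_mem' := by
    intro c x hx
    show σ • (c • x) = c • x
    rw [h6_smul_zmod_smul, hx]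

/-- A unipotent automorphism of a plane stabilising a line `N` acts trivially on `N` and on the
quotient by `N`. -/
theorem h6_unipotent [Finite V] (hcard : Nat.card V ≤ p ^ 2) (N : Submodule (ZMod p) V)
    (hNbot : N ≠ ⊥) (hNtop : N ≠ ⊤) (σ : G) (hσN : ∀ x ∈ N, σ • x ∈ N)
    (hσ : ∀ x : V, σ • (σ • x - x) = σ • x - x) :
    (∀ x ∈ N, σ • x = x) ∧ (∀ x : V, σ • x - x ∈ N) := by
  have hp : p.Prime := Fact.out
  have hfinV : Module.Finite (ZMod p) V := Module.Finite.of_finite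
  have hV : Nat.card V = p ^ Module.finrank (ZMod p) V := by
    rw [Module.natCard_eq_pow_finrank (K := ZMod p) (V := V), Nat.card_zmod]
  have hV2 : Module.finrank (ZMod p) V ≤ 2 := by
    rw [hV] at hcard
    exact (Nat.pow_le_pow_iff_right hp.one_lt).mp hcard
  have hN1 : 0 < Module.finrank (ZMod p) N := by
    rw [Module.finrank_pos_iff (R := ZMod p)]
    exact (Submodule.nontrivial_iff_ne_bot).mpr hNbot
  have hN2 : Module.finrank (ZMod p) N < Module.finrank (ZMod p) V := Submodule.finrank_lt hNtop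
  have hNrank : Module.finrank (ZMod p) N = 1 := by omega
  have hVrank : Module.finrank (ZMod p) V = 2 := by omega
  -- (a)
  have ha : ∀ x ∈ N, σ • x = x := by
    intro x hx
    by_cases hx0 : x = 0
    · rw [hx0, smul_zero]
    have hx0' : (⟨x, hx⟩ : N) ≠ 0 := fun h => hx0 (congrArg Subtype.val h)
    obtain ⟨c, hc⟩ := (finrank_eq_one_iff_of_nonzero' (⟨x, hx⟩ : N) hx0').mp hNrank
      ⟨σ • x, hσN x hx⟩
    have hc' : c • x = σ • x := congrArg Subtype.val hc
    have h1 := hσ x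
    rw [← hc', smul_sub, h6_smul_zmod_smul, ← hc'] at h1
    have h2 : ((c - 1) * (c - 1)) • x = 0 := by
      have h3 : ((c - 1) * (c - 1)) • x = (c • c • x - c • x) - (c • x - x) := by
        rw [mul_smul, sub_smul, sub_smul, one_smul, one_smul, smul_sub]
      rw [h3, h1, sub_self]
    rcases smul_eq_zero.mp h2 with h4 | h4
    · have h5 : c - 1 = 0 := by
        rcases mul_eq_zero.mp h4 with h | h <;> exact h
      have h6 : c = 1 := sub_eq_zero.mp h5
      rw [← hc', h6, one_smul]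
    · exact absurd h4 hx0
  refine ⟨ha, ?_⟩
  intro x
  by_contra hy
  have hle : N ≤ h6_fixedSub (p := p) (V := V) σ := fun z hz => ha z hz
  have hymem : σ • x - x ∈ h6_fixedSub (p := p) (V := V) σ := hσ x
  have hlt : N < h6_fixedSub (p := p) (V := V) σ := by
    refine lt_of_le_of_ne hle ?_
    intro h
    exact hy (h ▸ hymem)
  have h1 := Submodule.finrank_lt_finrank_of_lt hlt
  have h2 : Module.finrank (ZMod p) (h6_fixedSub (p := p) (V := V) σ) ≤
      Module.finrank (ZMod p) V := Submodule.finrank_le _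
  have h3 : h6_fixedSub (p := p) (V := V) σ = ⊤ :=
    Submodule.eq_top_of_finrank_eq (by omega)
  have h4 : x ∈ h6_fixedSub (p := p) (V := V) σ := by rw [h3]; trivial
  have h5 : σ • x = x := h4
  apply hy
  rw [h5, sub_self]
  exact N.zero_mem

/-- Cardinality of a line in a plane. -/
theorem h6_card_line [Finite V] (hcard : Nat.card V ≤ p ^ 2) (N : Submodule (ZMod p) V)
    (hNbot : N ≠ ⊥) (hNtop : N ≠ ⊤) : Nat.card N = p := by
  have hp : p.Prime := Fact.out
  have hfinV : Module.Finite (ZMod p) V := Module.Finite.of_finite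
  have hV : Nat.card V = p ^ Module.finrank (ZMod p) V := by
    rw [Module.natCard_eq_pow_finrank (K := ZMod p) (V := V), Nat.card_zmod]
  have hV2 : Module.finrank (ZMod p) V ≤ 2 := by
    rw [hV] at hcard
    exact (Nat.pow_le_pow_iff_right hp.one_lt).mp hcard
  have hN1 : 0 < Module.finrank (ZMod p) N := by
    rw [Module.finrank_pos_iff (R := ZMod p)]
    exact (Submodule.nontrivial_iff_ne_bot).mpr hNbot
  have hN2 : Module.finrank (ZMod p) N < Module.finrank (ZMod p) V := Submodule.finrank_lt hNtop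
  have hNrank : Module.finrank (ZMod p) N = 1 := by omega
  rw [Module.natCard_eq_pow_finrank (K := ZMod p) (V := N), Nat.card_zmod, hNrank, pow_one]

end unipotent

section finish

variable {p : ℕ} [Fact p.Prime] {V : Type*} [AddCommGroup V] [Module (ZMod p) V]
  [DistribMulAction (AlgebraicClosure ℚ ≃ₐ[ℚ] AlgebraicClosure ℚ) V]

/-- **Abstract finish of S13.**  `V` a `ZMod p`-module of order `≤ p ^ 2` with an action of
`Gal(Qbar/ℚ)` with open stabilisers, `N` a Galois-stable line.  If inertia at `2` is unipotent,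
no nonzero vector is Galois-fixed, inertia at the odd primes `≠ p` is trivial, and at `p` the
dichotomy "trivial on `N` or on `V ⧸ N`" holds, then Galois acts trivially on `V ⧸ N`. -/
theorem h6_finish [Finite V]
    (hopen : ∀ x : V, IsOpen {σ : AlgebraicClosure ℚ ≃ₐ[ℚ] AlgebraicClosure ℚ | σ • x = x})
    (hcard : Nat.card V ≤ p ^ 2)
    (hC1 : ∀ A : ValuationSubring (AlgebraicClosure ℚ), A.LiesOverPrime 2 →
      ∀ σ ∈ A.inertiaSubgroupIn ℚ, ∀ x : V, σ • (σ • x - x) = σ • x - x)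
    (hC2 : ∀ x : V, (∀ σ : AlgebraicClosure ℚ ≃ₐ[ℚ] AlgebraicClosure ℚ, σ • x = x) → x = 0)
    (hD : ∀ q : ℕ, q.Prime → q ≠ 2 → q ≠ p → ∀ A : ValuationSubring (AlgebraicClosure ℚ),
      A.LiesOverPrime q → ∀ σ ∈ A.inertiaSubgroupIn ℚ, ∀ x : V, σ • x = x)
    (hB : ∀ N : Submodule (ZMod p) V,
      (∀ σ : AlgebraicClosure ℚ ≃ₐ[ℚ] AlgebraicClosure ℚ, ∀ x ∈ N, σ • x ∈ N) → Nat.card N = p →
      ∀ A : ValuationSubring (AlgebraicClosure ℚ), A.LiesOverPrime p →
        (∀ σ ∈ A.inertiaSubgroupIn ℚ, ∀ x ∈ N, σ • x = x) ∨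
        (∀ σ ∈ A.inertiaSubgroupIn ℚ, ∀ x : V, σ • x - x ∈ N))
    (N : Submodule (ZMod p) V)
    (hN : ∀ σ : AlgebraicClosure ℚ ≃ₐ[ℚ] AlgebraicClosure ℚ, ∀ x ∈ N, σ • x ∈ N)
    (hNbot : N ≠ ⊥) (hNtop : N ≠ ⊤) :
    ∀ σ : AlgebraicClosure ℚ ≃ₐ[ℚ] AlgebraicClosure ℚ, ∀ x : V, σ • x - x ∈ N := by
  have hp : p.Prime := Fact.out
  by_contra hcon
  have hH2 : h6_H2 N hN ≠ ⊤ := by
    intro h
    apply hcon
    intro σ x
    have h1 : σ ∈ h6_H2 N hN := by rw [h]; trivial
    exact h1 x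
  have hH1 : (h6_H1 N : Subgroup (AlgebraicClosure ℚ ≃ₐ[ℚ] AlgebraicClosure ℚ)) ≠ ⊤ := by
    intro h
    apply hNbot
    rw [Submodule.eq_bot_iff]
    intro x hx
    apply hC2 x
    intro σ
    have h1 : σ ∈ (h6_H1 N : Subgroup (AlgebraicClosure ℚ ≃ₐ[ℚ] AlgebraicClosure ℚ)) := by
      rw [h]; trivial
    exact h1 x hx
  have hn1 := h6_H1_normal (G := AlgebraicClosure ℚ ≃ₐ[ℚ] AlgebraicClosure ℚ) N hN
  have hn2 := h6_H2_normal (G := AlgebraicClosure ℚ ≃ₐ[ℚ] AlgebraicClosure ℚ) N hN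
  obtain ⟨q1, hq1, hb1⟩ := h6_minkowski_bridge _ (h6_H1_isOpen hopen N) hH1
  obtain ⟨q2, hq2, hb2⟩ := h6_minkowski_bridge _ (h6_H2_isOpen hopen N hN) hH2
  -- inertia at 2 and at odd primes `≠ p` lies in both subgroups
  have key : ∀ q : ℕ, q.Prime → q ≠ p → ∀ A : ValuationSubring (AlgebraicClosure ℚ),
      A.LiesOverPrime q → ∀ σ ∈ A.inertiaSubgroupIn ℚ,
        (∀ x ∈ N, σ • x = x) ∧ (∀ x : V, σ • x - x ∈ N) := by
    intro q hq hqp A hA σ hσ
    by_cases hq2' : q = 2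
    · subst hq2'
      exact h6_unipotent hcard N hNbot hNtop σ (hN σ) (hC1 A hA σ hσ)
    · have h1 := hD q hq hq2' hqp A hA σ hσ
      refine ⟨fun x _ => h1 x, fun x => ?_⟩
      rw [h1 x, sub_self]
      exact N.zero_mem
  have hq1p : q1 = p := by
    by_contra hne
    obtain ⟨A, hA⟩ := Fermat.Agent.S54.exists_liesOverPrime q1 hq1
    obtain ⟨σ, hσ, hσH⟩ := hb1 A hA
    exact hσH (key q1 hq1 hne A hA σ hσ).1
  have hq2p : q2 = p := by
    by_contra hne
    obtain ⟨A, hA⟩ := Fermat.Agent.S54.exists_liesOverPrime q2 hq2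
    obtain ⟨σ, hσ, hσH⟩ := hb2 A hA
    exact hσH (key q2 hq2 hne A hA σ hσ).2
  rw [hq1p] at hb1
  rw [hq2p] at hb2
  obtain ⟨A, hA⟩ := Fermat.Agent.S54.exists_liesOverPrime p hp
  rcases hB N hN (h6_card_line hcard N hNbot hNtop) A hA with h | h
  · obtain ⟨σ, hσ, hσH⟩ := hb1 A hA
    exact hσH (h σ hσ)
  · obtain ⟨σ, hσ, hσH⟩ := hb2 A hA
    exact hσH (h σ hσ)

end finish

section frey

open WeierstrassCurve WeierstrassCurve.Affine WeierstrassCurve.Affine.Point

attribute [local instance] Fermat.Agent.S54.isAlgebraicQbar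

/-- The stabiliser of a point with algebraic coordinates is open. -/
theorem h6_stab_point_isOpen (W : Affine ℚ) (T : (W⁄(AlgebraicClosure ℚ)).Point) :
    IsOpen {σ : AlgebraicClosure ℚ ≃ₐ[ℚ] AlgebraicClosure ℚ | σ • T = T} := by
  rcases T with _ | ⟨x, y, h⟩
  · have h1 : {σ : AlgebraicClosure ℚ ≃ₐ[ℚ] AlgebraicClosure ℚ |
        σ • (Affine.Point.zero : (W⁄(AlgebraicClosure ℚ)).Point) = Affine.Point.zero} =
        Set.univ := by
      ext σ
      simp only [Set.mem_ofPred_eq, Set.mem_univ, iff_true]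
      rfl
    rw [h1]
    exact isOpen_univ
  · have hx := stabilizer_isOpen_of_isIntegral (K := ℚ) (L := AlgebraicClosure ℚ) x
    have hy := stabilizer_isOpen_of_isIntegral (K := ℚ) (L := AlgebraicClosure ℚ) y
    have hsub : MulAction.stabilizer (AlgebraicClosure ℚ ≃ₐ[ℚ] AlgebraicClosure ℚ) x ⊓
        MulAction.stabilizer (AlgebraicClosure ℚ ≃ₐ[ℚ] AlgebraicClosure ℚ) y ≤
        MulAction.stabilizer (AlgebraicClosure ℚ ≃ₐ[ℚ] AlgebraicClosure ℚ)
          (Affine.Point.some x y h : (W⁄(AlgebraicClosure ℚ)).Point) := by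
      rintro σ ⟨h1, h2⟩
      have h1' : σ x = x := MulAction.mem_stabilizer_iff.mp h1
      have h2' : σ y = y := MulAction.mem_stabilizer_iff.mp h2
      rw [MulAction.mem_stabilizer_iff, algEquiv_smul_def, Affine.Point.map_some]
      congr 1
    have h3 := Subgroup.isOpen_mono hsub (by
      rw [Subgroup.coe_inf]
      exact hx.inter hy)
    convert h3 using 1
    ext σ
    exact MulAction.mem_stabilizer_iff.symm

/-- The stabiliser of a torsion point is open. -/
theorem h6_stab_torsion_isOpen (W : Affine ℚ) (n : ℕ)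
    (x : Submodule.torsionBy ℤ (W⁄(AlgebraicClosure ℚ)).Point n) :
    IsOpen {σ : AlgebraicClosure ℚ ≃ₐ[ℚ] AlgebraicClosure ℚ | σ • x = x} := by
  have h1 : {σ : AlgebraicClosure ℚ ≃ₐ[ℚ] AlgebraicClosure ℚ | σ • x = x} =
      {σ : AlgebraicClosure ℚ ≃ₐ[ℚ] AlgebraicClosure ℚ |
        σ • (x : (W⁄(AlgebraicClosure ℚ)).Point) = x} := by
    ext σ
    simp only [Set.mem_ofPred_eq]
    constructor
    · intro h
      exact congrArg Subtype.val h
    · intro h
      exact Subtype.ext h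
  rw [h1]
  exact h6_stab_point_isOpen W _

/-- **S13 from its blocks**: CARD, (C1) unipotent inertia at `2`, (C2) no Galois-fixed nonzero
`p`-torsion point, the dichotomy (FP3) at `p`, and triviality of inertia at the odd primes `≠ p`
(S05) give the cofixed line. -/
theorem h6_S13_of_blocks (P : FreyPackage)
    (hnt : Nontrivial (Submodule.torsionBy ℤ (P.freyCurve⁄(AlgebraicClosure ℚ)).Point P.p))
    (hfin : Finite (Submodule.torsionBy ℤ (P.freyCurve⁄(AlgebraicClosure ℚ)).Point P.p))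
    (hcard : Nat.card (Submodule.torsionBy ℤ (P.freyCurve⁄(AlgebraicClosure ℚ)).Point P.p) ≤
      P.p ^ 2)
    (hC1 : ∀ A : ValuationSubring (AlgebraicClosure ℚ), A.LiesOverPrime 2 →
      ∀ σ ∈ A.inertiaSubgroupIn ℚ,
      ∀ x : Submodule.torsionBy ℤ (P.freyCurve⁄(AlgebraicClosure ℚ)).Point P.p,
        σ • (σ • x - x) = σ • x - x)
    (hC2 : ∀ x : Submodule.torsionBy ℤ (P.freyCurve⁄(AlgebraicClosure ℚ)).Point P.p,
      (∀ σ : AlgebraicClosure ℚ ≃ₐ[ℚ] AlgebraicClosure ℚ, σ • x = x) → x = 0)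
    (hD : ∀ q : ℕ, q.Prime → q ≠ 2 → q ≠ P.p → P.GaloisRepUnramifiedAt q)
    (hB : ∀ A : ValuationSubring (AlgebraicClosure ℚ), A.LiesOverPrime P.p →
      ∀ N : Submodule (ZMod P.p)
        (Submodule.torsionBy ℤ (P.freyCurve⁄(AlgebraicClosure ℚ)).Point P.p),
      IsGaloisStable ℚ N → Nat.card N = P.p →
        (∀ σ ∈ A.inertiaSubgroupIn ℚ, ∀ x ∈ N, σ • x = x) ∨
        (∀ σ ∈ A.inertiaSubgroupIn ℚ,
          ∀ x : Submodule.torsionBy ℤ (P.freyCurve⁄(AlgebraicClosure ℚ)).Point P.p,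
            σ • x - x ∈ N))
    (hred : ¬ GaloisRepIsIrreducible (K := AlgebraicClosure ℚ) ℚ P.freyCurve P.p) :
    HasGaloisStableCofixedLine (K := AlgebraicClosure ℚ) ℚ P.freyCurve P.p := by
  have : Fact P.p.Prime := ⟨P.pp⟩
  have hex : ∃ N : Submodule (ZMod P.p)
      (Submodule.torsionBy ℤ (P.freyCurve⁄(AlgebraicClosure ℚ)).Point P.p),
      IsGaloisStable ℚ N ∧ N ≠ ⊥ ∧ N ≠ ⊤ := by
    by_contra hcon
    apply hred
    refine ⟨hnt, fun N hN => ?_⟩
    by_contra h
    push Not at h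
    exact hcon ⟨N, hN, h.1, h.2⟩
  obtain ⟨N, hN, hNbot, hNtop⟩ := hex
  refine ⟨N, hN, hNbot, hNtop, ?_⟩
  exact h6_finish (p := P.p) (fun x => h6_stab_torsion_isOpen P.freyCurve P.p x) hcard hC1 hC2
    (fun q hq hq2 hqp A hA σ hσ x => hD q hq hq2 hqp A hA σ hσ x)
    (fun N' hN' hc A hA => hB A hA N' hN' hc) N hN hNbot hNtop

end frey

end Fermat.Agent.S13
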