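import Fermat.Agent.S13.h99_NodeS
import Fermat.Agent.S05.h80_Level

/-
helper99, project S13, block [C]-CORE, part (N6): the level lemma on the split nodal form
`Y² + d X Y = X³ + c X` in every residue characteristic, obtained from the abstract level
lemma `Fermat.Agent.S05.h80_level` and the rules (N2)-(N5) of `h99_NodeS`.
-/

set_option autoImplicit false

namespace Fermat.Agent.S13

open WeierstrassCurve

section

variable {K : Type*} [Field K] [DecidableEq K] (A : ValuationSubring K) (d c : K)

/-- **Level lemma** (split nodal form, any residue characteristic): if a multiple `n • T` of a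
level-`γ` point does not reduce to the node, then `γ ^ n` is an even power of `v(c)`. -/
theorem h99_level (hd : A.valuation d = 1) (hc : A.valuation c < 1) (hc0 : c ≠ 0)
    {γ : A.ValueGroup} {T : (h45_nodalW d c).toAffine.Point} (hT : h45_InC d c A γ T) (n : ℕ)
    (hn : ¬ h45_IsN d c A (n • T)) : ∃ j : ℕ, γ ^ n = A.valuation c ^ (2 * j) := by
  have hγ : A.valuation c < γ := by
    obtain ⟨X, Y, h, -, -, h1, -, -⟩ := hT
    exact h1
  have hγ1 : γ < 1 := by
    obtain ⟨X, Y, h, -, -, -, h1, -⟩ := hT
    exact h1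
  exact Fermat.Agent.S05.h80_level (h99_E0 A d c hd hc) (fun g => {P | h45_InC d c A g P})
    (h99_T0 d c hc0) (A.valuation c) (A.valuation.pos_iff.mpr hc0) (h99_T0_add_T0 d c hc0)
    (fun h => h (h99_isN_T0 A d c hc0))
    (fun c1 c2 _ hlt _ P hP P' hP' => h99_inC_sub A d c hd hP hP' hlt)
    (fun g _ _ P hP P' hP' => h99_inC_sub_not_isN A d c hd hP hP')
    (fun g _ _ P hP => h99_inC_neg_add_T0 A d c hc0 hP)
    (fun g _ _ P hP hmem => hmem (h99_inC_isN A d c hP))
    (fun g _ _ P hP hmem => hmem (h99_inC_add_T0_isN A d c hc0 hP))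
    hγ hγ1 hT n hn

/-- Level lemma for torsion points: a level-`γ` point killed by `n` has `γ ^ n` an even power
of `v(c)`. -/
theorem h99_level_torsion (hd : A.valuation d = 1) (hc : A.valuation c < 1) (hc0 : c ≠ 0)
    {γ : A.ValueGroup} {T : (h45_nodalW d c).toAffine.Point} (hT : h45_InC d c A γ T) (n : ℕ)
    (hn : n • T = 0) : ∃ j : ℕ, γ ^ n = A.valuation c ^ (2 * j) :=
  h99_level A d c hd hc hc0 hT n (by rw [hn]; exact h99_not_isN_zero A d c)

/-- A point of the middle component is never killed by an odd number. -/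
theorem h99_inM_odd_nsmul_ne_zero (hd : A.valuation d = 1) (hc : A.valuation c < 1)
    (hc0 : c ≠ 0) {T : (h45_nodalW d c).toAffine.Point} (hT : h45_InM d c A T) {n : ℕ}
    (hn : Odd n) : n • T ≠ 0 :=
  Fermat.Agent.S05.h80_odd_nsmul_ne_zero_of_mem_coset (h99_E0 A d c hd hc) (h99_T0 d c hc0)
    (h99_T0_add_T0 d c hc0) (fun h => h (h99_isN_T0 A d c hc0))
    (h99_inM_add_T0 A d c hc0 hT) hn

/-- **Torsion points of odd order** on the split nodal form: such a point either does not reduce
to the node (it lies in `E₀`), or it lies on one of the two branches at a level `g` with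
`g ^ n` an even power of `v(c)`. -/
theorem h99_torsion_cases (hd : A.valuation d = 1) (hc : A.valuation c < 1) (hc0 : c ≠ 0)
    {T : (h45_nodalW d c).toAffine.Point} {n : ℕ} (hn : Odd n) (hT : n • T = 0) :
    ¬ h45_IsN d c A T ∨
      ∃ g : A.ValueGroup, (h45_InC d c A g T ∨ h45_InC d c A g (-T)) ∧
        ∃ j : ℕ, g ^ n = A.valuation c ^ (2 * j) := by
  by_cases hN : h45_IsN d c A T
  · right
    rcases h99_trichotomy A d c hN with ⟨g, hg⟩ | ⟨g, hg⟩ | hM
    · exact ⟨g, Or.inl hg, h99_level_torsion A d c hd hc hc0 hg n hT⟩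
    · refine ⟨g, Or.inr hg, h99_level_torsion A d c hd hc hc0 hg n ?_⟩
      rw [smul_neg, hT, neg_zero]
    · exact absurd hT (h99_inM_odd_nsmul_ne_zero A d c hd hc hc0 hM hn)
  · exact Or.inl hN

end

end Fermat.Agent.S13
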