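import Fermat.Agent.S13.h45_NodalDefs

/-
helper99, project S13, block [C]-CORE: the node theory on the split nodal form
`Y² + d X Y = X³ + c X` (definitions `h45_nodalW`, `h45_IsN`, `h45_InC`, `h45_InM` of
`h45_NodalDefs`), valid in every residue characteristic: the only hypotheses are
`v d = 1`, `v c < 1`, `c ≠ 0`.  Branch coordinates `s = Y`, `t = Y + d X`, `s t = X (X² + c)`;
negation is `(X, s) ↦ (X, -t)`; the two-torsion point `(0,0)` exchanges the branches.

Contents: (N0) ellipticity, the point `(0,0)`, translation by it; (N1) trichotomy;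
(N2) the subgroup `E₀` of points not reducing to the node; (N3) `hkey`; (N4) `hsub`;
(N5) `hneg`, `hd1`, `hd2`, middle component.
-/

set_option autoImplicit false

namespace Fermat.Agent.S13

open WeierstrassCurve

/-! ### (N0) basic facts -/

section

variable {K : Type*} [Field K] (A : ValuationSubring K) (d c : K)

/-- Integers have valuation at most one. -/
lemma h99_val_natCast_le (n : ℕ) : A.valuation (n : K) ≤ 1 := by
  rw [A.valuation_le_one_iff]
  exact natCast_mem A n

/-- Under the multiplicative-reduction hypotheses the curve is elliptic (no hypothesis on the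
residue characteristic). -/
theorem h99_isElliptic (hd : A.valuation d = 1) (hc : A.valuation c < 1) (hc0 : c ≠ 0) :
    (h45_nodalW d c).IsElliptic := by
  refine ⟨?_⟩
  rw [h45_nodalW_Δ]
  have h64 : A.valuation (64 * c) < 1 := by
    rw [map_mul]
    have h := h99_val_natCast_le A 64
    have h' : A.valuation (64 : K) ≤ 1 := by exact_mod_cast h
    calc A.valuation (64 : K) * A.valuation c ≤ 1 * A.valuation c := mul_le_mul' h' le_rfl
      _ = A.valuation c := one_mul _
      _ < 1 := hc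
  have hd4 : A.valuation (d ^ 4) = 1 := by rw [map_pow, hd, one_pow]
  have hne : d ^ 4 - 64 * c ≠ 0 := by
    intro h
    have : A.valuation (d ^ 4 - 64 * c) = 1 := by
      rw [Valuation.map_sub_eq_of_lt_left _ (by rw [hd4]; exact h64), hd4]
    rw [h, map_zero] at this
    exact zero_ne_one this
  exact (mul_ne_zero (pow_ne_zero _ hc0) hne).isUnit

lemma h99_nonsingular_T0 (hc0 : c ≠ 0) : (h45_nodalW d c).toAffine.Nonsingular 0 0 := by
  rw [Affine.nonsingular_iff']
  refine ⟨?_, ?_⟩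
  · rw [h45_nodalW_equation_iff]; ring
  · left
    simp [hc0]

/-- The two-torsion point `(0, 0)` of `Y² + d X Y = X³ + c X` (`c ≠ 0`). -/
noncomputable def h99_T0 (hc0 : c ≠ 0) : (h45_nodalW d c).toAffine.Point :=
  Affine.Point.some 0 0 (h99_nonsingular_T0 d c hc0)

variable [DecidableEq K]

lemma h99_T0_add_T0 (hc0 : c ≠ 0) : h99_T0 d c hc0 + h99_T0 d c hc0 = 0 := by
  unfold h99_T0
  apply Affine.Point.add_of_Y_eq rfl
  simp [Affine.negY]

omit [DecidableEq K] in
/-- Transport of an affine point along equalities of coordinates. -/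
lemma h99_some_congr {W : WeierstrassCurve K} {x y x' y' : K}
    (h : W.toAffine.Nonsingular x y) (hx : x = x') (hy : y = y') :
    ∃ h' : W.toAffine.Nonsingular x' y',
      Affine.Point.some x y h = Affine.Point.some x' y' h' := by
  subst hx hy
  exact ⟨h, rfl⟩

/-- A general coordinate-level description of a sum of two affine points. -/
lemma h99_some_add_some {W : WeierstrassCurve K} {x₁ y₁ x₂ y₂ x₃ y₃ : K}
    (h₁ : W.toAffine.Nonsingular x₁ y₁) (h₂ : W.toAffine.Nonsingular x₂ y₂)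
    (hxy : ¬(x₁ = x₂ ∧ y₁ = W.toAffine.negY x₂ y₂))
    (hx : x₃ = W.toAffine.addX x₁ x₂ (W.toAffine.slope x₁ x₂ y₁ y₂))
    (hy : y₃ = W.toAffine.addY x₁ x₂ y₁ (W.toAffine.slope x₁ x₂ y₁ y₂)) :
    ∃ h₃ : W.toAffine.Nonsingular x₃ y₃,
      Affine.Point.some x₁ y₁ h₁ + Affine.Point.some x₂ y₂ h₂ = Affine.Point.some x₃ y₃ h₃ := by
  subst hx hy
  exact ⟨_, Affine.Point.add_some hxy⟩

omit [DecidableEq K] in
/-- Negation on the split nodal form is `(X, Y) ↦ (X, -Y - d X)`, i.e. `(X, s) ↦ (X, -t)`. -/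
lemma h99_neg_some {X Y : K} (h : (h45_nodalW d c).toAffine.Nonsingular X Y) :
    ∃ h' : (h45_nodalW d c).toAffine.Nonsingular X (-(Y + d * X)),
      -Affine.Point.some X Y h = Affine.Point.some X (-(Y + d * X)) h' := by
  rw [Affine.Point.neg_some]
  exact h99_some_congr _ rfl (by rw [h45_nodalW_negY]; ring)

/-- Translation by the two-torsion point `(0,0)`:
`(X, Y) ↦ (c / X, -(c / X²) (Y + d X))`; it exchanges the two branches. -/
lemma h99_add_T0 (hc0 : c ≠ 0) {X Y : K} (h : (h45_nodalW d c).toAffine.Nonsingular X Y)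
    (hX : X ≠ 0) :
    ∃ h' : (h45_nodalW d c).toAffine.Nonsingular (c / X) (-(c / X ^ 2) * (Y + d * X)),
      Affine.Point.some X Y h + h99_T0 d c hc0 =
        Affine.Point.some (c / X) (-(c / X ^ 2) * (Y + d * X)) h' := by
  unfold h99_T0
  have heq : Y ^ 2 + d * X * Y = X ^ 3 + c * X := (h45_nodalW_equation_iff d c X Y).mp h.1
  apply h99_some_add_some
  · exact fun hh => hX hh.1
  · rw [Affine.slope_of_X_ne hX]
    simp only [Affine.addX, h45_nodalW_a₁, h45_nodalW_a₂, sub_zero]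
    field_simp
    linear_combination (-1 : K) * heq
  · rw [Affine.slope_of_X_ne hX]
    simp only [Affine.addY, Affine.negY, Affine.negAddY, Affine.addX, h45_nodalW_a₁, h45_nodalW_a₂,
      h45_nodalW_a₃, sub_zero]
    field_simp
    linear_combination (Y + d * X) * heq

end

/-! ### Membership lemmas -/

section

variable {K : Type*} [Field K] [DecidableEq K] (A : ValuationSubring K) (d c : K)

omit [DecidableEq K] in
lemma h99_isN_some {X Y : K} (h : (h45_nodalW d c).toAffine.Nonsingular X Y) :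
    h45_IsN d c A (Affine.Point.some X Y h) ↔ A.valuation X < 1 := by
  constructor
  · rintro ⟨X', Y', h', he, hv⟩
    cases he
    exact hv
  · exact fun hv => ⟨X, Y, h, rfl, hv⟩

omit [DecidableEq K] in
lemma h99_not_isN_zero : ¬ h45_IsN d c A 0 := by
  rintro ⟨X, Y, h, he, -⟩
  exact Affine.Point.some_ne_zero h he.symm

omit [DecidableEq K] in
lemma h99_inC_some (g : A.ValueGroup) {X Y : K}
    (h : (h45_nodalW d c).toAffine.Nonsingular X Y) :
    h45_InC d c A g (Affine.Point.some X Y h) ↔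
      A.valuation X = g ∧ A.valuation c < g ∧ g < 1 ∧ A.valuation Y < g := by
  constructor
  · rintro ⟨X', Y', h', he, hv⟩
    cases he
    exact hv
  · exact fun hv => ⟨X, Y, h, rfl, hv⟩

omit [DecidableEq K] in
lemma h99_inM_some {X Y : K} (h : (h45_nodalW d c).toAffine.Nonsingular X Y) :
    h45_InM d c A (Affine.Point.some X Y h) ↔ A.valuation X ≤ A.valuation c := by
  constructor
  · rintro ⟨X', Y', h', he, hv⟩
    cases he
    exact hv
  · exact fun hv => ⟨X, Y, h, rfl, hv⟩

omit [DecidableEq K] in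
theorem h99_isN_neg_iff {P : (h45_nodalW d c).toAffine.Point} :
    h45_IsN d c A (-P) ↔ h45_IsN d c A P := by
  have key : ∀ Q : (h45_nodalW d c).toAffine.Point, h45_IsN d c A Q → h45_IsN d c A (-Q) := by
    rintro Q ⟨X, Y, h, rfl, hv⟩
    rw [Affine.Point.neg_some]
    exact ⟨X, _, _, rfl, hv⟩
  constructor
  · intro h
    have := key _ h
    rwa [neg_neg] at this
  · exact key P

omit [DecidableEq K] in
lemma h99_isN_T0 (hc0 : c ≠ 0) : h45_IsN d c A (h99_T0 d c hc0) := by
  unfold h99_T0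
  rw [h99_isN_some]
  simp

omit [DecidableEq K] in
lemma h99_inC_isN {g : A.ValueGroup} {P : (h45_nodalW d c).toAffine.Point}
    (hP : h45_InC d c A g P) : h45_IsN d c A P := by
  obtain ⟨X, Y, h, rfl, hX, -, hg1, -⟩ := hP
  rw [h99_isN_some, hX]
  exact hg1

omit [DecidableEq K] in
/-- On the branch `s ≈ 0` the other branch coordinate `t = Y + d X` has the valuation of `X`. -/
lemma h99_val_t (hd : A.valuation d = 1) {g : A.ValueGroup} {X Y : K}
    (hX : A.valuation X = g) (hs : A.valuation Y < g) : A.valuation (Y + d * X) = g := by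
  have hdX : A.valuation (d * X) = g := by rw [map_mul, hd, one_mul, hX]
  rw [Valuation.map_add_eq_of_lt_right _ (by rw [hdX]; exact hs), hdX]

/-! ### (N1) trichotomy -/

omit [DecidableEq K] in
/-- In the node region away from the middle component, at least one of the branch
coordinates `s = Y`, `t = Y + d X` is smaller than `X`. -/
theorem h99_s_or_t {X Y : K} (hE : Y ^ 2 + d * X * Y = X ^ 3 + c * X)
    (hX1 : A.valuation X < 1) (hcX : A.valuation c < A.valuation X) :
    A.valuation Y < A.valuation X ∨ A.valuation (Y + d * X) < A.valuation X := by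
  by_contra hcon
  push Not at hcon
  obtain ⟨h1, h2⟩ := hcon
  have hst : Y * (Y + d * X) = X * (X ^ 2 + c) := by
    linear_combination hE
  have hpos : 0 < A.valuation X := lt_of_le_of_lt zero_le hcX
  have hle : A.valuation X * A.valuation X ≤ A.valuation X * A.valuation (X ^ 2 + c) := by
    rw [← map_mul A.valuation X (X ^ 2 + c), ← hst, map_mul]
    exact mul_le_mul' h1 h2
  have hlt : A.valuation (X ^ 2 + c) < A.valuation X := by
    apply Valuation.map_add_lt
    · rw [map_pow, pow_two]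
      calc A.valuation X * A.valuation X < A.valuation X * 1 :=
            mul_lt_mul_of_pos_left hX1 hpos
        _ = A.valuation X := mul_one _
    · exact hcX
  exact absurd (mul_lt_mul_of_pos_left hlt hpos) (not_lt.mpr hle)

omit [DecidableEq K] in
/-- Every point reducing to the node lies on the branch `s ≈ 0` (`InC g P`), on the branch
`t ≈ 0` (`InC g (-P)`), or in the middle component. -/
theorem h99_trichotomy {P : (h45_nodalW d c).toAffine.Point} (hP : h45_IsN d c A P) :
    (∃ g, h45_InC d c A g P) ∨ (∃ g, h45_InC d c A g (-P)) ∨ h45_InM d c A P := by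
  obtain ⟨X, Y, h, rfl, hX⟩ := hP
  by_cases hcX : A.valuation X ≤ A.valuation c
  · right; right; exact ⟨X, Y, h, rfl, hcX⟩
  · push Not at hcX
    have hE := (h45_nodalW_equation_iff d c X Y).mp h.1
    rcases h99_s_or_t A d c hE hX hcX with hs | ht
    · left; exact ⟨_, X, Y, h, rfl, rfl, hcX, hX, hs⟩
    · right; left
      obtain ⟨h', e'⟩ := h99_neg_some d c h
      rw [e']
      refine ⟨A.valuation X, X, _, h', rfl, rfl, hcX, hX, ?_⟩
      rw [Valuation.map_neg]; exact ht

/-! ### (N2) the subgroup `E₀` of points not reducing to the node -/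

lemma h99_slope_chord {W : WeierstrassCurve K} {x₁ x₂ y₁ y₂ : K} (hx : x₁ ≠ x₂) :
    W.toAffine.slope x₁ x₂ y₁ y₂ * (x₁ - x₂) = y₁ - y₂ := by
  rw [Affine.slope_of_X_ne hx]
  exact div_mul_cancel₀ _ (sub_ne_zero.mpr hx)

lemma h99_slope_tangent {x y : K} (hy : y ≠ (h45_nodalW d c).toAffine.negY x y) :
    (h45_nodalW d c).toAffine.slope x x y y * (2 * y + d * x) = 3 * x ^ 2 + c - d * y := by
  rw [Affine.slope_of_Y_ne rfl hy]
  have hD : y - (h45_nodalW d c).toAffine.negY x y ≠ 0 := sub_ne_zero.mpr hy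
  have hD' : y - (h45_nodalW d c).toAffine.negY x y = 2 * y + d * x := by
    rw [h45_nodalW_negY]; ring
  rw [hD'] at hD ⊢
  simp only [h45_nodalW_a₁, h45_nodalW_a₂, h45_nodalW_a₄]
  rw [div_mul_cancel₀ _ hD]
  ring

omit [DecidableEq K] in
/-- Two affine points with the same `X` have `Y₁ = Y₂` or `Y₁ = negY Y₂`. -/
lemma h99_Y_eq_or {X Y1 Y2 : K} (h1 : Y1 ^ 2 + d * X * Y1 = X ^ 3 + c * X)
    (h2 : Y2 ^ 2 + d * X * Y2 = X ^ 3 + c * X) : Y1 = Y2 ∨ Y1 = -Y2 - d * X := by
  have : (Y1 - Y2) * (Y1 - (-Y2 - d * X)) = 0 := by linear_combination h1 - h2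
  rcases mul_eq_zero.mp this with h | h
  · exact Or.inl (sub_eq_zero.mp h)
  · exact Or.inr (sub_eq_zero.mp h)

/-- The product formula `X(P₁ + P₂) · (Y₁ X₂ + Y₂ X₁ + d X₁ X₂)² = X₁ X₂ (X₁ X₂ - c)²` on
`Y² + d X Y = X³ + c X`, valid for chords and tangents alike. -/
theorem h99_addX_mul {X1 Y1 X2 Y2 : K}
    (h1 : Y1 ^ 2 + d * X1 * Y1 = X1 ^ 3 + c * X1) (h2 : Y2 ^ 2 + d * X2 * Y2 = X2 ^ 3 + c * X2)
    (hX1 : X1 ≠ 0) (hX2 : X2 ≠ 0)
    (hxy : ¬(X1 = X2 ∧ Y1 = (h45_nodalW d c).toAffine.negY X2 Y2)) :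
    (h45_nodalW d c).toAffine.addX X1 X2 ((h45_nodalW d c).toAffine.slope X1 X2 Y1 Y2) *
        (Y1 * X2 + Y2 * X1 + d * X1 * X2) ^ 2 = X1 * X2 * (X1 * X2 - c) ^ 2 := by
  by_cases hx : X1 = X2
  · subst hx
    have hy : Y1 ≠ (h45_nodalW d c).toAffine.negY X1 Y2 := fun h => hxy ⟨rfl, h⟩
    have hY : Y1 = Y2 := by
      rcases h99_Y_eq_or d c h1 h2 with h | h
      · exact h
      · exact absurd (by rw [h45_nodalW_negY]; exact h) hy
    subst hY
    have hℓ := h99_slope_tangent d c hy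
    generalize (h45_nodalW d c).toAffine.slope X1 X1 Y1 Y1 = ℓ at hℓ ⊢
    simp only [Affine.addX, h45_nodalW_a₁, h45_nodalW_a₂]
    linear_combination (X1 ^ 2 * (ℓ * (2 * Y1 + d * X1) + (3 * X1 ^ 2 + c - d * Y1) +
      d * (2 * Y1 + d * X1))) * hℓ - (X1 ^ 2 * (d ^ 2 + 8 * X1)) * h1
  · have hℓ : (h45_nodalW d c).toAffine.slope X1 X2 Y1 Y2 * (X1 - X2) = Y1 - Y2 :=
      h99_slope_chord hx
    generalize (h45_nodalW d c).toAffine.slope X1 X2 Y1 Y2 = ℓ at hℓ ⊢
    have hd0 : X1 - X2 ≠ 0 := sub_ne_zero.mpr hx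
    simp only [Affine.addX, h45_nodalW_a₁, h45_nodalW_a₂]
    have hA : (ℓ ^ 2 + d * ℓ - X1 - X2) * (X1 - X2) ^ 2 =
        (X1 + X2) * (X1 * X2 + c) - 2 * Y1 * Y2 - d * (X2 * Y1 + X1 * Y2) := by
      linear_combination (ℓ * (X1 - X2) + (Y1 - Y2) + d * (X1 - X2)) * hℓ + h1 + h2
    have hB : X1 * X2 * ((X1 + X2) * (X1 * X2 + c) - 2 * Y1 * Y2 - d * (X2 * Y1 + X1 * Y2)) =
        (Y1 * X2 - Y2 * X1) ^ 2 := by
      linear_combination (-X2 ^ 2) * h1 + (-X1 ^ 2) * h2
    have hC : (Y1 * X2 - Y2 * X1) * (Y1 * X2 + Y2 * X1 + d * X1 * X2) =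
        X1 * X2 * (X1 - X2) * (X1 * X2 - c) := by
      linear_combination X2 ^ 2 * h1 - X1 ^ 2 * h2
    apply mul_left_cancel₀ (mul_ne_zero (mul_ne_zero hX1 hX2) (pow_ne_zero 2 hd0))
    linear_combination (X1 * X2 * (Y1 * X2 + Y2 * X1 + d * X1 * X2) ^ 2) * hA +
      (Y1 * X2 + Y2 * X1 + d * X1 * X2) ^ 2 * hB +
      ((Y1 * X2 - Y2 * X1) * (Y1 * X2 + Y2 * X1 + d * X1 * X2) +
        X1 * X2 * (X1 - X2) * (X1 * X2 - c)) * hC

omit [DecidableEq K] in
/-- On an affine point with `v X ≥ 1` we have `v Y ^ 2 ≤ v X ^ 3`. -/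
theorem h99_val_Y_sq_le (hd : A.valuation d = 1) (hc : A.valuation c < 1) {X Y : K}
    (h : Y ^ 2 + d * X * Y = X ^ 3 + c * X) (hX : 1 ≤ A.valuation X) :
    A.valuation Y ^ 2 ≤ A.valuation X ^ 3 := by
  by_contra hcon
  rw [not_le] at hcon
  have hX0 : 0 < A.valuation X := lt_of_lt_of_le zero_lt_one hX
  have hX2 : A.valuation X ^ 2 ≤ A.valuation X ^ 3 := by
    calc A.valuation X ^ 2 = A.valuation X ^ 2 * 1 := (mul_one _).symm
      _ ≤ A.valuation X ^ 2 * A.valuation X := mul_le_mul' le_rfl hX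
      _ = A.valuation X ^ 3 := by rw [← pow_succ]
  have hX1 : A.valuation X ≤ A.valuation X ^ 2 := by
    calc A.valuation X = A.valuation X * 1 := (mul_one _).symm
      _ ≤ A.valuation X * A.valuation X := mul_le_mul' le_rfl hX
      _ = A.valuation X ^ 2 := by rw [pow_two]
  have hXY : A.valuation X < A.valuation Y := by
    by_contra hle
    rw [not_lt] at hle
    exact absurd hcon (not_lt.mpr ((pow_le_pow_left' hle 2).trans hX2))
  have hY0 : 0 < A.valuation Y := lt_trans hX0 hXY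
  have hlhs : A.valuation (Y ^ 2 + d * X * Y) = A.valuation Y ^ 2 := by
    have h2 : A.valuation (d * X * Y) < A.valuation (Y ^ 2) := by
      rw [map_mul, map_mul, hd, one_mul, map_pow, pow_two]
      exact mul_lt_mul_of_pos_right hXY hY0
    rw [Valuation.map_add_eq_of_lt_left _ h2, map_pow]
  have hrhs : A.valuation (X ^ 3 + c * X) ≤ A.valuation X ^ 3 := by
    refine A.valuation.map_add_le (le_of_eq (map_pow _ _ _)) ?_
    rw [map_mul]
    calc A.valuation c * A.valuation X ≤ 1 * A.valuation X := mul_le_mul' hc.le le_rfl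
      _ = A.valuation X := one_mul _
      _ ≤ A.valuation X ^ 3 := hX1.trans hX2
  rw [h] at hlhs
  rw [hlhs] at hrhs
  exact absurd hcon (not_lt.mpr hrhs)

theorem h99_not_isN_add (hd : A.valuation d = 1) (hc : A.valuation c < 1)
    {P Q : (h45_nodalW d c).toAffine.Point}
    (hP : ¬ h45_IsN d c A P) (hQ : ¬ h45_IsN d c A Q) : ¬ h45_IsN d c A (P + Q) := by
  rcases P with _ | ⟨X1, Y1, h1⟩
  · have : (Affine.Point.zero : (h45_nodalW d c).toAffine.Point) + Q = Q := zero_add Q
    rw [this]; exact hQ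
  rcases Q with _ | ⟨X2, Y2, h2'⟩
  · have : Affine.Point.some X1 Y1 h1 + (Affine.Point.zero : (h45_nodalW d c).toAffine.Point) =
        Affine.Point.some X1 Y1 h1 := add_zero _
    rw [this]; exact hP
  rw [h99_isN_some, not_lt] at hP hQ
  have e1 := (h45_nodalW_equation_iff d c X1 Y1).mp h1.1
  have e2 := (h45_nodalW_equation_iff d c X2 Y2).mp h2'.1
  have hX10 : X1 ≠ 0 := by
    rw [← A.valuation.pos_iff]; exact lt_of_lt_of_le zero_lt_one hP
  have hX20 : X2 ≠ 0 := by
    rw [← A.valuation.pos_iff]; exact lt_of_lt_of_le zero_lt_one hQ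
  by_cases hxy : X1 = X2 ∧ Y1 = (h45_nodalW d c).toAffine.negY X2 Y2
  · rw [Affine.Point.add_of_Y_eq hxy.1 hxy.2]
    exact h99_not_isN_zero A d c
  · rw [Affine.Point.add_some hxy, h99_isN_some, not_lt]
    have hid := h99_addX_mul d c e1 e2 hX10 hX20 hxy
    set X3 := (h45_nodalW d c).toAffine.addX X1 X2 ((h45_nodalW d c).toAffine.slope X1 X2 Y1 Y2)
      with hX3
    set t := A.valuation X1 * A.valuation X2 with ht
    have ht1 : 1 ≤ t := by
      calc (1 : A.ValueGroup) = 1 * 1 := (mul_one _).symm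
        _ ≤ t := mul_le_mul' hP hQ
    have ht0 : 0 < t := lt_of_lt_of_le zero_lt_one ht1
    have hsub : A.valuation (X1 * X2 - c) = t := by
      rw [Valuation.map_sub_eq_of_lt_left, map_mul]
      rw [map_mul]
      exact lt_of_lt_of_le hc ht1
    have hval : A.valuation X3 * A.valuation (Y1 * X2 + Y2 * X1 + d * X1 * X2) ^ 2 = t ^ 3 := by
      have := congrArg A.valuation hid
      rw [map_mul, map_pow, map_mul, map_mul, map_pow, hsub] at this
      rw [this, ← ht]
      exact (pow_succ' t 2).symm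
    -- bound on the valuation of `W = Y1 X2 + Y2 X1 + d X1 X2`
    have hY1 := h99_val_Y_sq_le A d c hd hc e1 hP
    have hY2 := h99_val_Y_sq_le A d c hd hc e2 hQ
    have hW : A.valuation (Y1 * X2 + Y2 * X1 + d * X1 * X2) ^ 2 ≤ t ^ 3 := by
      have hle1 : A.valuation X1 ^ 3 * A.valuation X2 ^ 2 ≤ t ^ 3 := by
        rw [ht, mul_pow]
        refine mul_le_mul' le_rfl ?_
        calc A.valuation X2 ^ 2 = A.valuation X2 ^ 2 * 1 := (mul_one _).symm
          _ ≤ A.valuation X2 ^ 2 * A.valuation X2 := mul_le_mul' le_rfl hQ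
          _ = A.valuation X2 ^ 3 := by rw [← pow_succ]
      have hle2 : A.valuation X2 ^ 3 * A.valuation X1 ^ 2 ≤ t ^ 3 := by
        rw [ht, mul_pow, mul_comm (A.valuation X1 ^ 3)]
        refine mul_le_mul' le_rfl ?_
        calc A.valuation X1 ^ 2 = A.valuation X1 ^ 2 * 1 := (mul_one _).symm
          _ ≤ A.valuation X1 ^ 2 * A.valuation X1 := mul_le_mul' le_rfl hP
          _ = A.valuation X1 ^ 3 := by rw [← pow_succ]
      have hle3 : t ^ 2 ≤ t ^ 3 := by
        calc t ^ 2 = t ^ 2 * 1 := (mul_one _).symm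
          _ ≤ t ^ 2 * t := mul_le_mul' le_rfl ht1
          _ = t ^ 3 := by rw [← pow_succ]
      have hb1 : A.valuation (Y1 * X2) ^ 2 ≤ t ^ 3 := by
        calc A.valuation (Y1 * X2) ^ 2 = A.valuation Y1 ^ 2 * A.valuation X2 ^ 2 := by
              rw [map_mul, mul_pow]
          _ ≤ A.valuation X1 ^ 3 * A.valuation X2 ^ 2 := mul_le_mul' hY1 le_rfl
          _ ≤ t ^ 3 := hle1
      have hb2 : A.valuation (Y2 * X1) ^ 2 ≤ t ^ 3 := by
        calc A.valuation (Y2 * X1) ^ 2 = A.valuation Y2 ^ 2 * A.valuation X1 ^ 2 := by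
              rw [map_mul, mul_pow]
          _ ≤ A.valuation X2 ^ 3 * A.valuation X1 ^ 2 := mul_le_mul' hY2 le_rfl
          _ ≤ t ^ 3 := hle2
      have hb3 : A.valuation (d * X1 * X2) ^ 2 ≤ t ^ 3 := by
        rw [map_mul, map_mul, hd, one_mul, ← ht]; exact hle3
      rcases le_max_iff.mp (A.valuation.map_add (Y1 * X2 + Y2 * X1) (d * X1 * X2)) with h | h
      · rcases le_max_iff.mp (A.valuation.map_add (Y1 * X2) (Y2 * X1)) with h' | h'
        · exact (pow_le_pow_left' (h.trans h') 2).trans hb1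
        · exact (pow_le_pow_left' (h.trans h') 2).trans hb2
      · exact (pow_le_pow_left' h 2).trans hb3
    by_contra hlt
    rw [not_le] at hlt
    have ht3 : 0 < t ^ 3 := pow_pos ht0 3
    have hWpos : 0 < A.valuation (Y1 * X2 + Y2 * X1 + d * X1 * X2) ^ 2 := by
      rcases eq_or_lt_of_le
        (zero_le (a := A.valuation (Y1 * X2 + Y2 * X1 + d * X1 * X2) ^ 2)) with h0 | h0
      · rw [← h0, mul_zero] at hval
        exact absurd hval.symm (ne_of_gt ht3)
      · exact h0
    have : t ^ 3 < t ^ 3 := by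
      calc t ^ 3 = A.valuation X3 * A.valuation (Y1 * X2 + Y2 * X1 + d * X1 * X2) ^ 2 := hval.symm
        _ < 1 * A.valuation (Y1 * X2 + Y2 * X1 + d * X1 * X2) ^ 2 :=
            mul_lt_mul_of_pos_right hlt hWpos
        _ = A.valuation (Y1 * X2 + Y2 * X1 + d * X1 * X2) ^ 2 := one_mul _
        _ ≤ t ^ 3 := hW
    exact lt_irrefl _ this

/-- The subgroup of points with nonsingular reduction (split multiplicative case; no hypothesis
on the residue characteristic). -/
def h99_E0 (hd : A.valuation d = 1) (hc : A.valuation c < 1) :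
    AddSubgroup (h45_nodalW d c).toAffine.Point where
  carrier := {P | ¬ h45_IsN d c A P}
  zero_mem' := by rintro ⟨X, Y, h, h0, -⟩; exact Affine.Point.some_ne_zero h h0.symm
  add_mem' := fun hP hQ => h99_not_isN_add A d c hd hc hP hQ
  neg_mem' := fun {P} hP => (h99_isN_neg_iff A d c (P := P)).not.mpr hP

theorem h99_mem_E0_iff (hd : A.valuation d = 1) (hc : A.valuation c < 1)
    {P : (h45_nodalW d c).toAffine.Point} : P ∈ h99_E0 A d c hd hc ↔ ¬ h45_IsN d c A P :=
  Iff.rfl

/-! ### (N3) `hkey`: two points of the same level on the same branch differ by a point of `E₀` -/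

omit [DecidableEq K] in
/-- The chord identity `X₃ · X₁ X₂ (X₁ - X₂)² = (Y₁ X₂ - Y₂ X₁)²` (product of the roots of the
cubic cut out by the chord), in terms of the slope `ℓ`. -/
lemma h99_chord_x3 {X1 Y1 X2 Y2 ℓ : K}
    (h1 : Y1 ^ 2 + d * X1 * Y1 = X1 ^ 3 + c * X1) (h2 : Y2 ^ 2 + d * X2 * Y2 = X2 ^ 3 + c * X2)
    (hℓ : ℓ * (X1 - X2) = Y1 - Y2) :
    (ℓ ^ 2 + d * ℓ - X1 - X2) * (X1 * X2 * (X1 - X2) ^ 2) = (Y1 * X2 - Y2 * X1) ^ 2 := by
  linear_combination (X1 * X2 * (ℓ * (X1 - X2) + (Y1 - Y2) + d * (X1 - X2))) * hℓ +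
    (X1 * X2) * (h1 + h2) + (-X2 ^ 2) * h1 + (-X1 ^ 2) * h2

theorem h99_inC_sub_not_isN (hd : A.valuation d = 1) {g : A.ValueGroup}
    {P P' : (h45_nodalW d c).toAffine.Point}
    (hP : h45_InC d c A g P) (hP' : h45_InC d c A g P') : ¬ h45_IsN d c A (P - P') := by
  obtain ⟨X1, Y1, h1, rfl, hX1, hcg, hg1, hs1⟩ := hP
  obtain ⟨X2, Y2, h2', rfl, hX2, -, -, hs2⟩ := hP'
  rintro ⟨X3, Y3, h3, heq, hX3⟩
  rw [sub_eq_add_neg, Affine.Point.neg_some] at heq
  have hE1 := (h45_nodalW_equation_iff d c X1 Y1).mp h1.1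
  have hE2 := (h45_nodalW_equation_iff d c X2 Y2).mp h2'.1
  have hgpos : 0 < g := lt_of_le_of_lt zero_le hcg
  have hdX1 : A.valuation (d * X1) = g := by rw [map_mul, hd, one_mul, hX1]
  have hdX2 : A.valuation (d * X2) = g := by rw [map_mul, hd, one_mul, hX2]
  have hss : A.valuation (Y1 + Y2) < g := Valuation.map_add_lt _ hs1 hs2
  by_cases hxe : X1 = X2
  · subst hxe
    by_cases hyn : Y1 = (h45_nodalW d c).toAffine.negY X1 ((h45_nodalW d c).toAffine.negY X1 Y2)
    · rw [Affine.Point.add_of_Y_eq rfl hyn] at heq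
      exact Affine.Point.some_ne_zero _ heq.symm
    · rw [Affine.negY_negY] at hyn
      rcases h99_Y_eq_or d c hE1 hE2 with h | h
      · exact hyn h
      · have hv : A.valuation Y1 = g := by
          have e : -Y2 - d * X1 = -(Y2 + d * X1) := by ring
          rw [h, e, Valuation.map_neg, h99_val_t A d hd hX1 hs2]
        rw [hv] at hs1
        exact lt_irrefl _ hs1
  · rw [Affine.Point.add_of_X_ne hxe] at heq
    have hX3eq : X3 = (h45_nodalW d c).toAffine.addX X1 X2
        ((h45_nodalW d c).toAffine.slope X1 X2 Y1 ((h45_nodalW d c).toAffine.negY X2 Y2)) := by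
      injection heq with hx hy
      exact hx.symm
    have hd0 : X1 - X2 ≠ 0 := sub_ne_zero.mpr hxe
    have key : X3 * (X1 - X2) ^ 2 =
        (Y1 + Y2 + d * X2) * (Y1 + Y2 + d * X1) - (X1 + X2) * (X1 - X2) ^ 2 := by
      have hℓ := h99_slope_chord (W := h45_nodalW d c) (y₁ := Y1)
        (y₂ := (h45_nodalW d c).toAffine.negY X2 Y2) hxe
      rw [hX3eq]
      generalize (h45_nodalW d c).toAffine.slope X1 X2 Y1
        ((h45_nodalW d c).toAffine.negY X2 Y2) = ℓ at hℓ ⊢
      rw [h45_nodalW_negY] at hℓ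
      simp only [Affine.addX, h45_nodalW_a₁, h45_nodalW_a₂]
      linear_combination (ℓ * (X1 - X2) + (Y1 + Y2 + d * X2) + d * (X1 - X2)) * hℓ
    have hvd : A.valuation (X1 - X2) ≤ g :=
      Valuation.map_sub_le _ (le_of_eq hX1) (le_of_eq hX2)
    have hvdpos : 0 < A.valuation (X1 - X2) := by
      rw [Valuation.pos_iff]; exact hd0
    have hprod : A.valuation ((Y1 + Y2 + d * X2) * (Y1 + Y2 + d * X1)) = g * g := by
      rw [map_mul, Valuation.map_add_eq_of_lt_right _ (by rw [hdX2]; exact hss),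
        Valuation.map_add_eq_of_lt_right _ (by rw [hdX1]; exact hss), hdX1, hdX2]
    have hsmall : A.valuation ((X1 + X2) * (X1 - X2) ^ 2) < g * g := by
      rw [map_mul, map_pow, pow_two]
      have h12 : A.valuation (X1 + X2) < 1 :=
        Valuation.map_add_lt _ (by rw [hX1]; exact hg1) (by rw [hX2]; exact hg1)
      calc A.valuation (X1 + X2) * (A.valuation (X1 - X2) * A.valuation (X1 - X2))
          < 1 * (A.valuation (X1 - X2) * A.valuation (X1 - X2)) :=
            mul_lt_mul_of_pos_right h12 (mul_pos hvdpos hvdpos)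
        _ = A.valuation (X1 - X2) * A.valuation (X1 - X2) := one_mul _
        _ ≤ g * g := mul_le_mul' hvd hvd
    have hv3 : A.valuation X3 * (A.valuation (X1 - X2) * A.valuation (X1 - X2)) = g * g := by
      rw [← pow_two, ← map_pow, ← map_mul, key,
        Valuation.map_sub_eq_of_lt_left _ (by rw [hprod]; exact hsmall), hprod]
    have : A.valuation X3 * (A.valuation (X1 - X2) * A.valuation (X1 - X2)) < g * g := by
      calc A.valuation X3 * (A.valuation (X1 - X2) * A.valuation (X1 - X2))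
          < 1 * (A.valuation (X1 - X2) * A.valuation (X1 - X2)) :=
            mul_lt_mul_of_pos_right hX3 (mul_pos hvdpos hvdpos)
        _ = A.valuation (X1 - X2) * A.valuation (X1 - X2) := one_mul _
        _ ≤ g * g := mul_le_mul' hvd hvd
    exact absurd hv3 (ne_of_lt this)

/-! ### (N4) `hsub`: the difference of points of levels `c1 < c2` has level `c1 / c2` -/

theorem h99_inC_sub (hd : A.valuation d = 1) {c1 c2 : A.ValueGroup}
    {P P' : (h45_nodalW d c).toAffine.Point}
    (hP : h45_InC d c A c1 P) (hP' : h45_InC d c A c2 P') (hlt : c1 < c2) :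
    h45_InC d c A (c1 / c2) (P - P') := by
  obtain ⟨X1, Y1, h1, rfl, hX1, hc1, hc11, hs1⟩ := hP
  obtain ⟨X2, Y2, h2', rfl, hX2, hc2, hc21, hs2⟩ := hP'
  have hE1 := (h45_nodalW_equation_iff d c X1 Y1).mp h1.1
  have hc1pos : 0 < c1 := lt_of_le_of_lt zero_le hc1
  have hc2pos : 0 < c2 := lt_of_le_of_lt zero_le hc2
  have hxe : X1 ≠ X2 := by
    intro h
    rw [h, hX2] at hX1
    exact (ne_of_lt hlt) hX1.symm
  obtain ⟨hn, en⟩ := h99_neg_some d c h2'
  have hE2 := (h45_nodalW_equation_iff d c X2 (-(Y2 + d * X2))).mp hn.1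
  rw [sub_eq_add_neg, en]
  have hvT2 : A.valuation (Y2 + d * X2) = c2 := h99_val_t A d hd hX2 hs2
  have hvT1 : A.valuation (Y1 + d * X1) = c1 := h99_val_t A d hd hX1 hs1
  have hxy : ¬(X1 = X2 ∧ Y1 = (h45_nodalW d c).toAffine.negY X2 (-(Y2 + d * X2))) :=
    fun h => hxe h.1
  rw [Affine.Point.add_some hxy, h99_inC_some]
  have hℓ := h99_slope_chord (W := h45_nodalW d c) (y₁ := Y1) (y₂ := -(Y2 + d * X2)) hxe
  generalize (h45_nodalW d c).toAffine.slope X1 X2 Y1 (-(Y2 + d * X2)) = ℓ at hℓ ⊢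
  have hx3 : (h45_nodalW d c).toAffine.addX X1 X2 ℓ = ℓ ^ 2 + d * ℓ - X1 - X2 := by
    simp [Affine.addX]
  have hy3 : (h45_nodalW d c).toAffine.addY X1 X2 Y1 ℓ =
      -((ℓ + d) * (h45_nodalW d c).toAffine.addX X1 X2 ℓ) - (Y1 - ℓ * X1) := by
    simp only [Affine.addY, Affine.negY, Affine.negAddY, h45_nodalW_a₁, h45_nodalW_a₃]
    ring
  rw [hy3]
  generalize (h45_nodalW d c).toAffine.addX X1 X2 ℓ = x3 at hx3 ⊢
  -- valuations of the auxiliary quantities
  have hvdiff : A.valuation (X1 - X2) = c2 := by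
    rw [Valuation.map_sub_eq_of_lt_right _ (by rw [hX1, hX2]; exact hlt), hX2]
  have hvnum : A.valuation (Y1 * X2 - -(Y2 + d * X2) * X1) = c1 * c2 := by
    have e : Y1 * X2 - -(Y2 + d * X2) * X1 = Y1 * X2 + (Y2 + d * X2) * X1 := by ring
    have h2 : A.valuation ((Y2 + d * X2) * X1) = c1 * c2 := by
      rw [map_mul, hvT2, hX1, mul_comm]
    have h1' : A.valuation (Y1 * X2) < c1 * c2 := by
      rw [map_mul, hX2]
      exact mul_lt_mul_of_pos_right hs1 hc2pos
    rw [e, Valuation.map_add_eq_of_lt_right _ (by rw [h2]; exact h1'), h2]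
  -- the `X`-coordinate
  have hvx3 : A.valuation x3 = c1 / c2 := by
    have hid := h99_chord_x3 d c hE1 hE2 hℓ
    rw [← hx3] at hid
    have hv := congrArg A.valuation hid
    rw [map_mul, map_mul, map_mul, map_pow, map_pow, hvnum, hX1, hX2, hvdiff] at hv
    rw [eq_div_iff (ne_of_gt hc2pos)]
    have hpos : 0 < c1 * c2 * c2 := mul_pos (mul_pos hc1pos hc2pos) hc2pos
    apply mul_right_cancel₀ (ne_of_gt hpos)
    calc A.valuation x3 * c2 * (c1 * c2 * c2) = A.valuation x3 * (c1 * c2 * c2 ^ 2) := by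
          rw [pow_two]; simp only [mul_assoc, mul_comm, mul_left_comm]
      _ = (c1 * c2) ^ 2 := hv
      _ = c1 * (c1 * c2 * c2) := by
          rw [pow_two]; simp only [mul_comm, mul_left_comm]
  have hc1lt : c1 < c1 / c2 := by
    rw [lt_div_iff₀ hc2pos]
    calc c1 * c2 < c1 * 1 := mul_lt_mul_of_pos_left hc21 hc1pos
      _ = c1 := mul_one _
  refine ⟨hvx3, lt_trans hc1 hc1lt, (div_lt_one₀ hc2pos).mpr hlt, ?_⟩
  -- the `Y`-coordinate (branch coordinate `s`)
  have hvν : A.valuation (Y1 - ℓ * X1) = c1 := by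
    have e : (Y1 - ℓ * X1) * (X1 - X2) = -(Y1 * X2 - -(Y2 + d * X2) * X1) := by
      linear_combination (-X1) * hℓ
    have hv := congrArg A.valuation e
    rw [map_mul, Valuation.map_neg, hvnum, hvdiff] at hv
    exact mul_right_cancel₀ (ne_of_gt hc2pos) hv
  have hvℓd : A.valuation (ℓ + d) < 1 := by
    have e : (ℓ + d) * (X1 - X2) = (Y1 + d * X1) + Y2 := by
      linear_combination hℓ
    have hv := congrArg A.valuation e
    rw [map_mul, hvdiff] at hv
    have hsm : A.valuation ((Y1 + d * X1) + Y2) < c2 :=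
      Valuation.map_add_lt _ (by rw [hvT1]; exact hlt) hs2
    rw [← hv] at hsm
    by_contra hcon
    rw [not_lt] at hcon
    have : c2 ≤ A.valuation (ℓ + d) * c2 := by
      calc c2 = 1 * c2 := (one_mul _).symm
        _ ≤ A.valuation (ℓ + d) * c2 := mul_le_mul' hcon le_rfl
    exact absurd hsm (not_lt.mpr this)
  have hx3pos : 0 < A.valuation x3 := by rw [hvx3]; exact div_pos hc1pos hc2pos
  apply Valuation.map_sub_lt
  · rw [Valuation.map_neg, map_mul]
    calc A.valuation (ℓ + d) * A.valuation x3 < 1 * A.valuation x3 :=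
          mul_lt_mul_of_pos_right hvℓd hx3pos
      _ = c1 / c2 := by rw [one_mul, hvx3]
  · rw [hvν]; exact hc1lt

/-! ### (N5) translation by the two-torsion point `(0,0)` -/

/-- `hneg`: translation by `(0,0)` followed by negation maps level `g` to level `v(c)/g`
on the same branch. -/
theorem h99_inC_neg_add_T0 (hc0 : c ≠ 0) {g : A.ValueGroup}
    {P : (h45_nodalW d c).toAffine.Point} (hP : h45_InC d c A g P) :
    h45_InC d c A (A.valuation c / g) (-P + h99_T0 d c hc0) := by
  obtain ⟨X, Y, h, rfl, hX, hcg, hg1, hs⟩ := hP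
  have hg0 : 0 < g := lt_of_le_of_lt zero_le hcg
  have hX0 : X ≠ 0 := by
    rw [← A.valuation.ne_zero_iff, hX]; exact ne_of_gt hg0
  have hvc0 : 0 < A.valuation c := A.valuation.pos_iff.mpr hc0
  obtain ⟨h1, e1⟩ := h99_neg_some d c h
  obtain ⟨h2, e2⟩ := h99_add_T0 d c hc0 h1 hX0
  rw [e1, e2, h99_inC_some]
  refine ⟨by rw [map_div₀, hX], ?_, ?_, ?_⟩
  · rw [lt_div_iff₀ hg0]
    calc A.valuation c * g < A.valuation c * 1 := mul_lt_mul_of_pos_left hg1 hvc0
      _ = A.valuation c := mul_one _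
  · exact (div_lt_one₀ hg0).mpr hcg
  · have he : -(c / X ^ 2) * (-(Y + d * X) + d * X) = c * Y / X ^ 2 := by
      field_simp
      ring
    rw [he, map_div₀, map_mul, map_pow, hX, div_lt_div_iff₀ (pow_pos hg0 2) hg0]
    calc A.valuation c * A.valuation Y * g
        < A.valuation c * g * g :=
          mul_lt_mul_of_pos_right (mul_lt_mul_of_pos_left hs hvc0) hg0
      _ = A.valuation c * g ^ 2 := by rw [pow_two, mul_assoc]

/-- `hd2`: the translate by `(0,0)` of a level-`g` point still reduces to the node. -/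
theorem h99_inC_add_T0_isN (hc0 : c ≠ 0) {g : A.ValueGroup}
    {P : (h45_nodalW d c).toAffine.Point} (hP : h45_InC d c A g P) :
    h45_IsN d c A (P + h99_T0 d c hc0) := by
  obtain ⟨X, Y, h, rfl, hX, hcg, hg1, hs⟩ := hP
  have hg0 : 0 < g := lt_of_le_of_lt zero_le hcg
  have hX0 : X ≠ 0 := by
    rw [← A.valuation.ne_zero_iff, hX]; exact ne_of_gt hg0
  obtain ⟨h2, e2⟩ := h99_add_T0 d c hc0 h hX0
  rw [e2, h99_isN_some, map_div₀, hX]
  exact (div_lt_one₀ hg0).mpr hcg

/-- The middle component is contained in `E₀ + (0,0)`. -/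
theorem h99_inM_add_T0 (hc0 : c ≠ 0) {P : (h45_nodalW d c).toAffine.Point}
    (hP : h45_InM d c A P) : ¬ h45_IsN d c A (P + h99_T0 d c hc0) := by
  obtain ⟨X, Y, h, rfl, hX⟩ := hP
  by_cases hX0 : X = 0
  · subst hX0
    have heq := (h45_nodalW_equation_iff d c 0 Y).mp h.1
    have hY : Y = 0 := by
      have : Y ^ 2 = 0 := by linear_combination heq
      exact pow_eq_zero_iff (two_ne_zero) |>.mp this
    subst hY
    have : Affine.Point.some 0 0 h + h99_T0 d c hc0 = 0 := h99_T0_add_T0 d c hc0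
    rw [this]
    exact h99_not_isN_zero A d c
  · obtain ⟨h2, e2⟩ := h99_add_T0 d c hc0 h hX0
    rw [e2, h99_isN_some, map_div₀, not_lt]
    have hv0 : 0 < A.valuation X := A.valuation.pos_iff.mpr hX0
    exact (one_le_div₀ hv0).mpr hX

end

end Fermat.Agent.S13
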