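import Fermat.Agent.S13.h48_At2
import Fermat.Agent.S13.h99_NodeS
import Fermat.Agent.S13.h99_NodeLevel
import Fermat.Agent.S54.Frob

/-
helper48, project S13: the two final statements at the prime `2` for the Frey curve, with the
node-theoretic inputs discharged from helper99's `h99_NodeS` / `h99_NodeLevel`.
* `h48_inertia_two_unipotent` (row R5): `(σ - 1)² = 0` on `E[p]` for `σ` in inertia over `2`;
* `h48_no_rational_torsion` (row R6): no nonzero `G_ℚ`-fixed point in `E[p]`.
-/

set_option autoImplicit false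

namespace Fermat.Agent.S13

open WeierstrassCurve

local notation "Qbar" => AlgebraicClosure ℚ

open WeierstrassCurve.Affine in
/-- **(C1), row R5.** Inertia at any place over `2` acts unipotently on the `p`-torsion of the
Frey curve. -/
theorem h48_inertia_two_unipotent (P : FreyPackage) (A : ValuationSubring Qbar)
    (hA : A.LiesOverPrime 2) (σ : Qbar ≃ₐ[ℚ] Qbar) (hσ : σ ∈ A.inertiaSubgroupIn ℚ)
    (x : Submodule.torsionBy ℤ (P.freyCurve⁄Qbar).Point P.p) :
    σ • (σ • x - x) = σ • x - x :=
  h48_inertia_two_unipotent_of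
    (fun A d c hd _ _ _ _ _ hP hP' => h99_inC_sub_not_isN A d c hd hP hP')
    (fun A d c hd hc hc0 _ hp hp2 _ hT =>
      h99_inM_odd_nsmul_ne_zero A d c hd hc hc0 hT (hp.odd_of_ne_two hp2))
    P A hA σ hσ x

open WeierstrassCurve.Affine in
/-- **(C2), row R6, with a place over `2` given.** -/
theorem h48_no_rational_torsion_at (P : FreyPackage) (A : ValuationSubring Qbar)
    (hA : A.LiesOverPrime 2) (x : Submodule.torsionBy ℤ (P.freyCurve⁄Qbar).Point P.p)
    (hfix : ∀ σ : Qbar ≃ₐ[ℚ] Qbar, σ • x = x) : x = 0 :=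
  h48_no_rational_torsion_of
    (fun A d c hd hc hc0 p _ _ _ _ hT hpT => h99_level_torsion A d c hd hc hc0 hT p hpT)
    (fun A d c hd hc hc0 _ hp hp2 _ hT =>
      h99_inM_odd_nsmul_ne_zero A d c hd hc hc0 hT (hp.odd_of_ne_two hp2))
    P A hA x hfix

open WeierstrassCurve.Affine in
/-- **(C2), row R6.** No nonzero point of the `p`-torsion of the Frey curve is fixed by the whole
Galois group. -/
theorem h48_no_rational_torsion (P : FreyPackage)
    (x : Submodule.torsionBy ℤ (P.freyCurve⁄Qbar).Point P.p)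
    (hfix : ∀ σ : Qbar ≃ₐ[ℚ] Qbar, σ • x = x) : x = 0 := by
  obtain ⟨A, hA⟩ := Fermat.Agent.S54.exists_liesOverPrime 2 Nat.prime_two
  exact h48_no_rational_torsion_at P A hA x hfix

end Fermat.Agent.S13
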