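import Mathlib
import Fermat.Prelude.Def_FLTPrelim_CofixedLine
import Fermat.Prelude.Def_FLTPrelim_Ramification
import Fermat.Agent.S05.Defs
import Fermat.Agent.S05.Sigma
import Fermat.Agent.S05.InertiaVal
import Fermat.Agent.S05.h26_Frey
import Fermat.Agent.S05.h15_VarChange

set_option autoImplicit false

namespace Fermat.Agent.S13

open WeierstrassCurve WeierstrassCurve.Affine WeierstrassCurve.Affine.Point
open Fermat.Agent.S05

/-! ### Transport along an equality of Weierstrass curves -/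

section Congr

variable {K : Type*} [Field K] [DecidableEq K]

/-- The identity map between the point groups of two equal Weierstrass curves. -/
noncomputable def h26_pointCongr {W W' : WeierstrassCurve K} (h : W = W') :
    W.toAffine.Point ≃+ W'.toAffine.Point :=
  h ▸ AddEquiv.refl _

theorem h26_pointCongr_some {W W' : WeierstrassCurve K} (h : W = W') {x y : K}
    (hx : W.toAffine.Nonsingular x y) :
    ∃ hx' : W'.toAffine.Nonsingular x y,
      h26_pointCongr h (Affine.Point.some x y hx) = Affine.Point.some x y hx' := by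
  subst h
  exact ⟨hx, rfl⟩

theorem h26_pointCongr_zero {W W' : WeierstrassCurve K} (h : W = W') :
    h26_pointCongr h (0 : W.toAffine.Point) = 0 :=
  map_zero _

end Congr

/-! ### The model of the Frey curve over `AlgebraicClosure ℚ` -/

/-- The action of `σ ∈ Gal(ℚ̄/ℚ)` on the points of `Y² = X³ + a X² + b X` with `a b : ℤ`. -/
noncomputable def h26_sig (a b : ℤ) (σ : AlgebraicClosure ℚ ≃ₐ[ℚ] AlgebraicClosure ℚ) :
    (shortW ((a : ℤ) : AlgebraicClosure ℚ) ((b : ℤ) : AlgebraicClosure ℚ)).toAffine.Point →+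
      (shortW ((a : ℤ) : AlgebraicClosure ℚ) ((b : ℤ) : AlgebraicClosure ℚ)).toAffine.Point :=
  Sigma_hom (a : AlgebraicClosure ℚ) (b : AlgebraicClosure ℚ) σ.toRingEquiv
    (map_intCast σ.toRingEquiv a) (map_intCast σ.toRingEquiv b)

theorem h26_sig_some (a b : ℤ) (σ : AlgebraicClosure ℚ ≃ₐ[ℚ] AlgebraicClosure ℚ)
    {X Y : AlgebraicClosure ℚ}
    (h : (shortW ((a : ℤ) : AlgebraicClosure ℚ) ((b : ℤ) : AlgebraicClosure ℚ)).toAffine.Nonsingular
      X Y) :
    ∃ h', h26_sig a b σ (Affine.Point.some X Y h) = Affine.Point.some (σ X) (σ Y) h' :=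
  ⟨_, rfl⟩

theorem h26_sig_zero (a b : ℤ) (σ : AlgebraicClosure ℚ ≃ₐ[ℚ] AlgebraicClosure ℚ) :
    h26_sig a b σ 0 = 0 := map_zero _

/-- A curve over `ℚ` which is a change of variables (over `ℚ`) of `Y² = X³ + a X² + b X`
has, over `ℚ̄`, a point group Galois-equivariantly isomorphic to that of the model. -/
theorem h26_model_equiv_aux (W : WeierstrassCurve ℚ) (a b : ℤ) (C : VariableChange ℚ)
    (hC : C • shortW (a : ℚ) (b : ℚ) = W) :
    ∃ e : (W⁄(AlgebraicClosure ℚ)).Point ≃+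
        (shortW ((a : ℤ) : AlgebraicClosure ℚ) ((b : ℤ) : AlgebraicClosure ℚ)).toAffine.Point,
      ∀ (σ : AlgebraicClosure ℚ ≃ₐ[ℚ] AlgebraicClosure ℚ) (T : (W⁄(AlgebraicClosure ℚ)).Point),
        e (σ • T) = h26_sig a b σ (e T) := by
  subst hC
  have hmap : WeierstrassCurve.baseChange (shortW (a : ℚ) (b : ℚ)) (AlgebraicClosure ℚ)
      = shortW ((a : ℤ) : AlgebraicClosure ℚ) ((b : ℤ) : AlgebraicClosure ℚ) := by
    change (shortW (a : ℚ) (b : ℚ)).map (algebraMap ℚ (AlgebraicClosure ℚ)) = _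
    rw [shortW_map, map_intCast, map_intCast]
  refine ⟨(h15_vcEquivBase (K := AlgebraicClosure ℚ) (shortW (a : ℚ) (b : ℚ)) C).trans
    (h26_pointCongr hmap), ?_⟩
  intro σ T
  rw [AddEquiv.trans_apply, AddEquiv.trans_apply, h15_vcEquivBase_smul (S := ℚ)]
  generalize h15_vcEquivBase (K := AlgebraicClosure ℚ) (shortW (a : ℚ) (b : ℚ)) C T = Q
  rcases Q with _ | ⟨x, y, h⟩
  · change h26_pointCongr hmap (σ • 0) = h26_sig a b σ (h26_pointCongr hmap 0)
    rw [smul_zero, h26_pointCongr_zero, h26_sig_zero]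
  · rw [algEquiv_smul_def, Point.map_some]
    obtain ⟨h1, e1⟩ := h26_pointCongr_some hmap h
    obtain ⟨h2, e2⟩ := h26_pointCongr_some hmap
      ((Affine.baseChange_nonsingular (shortW (a : ℚ) (b : ℚ)) σ.toAlgHom.injective x y).mpr h)
    rw [e1]
    obtain ⟨h3, e3⟩ := h26_sig_some a b σ h1
    rw [e3]
    exact e2

/-- (FP1) The model of the Frey curve at a prime `q`: integers `a b`, a Galois-equivariant
isomorphism of the point group over `ℚ̄` with that of `Y² = X³ + a X² + b X`, and the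
good/multiplicative alternative at `q`. -/
theorem h26_model_equiv (P : FreyPackage) {q : ℕ} (hq : q.Prime) :
    ∃ (a b : ℤ) (e : (P.freyCurve⁄(AlgebraicClosure ℚ)).Point ≃+
        (shortW ((a : ℤ) : AlgebraicClosure ℚ) ((b : ℤ) : AlgebraicClosure ℚ)).toAffine.Point),
      (∀ (σ : AlgebraicClosure ℚ ≃ₐ[ℚ] AlgebraicClosure ℚ)
        (T : (P.freyCurve⁄(AlgebraicClosure ℚ)).Point), e (σ • T) = h26_sig a b σ (e T)) ∧
      ((¬ (q : ℤ) ∣ b ∧ ¬ (q : ℤ) ∣ (a ^ 2 - 4 * b)) ∨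
        (¬ (q : ℤ) ∣ a ∧ ∃ g : ℤ, g ≠ 0 ∧ (q : ℤ) ∣ g ∧ b = g ^ P.p)) := by
  obtain ⟨a, b, C, hC, hcase⟩ := h26_frey_model_ne P hq
  obtain ⟨e, he⟩ := h26_model_equiv_aux P.freyCurve a b C hC
  exact ⟨a, b, e, he, hcase⟩

/-- Nonvanishing of `b` and `a² - 4b` in both cases of the model. -/
theorem h26_model_ne {p : ℕ} {q : ℕ} (hq : q.Prime) (a b : ℤ)
    (hcase : (¬ (q : ℤ) ∣ b ∧ ¬ (q : ℤ) ∣ (a ^ 2 - 4 * b)) ∨
      (¬ (q : ℤ) ∣ a ∧ ∃ g : ℤ, g ≠ 0 ∧ (q : ℤ) ∣ g ∧ b = g ^ p)) (hp : p ≠ 0) :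
    ((b : ℤ) : AlgebraicClosure ℚ) ≠ 0 ∧
      ((a : ℤ) : AlgebraicClosure ℚ) ^ 2 - 4 * ((b : ℤ) : AlgebraicClosure ℚ) ≠ 0 := by
  have hqZ : Prime (q : ℤ) := Nat.prime_iff_prime_int.mp hq
  have key : b ≠ 0 ∧ a ^ 2 - 4 * b ≠ 0 := by
    rcases hcase with ⟨hb, hd⟩ | ⟨ha, g, hg0, hg, hbg⟩
    · exact ⟨fun h => hb (h ▸ dvd_zero _), fun h => hd (h ▸ dvd_zero _)⟩
    · refine ⟨hbg ▸ pow_ne_zero _ hg0, fun h => ha ?_⟩
      have h1 : (q : ℤ) ∣ b := hbg ▸ dvd_pow hg hp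
      have h2 : (q : ℤ) ∣ a ^ 2 := by
        have : a ^ 2 = (a ^ 2 - 4 * b) + 4 * b := by ring
        rw [this, h]
        simpa using Dvd.dvd.mul_left h1 4
      exact hqZ.dvd_of_dvd_pow h2
  refine ⟨Int.cast_ne_zero.mpr key.1, ?_⟩
  have h := Int.cast_ne_zero (α := AlgebraicClosure ℚ).mpr key.2
  push_cast at h
  exact h

/-- The two cases of the model in valuation form, for a valuation subring over an odd prime `q`
(these are the hypotheses of `S05.core_good` / `S05.core_mult` except `v(p) = 1`). -/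
theorem h26_model_val {p : ℕ} {q : ℕ} (hq : q.Prime) (hq2 : q ≠ 2)
    (A : ValuationSubring (AlgebraicClosure ℚ)) (hA : A.LiesOverPrime q) (a b : ℤ)
    (hcase : (¬ (q : ℤ) ∣ b ∧ ¬ (q : ℤ) ∣ (a ^ 2 - 4 * b)) ∨
      (¬ (q : ℤ) ∣ a ∧ ∃ g : ℤ, g ≠ 0 ∧ (q : ℤ) ∣ g ∧ b = g ^ p)) :
    A.valuation (2 : AlgebraicClosure ℚ) = 1 ∧
    ((A.valuation ((a : ℤ) : AlgebraicClosure ℚ) ≤ 1 ∧
        A.valuation ((b : ℤ) : AlgebraicClosure ℚ) = 1 ∧
        A.valuation (((a : ℤ) : AlgebraicClosure ℚ) ^ 2 - 4 * ((b : ℤ) : AlgebraicClosure ℚ)) = 1) ∨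
      (A.valuation ((a : ℤ) : AlgebraicClosure ℚ) = 1 ∧
        ∃ g : ℤ, A.valuation ((g : ℤ) : AlgebraicClosure ℚ) < 1 ∧
          ((g : ℤ) : AlgebraicClosure ℚ) ≠ 0 ∧
          A.valuation ((b : ℤ) : AlgebraicClosure ℚ)
            = A.valuation ((g : ℤ) : AlgebraicClosure ℚ) ^ p)) := by
  have hv2 : A.valuation (2 : AlgebraicClosure ℚ) = 1 := by
    have := valuation_natCast_eq_one A q hq hA 2
      (fun h => hq2 ((Nat.prime_dvd_prime_iff_eq hq Nat.prime_two).mp h))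
    exact_mod_cast this
  refine ⟨hv2, ?_⟩
  rcases hcase with ⟨hb, hd⟩ | ⟨ha, g, hg0, hg, hbg⟩
  · left
    refine ⟨(valuation_intCast A q hq hA a).1, valuation_intCast_eq_one A q hq hA b hb, ?_⟩
    have := valuation_intCast_eq_one A q hq hA (a ^ 2 - 4 * b) hd
    push_cast at this
    exact this
  · right
    refine ⟨valuation_intCast_eq_one A q hq hA a ha, g,
      (valuation_intCast A q hq hA g).2.mpr hg, Int.cast_ne_zero.mpr hg0, ?_⟩
    rw [hbg]
    push_cast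
    rw [map_pow]

/-! ### (FP2) Cardinality of the `p`-torsion of the Frey curve -/

/-- (FP2) The `p`-torsion of the Frey curve over `ℚ̄` is nontrivial, finite, with at most `p²`
elements, given the corresponding facts (from the division polynomial) on the models
`Y² = X³ + a X² + b X`. -/
theorem h26_frey_card (P : FreyPackage)
    (hlad : ∀ a b : AlgebraicClosure ℚ, b ≠ 0 → a ^ 2 - 4 * b ≠ 0 →
      (∃ T : (shortW a b).toAffine.Point, T ≠ 0 ∧ P.p • T = 0) ∧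
      (∃ s : Finset (shortW a b).toAffine.Point, s.card ≤ P.p ^ 2 ∧ ∀ T, P.p • T = 0 → T ∈ s)) :
    Nontrivial (Submodule.torsionBy ℤ (P.freyCurve⁄(AlgebraicClosure ℚ)).Point P.p) ∧
    Finite (Submodule.torsionBy ℤ (P.freyCurve⁄(AlgebraicClosure ℚ)).Point P.p) ∧
    Nat.card (Submodule.torsionBy ℤ (P.freyCurve⁄(AlgebraicClosure ℚ)).Point P.p) ≤ P.p ^ 2 := by
  obtain ⟨a, b, e, -, hcase⟩ := h26_model_equiv P P.pp
  obtain ⟨hb, hd⟩ := h26_model_ne P.pp a b hcase P.hp0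
  obtain ⟨⟨T, hT0, hT⟩, s, hs, hmem⟩ := hlad _ _ hb hd
  have htor : ∀ Q : (P.freyCurve⁄(AlgebraicClosure ℚ)).Point,
      Q ∈ Submodule.torsionBy ℤ (P.freyCurve⁄(AlgebraicClosure ℚ)).Point P.p ↔ P.p • e Q = 0 := by
    intro Q
    rw [Submodule.mem_torsionBy_iff, ← map_nsmul, map_eq_zero_iff e e.injective, natCast_zsmul]
  refine ⟨?_, ?_⟩
  · have hmemT : e.symm T ∈ Submodule.torsionBy ℤ (P.freyCurve⁄(AlgebraicClosure ℚ)).Point P.p := by
      rw [htor, AddEquiv.apply_symm_apply]; exact hT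
    refine ⟨⟨⟨e.symm T, hmemT⟩, 0, fun h => hT0 ?_⟩⟩
    have h1 : e.symm T = 0 := congrArg Subtype.val h
    rw [← e.apply_symm_apply T, h1, _root_.map_zero]
  · let f : Submodule.torsionBy ℤ (P.freyCurve⁄(AlgebraicClosure ℚ)).Point P.p →
        (s : Set (shortW ((a : ℤ) : AlgebraicClosure ℚ) ((b : ℤ) : AlgebraicClosure ℚ)).toAffine.Point) :=
      fun x => ⟨e x.1, hmem _ ((htor x.1).mp x.2)⟩
    have hf : Function.Injective f := by
      intro x y hxy
      have h1 : e x.1 = e y.1 := congrArg Subtype.val hxy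
      exact Subtype.ext (e.injective h1)
    have : Finite (s : Set (shortW ((a : ℤ) : AlgebraicClosure ℚ)
        ((b : ℤ) : AlgebraicClosure ℚ)).toAffine.Point) := s.finite_toSet.to_subtype
    refine ⟨Finite.of_injective f hf, ?_⟩
    refine (Nat.card_le_card_of_injective f hf).trans ?_
    rw [Nat.card_coe_set_eq, Set.ncard_coe_finset]
    exact hs

/-! ### (FP3) The dichotomy at `p` on the Frey curve -/

/-- Interface to block [B]: the dichotomy at `p` on the model `Y² = X³ + a X² + b X`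
(`a b : ℤ`), for a subgroup `N₀` of order `p` of the `p`-torsion which is stable under the
absolute Galois group of `ℚ`. -/
def h26_AtPModel (A : ValuationSubring (AlgebraicClosure ℚ)) (p : ℕ) (a b : ℤ) : Prop :=
  ∀ N₀ : AddSubgroup
      (shortW ((a : ℤ) : AlgebraicClosure ℚ) ((b : ℤ) : AlgebraicClosure ℚ)).toAffine.Point,
    (∀ T ∈ N₀, p • T = 0) → Nat.card N₀ = p →
    (∀ σ : AlgebraicClosure ℚ ≃ₐ[ℚ] AlgebraicClosure ℚ, ∀ T ∈ N₀, h26_sig a b σ T ∈ N₀) →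
    (∀ σ ∈ A.inertiaSubgroupIn ℚ, ∀ T ∈ N₀, h26_sig a b σ T = T) ∨
    (∀ σ ∈ A.inertiaSubgroupIn ℚ, ∀ T, p • T = 0 → h26_sig a b σ T - T ∈ N₀)

/-- (FP3) The dichotomy at `p` for a Galois-stable line `N` of the `p`-torsion of the Frey
curve: for a valuation subring `A` of `ℚ̄`, either the inertia group of `A` fixes `N` pointwise
or it acts trivially on the quotient by `N`. -/
theorem h26_frey_atP (P : FreyPackage) (A : ValuationSubring (AlgebraicClosure ℚ))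
    (hmodel : ∀ a b : ℤ,
      ((¬ (P.p : ℤ) ∣ b ∧ ¬ (P.p : ℤ) ∣ (a ^ 2 - 4 * b)) ∨
        (¬ (P.p : ℤ) ∣ a ∧ ∃ g : ℤ, g ≠ 0 ∧ (P.p : ℤ) ∣ g ∧ b = g ^ P.p)) →
      h26_AtPModel A P.p a b)
    (N : Submodule (ZMod P.p) (Submodule.torsionBy ℤ (P.freyCurve⁄(AlgebraicClosure ℚ)).Point P.p))
    (hN : IsGaloisStable ℚ N) (hcard : Nat.card N = P.p) :
    (∀ σ ∈ A.inertiaSubgroupIn ℚ, ∀ x ∈ N, σ • x = x) ∨
    (∀ σ ∈ A.inertiaSubgroupIn ℚ,
      ∀ x : Submodule.torsionBy ℤ (P.freyCurve⁄(AlgebraicClosure ℚ)).Point P.p, σ • x - x ∈ N) := by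
  obtain ⟨a, b, e, he, hcase⟩ := h26_model_equiv P P.pp
  have htor : ∀ x : Submodule.torsionBy ℤ (P.freyCurve⁄(AlgebraicClosure ℚ)).Point P.p,
      P.p • e x.1 = 0 := by
    intro x
    rw [← map_nsmul, map_eq_zero_iff e e.injective, ← natCast_zsmul]
    exact (Submodule.mem_torsionBy_iff _ _).mp x.2
  let f : Submodule.torsionBy ℤ (P.freyCurve⁄(AlgebraicClosure ℚ)).Point P.p →+
      (shortW ((a : ℤ) : AlgebraicClosure ℚ) ((b : ℤ) : AlgebraicClosure ℚ)).toAffine.Point :=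
    e.toAddMonoidHom.comp
      (Submodule.torsionBy ℤ (P.freyCurve⁄(AlgebraicClosure ℚ)).Point P.p).subtype.toAddMonoidHom
  have hfx : ∀ x, f x = e x.1 := fun _ => rfl
  have hf : Function.Injective f := by
    intro x y hxy
    rw [hfx, hfx] at hxy
    exact Subtype.ext (e.injective hxy)
  have hfσ : ∀ (σ : AlgebraicClosure ℚ ≃ₐ[ℚ] AlgebraicClosure ℚ) x, f (σ • x) = h26_sig a b σ (f x) := by
    intro σ x
    rw [hfx, hfx, ← he]
    rfl
  have key := hmodel a b hcase (N.toAddSubgroup.map f)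
    (by
      rintro T ⟨x, -, rfl⟩
      rw [hfx]; exact htor x)
    (by
      refine Eq.trans ?_ hcard
      exact Nat.card_congr (N.toAddSubgroup.equivMapOfInjective f hf).symm.toEquiv)
    (by
      rintro σ T ⟨x, hx, rfl⟩
      exact ⟨σ • x, hN σ x hx, hfσ σ x⟩)
  rcases key with h1 | h2
  · left
    intro σ hσ x hx
    apply hf
    rw [hfσ]
    exact h1 σ hσ (f x) ⟨x, hx, rfl⟩
  · right
    intro σ hσ x
    obtain ⟨n, hn, hn'⟩ := h2 σ hσ (f x) (by rw [hfx]; exact htor x)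
    have h3 : n = σ • x - x := by
      apply hf
      rw [hn', map_sub, hfσ]
    rw [← h3]
    exact hn

end Fermat.Agent.S13
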