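import Fermat.Agent.S13.h75_AtP
import Fermat.Agent.S13.h26_FreyP
import Fermat.Agent.S13.h3_Ladder

/-
helper75, project S13, block [B], final form: the model-level dichotomy at `p` in the interface
`h26_AtPModel` of `h26_FreyP.lean` (division polynomial from `h3_Ladder.lean`), and the resulting
unconditional dichotomy at `p` on the Frey curve.
-/

set_option autoImplicit false

namespace Fermat.Agent.S13

open WeierstrassCurve WeierstrassCurve.Affine WeierstrassCurve.Affine.Point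
open Polynomial Fermat.Agent.S05

local notation "Qbar" => AlgebraicClosure ℚ

/-- Block [B] on the model `Y² = X³ + a X² + b X` of the Frey curve at `p`, in the interface of
`h26_frey_atP`. -/
theorem h75_atPModel (P : FreyPackage) (A : ValuationSubring Qbar) (hA : A.LiesOverPrime P.p)
    (a b : ℤ)
    (hcase : (¬ (P.p : ℤ) ∣ b ∧ ¬ (P.p : ℤ) ∣ (a ^ 2 - 4 * b)) ∨
      (¬ (P.p : ℤ) ∣ a ∧ ∃ g : ℤ, g ≠ 0 ∧ (P.p : ℤ) ∣ g ∧ b = g ^ P.p)) :
    h26_AtPModel A P.p a b := by
  have hp : P.p.Prime := P.pp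
  have hp2 : P.p ≠ 2 := by have := P.hp5; omega
  have hodd : P.p % 2 = 1 := Nat.odd_iff.mp P.hp_odd
  obtain ⟨h2v, hcaseV⟩ := h26_model_val (p := P.p) hp hp2 A hA a b hcase
  obtain ⟨hb0, hd0⟩ := h26_model_ne (p := P.p) hp a b hcase P.hp0
  have h2K : (2 : Qbar) ≠ 0 := two_ne_zero
  have hcase' : (A.valuation (a : Qbar) ≤ 1 ∧ A.valuation (b : Qbar) = 1 ∧
        A.valuation ((a : Qbar) ^ 2 - 4 * (b : Qbar)) = 1) ∨
      (A.valuation (a : Qbar) = 1 ∧ ∃ g : ℤ, g ≠ 0 ∧ A.valuation (g : Qbar) < 1 ∧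
        A.valuation (b : Qbar) = A.valuation (g : Qbar) ^ P.p) := by
    rcases hcaseV with h | ⟨ha, g, hg, hg0, hbg⟩
    · exact Or.inl h
    · exact Or.inr ⟨ha, g, fun h => hg0 (by rw [h, Int.cast_zero]), hg, hbg⟩
  have htop := h3_divPoly_top_odd (a : Qbar) (b : Qbar) hodd
  have hmap : h3_divPoly (a : Qbar) (b : Qbar) (P.p / 2)
      = (h3_divPoly a b (P.p / 2)).map (Int.castRingHom Qbar) := by
    rw [← h3_divPoly_map]
    simp
  intro N₀ htors hcard hstab
  have key := h75_atP_shortW a b P.p hp hp2 A hA h2v hcase'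
    (h3_divPoly (a : Qbar) (b : Qbar) (P.p / 2))
    (fun i => by rw [hmap]; exact h42_coeff_map_int_le_one A _ i)
    ((P.p ^ 2 - 1) / 2) htop.1 htop.2
    (fun X Y h hT => (h3_nsmul_eq_zero_iff_odd h2K hb0 hd0 h hodd).mp hT)
    N₀ htors hcard
    (fun σ X Y h h' hN => by
      obtain ⟨h'', e⟩ := h26_sig_some a b σ h
      have := hstab σ _ hN
      rw [e] at this
      exact this)
  rcases key with h1 | h2
  · left
    intro σ hσ T hT
    rcases T with _ | ⟨X, Y, h⟩
    · exact h26_sig_zero a b σ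
    · obtain ⟨h', e⟩ := h26_sig_some a b σ h
      rw [e]
      rw [Affine.Point.some.injEq]
      exact h1 σ hσ X Y h hT
  · right
    intro σ hσ T hT
    rcases T with _ | ⟨X, Y, h⟩
    · change h26_sig a b σ 0 - 0 ∈ N₀
      rw [h26_sig_zero, sub_zero]
      exact N₀.zero_mem
    · obtain ⟨h', e⟩ := h26_sig_some a b σ h
      rw [e]
      exact h2 σ hσ X Y h h' hT

/-- **Block [B], final form.** For a Galois-stable line `N` of the `p`-torsion of the Frey curve
and a valuation subring `A` of `ℚ̄` over `p`: either the inertia group of `A` fixes `N`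
pointwise, or it acts trivially on the quotient by `N`. -/
theorem h75_frey_atP (P : FreyPackage) (A : ValuationSubring Qbar) (hA : A.LiesOverPrime P.p)
    (N : Submodule (ZMod P.p) (Submodule.torsionBy ℤ (P.freyCurve⁄Qbar).Point P.p))
    (hN : IsGaloisStable ℚ N) (hcard : Nat.card N = P.p) :
    (∀ σ ∈ A.inertiaSubgroupIn ℚ, ∀ x ∈ N, σ • x = x) ∨
    (∀ σ ∈ A.inertiaSubgroupIn ℚ,
      ∀ x : Submodule.torsionBy ℤ (P.freyCurve⁄Qbar).Point P.p, σ • x - x ∈ N) :=
  h26_frey_atP P A (fun a b hcase => h75_atPModel P A hA a b hcase) N hN hcard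

end Fermat.Agent.S13
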