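import Fermat.Agent.S13.h6_MinkV
import Fermat.Agent.S13.h26_FreyP2
import Fermat.Agent.S13.h75_AtPFrey
import Fermat.Agent.S05

set_option autoImplicit false

/-!
# S13 reduced to the two statements at the prime `2`

CARD (`h26_frey_card'`), the dichotomy at `p` (`h75_frey_atP`) and S05 are plugged into
`h6_S13_of_blocks`; what remains are (C1) unipotency of inertia at `2` and (C2) absence of a
nonzero Galois-fixed `p`-torsion point.
-/

namespace Fermat.Agent.S13

open WeierstrassCurve WeierstrassCurve.Affine WeierstrassCurve.Affine.Point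

/-- S13 from (C1) and (C2). -/
theorem h6_S13_of_C1_C2 (P : FreyPackage)
    (hC1 : ∀ A : ValuationSubring (AlgebraicClosure ℚ), A.LiesOverPrime 2 →
      ∀ σ ∈ A.inertiaSubgroupIn ℚ,
      ∀ x : Submodule.torsionBy ℤ (P.freyCurve⁄(AlgebraicClosure ℚ)).Point P.p,
        σ • (σ • x - x) = σ • x - x)
    (hC2 : ∀ x : Submodule.torsionBy ℤ (P.freyCurve⁄(AlgebraicClosure ℚ)).Point P.p,
      (∀ σ : AlgebraicClosure ℚ ≃ₐ[ℚ] AlgebraicClosure ℚ, σ • x = x) → x = 0)
    (hred : ¬ GaloisRepIsIrreducible (K := AlgebraicClosure ℚ) ℚ P.freyCurve P.p) :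
    HasGaloisStableCofixedLine (K := AlgebraicClosure ℚ) ℚ P.freyCurve P.p := by
  obtain ⟨hnt, hfin, hcard⟩ := h26_frey_card' P
  exact h6_S13_of_blocks P hnt hfin hcard hC1 hC2
    (fun q hq hq2 hqp => Fermat.Agent.S05.result P hq hq2 hqp)
    (fun A hA N hN hc => h75_frey_atP P A hA N hN hc) hred

end Fermat.Agent.S13
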