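import Mathlib
import Fermat.Prelude.Def_FLTPrelim_Ramification
import Fermat.Agent.S13.h24_Unram

set_option autoImplicit false

namespace Fermat.Agent.S13

open scoped Pointwise NumberField

section Mink

local instance h24m_isAlgebraicQbar : Algebra.IsAlgebraic ℚ (AlgebraicClosure ℚ) :=
  AlgebraicClosure.isAlgebraic ℚ
local instance h24m_isAlgClosureQbar : IsAlgClosure ℚ (AlgebraicClosure ℚ) :=
  ⟨inferInstance, inferInstance⟩

/-- **Unramifiedness from the inertia condition at one place.** Let `F ⊆ ℚ̄` be a finite Galois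
extension of `ℚ`, `A` a valuation subring of `ℚ̄` whose inertia group fixes `F` pointwise, and
`P` a prime of `𝓞 F` contained in the maximal ideal of `A`. Then `P` is unramified over `ℤ`. -/
theorem h24_isUnramifiedAt_of_inertia_at (F : IntermediateField ℚ (AlgebraicClosure ℚ))
    [FiniteDimensional ℚ F] [IsGalois ℚ F] (A : ValuationSubring (AlgebraicClosure ℚ))
    (hI : ∀ σ ∈ A.inertiaSubgroupIn ℚ, ∀ x ∈ F, σ x = x)
    (P : Ideal (𝓞 F)) [hP : P.IsPrime]
    (hPA : ∀ x ∈ P, algebraMap (𝓞 F) (AlgebraicClosure ℚ) x ∈ A.nonunits) :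
    Algebra.IsUnramifiedAt ℤ P := by
  have : NumberField F := ⟨⟩
  have := IsGaloisGroup.of_isFractionRing Gal(F/ℚ) ℤ (𝓞 F) ℚ F
  -- the inertia group of `P` in `Gal(F/ℚ)` is trivial
  have hcard : Nat.card (P.inertia Gal(F/ℚ)) = 1 := by
    rw [← Subgroup.eq_bot_iff_card, Subgroup.eq_bot_iff_forall]
    intro τ' hτ'
    obtain ⟨τ, rfl⟩ := AlgEquiv.restrictNormalHom_surjective (F := ℚ) (K₁ := F)
      (AlgebraicClosure ℚ) τ'
    have hcomm : ∀ x : F, ((AlgEquiv.restrictNormalHom F τ x : F) : AlgebraicClosure ℚ) =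
        τ (x : AlgebraicClosure ℚ) := fun x => AlgEquiv.restrictNormal_commutes τ F x
    have hτ : ∀ x ∈ F, IsIntegral ℤ x → τ x - x ∈ A.nonunits := by
      intro x hx hxi
      have hxi' : IsIntegral ℤ (⟨x, hx⟩ : F) :=
        (isIntegral_algebraMap_iff (FaithfulSMul.algebraMap_injective F (AlgebraicClosure ℚ))).mp
          hxi
      let x' : 𝓞 F := ⟨⟨x, hx⟩, hxi'⟩
      have h1 : AlgEquiv.restrictNormalHom F τ • x' - x' ∈ P := hτ' x'
      have h2 := hPA _ h1
      rw [map_sub] at h2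
      have h3 : algebraMap (𝓞 F) (AlgebraicClosure ℚ) (AlgEquiv.restrictNormalHom F τ • x') =
          τ x := hcomm ⟨x, hx⟩
      rw [h3] at h2
      exact h2
    obtain ⟨σ, hσ, hσF⟩ := h24_exists_inertia_lift_Qbar F A τ hτ
    ext x
    rw [hcomm x, ← hσF x x.2]
    exact hI σ hσ x x.2
  rw [← Ideal.ramificationIdx_eq_one_iff,
    ← Ideal.ramificationIdxIn_eq_ramificationIdx (P.under ℤ) P Gal(F/ℚ),
    ← Ideal.card_inertia_eq_ramificationIdxIn (G := Gal(F/ℚ)) (P.under ℤ) P]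
  exact hcard

/-- **Minkowski, field form (one place per prime).** A finite Galois extension `F ⊆ ℚ̄` of `ℚ`
such that for every prime `ℓ` SOME valuation subring `A` of `ℚ̄` over `ℓ` has its inertia group
fixing `F` pointwise, is `ℚ`. -/
theorem h24_eq_bot_of_inertia (F : IntermediateField ℚ (AlgebraicClosure ℚ))
    [FiniteDimensional ℚ F] [IsGalois ℚ F]
    (hI : ∀ ℓ : ℕ, ℓ.Prime → ∃ A : ValuationSubring (AlgebraicClosure ℚ), A.LiesOverPrime ℓ ∧
      ∀ σ ∈ A.inertiaSubgroupIn ℚ, ∀ x ∈ F, σ x = x) : F = ⊥ := by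
  have : NumberField F := ⟨⟩
  by_contra hne
  have h1 : 1 < Module.finrank ℚ F := by
    have h0 : 0 < Module.finrank ℚ F := Module.finrank_pos
    have h2 : Module.finrank ℚ F ≠ 1 := fun h => hne (IntermediateField.finrank_eq_one_iff.mp h)
    omega
  obtain ⟨ℓ, hℓ, hram⟩ := NumberField.exists_not_isUnramifiedAt_int_of_isGalois (𝒪 := 𝓞 F) h1
  obtain ⟨A, hA, hIA⟩ := hI ℓ hℓ
  -- the prime of `𝓞 F` below `A`
  let φ : 𝓞 F →+* A :=
    { toFun := fun x => ⟨algebraMap (𝓞 F) (AlgebraicClosure ℚ) x,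
        h24_integral_mem A (x.2.map (IsScalarTower.toAlgHom ℤ F (AlgebraicClosure ℚ)))⟩
      map_one' := Subtype.ext (map_one _)
      map_mul' := fun x y => Subtype.ext (map_mul _ x y)
      map_zero' := Subtype.ext (map_zero _)
      map_add' := fun x y => Subtype.ext (map_add _ x y) }
  let P : Ideal (𝓞 F) := (IsLocalRing.maximalIdeal A).comap φ
  have hPprime : P.IsPrime := Ideal.comap_isPrime φ _
  have hPA : ∀ x ∈ P, algebraMap (𝓞 F) (AlgebraicClosure ℚ) x ∈ A.nonunits := by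
    intro x hx
    have h0 : ((φ x : A) : AlgebraicClosure ℚ) = algebraMap (𝓞 F) (AlgebraicClosure ℚ) x := rfl
    rw [← h0, ValuationSubring.coe_mem_nonunits_iff]
    exact hx
  have hℓP : ((ℓ : ℕ) : 𝓞 F) ∈ P := by
    change φ (ℓ : 𝓞 F) ∈ IsLocalRing.maximalIdeal A
    rw [← ValuationSubring.coe_mem_nonunits_iff]
    have h0 : ((φ (ℓ : 𝓞 F) : A) : AlgebraicClosure ℚ) = (ℓ : AlgebraicClosure ℚ) := by
      change algebraMap (𝓞 F) (AlgebraicClosure ℚ) (ℓ : 𝓞 F) = _
      rw [map_natCast]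
    rw [h0]
    exact hA
  exact hram P hPprime hℓP (h24_isUnramifiedAt_of_inertia_at F A hIA P hPA)

/-- Every prime has a valuation subring of `ℚ̄` above it. -/
theorem h24_exists_liesOverPrime (ℓ : ℕ) (hℓ : ℓ.Prime) :
    ∃ A : ValuationSubring (AlgebraicClosure ℚ), A.LiesOverPrime ℓ := by
  let f : ℤ →+* AlgebraicClosure ℚ := Int.castRingHom _
  let I₀ : Ideal f.range := (Ideal.span {(ℓ : ℤ)}).map f.rangeRestrict
  have hI₀ : I₀ ≠ ⊤ := by
    intro h
    have h1 : (1 : f.range) ∈ I₀ := h ▸ Submodule.mem_top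
    rw [Ideal.mem_map_iff_of_surjective f.rangeRestrict f.rangeRestrict_surjective] at h1
    obtain ⟨x, hx, hx1⟩ := h1
    have hx1' : f x = 1 := congrArg Subtype.val hx1
    have hx1'' : x = 1 := by
      have : ((x : ℤ) : AlgebraicClosure ℚ) = ((1 : ℤ) : AlgebraicClosure ℚ) := by
        simpa [f] using hx1'
      exact_mod_cast this
    rw [hx1'', Ideal.mem_span_singleton] at hx
    have h2 : (ℓ : ℤ) = 1 := Int.eq_one_of_dvd_one (by positivity) hx
    have h3 : ℓ = 1 := by exact_mod_cast h2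
    exact hℓ.one_lt.ne' h3
  obtain ⟨A, -, hA⟩ := Ideal.image_subset_nonunits_valuationSubring I₀ hI₀
  refine ⟨A, ?_⟩
  have h1 : f ((ℓ : ℕ) : ℤ) ∈ A.nonunits :=
    hA ⟨f.rangeRestrict ((ℓ : ℕ) : ℤ),
      Ideal.mem_map_of_mem _ (Ideal.mem_span_singleton_self _), rfl⟩
  have h2 : f ((ℓ : ℕ) : ℤ) = ((ℓ : ℕ) : AlgebraicClosure ℚ) := by simp [f]
  rw [h2] at h1
  exact h1

/-- **Minkowski, subgroup form (one place per prime).** An open normal subgroup of `G_ℚ` that,
for every prime `ℓ`, contains the inertia group of SOME valuation subring of `ℚ̄` over `ℓ`, is the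
whole group. -/
theorem h24_eq_top_of_inertia_le
    (H : Subgroup (AlgebraicClosure ℚ ≃ₐ[ℚ] AlgebraicClosure ℚ)) [hn : H.Normal]
    (hopen : IsOpen (H : Set (AlgebraicClosure ℚ ≃ₐ[ℚ] AlgebraicClosure ℚ)))
    (hI : ∀ ℓ : ℕ, ℓ.Prime → ∃ A : ValuationSubring (AlgebraicClosure ℚ), A.LiesOverPrime ℓ ∧
      A.inertiaSubgroupIn ℚ ≤ H) : H = ⊤ := by
  have hclosed : IsClosed (H : Set (AlgebraicClosure ℚ ≃ₐ[ℚ] AlgebraicClosure ℚ)) :=
    Subgroup.isClosed_of_isOpen H hopen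
  let Hc : ClosedSubgroup (AlgebraicClosure ℚ ≃ₐ[ℚ] AlgebraicClosure ℚ) := ⟨H, hclosed⟩
  have hfix : (IntermediateField.fixedField H).fixingSubgroup = H :=
    InfiniteGalois.fixingSubgroup_fixedField Hc
  have hfin : FiniteDimensional ℚ (IntermediateField.fixedField H) := by
    rw [← InfiniteGalois.isOpen_iff_finite]
    change IsOpen ((IntermediateField.fixedField H).fixingSubgroup :
      Set (AlgebraicClosure ℚ ≃ₐ[ℚ] AlgebraicClosure ℚ))
    rw [hfix]
    exact hopen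
  have hgal : IsGalois ℚ (IntermediateField.fixedField H) := by
    have hn' : (IntermediateField.fixedField H).fixingSubgroup.Normal := by
      rw [hfix]
      exact hn
    exact (InfiniteGalois.normal_iff_isGalois (IntermediateField.fixedField H)).mp hn'
  have hF : IntermediateField.fixedField H = ⊥ := by
    refine h24_eq_bot_of_inertia _ fun ℓ hℓ => ?_
    obtain ⟨A, hA, hle⟩ := hI ℓ hℓ
    refine ⟨A, hA, fun σ hσ x hx => ?_⟩
    have h1 : σ ∈ (IntermediateField.fixedField H).fixingSubgroup := by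
      rw [hfix]
      exact hle hσ
    exact (IntermediateField.mem_fixingSubgroup_iff _ σ).mp h1 x hx
  rw [← hfix, hF]
  exact IntermediateField.fixingSubgroup_bot

/-- **Minkowski, subgroup form (all places).** -/
theorem h24_eq_top_of_forall_inertia_le
    (H : Subgroup (AlgebraicClosure ℚ ≃ₐ[ℚ] AlgebraicClosure ℚ)) [H.Normal]
    (hopen : IsOpen (H : Set (AlgebraicClosure ℚ ≃ₐ[ℚ] AlgebraicClosure ℚ)))
    (hI : ∀ ℓ : ℕ, ℓ.Prime → ∀ A : ValuationSubring (AlgebraicClosure ℚ), A.LiesOverPrime ℓ →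
      A.inertiaSubgroupIn ℚ ≤ H) : H = ⊤ :=
  h24_eq_top_of_inertia_le H hopen fun ℓ hℓ =>
    let ⟨A, hA⟩ := h24_exists_liesOverPrime ℓ hℓ
    ⟨A, hA, hI ℓ hℓ A hA⟩

/-- **Minkowski, contrapositive (every place over some prime).** An open normal proper subgroup
of `G_ℚ` misses part of the inertia group of EVERY valuation subring over some prime. -/
theorem h24_exists_prime_of_ne_top
    (H : Subgroup (AlgebraicClosure ℚ ≃ₐ[ℚ] AlgebraicClosure ℚ)) [H.Normal]
    (hopen : IsOpen (H : Set (AlgebraicClosure ℚ ≃ₐ[ℚ] AlgebraicClosure ℚ))) (hne : H ≠ ⊤) :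
    ∃ ℓ : ℕ, ℓ.Prime ∧ ∀ A : ValuationSubring (AlgebraicClosure ℚ), A.LiesOverPrime ℓ →
      ∃ σ ∈ A.inertiaSubgroupIn ℚ, σ ∉ H := by
  by_contra hcon
  push Not at hcon
  refine hne (h24_eq_top_of_inertia_le H hopen fun ℓ hℓ => ?_)
  obtain ⟨A, hA, hle⟩ := hcon ℓ hℓ
  exact ⟨A, hA, hle⟩

/-- A subgroup containing the pointwise fixer of a finite subset of `ℚ̄` is open. -/
theorem h24_isOpen_of_finite_fixer
    (H : Subgroup (AlgebraicClosure ℚ ≃ₐ[ℚ] AlgebraicClosure ℚ)) (s : Finset (AlgebraicClosure ℚ))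
    (hs : ∀ σ : AlgebraicClosure ℚ ≃ₐ[ℚ] AlgebraicClosure ℚ, (∀ x ∈ s, σ x = x) → σ ∈ H) :
    IsOpen (H : Set (AlgebraicClosure ℚ ≃ₐ[ℚ] AlgebraicClosure ℚ)) := by
  have hfd : FiniteDimensional ℚ (IntermediateField.adjoin ℚ (s : Set (AlgebraicClosure ℚ))) :=
    IntermediateField.finiteDimensional_adjoin fun x _ => Algebra.IsIntegral.isIntegral x
  have hopen := IntermediateField.fixingSubgroup_isOpen
    (IntermediateField.adjoin ℚ (s : Set (AlgebraicClosure ℚ)))
  refine Subgroup.isOpen_mono (H₁ := (IntermediateField.adjoin ℚ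
    (s : Set (AlgebraicClosure ℚ))).fixingSubgroup) ?_ hopen
  intro σ hσ
  refine hs σ fun x hx => ?_
  exact (IntermediateField.mem_fixingSubgroup_iff _ σ).mp hσ x
    (IntermediateField.subset_adjoin ℚ _ hx)

/-- **Minkowski, character form (one place per prime).** A homomorphism from `G_ℚ` with open
kernel that is trivial on the inertia group of some valuation subring over each prime is
trivial. -/
theorem h24_hom_trivial_of_unramified {M : Type*} [Group M]
    (χ : (AlgebraicClosure ℚ ≃ₐ[ℚ] AlgebraicClosure ℚ) →* M)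
    (hopen : IsOpen (χ.ker : Set (AlgebraicClosure ℚ ≃ₐ[ℚ] AlgebraicClosure ℚ)))
    (hunr : ∀ ℓ : ℕ, ℓ.Prime → ∃ A : ValuationSubring (AlgebraicClosure ℚ), A.LiesOverPrime ℓ ∧
      ∀ σ ∈ A.inertiaSubgroupIn ℚ, χ σ = 1)
    (σ : AlgebraicClosure ℚ ≃ₐ[ℚ] AlgebraicClosure ℚ) : χ σ = 1 := by
  have h := h24_eq_top_of_inertia_le χ.ker hopen fun ℓ hℓ => by
    obtain ⟨A, hA, hA'⟩ := hunr ℓ hℓ
    exact ⟨A, hA, fun τ hτ => MonoidHom.mem_ker.mpr (hA' τ hτ)⟩
  exact MonoidHom.mem_ker.mp (h ▸ Subgroup.mem_top σ)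

end Mink

end Fermat.Agent.S13
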