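import Mathlib
import Fermat.Prelude.Def_FLTPrelim_FreyPackage
import Fermat.Prelude.Def_FLTPrelim_GaloisRep
import Fermat.Prelude.Def_FLTPrelim_Ramification
import Fermat.Prelude.Def_FLTPrelim_CofixedLine

set_option autoImplicit false

/-!
# S13, block [F]: the abstract finish

`V` is the `p`-torsion of the Frey curve over `AlgebraicClosure ℚ`, and `N` a Galois-stable
proper nonzero submodule.  Given

* `|V| ≤ p²`, open point stabilisers,
* the dichotomy at `p` (inertia fixes `N` pointwise or acts trivially on `V / N`),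
* unipotency of inertia at `2`, triviality of inertia at odd `q ≠ p`,
* no nonzero point of `V` fixed by the whole Galois group,
* the Minkowski bridge (a proper open normal subgroup misses inertia at some prime),

the line `N` is a Galois-stable cofixed line.
-/

namespace Fermat.Agent.S13

open WeierstrassCurve WeierstrassCurve.Affine WeierstrassCurve.Affine.Point

/-- The `p`-torsion of the Frey curve over `AlgebraicClosure ℚ`. -/
abbrev h43_V (P : FreyPackage) : Type :=
  Submodule.torsionBy ℤ (P.freyCurve⁄(AlgebraicClosure ℚ)).Point P.p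

/-- The absolute Galois group of `ℚ`. -/
abbrev h43_G : Type := AlgebraicClosure ℚ ≃ₐ[ℚ] AlgebraicClosure ℚ

section

variable (P : FreyPackage)

theorem h43_smul_zsmul (σ : h43_G) (k : ℤ) (x : h43_V P) : σ • (k • x) = k • (σ • x) :=
  map_zsmul (DistribSMul.toAddMonoidHom (h43_V P) σ) k x

theorem h43_smul_sub (σ : h43_G) (x y : h43_V P) : σ • (x - y) = σ • x - σ • y :=
  map_sub (DistribSMul.toAddMonoidHom (h43_V P) σ) x y

theorem h43_smul_neg (σ : h43_G) (x : h43_V P) : σ • (-x) = -(σ • x) :=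
  map_neg (DistribSMul.toAddMonoidHom (h43_V P) σ) x

theorem h43_prime_smul (x : h43_V P) : (P.p : ℤ) • x = 0 := by
  apply Subtype.ext
  exact (Submodule.mem_torsionBy_iff _ _).mp x.2

/-- The pointwise stabiliser of a Galois-stable submodule. -/
def h43_H1 (N : Submodule (ZMod P.p) (h43_V P)) : Subgroup h43_G where
  carrier := {σ | ∀ x ∈ N, σ • x = x}
  one_mem' := fun x _ => one_smul _ x
  mul_mem' := fun {σ τ} hσ hτ x hx => by
    rw [mul_smul, hτ x hx, hσ x hx]
  inv_mem' := fun {σ} hσ x hx => by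
    have h := hσ x hx
    calc σ⁻¹ • x = σ⁻¹ • (σ • x) := by rw [h]
      _ = x := inv_smul_smul σ x

/-- The subgroup acting trivially on the quotient by a Galois-stable submodule. -/
def h43_H2 (N : Submodule (ZMod P.p) (h43_V P)) (hN : IsGaloisStable ℚ N) : Subgroup h43_G where
  carrier := {σ | ∀ x : h43_V P, σ • x - x ∈ N}
  one_mem' := fun x => by
    rw [one_smul, sub_self]; exact N.zero_mem
  mul_mem' := fun {σ τ} hσ hτ x => by
    have h1 : (σ * τ) • x - x = σ • (τ • x - x) + (σ • x - x) := by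
      rw [mul_smul, h43_smul_sub]; abel
    rw [h1]
    exact N.add_mem (hN σ _ (hτ x)) (hσ x)
  inv_mem' := fun {σ} hσ x => by
    have h1 : σ⁻¹ • x - x = -(σ⁻¹ • (σ • x - x)) := by
      rw [h43_smul_sub, inv_smul_smul]; abel
    rw [h1]
    exact N.neg_mem (hN σ⁻¹ _ (hσ x))

theorem h43_mem_H1 (N : Submodule (ZMod P.p) (h43_V P)) (σ : h43_G) :
    σ ∈ h43_H1 P N ↔ ∀ x ∈ N, σ • x = x := Iff.rfl

theorem h43_mem_H2 (N : Submodule (ZMod P.p) (h43_V P)) (hN : IsGaloisStable ℚ N) (σ : h43_G) :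
    σ ∈ h43_H2 P N hN ↔ ∀ x : h43_V P, σ • x - x ∈ N := Iff.rfl

theorem h43_H1_normal (N : Submodule (ZMod P.p) (h43_V P)) (hN : IsGaloisStable ℚ N) :
    (h43_H1 P N).Normal := by
  refine ⟨fun σ hσ τ x hx => ?_⟩
  have h1 : τ⁻¹ • x ∈ N := hN τ⁻¹ x hx
  rw [mul_smul, mul_smul, hσ _ h1, smul_inv_smul]

theorem h43_H2_normal (N : Submodule (ZMod P.p) (h43_V P)) (hN : IsGaloisStable ℚ N) :
    (h43_H2 P N hN).Normal := by
  refine ⟨fun σ hσ τ x => ?_⟩
  have h1 : (τ * σ * τ⁻¹) • x - x = τ • (σ • (τ⁻¹ • x) - τ⁻¹ • x) := by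
    rw [mul_smul, mul_smul, h43_smul_sub, smul_inv_smul]
  rw [h1]
  exact hN τ _ (hσ _)

/-- Openness of the two subgroups from openness of the point stabilisers. -/
theorem h43_H_open [Finite (h43_V P)]
    (hopen : ∀ x : h43_V P, IsOpen {σ : h43_G | σ • x = x})
    (H : Subgroup h43_G) (hH : ∀ σ : h43_G, (∀ x : h43_V P, σ • x = x) → σ ∈ H) :
    IsOpen (H : Set h43_G) := by
  have h0 : IsOpen (⋂ x : h43_V P, {σ : h43_G | σ • x = x}) := isOpen_iInter_of_finite hopen
  refine Subgroup.isOpen_of_mem_nhds H (g := 1) ?_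
  refine Filter.mem_of_superset (h0.mem_nhds ?_) ?_
  · simp
  · intro σ hσ
    exact hH σ (fun x => Set.mem_iInter.mp hσ x)

/-- A proper nonzero submodule of `V` has `p` elements, and `V` has `p²`. -/
theorem h43_line_card [Finite (h43_V P)] (hcard : Nat.card (h43_V P) ≤ P.p ^ 2)
    (N : Submodule (ZMod P.p) (h43_V P)) (hbot : N ≠ ⊥) (htop : N ≠ ⊤) :
    Nat.card N = P.p ∧ Nat.card (h43_V P) = P.p ^ 2 := by
  have : Fact P.p.Prime := ⟨P.pp⟩
  have : Module.Finite (ZMod P.p) (h43_V P) := Module.Finite.of_finite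
  have hV : Nat.card (h43_V P) = P.p ^ Module.finrank (ZMod P.p) (h43_V P) := by
    rw [Module.natCard_eq_pow_finrank (K := ZMod P.p), Nat.card_zmod]
  have hNc : Nat.card N = P.p ^ Module.finrank (ZMod P.p) N := by
    rw [Module.natCard_eq_pow_finrank (K := ZMod P.p), Nat.card_zmod]
  have h1 : Module.finrank (ZMod P.p) N < Module.finrank (ZMod P.p) (h43_V P) :=
    Submodule.finrank_lt htop
  have h2 : Module.finrank (ZMod P.p) N ≠ 0 := by
    intro h0
    exact hbot (Submodule.finrank_eq_zero.mp h0)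
  have h3 : Module.finrank (ZMod P.p) (h43_V P) ≤ 2 := by
    rw [hV] at hcard
    exact (Nat.pow_le_pow_iff_right P.pp.one_lt).mp hcard
  have h4 : Module.finrank (ZMod P.p) N = 1 := by omega
  have h5 : Module.finrank (ZMod P.p) (h43_V P) = 2 := by omega
  rw [hNc, hV, h4, h5, pow_one]
  exact ⟨rfl, rfl⟩

/-- An element of `Gal` with `(σ - 1)² = 0` on `V` fixes a stable line pointwise. -/
theorem h43_unip_fix (N : Submodule (ZMod P.p) (h43_V P)) (hN : IsGaloisStable ℚ N)
    (hNcard : Nat.card N = P.p) (σ : h43_G)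
    (hσ : ∀ x : h43_V P, σ • (σ • x - x) = σ • x - x) : ∀ x ∈ N, σ • x = x := by
  have : Fact P.p.Prime := ⟨P.pp⟩
  intro x hx
  by_cases hx0 : x = 0
  · rw [hx0, smul_zero]
  have hcardN' : Nat.card N.toAddSubgroup = P.p := hNcard
  have hx' : (⟨x, hx⟩ : N.toAddSubgroup) ≠ 0 := by
    intro h
    exact hx0 (congrArg Subtype.val h)
  have hgen := zmultiples_eq_top_of_prime_card hcardN' hx'
  have hmem : (⟨σ • x, hN σ x hx⟩ : N.toAddSubgroup) ∈ AddSubgroup.zmultiples (⟨x, hx⟩ : N.toAddSubgroup) := by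
    rw [hgen]; exact AddSubgroup.mem_top _
  obtain ⟨k, hk⟩ := AddSubgroup.mem_zmultiples_iff.mp hmem
  have hk' : k • x = σ • x := by
    have := congrArg Subtype.val hk
    simpa using this
  have h1 := hσ x
  rw [← hk', h43_smul_sub, h43_smul_zsmul, ← hk'] at h1
  have h2 : ((k - 1) * (k - 1)) • x = 0 := by
    have e : ((k - 1) * (k - 1)) • x = (k • k • x - k • x) - (k • x - x) := by
      rw [mul_smul, sub_smul, sub_smul, one_smul, one_smul, smul_sub]
    rw [e, h1, sub_self]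
  have hord : addOrderOf x = P.p := by
    refine addOrderOf_eq_prime ?_ hx0
    have := h43_prime_smul P x
    rwa [natCast_zsmul] at this
  have h3 : (P.p : ℤ) ∣ (k - 1) * (k - 1) := by
    rw [← hord]; exact addOrderOf_dvd_iff_zsmul_eq_zero.mpr h2
  have h4 : (P.p : ℤ) ∣ k - 1 := by
    rcases (Nat.prime_iff_prime_int.mp P.pp).dvd_or_dvd h3 with h | h <;> exact h
  have h5 : (k - 1) • x = 0 := by
    rw [← hord] at h4; exact addOrderOf_dvd_iff_zsmul_eq_zero.mp h4
  rw [sub_smul, one_smul, sub_eq_zero] at h5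
  rw [← hk', h5]

/-- An element of `Gal` with `(σ - 1)² = 0` on `V` acts trivially on the quotient by a stable
line. -/
theorem h43_unip_quot [Finite (h43_V P)] (N : Submodule (ZMod P.p) (h43_V P))
    (hN : IsGaloisStable ℚ N) (hNcard : Nat.card N = P.p) (hVcard : Nat.card (h43_V P) = P.p ^ 2)
    (σ : h43_G) (hσ : ∀ x : h43_V P, σ • (σ • x - x) = σ • x - x) :
    ∀ x : h43_V P, σ • x - x ∈ N := by
  have hfix := h43_unip_fix P N hN hNcard σ hσ
  intro x
  by_contra hy
  -- the subgroup of fixed points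
  let S : AddSubgroup (h43_V P) :=
    { carrier := {y | σ • y = y}
      zero_mem' := smul_zero σ
      add_mem' := fun {a b} ha hb => by
        change σ • (a + b) = a + b
        rw [smul_add, ha, hb]
      neg_mem' := fun {a} ha => by
        change σ • (-a) = -a
        rw [h43_smul_neg, ha] }
  have hNS : N.toAddSubgroup ≤ S := fun y hy' => hfix y hy'
  have hyS : σ • x - x ∈ S := hσ x
  have hd1 : Nat.card N.toAddSubgroup ∣ Nat.card S := AddSubgroup.card_dvd_of_le hNS
  have hd2 : Nat.card S ∣ Nat.card (h43_V P) := AddSubgroup.card_addSubgroup_dvd_card S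
  have hcN : Nat.card N.toAddSubgroup = P.p := hNcard
  rw [hcN] at hd1
  rw [hVcard] at hd2
  obtain ⟨m, hm, hSm⟩ := (Nat.dvd_prime_pow P.pp).mp hd2
  have hm' : m = 0 ∨ m = 1 ∨ m = 2 := by omega
  rcases hm' with rfl | rfl | rfl
  · rw [hSm, pow_zero] at hd1
    exact P.pp.one_lt.ne' (Nat.dvd_one.mp hd1)
  · have hle : Nat.card S ≤ Nat.card N.toAddSubgroup := by rw [hSm, hcN, pow_one]
    have heq : N.toAddSubgroup = S := AddSubgroup.eq_of_le_of_card_ge hNS hle
    apply hy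
    have : σ • x - x ∈ N.toAddSubgroup := by rw [heq]; exact hyS
    exact this
  · have htop : S = ⊤ := S.eq_top_of_card_eq (by rw [hSm, hVcard])
    have hx : x ∈ S := by rw [htop]; exact AddSubgroup.mem_top _
    have hx' : σ • x = x := hx
    apply hy
    rw [hx', sub_self]
    exact N.zero_mem

/-- **The abstract finish of S13.** -/
theorem h43_finish
    (hnt : Nontrivial (h43_V P)) (hfin : Finite (h43_V P))
    (hcard : Nat.card (h43_V P) ≤ P.p ^ 2)
    (hopen : ∀ x : h43_V P, IsOpen {σ : h43_G | σ • x = x})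
    (hAtP : ∀ (A : ValuationSubring (AlgebraicClosure ℚ)), A.LiesOverPrime P.p →
      ∀ N : Submodule (ZMod P.p) (h43_V P), IsGaloisStable ℚ N → Nat.card N = P.p →
        (∀ σ ∈ A.inertiaSubgroupIn ℚ, ∀ x ∈ N, σ • x = x) ∨
        (∀ σ ∈ A.inertiaSubgroupIn ℚ, ∀ x : h43_V P, σ • x - x ∈ N))
    (hC1 : ∀ (A : ValuationSubring (AlgebraicClosure ℚ)), A.LiesOverPrime 2 →
      ∀ σ ∈ A.inertiaSubgroupIn ℚ, ∀ x : h43_V P, σ • (σ • x - x) = σ • x - x)
    (hC2 : ∀ x : h43_V P, (∀ σ : h43_G, σ • x = x) → x = 0)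
    (hD : ∀ q : ℕ, q.Prime → q ≠ 2 → q ≠ P.p → P.GaloisRepUnramifiedAt q)
    (hE : ∀ (H : Subgroup h43_G), H.Normal → IsOpen (H : Set h43_G) → H ≠ ⊤ →
      ∃ q : ℕ, q.Prime ∧ ∀ A : ValuationSubring (AlgebraicClosure ℚ), A.LiesOverPrime q →
        ∃ σ ∈ A.inertiaSubgroupIn ℚ, σ ∉ H)
    (hex : ∀ q : ℕ, q.Prime → ∃ A : ValuationSubring (AlgebraicClosure ℚ), A.LiesOverPrime q)
    (hred : ¬ GaloisRepIsIrreducible (K := AlgebraicClosure ℚ) ℚ P.freyCurve P.p) :
    HasGaloisStableCofixedLine (K := AlgebraicClosure ℚ) ℚ P.freyCurve P.p := by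
  -- a stable proper nonzero submodule
  have hex' : ∃ N : Submodule (ZMod P.p) (h43_V P), IsGaloisStable ℚ N ∧ N ≠ ⊥ ∧ N ≠ ⊤ := by
    by_contra hcon
    apply hred
    refine ⟨hnt, fun N hN => ?_⟩
    by_contra h
    push Not at h
    exact hcon ⟨N, hN, h.1, h.2⟩
  obtain ⟨N, hN, hbot, htop⟩ := hex'
  obtain ⟨hNcard, hVcard⟩ := h43_line_card P hcard N hbot htop
  -- the two subgroups
  have n1 : (h43_H1 P N).Normal := h43_H1_normal P N hN
  have n2 : (h43_H2 P N hN).Normal := h43_H2_normal P N hN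
  have o1 : IsOpen ((h43_H1 P N : Subgroup h43_G) : Set h43_G) :=
    h43_H_open P hopen _ (fun σ hσ x _ => hσ x)
  have o2 : IsOpen ((h43_H2 P N hN : Subgroup h43_G) : Set h43_G) :=
    h43_H_open P hopen _ (fun σ hσ x => by rw [hσ x, sub_self]; exact N.zero_mem)
  -- inertia away from `p` lies in both subgroups
  have haway : ∀ q : ℕ, q.Prime → q ≠ P.p →
      ∀ A : ValuationSubring (AlgebraicClosure ℚ), A.LiesOverPrime q →
        ∀ σ ∈ A.inertiaSubgroupIn ℚ, σ ∈ h43_H1 P N ∧ σ ∈ h43_H2 P N hN := by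
    intro q hq hqp A hA σ hσ
    by_cases hq2 : q = 2
    · subst hq2
      have hu := hC1 A hA σ hσ
      exact ⟨h43_unip_fix P N hN hNcard σ hu, h43_unip_quot P N hN hNcard hVcard σ hu⟩
    · have hunr := hD q hq hq2 hqp A hA σ hσ
      refine ⟨fun x _ => hunr x, fun x => ?_⟩
      have hx : σ • x = x := hunr x
      rw [hx, sub_self]
      exact N.zero_mem
  -- Minkowski
  have hmain : h43_H1 P N = ⊤ ∨ h43_H2 P N hN = ⊤ := by
    by_contra hcon
    push Not at hcon
    obtain ⟨h1, h2⟩ := hcon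
    obtain ⟨q1, hq1, hb1⟩ := hE _ n1 o1 h1
    obtain ⟨q2, hq2, hb2⟩ := hE _ n2 o2 h2
    have e1 : q1 = P.p := by
      by_contra hne
      obtain ⟨A, hA⟩ := hex q1 hq1
      obtain ⟨σ, hσ, hσn⟩ := hb1 A hA
      exact hσn (haway q1 hq1 hne A hA σ hσ).1
    have e2 : q2 = P.p := by
      by_contra hne
      obtain ⟨A, hA⟩ := hex q2 hq2
      obtain ⟨σ, hσ, hσn⟩ := hb2 A hA
      exact hσn (haway q2 hq2 hne A hA σ hσ).2
    subst e1
    obtain ⟨A, hA⟩ := hex P.p P.pp
    obtain ⟨σ1, hσ1, hσ1n⟩ := hb1 A hA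
    obtain ⟨σ2, hσ2, hσ2n⟩ := hb2 A (e2 ▸ hA)
    rcases hAtP A hA N hN hNcard with h | h
    · exact hσ1n (fun x hx => h σ1 hσ1 x hx)
    · exact hσ2n (fun x => h σ2 hσ2 x)
  rcases hmain with h1 | h2
  · -- a rational point of order `p`: impossible
    exfalso
    obtain ⟨x, hx, hx0⟩ := Submodule.exists_mem_ne_zero_of_ne_bot hbot
    apply hx0
    apply hC2 x
    intro σ
    have hσ : σ ∈ h43_H1 P N := by rw [h1]; exact Subgroup.mem_top σ
    exact hσ x hx
  · refine ⟨N, hN, hbot, htop, fun σ x => ?_⟩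
    have hσ : σ ∈ h43_H2 P N hN := by rw [h2]; exact Subgroup.mem_top σ
    exact hσ x

end

end Fermat.Agent.S13
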