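import Mathlib
import Fermat.Prelude.Def_FLTPrelim_Ramification

/-
helper45, project S13, block [C]: shared definitions for the split nodal form
`Y² + d X Y = X³ + c X` (branches `s = Y`, `t = Y + d X`, `s t = X (X² + c)`).
Valid in every residue characteristic; the only unit hypothesis used later is `v d = 1`.
-/

set_option autoImplicit false

namespace Fermat.Agent.S13

open WeierstrassCurve

/-- The Weierstrass curve `Y² + d X Y = X³ + c X`. -/
def h45_nodalW {R : Type*} [CommRing R] (d c : R) : WeierstrassCurve R := ⟨d, 0, 0, c, 0⟩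

section

variable {R : Type*} [CommRing R] (d c : R)

@[simp] lemma h45_nodalW_a₁ : (h45_nodalW d c).a₁ = d := rfl
@[simp] lemma h45_nodalW_a₂ : (h45_nodalW d c).a₂ = 0 := rfl
@[simp] lemma h45_nodalW_a₃ : (h45_nodalW d c).a₃ = 0 := rfl
@[simp] lemma h45_nodalW_a₄ : (h45_nodalW d c).a₄ = c := rfl
@[simp] lemma h45_nodalW_a₆ : (h45_nodalW d c).a₆ = 0 := rfl

lemma h45_nodalW_map {S : Type*} [CommRing S] (f : R →+* S) :
    (h45_nodalW d c).map f = h45_nodalW (f d) (f c) := by
  ext <;> simp [h45_nodalW]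

lemma h45_nodalW_equation_iff (X Y : R) :
    (h45_nodalW d c).toAffine.Equation X Y ↔ Y ^ 2 + d * X * Y = X ^ 3 + c * X := by
  rw [Affine.equation_iff]; simp

lemma h45_nodalW_Δ : (h45_nodalW d c).Δ = c ^ 2 * (d ^ 4 - 64 * c) := by
  simp only [WeierstrassCurve.Δ, WeierstrassCurve.b₂, WeierstrassCurve.b₄, WeierstrassCurve.b₆,
    WeierstrassCurve.b₈, h45_nodalW_a₁, h45_nodalW_a₂, h45_nodalW_a₃, h45_nodalW_a₄,
    h45_nodalW_a₆]
  ring

lemma h45_nodalW_negY (X Y : R) : (h45_nodalW d c).toAffine.negY X Y = -Y - d * X := by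
  simp [Affine.negY]

end

section

variable {K : Type*} [Field K] (d c : K)

lemma h45_nodalW_isElliptic (hc : c ≠ 0) (hd : d ^ 4 - 64 * c ≠ 0) :
    (h45_nodalW d c).IsElliptic := by
  refine ⟨?_⟩
  rw [h45_nodalW_Δ]
  exact (mul_ne_zero (pow_ne_zero _ hc) hd).isUnit

/-- Product of the two branch functions `s = Y` and `t = Y + d X`. -/
lemma h45_nodalW_st {X Y : K} (h : (h45_nodalW d c).toAffine.Equation X Y) :
    Y * (Y + d * X) = X * (X ^ 2 + c) := by
  have e := (h45_nodalW_equation_iff d c X Y).mp h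
  linear_combination e

variable [DecidableEq K] (A : ValuationSubring K)

/-- Kernel of reduction: the point at infinity and the affine points with non-integral `X`. -/
def h45_IsE1 (P : (h45_nodalW d c).toAffine.Point) : Prop :=
  P = 0 ∨ ∃ (X Y : K) (h : (h45_nodalW d c).toAffine.Nonsingular X Y),
    P = Affine.Point.some X Y h ∧ 1 < A.valuation X

/-- Points reducing to the node `(0,0)`: affine points with `X` in the maximal ideal. -/
def h45_IsN (P : (h45_nodalW d c).toAffine.Point) : Prop :=
  ∃ (X Y : K) (h : (h45_nodalW d c).toAffine.Nonsingular X Y),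
    P = Affine.Point.some X Y h ∧ A.valuation X < 1

/-- Component `C_g` (branch `Y ≈ 0`) of the node region, `v(c) < g < 1`.
The other branch (`Y + d X ≈ 0`) is `h45_InC d c A g (-P)`. -/
def h45_InC (g : A.ValueGroup) (P : (h45_nodalW d c).toAffine.Point) : Prop :=
  ∃ (X Y : K) (h : (h45_nodalW d c).toAffine.Nonsingular X Y),
    P = Affine.Point.some X Y h ∧ A.valuation X = g ∧ A.valuation c < g ∧ g < 1 ∧
      A.valuation Y < g

/-- The middle component of the node region: `v(X) ≤ v(c)`. -/
def h45_InM (P : (h45_nodalW d c).toAffine.Point) : Prop :=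
  ∃ (X Y : K) (h : (h45_nodalW d c).toAffine.Nonsingular X Y),
    P = Affine.Point.some X Y h ∧ A.valuation X ≤ A.valuation c

end

end Fermat.Agent.S13
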