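import Fermat.Agent.S13.h45_NodalDefs
import Fermat.Agent.S05.NodeB

/-
helper45, project S13, block [C]: the three component rules R1/R2/R3 on the split nodal
form `Y² + d X Y = X³ + c X` (port of `Fermat/Agent/S05/NodeB.lean`; no hypothesis on `v 2`).
-/

set_option autoImplicit false

namespace Fermat.Agent.S13

open WeierstrassCurve
open Fermat.Agent.S05 (nodeB_some_congr nodeB_val_R1 nodeB_val_R2 nodeB_val_R3 nodeB_val_R3zero)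

/-! ### Helper lemmas -/

section helpers

variable {K : Type*} [Field K]

/-- Secant addition on `h45_nodalW d c` with denominator-free identities
(branch functions `s = Y`, `t = Y + d X`). -/
lemma h45_secant [DecidableEq K] {d c : K} {X₁ Y₁ X₂ Y₂ : K}
    (h₁ : (h45_nodalW d c).toAffine.Nonsingular X₁ Y₁)
    (h₂ : (h45_nodalW d c).toAffine.Nonsingular X₂ Y₂) (hx : X₁ ≠ X₂) :
    ∃ (X₃ Y₃ : K) (h₃ : (h45_nodalW d c).toAffine.Nonsingular X₃ Y₃),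
      Affine.Point.some X₁ Y₁ h₁ + Affine.Point.some X₂ Y₂ h₂ = Affine.Point.some X₃ Y₃ h₃ ∧
      X₁ * X₂ * X₃ * (X₁ - X₂) ^ 2 = (X₁ * Y₂ - X₂ * Y₁) ^ 2 ∧
      (Y₃ + d * X₃) * (X₁ - X₂) = -((Y₁ - Y₂) * X₃ + (X₁ * Y₂ - X₂ * Y₁)) ∧
      Y₃ * (Y₃ + d * X₃) = X₃ * (X₃ ^ 2 + c) ∧
      X₃ * (X₁ - X₂) ^ 2 =
        (Y₁ - Y₂) ^ 2 + d * (Y₁ - Y₂) * (X₁ - X₂) - (X₁ + X₂) * (X₁ - X₂) ^ 2 := by
  have e₁ := (h45_nodalW_equation_iff d c X₁ Y₁).mp h₁.1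
  have e₂ := (h45_nodalW_equation_iff d c X₂ Y₂).mp h₂.1
  have hD : X₁ - X₂ ≠ 0 := sub_ne_zero.mpr hx
  obtain ⟨Λ, hΛdef, hΛ⟩ : ∃ Λ, (h45_nodalW d c).toAffine.slope X₁ X₂ Y₁ Y₂ = Λ ∧
      Λ * (X₁ - X₂) = Y₁ - Y₂ :=
    ⟨_, Affine.slope_of_X_ne hx, div_mul_cancel₀ _ hD⟩
  have hX : (h45_nodalW d c).toAffine.addX X₁ X₂ ((h45_nodalW d c).toAffine.slope X₁ X₂ Y₁ Y₂)
      = Λ ^ 2 + d * Λ - X₁ - X₂ := by
    rw [hΛdef]; simp [Affine.addX]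
  have hY : (h45_nodalW d c).toAffine.addY X₁ X₂ Y₁ ((h45_nodalW d c).toAffine.slope X₁ X₂ Y₁ Y₂)
      = -(Λ * (Λ ^ 2 + d * Λ - X₁ - X₂ - X₁) + Y₁) - d * (Λ ^ 2 + d * Λ - X₁ - X₂) := by
    rw [hΛdef]; simp [Affine.addY, Affine.negAddY, Affine.addX, Affine.negY]
  obtain ⟨h₃, h₃eq⟩ :=
    nodeB_some_congr (Affine.nonsingular_add h₁ h₂ (fun hxy => hx hxy.1)) hX hY
  have e₃ := (h45_nodalW_equation_iff d c _ _).mp h₃.1
  refine ⟨_, _, h₃, (Affine.Point.add_of_X_ne hx).trans h₃eq, ?_, ?_, ?_, ?_⟩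
  · linear_combination (X₁ * X₂ * (Λ * (X₁ - X₂) + (Y₁ - Y₂) + d * (X₁ - X₂))) * hΛ
      + (X₁ - X₂) * X₂ * e₁ - (X₁ - X₂) * X₁ * e₂
  · linear_combination (X₁ - (Λ ^ 2 + d * Λ - X₁ - X₂)) * hΛ
  · linear_combination e₃
  · linear_combination (Λ * (X₁ - X₂) + (Y₁ - Y₂) + d * (X₁ - X₂)) * hΛ

section val

variable {Γ₀ : Type*} [LinearOrderedCommGroupWithZero Γ₀] (v : Valuation K Γ₀)

/-- On the branch `Y ≈ 0`: `v (Y + d X) = v X`. -/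
lemma h45_val_t {d X Y : K} (hd : v d = 1) (hs : v Y < v X) : v (Y + d * X) = v X := by
  have hdX : v (d * X) = v X := by rw [map_mul, hd, one_mul]
  rw [Valuation.map_add_eq_of_lt_right v (by rw [hdX]; exact hs), hdX]

/-- On the branch `Y ≈ 0`: `v Y = v (X² + c)`. -/
lemma h45_val_s {d X Y c : K} (hd : v d = 1) (hX : v X ≠ 0) (hs : v Y < v X)
    (hst : Y * (Y + d * X) = X * (X ^ 2 + c)) : v Y = v (X ^ 2 + c) := by
  have ht := h45_val_t v hd hs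
  have h := congrArg v hst
  rw [map_mul, map_mul, ht, mul_comm] at h
  exact mul_left_cancel₀ hX h

/-- In the middle region, `v Y ^ 2 = v X * v c`. -/
lemma h45_val_M {c d X₀ s₀ t₀ : K} {g₀ h : Γ₀}
    (hd : v d = 1) (hX₀ : v X₀ = g₀) (hc : v c = h)
    (hg₀0 : g₀ ≠ 0) (hle : g₀ ≤ h) (hh1 : h < 1)
    (hst : s₀ * t₀ = X₀ * (X₀ ^ 2 + c)) (htd : t₀ - s₀ = d * X₀) :
    v s₀ ^ 2 = g₀ * h := by
  have hg₀p : 0 < g₀ := zero_lt_iff.mpr hg₀0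
  have hhp : 0 < h := lt_of_lt_of_le hg₀p hle
  have hsq : v (X₀ ^ 2 + c) = h := by
    have hlt' : v (X₀ ^ 2) < v c := by
      rw [map_pow, hX₀, hc, sq]
      calc g₀ * g₀ ≤ h * g₀ := mul_le_mul_of_nonneg_right hle hg₀p.le
        _ ≤ h * h := mul_le_mul_of_nonneg_left hle hhp.le
        _ < h * 1 := mul_lt_mul_of_pos_left hh1 hhp
        _ = h := mul_one h
    rw [Valuation.map_add_eq_of_lt_right v hlt', hc]
  have hprod : v s₀ * v t₀ = g₀ * h := by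
    have h' := congrArg v hst
    rwa [map_mul, map_mul, hX₀, hsq] at h'
  have hdiff : v (t₀ - s₀) = g₀ := by
    rw [htd, map_mul, hd, one_mul, hX₀]
  have hgg : g₀ * g₀ ≤ g₀ * h := mul_le_mul_of_nonneg_left hle hg₀p.le
  rcases lt_trichotomy (v s₀) (v t₀) with hlt | heq | hgt
  · exfalso
    have ht : v t₀ = g₀ := by rw [← hdiff, Valuation.map_sub_eq_of_lt_left v hlt]
    rw [ht] at hlt hprod
    have h' : v s₀ * g₀ < g₀ * g₀ := mul_lt_mul_of_pos_right hlt hg₀p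
    rw [hprod] at h'
    exact absurd hgg (not_le.mpr h')
  · rw [← hprod, ← heq, sq]
  · exfalso
    have hs : v s₀ = g₀ := by rw [← hdiff, Valuation.map_sub_eq_of_lt_right v hgt]
    rw [hs] at hgt hprod
    have h' : g₀ * v t₀ < g₀ * g₀ := mul_lt_mul_of_pos_left hgt hg₀p
    rw [hprod] at h'
    exact absurd hgg (not_le.mpr h')

end val

end helpers

/-! ### The three rules -/

variable {K : Type*} [Field K] [DecidableEq K] (A : ValuationSubring K) (d c : K)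

/-- Rule R1: `C_{g₁} + C_{g₂} ⊆ C_{g₁ g₂}` as long as `v c < g₁ g₂` (`g₂ < g₁`). -/
theorem h45_inC_add (hd : A.valuation d = 1) (hc : A.valuation c < 1)
    {g₁ g₂ : A.ValueGroup} {P₁ P₂ : (h45_nodalW d c).toAffine.Point}
    (h₁ : h45_InC d c A g₁ P₁) (h₂ : h45_InC d c A g₂ P₂) (hlt : g₂ < g₁)
    (hh : A.valuation c < g₁ * g₂) : h45_InC d c A (g₁ * g₂) (P₁ + P₂) := by
  obtain ⟨X₁, Y₁, hP₁, rfl, hX₁, hcg₁, hg₁, hs₁⟩ := h₁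
  obtain ⟨X₂, Y₂, hP₂, rfl, hX₂, hcg₂, hg₂, hs₂⟩ := h₂
  have _hc := hc
  have hx : X₁ ≠ X₂ := by
    rintro rfl; rw [hX₁] at hX₂; exact absurd hX₂ hlt.ne'
  obtain ⟨X₃, Y₃, h₃, hadd, I1, I2, I3, -⟩ := h45_secant hP₁ hP₂ hx
  have st₁ := h45_nodalW_st d c hP₁.1
  have st₂ := h45_nodalW_st d c hP₂.1
  have hX₁0 : A.valuation X₁ ≠ 0 := by rw [hX₁]; exact (lt_of_le_of_lt zero_le hcg₁).ne'
  have hX₂0 : A.valuation X₂ ≠ 0 := by rw [hX₂]; exact (lt_of_le_of_lt zero_le hcg₂).ne'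
  have hvs₁ := h45_val_s A.valuation hd hX₁0 (by rw [hX₁]; exact hs₁) st₁
  have hvs₂ := h45_val_s A.valuation hd hX₂0 (by rw [hX₂]; exact hs₂) st₂
  obtain ⟨hX₃, hS⟩ := nodeB_val_R1 A.valuation hX₁ hX₂ rfl hg₁ hlt hh hvs₁ hvs₂ I1 I2 I3
  refine ⟨X₃, Y₃, h₃, hadd, hX₃, hh, ?_, hS⟩
  calc g₁ * g₂ ≤ g₁ * 1 := mul_le_mul_of_nonneg_left hg₂.le zero_le
    _ = g₁ := mul_one g₁
    _ < 1 := hg₁

/-- Rule R2: `C_{g₁} + C_{g₂} ⊆ M` when `g₁ g₂ = v c` (`g₂ < g₁`). -/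
theorem h45_inM_add (hd : A.valuation d = 1) (hc : A.valuation c < 1)
    {g₁ g₂ : A.ValueGroup} {P₁ P₂ : (h45_nodalW d c).toAffine.Point}
    (h₁ : h45_InC d c A g₁ P₁) (h₂ : h45_InC d c A g₂ P₂) (hlt : g₂ < g₁)
    (hh : g₁ * g₂ = A.valuation c) : h45_InM d c A (P₁ + P₂) := by
  obtain ⟨X₁, Y₁, hP₁, rfl, hX₁, hcg₁, hg₁, hs₁⟩ := h₁
  obtain ⟨X₂, Y₂, hP₂, rfl, hX₂, hcg₂, hg₂, hs₂⟩ := h₂
  have _hc := hc
  have hx : X₁ ≠ X₂ := by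
    rintro rfl; rw [hX₁] at hX₂; exact absurd hX₂ hlt.ne'
  obtain ⟨X₃, Y₃, h₃, hadd, I1, -, -, -⟩ := h45_secant hP₁ hP₂ hx
  have st₁ := h45_nodalW_st d c hP₁.1
  have st₂ := h45_nodalW_st d c hP₂.1
  have hg₁0 : g₁ ≠ 0 := (lt_of_le_of_lt zero_le hcg₁).ne'
  have hg₂0 : g₂ ≠ 0 := (lt_of_le_of_lt zero_le hcg₂).ne'
  have hX₁0 : A.valuation X₁ ≠ 0 := by rw [hX₁]; exact hg₁0
  have hX₂0 : A.valuation X₂ ≠ 0 := by rw [hX₂]; exact hg₂0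
  have hvs₁ := h45_val_s A.valuation hd hX₁0 (by rw [hX₁]; exact hs₁) st₁
  have hvs₂ := h45_val_s A.valuation hd hX₂0 (by rw [hX₂]; exact hs₂) st₂
  exact ⟨X₃, Y₃, h₃, hadd, nodeB_val_R2 A.valuation hX₁ hX₂ rfl hlt hg₂0 hh hvs₁ hvs₂ I1⟩

/-- Rule R3: `-(M + C_g) ⊆ C_{v c / g}` when `v c < g²`. -/
theorem h45_inC_neg_add_of_inM (hd : A.valuation d = 1) (hc : A.valuation c < 1)
    (hc0 : c ≠ 0) {g : A.ValueGroup} {T Q : (h45_nodalW d c).toAffine.Point}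
    (hT : h45_InM d c A T) (hQ : h45_InC d c A g Q) (hg : A.valuation c < g ^ 2) :
    h45_InC d c A (A.valuation c / g) (-(T + Q)) := by
  obtain ⟨X₀, Y₀, hP₀, rfl, hX₀⟩ := hT
  obtain ⟨X₁, Y₁, hP₁, rfl, hX₁, hcg, hg1, hs₁⟩ := hQ
  have hh0 : A.valuation c ≠ 0 := (Valuation.ne_zero_iff _).mpr hc0
  have hhp : 0 < A.valuation c := zero_lt_iff.mpr hh0
  have hgp : 0 < g := hhp.trans hcg
  have hg0 : g ≠ 0 := hgp.ne'
  have hx : X₀ ≠ X₁ := by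
    rintro rfl; rw [hX₁] at hX₀; exact absurd hcg (not_lt.mpr hX₀)
  obtain ⟨X₃, Y₃, h₃, hadd, I1, I2, -, I4⟩ := h45_secant hP₀ hP₁ hx
  have e₀ := (h45_nodalW_equation_iff d c X₀ Y₀).mp hP₀.1
  have e₁ := (h45_nodalW_equation_iff d c X₁ Y₁).mp hP₁.1
  have st₁ := h45_nodalW_st d c hP₁.1
  have hX₁0 : A.valuation X₁ ≠ 0 := by rw [hX₁]; exact hg0
  have hX₁ne : X₁ ≠ 0 := (Valuation.ne_zero_iff _).mp hX₁0
  have hvs₁ := h45_val_s A.valuation hd hX₁0 (by rw [hX₁]; exact hs₁) st₁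
  have key : A.valuation X₃ * g = A.valuation c ∧
      A.valuation (Y₃ + d * X₃) * g < A.valuation c := by
    by_cases hX₀0 : X₀ = 0
    · subst hX₀0
      have hY₀ : Y₀ = 0 := by
        have h' : Y₀ ^ 2 = 0 := by linear_combination e₀
        exact (pow_eq_zero_iff two_ne_zero).mp h'
      subst hY₀
      have J1 : X₃ * X₁ = c := by
        have h' : X₃ * X₁ ^ 2 = c * X₁ := by linear_combination I4 + e₁
        apply mul_right_cancel₀ hX₁ne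
        linear_combination h'
      have J2 : (Y₃ + d * X₃) * X₁ = -(Y₁ * X₃) := by
        linear_combination (-1 : K) * I2
      exact nodeB_val_R3zero A.valuation hX₁ rfl hh0 hs₁ J1 J2
    · have st₀ := h45_nodalW_st d c hP₀.1
      have td₀ : (Y₀ + d * X₀) - Y₀ = d * X₀ := by ring
      have hg₀0 : A.valuation X₀ ≠ 0 := (Valuation.ne_zero_iff _).mpr hX₀0
      have hs₀ := h45_val_M A.valuation hd rfl rfl hg₀0 hX₀ hc st₀ td₀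
      exact nodeB_val_R3 A.valuation rfl hX₁ rfl hg₀0 hX₀ hg1 hg hs₀ hvs₁ I1 I2
  obtain ⟨hX₃, hT₃⟩ := key
  refine ⟨X₃, (h45_nodalW d c).toAffine.negY X₃ Y₃, (Affine.nonsingular_neg ..).mpr h₃,
    by rw [hadd, Affine.Point.neg_some], (eq_div_iff hg0).mpr hX₃, ?_, ?_, ?_⟩
  · rw [lt_div_iff₀ hgp]
    exact mul_lt_of_lt_one_right hhp hg1
  · rw [div_lt_iff₀ hgp, one_mul]; exact hcg
  · rw [h45_nodalW_negY, lt_div_iff₀ hgp]
    have e : -Y₃ - d * X₃ = -(Y₃ + d * X₃) := by ring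
    rw [e, Valuation.map_neg]; exact hT₃

end Fermat.Agent.S13
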