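import Fermat.Agent.S13.h45_NodalDefs
import Fermat.Agent.S05.h18_Red
import Fermat.Agent.S05.h86_Formal

/-
helper45, project S13, block [C]: the action of a field automorphism on the points of a
Weierstrass curve fixed by it, and "inertia fixes the prime-to-residue-characteristic torsion
outside the node" (reduction lemma + torsion-freeness of the kernel of reduction), first for a
general integral Weierstrass curve, then for the split nodal form `Y² + d X Y = X³ + c X`.
-/

set_option autoImplicit false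

namespace Fermat.Agent.S13

open WeierstrassCurve
open Fermat.Agent.S05 (h18_Integral h18_sub_mem_E1 h18_y_mem h18_nu_mul_mem h18_nu_mem
  h86_Integral h86_E1 h86_mem_E1_iff h86_some_mem_E1_iff h86_E1_nsmul_eq_zero)

/-! ### A field automorphism fixing the curve acts on its points -/

section sigma

variable {K : Type*} [Field K] (W : WeierstrassCurve K) (σ : K ≃+* K)

lemma h45_sigma_nonsingular (hW : W.map (σ : K →+* K) = W) {X Y : K}
    (h : W.toAffine.Nonsingular X Y) : W.toAffine.Nonsingular (σ X) (σ Y) := by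
  have h1 : (W.map (σ : K →+* K)).toAffine.Nonsingular
      ((σ : K →+* K) X) ((σ : K →+* K) Y) :=
    (Affine.map_nonsingular (W := W.toAffine) (f := (σ : K →+* K)) σ.injective X Y).mpr h
  rw [hW] at h1
  exact h1

lemma h45_sigma_negY (hW : W.map (σ : K →+* K) = W) (X Y : K) :
    W.toAffine.negY (σ X) (σ Y) = σ (W.toAffine.negY X Y) := by
  have h1 := Affine.map_negY (W' := W.toAffine) (σ : K →+* K) X Y
  rw [show (W.toAffine).map (σ : K →+* K) = W.toAffine from hW] at h1
  exact h1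

lemma h45_sigma_slope [DecidableEq K] (hW : W.map (σ : K →+* K) = W) (X₁ X₂ Y₁ Y₂ : K) :
    W.toAffine.slope (σ X₁) (σ X₂) (σ Y₁) (σ Y₂) = σ (W.toAffine.slope X₁ X₂ Y₁ Y₂) := by
  have h1 := Affine.map_slope (W := W.toAffine) (σ : K →+* K) X₁ X₂ Y₁ Y₂
  rw [show (W.toAffine).map (σ : K →+* K) = W.toAffine from hW] at h1
  exact h1

lemma h45_sigma_addX (hW : W.map (σ : K →+* K) = W) (X₁ X₂ ℓ : K) :
    W.toAffine.addX (σ X₁) (σ X₂) (σ ℓ) = σ (W.toAffine.addX X₁ X₂ ℓ) := by
  have h1 := Affine.map_addX (W' := W.toAffine) (σ : K →+* K) X₁ X₂ ℓ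
  rw [show (W.toAffine).map (σ : K →+* K) = W.toAffine from hW] at h1
  exact h1

lemma h45_sigma_addY (hW : W.map (σ : K →+* K) = W) (X₁ X₂ Y₁ ℓ : K) :
    W.toAffine.addY (σ X₁) (σ X₂) (σ Y₁) (σ ℓ) = σ (W.toAffine.addY X₁ X₂ Y₁ ℓ) := by
  have h1 := Affine.map_addY (W' := W.toAffine) (σ : K →+* K) X₁ Y₁ X₂ ℓ
  rw [show (W.toAffine).map (σ : K →+* K) = W.toAffine from hW] at h1
  exact h1

/-- The action of `σ` on the points of a curve fixed by `σ`, as a plain function. -/
noncomputable def h45_sigmaFun (hW : W.map (σ : K →+* K) = W) :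
    W.toAffine.Point → W.toAffine.Point
  | 0 => 0
  | Affine.Point.some X Y h => Affine.Point.some (σ X) (σ Y) (h45_sigma_nonsingular W σ hW h)

lemma h45_sigmaFun_add [DecidableEq K] (hW : W.map (σ : K →+* K) = W)
    (P Q : W.toAffine.Point) :
    h45_sigmaFun W σ hW (P + Q) = h45_sigmaFun W σ hW P + h45_sigmaFun W σ hW Q := by
  rcases P with _ | ⟨x₁, y₁, h₁⟩
  · change h45_sigmaFun W σ hW (0 + Q) = 0 + h45_sigmaFun W σ hW Q
    rw [zero_add, zero_add]
  rcases Q with _ | ⟨x₂, y₂, h₂⟩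
  · change h45_sigmaFun W σ hW (Affine.Point.some x₁ y₁ h₁ + 0) =
      h45_sigmaFun W σ hW (Affine.Point.some x₁ y₁ h₁) + 0
    rw [add_zero, add_zero]
  by_cases hxy : x₁ = x₂ ∧ y₁ = W.toAffine.negY x₂ y₂
  · rw [Affine.Point.add_of_Y_eq hxy.left hxy.right]
    change (0 : W.toAffine.Point) =
      Affine.Point.some (σ x₁) (σ y₁) (h45_sigma_nonsingular W σ hW h₁) +
        Affine.Point.some (σ x₂) (σ y₂) (h45_sigma_nonsingular W σ hW h₂)
    rw [Affine.Point.add_of_Y_eq (congr_arg σ hxy.left)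
      (by rw [hxy.right, h45_sigma_negY W σ hW])]
  · have hxy' : ¬ (σ x₁ = σ x₂ ∧ σ y₁ = W.toAffine.negY (σ x₂) (σ y₂)) := by
      rintro ⟨hx, hy⟩
      rw [h45_sigma_negY W σ hW] at hy
      exact hxy ⟨σ.injective hx, σ.injective hy⟩
    rw [Affine.Point.add_some hxy]
    change Affine.Point.some (σ _) (σ _) _ =
      Affine.Point.some (σ x₁) (σ y₁) (h45_sigma_nonsingular W σ hW h₁) +
        Affine.Point.some (σ x₂) (σ y₂) (h45_sigma_nonsingular W σ hW h₂)
    rw [Affine.Point.add_some hxy']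
    simp only [Affine.Point.some.injEq]
    refine ⟨?_, ?_⟩
    · rw [h45_sigma_slope W σ hW, h45_sigma_addX W σ hW]
    · rw [h45_sigma_slope W σ hW, h45_sigma_addY W σ hW]

/-- The action of `σ` on the points of a curve fixed by `σ`, as an additive homomorphism. -/
noncomputable def h45_sigmaHom [DecidableEq K] (hW : W.map (σ : K →+* K) = W) :
    W.toAffine.Point →+ W.toAffine.Point where
  toFun := h45_sigmaFun W σ hW
  map_zero' := rfl
  map_add' := h45_sigmaFun_add W σ hW

lemma h45_sigmaHom_some [DecidableEq K] (hW : W.map (σ : K →+* K) = W) {X Y : K}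
    (h : W.toAffine.Nonsingular X Y) :
    h45_sigmaHom W σ hW (Affine.Point.some X Y h) =
      Affine.Point.some (σ X) (σ Y) (h45_sigma_nonsingular W σ hW h) := rfl

/-- Existence form, in the shape used by the consumers. -/
theorem h45_exists_sigmaHom [DecidableEq K] (hW : W.map (σ : K →+* K) = W) :
    ∃ φ : W.toAffine.Point →+ W.toAffine.Point,
      ∀ (X Y : K) (h : W.toAffine.Nonsingular X Y),
        ∃ h', φ (Affine.Point.some X Y h) = Affine.Point.some (σ X) (σ Y) h' :=
  ⟨h45_sigmaHom W σ hW, fun _ _ h => ⟨h45_sigma_nonsingular W σ hW h, rfl⟩⟩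

end sigma

/-! ### Inertia-like automorphisms move integral points with nonsingular reduction inside a
coset of the kernel of reduction -/

section red

variable {K : Type*} [Field K] [DecidableEq K] (A : ValuationSubring K) (W : WeierstrassCurve K)

omit [DecidableEq K] in
lemma h45_integral18 (hW : h86_Integral A W) : h18_Integral A W.toAffine :=
  ⟨hW.1, hW.2.1, hW.2.2.1, hW.2.2.2.1, hW.2.2.2.2⟩

/-- If `σ` preserves `A` and acts trivially on its residue field, then for every point `D` whose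
reduction is not a singular point, `φ D - D` lies in the kernel of reduction (`φ` = the action
of `σ` on points). -/
theorem h45_sigma_sub_mem_E1 (hW : h86_Integral A W) (σ : K ≃+* K)
    (hσA : ∀ x, σ x ∈ A ↔ x ∈ A) (hσm : ∀ x, x ∈ A → σ x - x ∈ A.nonunits)
    (φ : W.toAffine.Point →+ W.toAffine.Point)
    (hφ : ∀ (X Y : K) (h : W.toAffine.Nonsingular X Y),
      ∃ h', φ (Affine.Point.some X Y h) = Affine.Point.some (σ X) (σ Y) h')
    (D : W.toAffine.Point)
    (hD : ∀ (X Y : K) (h : W.toAffine.Nonsingular X Y), D = Affine.Point.some X Y h → X ∈ A →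
      ¬ (W.toAffine.polynomialX.evalEval X Y ∈ A.nonunits ∧
        W.toAffine.polynomialY.evalEval X Y ∈ A.nonunits)) :
    φ D - D ∈ h86_E1 A W hW := by
  rcases D with _ | ⟨X, Y, h⟩
  · have h0 : φ (0 : W.toAffine.Point) - 0 = 0 := by simp
    change φ (0 : W.toAffine.Point) - 0 ∈ h86_E1 A W hW
    rw [h0]; exact zero_mem _
  · obtain ⟨h', hφD⟩ := hφ X Y h
    rw [hφD]
    by_cases hX : X ∈ A
    · have hW18 := h45_integral18 A W hW
      have hY : Y ∈ A := h18_y_mem hW18 h.1 hX
      rcases h18_sub_mem_E1 hW18 h h' hX hY (hσm X hX) (hσm Y hY) (hD X Y h rfl hX)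
        with h0 | ⟨x₃, y₃, h₃, e, hx₃⟩
      · rw [h0]; exact zero_mem _
      · rw [e]; exact (h86_some_mem_E1_iff A W hW h₃).mpr hx₃
    · have h1 : Affine.Point.some X Y h ∈ h86_E1 A W hW :=
        (h86_some_mem_E1_iff A W hW h).mpr hX
      have h1' : Affine.Point.some (σ X) (σ Y) h' ∈ h86_E1 A W hW :=
        (h86_some_mem_E1_iff A W hW h').mpr (fun hc => hX ((hσA X).mp hc))
      exact (h86_E1 A W hW).sub_mem h1' h1

/-- Consequently `σ` fixes every such point killed by an integer that is a unit of `A`. -/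
theorem h45_sigma_fixed_of_nsmul (hW : h86_Integral A W) (σ : K ≃+* K)
    (hσA : ∀ x, σ x ∈ A ↔ x ∈ A) (hσm : ∀ x, x ∈ A → σ x - x ∈ A.nonunits)
    (φ : W.toAffine.Point →+ W.toAffine.Point)
    (hφ : ∀ (X Y : K) (h : W.toAffine.Nonsingular X Y),
      ∃ h', φ (Affine.Point.some X Y h) = Affine.Point.some (σ X) (σ Y) h')
    (D : W.toAffine.Point)
    (hD : ∀ (X Y : K) (h : W.toAffine.Nonsingular X Y), D = Affine.Point.some X Y h → X ∈ A →
      ¬ (W.toAffine.polynomialX.evalEval X Y ∈ A.nonunits ∧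
        W.toAffine.polynomialY.evalEval X Y ∈ A.nonunits))
    {n : ℕ} (hn : (n : K) ∉ A.nonunits) (hnD : n • D = 0) : φ D = D := by
  have h1 := h45_sigma_sub_mem_E1 A W hW σ hσA hσm φ hφ D hD
  have h0 : n • (φ D - D) = 0 := by rw [smul_sub, ← map_nsmul, hnD, map_zero, sub_zero]
  exact sub_eq_zero.mp (h86_E1_nsmul_eq_zero A W hW h1 hn h0)

end red

/-! ### The split nodal form -/

section nodal

variable {K : Type*} [Field K] [DecidableEq K] (A : ValuationSubring K) (d c : K)

omit [DecidableEq K] in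
lemma h45_nodalW_integral (hd : A.valuation d ≤ 1) (hc : A.valuation c ≤ 1) :
    h86_Integral A (h45_nodalW d c) :=
  ⟨(A.valuation_le_one_iff d).1 hd, A.zero_mem, A.zero_mem, (A.valuation_le_one_iff c).1 hc,
    A.zero_mem⟩

omit [DecidableEq K] in
lemma h45_nodalW_sigma_map (σ : K ≃+* K) (hσd : σ d = d) (hσc : σ c = c) :
    (h45_nodalW d c).map (σ : K →+* K) = h45_nodalW d c := by
  rw [h45_nodalW_map]
  simp [hσd, hσc]

omit [DecidableEq K] in
/-- **The only singular point of the reduction is the node** (every residue characteristic). -/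
theorem h45_ns_of_node (hd : A.valuation d ≤ 1) (hc : A.valuation c < 1) {X Y : K}
    (h : (h45_nodalW d c).toAffine.Equation X Y) (hX : A.valuation X = 1) :
    ¬ ((h45_nodalW d c).toAffine.polynomialX.evalEval X Y ∈ A.nonunits ∧
      (h45_nodalW d c).toAffine.polynomialY.evalEval X Y ∈ A.nonunits) := by
  rintro ⟨hPX, hPY⟩
  have hW18 := h45_integral18 A _ (h45_nodalW_integral A d c hd hc.le)
  have hXA : X ∈ A := (A.valuation_le_one_iff X).1 hX.le
  have hYA : Y ∈ A := h18_y_mem hW18 h hXA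
  have hcm : c ∈ A.nonunits := A.mem_nonunits_iff.2 hc
  rw [Affine.evalEval_polynomialX] at hPX
  rw [Affine.evalEval_polynomialY] at hPY
  simp only [h45_nodalW_a₁, h45_nodalW_a₂, h45_nodalW_a₃, h45_nodalW_a₄] at hPX hPY
  have e := (h45_nodalW_equation_iff d c X Y).mp h
  have key : X ^ 3 = c * X + -((2 * Y + d * X + 0) * Y) +
      -((d * Y - (3 * X ^ 2 + 2 * 0 * X + c)) * X) := by
    linear_combination (2 : K) * e
  have hm : X ^ 3 ∈ A.nonunits := by
    rw [key]
    exact add_mem (add_mem (h18_nu_mul_mem A hcm hXA) (neg_mem (h18_nu_mul_mem A hPY hYA)))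
      (neg_mem (h18_nu_mul_mem A hPX hXA))
  rw [A.mem_nonunits_iff, map_pow, hX, one_pow] at hm
  exact lt_irrefl _ hm

lemma h45_isE1_iff (hd : A.valuation d ≤ 1) (hc : A.valuation c ≤ 1)
    (P : (h45_nodalW d c).toAffine.Point) :
    h45_IsE1 d c A P ↔ P ∈ h86_E1 A (h45_nodalW d c) (h45_nodalW_integral A d c hd hc) := by
  rw [h86_mem_E1_iff]
  unfold h45_IsE1
  simp only [← not_le, A.valuation_le_one_iff]

/-- The kernel of reduction has no `n`-torsion for `n` a unit of `A`. -/
theorem h45_isE1_eq_zero_of_nsmul (hd : A.valuation d ≤ 1) (hc : A.valuation c ≤ 1)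
    (n : ℕ) (hn : A.valuation (n : K) = 1) {P : (h45_nodalW d c).toAffine.Point}
    (hP : h45_IsE1 d c A P) (hnP : n • P = 0) : P = 0 := by
  rw [h45_isE1_iff A d c hd hc] at hP
  refine h86_E1_nsmul_eq_zero A _ _ hP ?_ hnP
  rw [A.mem_nonunits_iff, hn]; exact lt_irrefl _

/-- For a point outside the node region, `φ D - D` lies in the kernel of reduction. -/
theorem h45_sub_isE1 (hd : A.valuation d ≤ 1) (hc : A.valuation c < 1)
    (σ : K ≃+* K) (hσA : ∀ x, A.valuation (σ x) ≤ 1 ↔ A.valuation x ≤ 1)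
    (hσm : ∀ x, A.valuation x ≤ 1 → A.valuation (σ x - x) < 1)
    (φ : (h45_nodalW d c).toAffine.Point →+ (h45_nodalW d c).toAffine.Point)
    (hφ : ∀ (X Y : K) (h : (h45_nodalW d c).toAffine.Nonsingular X Y),
      ∃ h', φ (Affine.Point.some X Y h) = Affine.Point.some (σ X) (σ Y) h')
    (D : (h45_nodalW d c).toAffine.Point) (hD : ¬ h45_IsN d c A D) :
    h45_IsE1 d c A (φ D - D) := by
  rw [h45_isE1_iff A d c hd hc.le]
  refine h45_sigma_sub_mem_E1 A _ _ σ (fun x => ?_) (fun x hx => ?_) φ hφ D ?_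
  · rw [← A.valuation_le_one_iff, ← A.valuation_le_one_iff]; exact hσA x
  · rw [A.mem_nonunits_iff]; exact hσm x ((A.valuation_le_one_iff x).2 hx)
  · intro X Y h hDe hXA
    have hX1 : A.valuation X = 1 := by
      refine le_antisymm ((A.valuation_le_one_iff X).2 hXA) ?_
      by_contra hlt
      exact hD ⟨X, Y, h, hDe, not_le.mp hlt⟩
    exact h45_ns_of_node A d c hd hc h.1 hX1

/-- **Inertia fixes the torsion outside the node region**: a point outside the node region that
is killed by a unit integer is fixed by `φ`. -/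
theorem h45_fixed_of_not_isN (hd : A.valuation d ≤ 1) (hc : A.valuation c < 1)
    (σ : K ≃+* K) (hσA : ∀ x, A.valuation (σ x) ≤ 1 ↔ A.valuation x ≤ 1)
    (hσm : ∀ x, A.valuation x ≤ 1 → A.valuation (σ x - x) < 1)
    (φ : (h45_nodalW d c).toAffine.Point →+ (h45_nodalW d c).toAffine.Point)
    (hφ : ∀ (X Y : K) (h : (h45_nodalW d c).toAffine.Nonsingular X Y),
      ∃ h', φ (Affine.Point.some X Y h) = Affine.Point.some (σ X) (σ Y) h')
    (n : ℕ) (hn : A.valuation (n : K) = 1)
    (D : (h45_nodalW d c).toAffine.Point) (hD : ¬ h45_IsN d c A D) (hnD : n • D = 0) :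
    φ D = D := by
  have h1 := h45_sub_isE1 A d c hd hc σ hσA hσm φ hφ D hD
  have h0 : n • (φ D - D) = 0 := by rw [smul_sub, ← map_nsmul, hnD, map_zero, sub_zero]
  exact sub_eq_zero.mp (h45_isE1_eq_zero_of_nsmul A d c hd hc.le n hn h1 h0)

end nodal

end Fermat.Agent.S13
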