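import Mathlib
import Fermat.Prelude.Def_FLTPrelim_Ramification
import Fermat.Agent.S54.Frob

/-!
# S13, block [E]: the Minkowski bridge

An open normal proper subgroup `H` of `Gal(ℚ̄/ℚ)` misses part of the inertia group at every
place over some prime `q`: the fixed field of `H` is a finite Galois extension of `ℚ` different
from `ℚ`, hence ramified somewhere (Hermite-Minkowski), and inertia at finite level lifts to
inertia at the level of `ℚ̄`.
-/

set_option autoImplicit false

open scoped Pointwise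

namespace Fermat.Agent.S13

universe u

section Lift

variable {A B : Type*} [CommRing A] [CommRing B] [Algebra A B]
variable {G : Type u} [Group G] [MulSemiringAction G B] [SMulCommClass G A B]
variable [TopologicalSpace G] [CompactSpace G] [TotallyDisconnectedSpace G]
variable [IsTopologicalGroup G] [TopologicalSpace B] [DiscreteTopology B] [ContinuousSMul G B]

/-- Lifting inertia: for a profinite group `G` acting on `B` and a closed normal subgroup `N`,
an element of the inertia group of `Q ∩ B^N` in `G ⧸ N` lifts to an element of the inertia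
group of `Q` in `G`. -/
theorem h46_lift_inertia (N : Subgroup G) [N.Normal] (hN : IsClosed (N : Set G))
    (Q : Ideal B) [Q.IsPrime] (τ : G ⧸ N)
    (hτ : τ ∈ (Q.under (FixedPoints.subalgebra A B N)).inertia (G ⧸ N)) :
    ∃ σ : G, (σ : G ⧸ N) = τ ∧ σ • Q = Q ∧ ∀ b : B, σ • b - b ∈ Q := by
  classical
  have : CompactSpace ↥N := isCompact_iff_compactSpace.mp hN.isCompact
  have : Algebra.IsInvariant (FixedPoints.subalgebra A B N) B ↥N :=
    ⟨fun b hb => ⟨⟨b, hb⟩, rfl⟩⟩
  obtain ⟨σ₀, rfl⟩ := QuotientGroup.mk_surjective τ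
  have hτinv : ((σ₀ : G ⧸ N))⁻¹ ∈ (Q.under (FixedPoints.subalgebra A B N)).inertia (G ⧸ N) :=
    inv_mem hτ
  -- the action of `σ₀` on `B^N`
  have hτ' : ∀ b' : FixedPoints.subalgebra A B N, σ₀ • (b' : B) - (b' : B) ∈ Q := fun b' =>
    hτ b'
  have hτinv' : ∀ b' : FixedPoints.subalgebra A B N, σ₀⁻¹ • (b' : B) - (b' : B) ∈ Q := fun b' =>
    hτinv b'
  -- Step 1: `σ₀ • Q` and `Q` have the same contraction to `B^N`.
  have h1 : (σ₀ • Q).under (FixedPoints.subalgebra A B N) =
      Q.under (FixedPoints.subalgebra A B N) := by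
    ext b'
    rw [Ideal.under_def, Ideal.under_def, Ideal.mem_comap, Ideal.mem_comap,
      Ideal.mem_pointwise_smul_iff_inv_smul_mem]
    have h := hτinv' b'
    constructor
    · intro hb
      have := Q.sub_mem hb h
      simpa using this
    · intro hb
      have := Q.add_mem h hb
      simpa using this
  -- Step 2: transitivity of `N`.
  obtain ⟨n, hn⟩ := Algebra.IsInvariant.exists_smul_of_under_eq_of_profinite
    (A := FixedPoints.subalgebra A B N) (G := ↥N) (σ₀ • Q) Q h1
  have hσ₁ : ((n : G) * σ₀) • Q = Q := by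
    rw [mul_smul]
    exact hn.symm
  -- Step 3: the automorphism of `B ⧸ Q` induced by `σ₁ = n σ₀`.
  let σ₁ : MulAction.stabilizer G Q := ⟨(n : G) * σ₀, hσ₁⟩
  let f : (B ⧸ Q) ≃+* (B ⧸ Q) :=
    (Ideal.Quotient.stabilizerHom Q (Q.under A) G σ₁).toRingEquiv
  have hf : ∀ b : B, f (Ideal.Quotient.mk Q b) = Ideal.Quotient.mk Q (((n : G) * σ₀) • b) :=
    fun b => rfl
  have hfix : ∀ b' : FixedPoints.subalgebra A B N,
      ((n : G) * σ₀) • (b' : B) - (b' : B) ∈ Q := by
    intro b'
    have h2 : (n : G) • (σ₀ • (b' : B)) = σ₀ • (b' : B) :=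
      (((σ₀ : G ⧸ N) • b' : FixedPoints.subalgebra A B N)).2 n
    rw [mul_smul, h2]
    exact hτ' b'
  let ψ : (B ⧸ Q) ≃ₐ[FixedPoints.subalgebra A B N ⧸ Q.under (FixedPoints.subalgebra A B N)]
      (B ⧸ Q) :=
    AlgEquiv.ofRingEquiv (f := f) (by
      intro x
      obtain ⟨b', rfl⟩ := Ideal.Quotient.mk_surjective x
      rw [Ideal.Quotient.algebraMap_mk_of_liesOver]
      show f (Ideal.Quotient.mk Q (b' : B)) = Ideal.Quotient.mk Q (b' : B)
      rw [hf]
      exact Ideal.Quotient.eq.mpr (hfix b'))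
  -- Step 4: surjectivity for `N`.
  obtain ⟨n', hn'⟩ := Ideal.Quotient.stabilizerHom_surjective_of_profinite (G := ↥N)
    (Q.under (FixedPoints.subalgebra A B N)) Q ψ
  have hn'Q : ((n' : ↥N) : G) • Q = Q := n'.2
  have hn'b : ∀ b : B, Ideal.Quotient.mk Q (((n' : ↥N) : G) • b) =
      Ideal.Quotient.mk Q (((n : G) * σ₀) • b) := by
    intro b
    have := DFunLike.congr_fun hn' (Ideal.Quotient.mk Q b)
    exact this
  -- Step 5: the lift.
  refine ⟨(((n' : ↥N) : G))⁻¹ * ((n : G) * σ₀), ?_, ?_, ?_⟩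
  · rw [QuotientGroup.eq]
    have : ((((n' : ↥N) : G))⁻¹ * ((n : G) * σ₀))⁻¹ * σ₀ =
        σ₀⁻¹ * ((n : G)⁻¹ * ((n' : ↥N) : G)) * σ₀ := by group
    rw [this]
    exact ‹N.Normal›.conj_mem' _ (N.mul_mem (N.inv_mem n.2) (n' : ↥N).2) σ₀
  · rw [mul_smul, hσ₁, inv_smul_eq_iff, hn'Q]
  · intro b
    set c : B := ((((n' : ↥N) : G))⁻¹ * ((n : G) * σ₀)) • b with hc
    have h3 : ((n' : ↥N) : G) • c = ((n : G) * σ₀) • b := by
      rw [hc, ← mul_smul, mul_inv_cancel_left]
    have h4 : f (Ideal.Quotient.mk Q c) = f (Ideal.Quotient.mk Q b) := by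
      rw [hf, hf, ← hn'b c, h3]
    exact Ideal.Quotient.eq.mp (f.injective h4)

end Lift

section Val

open Fermat.Agent.S54

attribute [local instance] isAlgebraicQbar isAlgClosureQbar normalQbar isGaloisQbar
  algIntAction algIntTopology algInt_discreteTopology algInt_smulCommClass algInt_isInvariant
  algInt_continuousSMul

local notation "Γℚ" => (AlgebraicClosure ℚ ≃ₐ[ℚ] AlgebraicClosure ℚ)

local notation "𝒪̄" => (integralClosure ℤ (AlgebraicClosure ℚ))

/-- An element of the absolute Galois group stabilising the centre of `A` and acting trivially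
modulo it lies in the inertia group of `A`. -/
theorem h46_mem_inertiaSubgroupIn (A : ValuationSubring (AlgebraicClosure ℚ)) (q : ℕ)
    (hq : q.Prime) (hA : A.LiesOverPrime q) (σ : Γℚ) (hσQ : σ • centre A = centre A)
    (hσ : ∀ b : 𝒪̄, σ • b - b ∈ centre A) : σ ∈ A.inertiaSubgroupIn ℚ := by
  have hσ_inv : σ⁻¹ • centre A = centre A := by rw [inv_smul_eq_iff, hσQ]
  have hmem : σ ∈ A.decompositionSubgroup ℚ := by
    rw [MulAction.mem_stabilizer_iff]
    apply SetLike.ext
    intro x
    rw [ValuationSubring.mem_pointwise_smul_iff_inv_smul_mem]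
    constructor
    · intro hx
      have := smul_mem_valuationSubring A q hq hA σ hσQ _ hx
      simpa using this
    · intro hx
      exact smul_mem_valuationSubring A q hq hA σ⁻¹ hσ_inv x hx
  refine ⟨⟨σ, hmem⟩, ?_, rfl⟩
  show (⟨σ, hmem⟩ : A.decompositionSubgroup ℚ) ∈ A.inertiaSubgroup ℚ
  rw [ValuationSubring.inertiaSubgroup, MonoidHom.mem_ker]
  ext y
  show (⟨σ, hmem⟩ : A.decompositionSubgroup ℚ) • y = y
  obtain ⟨a, rfl⟩ := IsLocalRing.residue_surjective y
  rw [← IsLocalRing.ResidueField.residue_smul]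
  apply Ideal.Quotient.eq.mpr
  obtain ⟨s, hs, hsa⟩ := exists_unit_mul_isIntegral A q hq hA a a.2
  set g : A.decompositionSubgroup ℚ := ⟨σ, hmem⟩ with hg
  let b : 𝒪̄ := ⟨(s : AlgebraicClosure ℚ) * a, hsa⟩
  have hb' : toVal A b = toVal A s * a := Subtype.ext rfl
  have e1 : g • toVal A b - toVal A b ∈ IsLocalRing.maximalIdeal A := by
    have h1 := hσ b
    rw [mem_centre_iff] at h1
    have h2 : toVal A (σ • b - b) = g • toVal A b - toVal A b := Subtype.ext rfl
    rw [← h2]
    exact h1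
  have e2 : g • toVal A s - toVal A s ∈ IsLocalRing.maximalIdeal A := by
    have h1 := hσ s
    rw [mem_centre_iff] at h1
    have h2 : toVal A (σ • s - s) = g • toVal A s - toVal A s := Subtype.ext rfl
    rw [← h2]
    exact h1
  have hunit : g • toVal A s ∉ IsLocalRing.maximalIdeal A := by
    intro hmem'
    apply hs
    rw [mem_centre_iff]
    have h3 : toVal A s ∈ IsLocalRing.maximalIdeal A := by
      have := Ideal.sub_mem _ hmem' e2
      simpa using this
    exact h3
  have hprod : (g • toVal A s) * (g • a - a) ∈ IsLocalRing.maximalIdeal A := by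
    have h4 : (g • toVal A s) * (g • a - a) =
        (g • toVal A b - toVal A b) - (g • toVal A s - toVal A s) * a := by
      rw [hb', smul_mul']
      ring
    rw [h4]
    exact Ideal.sub_mem _ e1 (Ideal.mul_mem_right _ _ e2)
  exact (Ideal.IsPrime.mem_or_mem inferInstance hprod).resolve_left hunit

/-- The ring of integers of the fixed field of `H`, as the subalgebra of `H`-invariant algebraic
integers, maps to the fixed field. -/
noncomputable def h46_toFixed (H : Subgroup Γℚ) :
    FixedPoints.subalgebra ℤ 𝒪̄ H →+* IntermediateField.fixedField H where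
  toFun b := ⟨(b.1 : AlgebraicClosure ℚ), by
    rw [IntermediateField.mem_fixedField_iff]
    intro f hf
    exact congrArg Subtype.val (b.2 ⟨f, hf⟩)⟩
  map_one' := rfl
  map_mul' _ _ := rfl
  map_zero' := rfl
  map_add' _ _ := rfl

theorem h46_toFixed_coe (H : Subgroup Γℚ) (b : FixedPoints.subalgebra ℤ 𝒪̄ H) :
    ((h46_toFixed H b : IntermediateField.fixedField H) : AlgebraicClosure ℚ) =
      ((b : 𝒪̄) : AlgebraicClosure ℚ) := rfl

theorem h46_toFixed_injective (H : Subgroup Γℚ) : Function.Injective (h46_toFixed H) := by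
  intro x y hxy
  apply Subtype.ext
  apply Subtype.ext
  have := congrArg (fun z : IntermediateField.fixedField H => (z : AlgebraicClosure ℚ)) hxy
  exact this

theorem h46_isIntegral_iff (H : Subgroup Γℚ) (x : IntermediateField.fixedField H) :
    IsIntegral ℤ x ↔ ∃ y, h46_toFixed H y = x := by
  constructor
  · intro hx
    have hx' : IsIntegral ℤ (x : AlgebraicClosure ℚ) :=
      hx.map (IntermediateField.val (IntermediateField.fixedField H)).toRingHom.toIntAlgHom
    refine ⟨⟨⟨(x : AlgebraicClosure ℚ), hx'⟩, ?_⟩, Subtype.ext rfl⟩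
    intro h
    apply Subtype.ext
    have := (IntermediateField.mem_fixedField_iff H (x : AlgebraicClosure ℚ)).mp x.2 h.1 h.2
    exact this
  · rintro ⟨y, rfl⟩
    have hy : IsIntegral ℤ ((y : 𝒪̄) : AlgebraicClosure ℚ) := (y : 𝒪̄).2
    have : (algebraMap (IntermediateField.fixedField H) (AlgebraicClosure ℚ)) (h46_toFixed H y) =
        ((y : 𝒪̄) : AlgebraicClosure ℚ) := rfl
    rw [← this] at hy
    exact (isIntegral_algebraMap_iff
      (FaithfulSMul.algebraMap_injective _ (AlgebraicClosure ℚ))).mp hy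

/-- The algebra structure of the fixed field over the invariant algebraic integers. -/
@[instance_reducible]
noncomputable def h46_algFixed (H : Subgroup Γℚ) :
    Algebra (FixedPoints.subalgebra ℤ 𝒪̄ H) (IntermediateField.fixedField H) :=
  (h46_toFixed H).toAlgebra

attribute [local instance] h46_algFixed

theorem h46_isIntegralClosure (H : Subgroup Γℚ) :
    @IsIntegralClosure (FixedPoints.subalgebra ℤ 𝒪̄ H) ℤ (IntermediateField.fixedField H) _ _ _
      (Ring.toIntAlgebra _) _ :=
  { algebraMap_injective := h46_toFixed_injective H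
    isIntegral_iff := fun {x} => h46_isIntegral_iff H x }

theorem h46_isIntegralClosure' (H : Subgroup Γℚ) :
    IsIntegralClosure (FixedPoints.subalgebra ℤ 𝒪̄ H) ℤ (IntermediateField.fixedField H) :=
  h46_isIntegralClosure H

attribute [local instance] h46_isIntegralClosure h46_isIntegralClosure'

theorem h46_exists_inertia (H : Subgroup Γℚ) [H.Normal] (hopen : IsOpen (H : Set Γℚ))
    (hne : H ≠ ⊤) :
    ∃ q : ℕ, q.Prime ∧ ∀ P : Ideal (FixedPoints.subalgebra ℤ 𝒪̄ H), P.IsPrime →
      (q : FixedPoints.subalgebra ℤ 𝒪̄ H) ∈ P →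
      ∃ τ : Γℚ ⧸ H, τ ≠ 1 ∧ τ ∈ P.inertia (Γℚ ⧸ H) := by
  classical
  have hclosed : IsClosed (H : Set Γℚ) := Subgroup.isClosed_of_isOpen H hopen
  have hfix : (IntermediateField.fixedField H).fixingSubgroup = H :=
    InfiniteGalois.fixingSubgroup_fixedField ⟨H, hclosed⟩
  have hfd : FiniteDimensional ℚ (IntermediateField.fixedField H) :=
    (InfiniteGalois.isOpen_iff_finite (IntermediateField.fixedField H)).mp (by
      rw [hfix]; exact hopen)
  have hgal : IsGalois ℚ (IntermediateField.fixedField H) :=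
    (InfiniteGalois.normal_iff_isGalois (IntermediateField.fixedField H)).mp (by
      rw [hfix]; infer_instance)
  have hnf : NumberField (IntermediateField.fixedField H) := { }
  have hrank : 1 < Module.finrank ℚ (IntermediateField.fixedField H) := by
    have h0 : 0 < Module.finrank ℚ (IntermediateField.fixedField H) := Module.finrank_pos
    have h1 : Module.finrank ℚ (IntermediateField.fixedField H) ≠ 1 := by
      intro h
      rw [IntermediateField.finrank_eq_one_iff] at h
      apply hne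
      rw [← hfix, h, IntermediateField.fixingSubgroup_bot]
    omega
  obtain ⟨q, hq, hram⟩ := NumberField.exists_not_isUnramifiedAt_int_of_isGalois
    (K := IntermediateField.fixedField H) (𝒪 := FixedPoints.subalgebra ℤ 𝒪̄ H) hrank
  refine ⟨q, hq, fun P hP hqP => ?_⟩
  have hunr := hram P hP hqP
  have hfinG : Finite (Γℚ ⧸ H) := Subgroup.quotient_finite_of_isOpen H hopen
  have hdom : IsDomain (FixedPoints.subalgebra ℤ 𝒪̄ H) := inferInstance
  have hfin : Module.Finite ℤ (FixedPoints.subalgebra ℤ 𝒪̄ H) :=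
    IsIntegralClosure.finite ℤ ℚ (IntermediateField.fixedField H) (FixedPoints.subalgebra ℤ 𝒪̄ H)
  have hfaith : FaithfulSMul (Γℚ ⧸ H) (FixedPoints.subalgebra ℤ 𝒪̄ H) := by
    constructor
    intro g₁ g₂ hg
    obtain ⟨a, rfl⟩ := QuotientGroup.mk_surjective g₁
    obtain ⟨b, rfl⟩ := QuotientGroup.mk_surjective g₂
    rw [QuotientGroup.eq, ← hfix, IntermediateField.mem_fixingSubgroup_iff]
    intro x hx
    have key : a x = b x := by
      have halg : IsAlgebraic ℤ x :=
        (IsFractionRing.isAlgebraic_iff ℤ ℚ (AlgebraicClosure ℚ)).mpr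
          (Algebra.IsAlgebraic.isAlgebraic x)
      obtain ⟨n, hn0, hn⟩ := halg.exists_integral_multiple
      have hmem : n • x ∈ IntermediateField.fixedField H := by
        rw [zsmul_eq_mul]
        exact mul_mem (intCast_mem _ n) hx
      obtain ⟨y, hy⟩ := (h46_isIntegral_iff H ⟨n • x, hmem⟩).mp
        ((isIntegral_algebraMap_iff (FaithfulSMul.algebraMap_injective
          (IntermediateField.fixedField H) (AlgebraicClosure ℚ))).mp hn)
      have hy' : ((y : 𝒪̄) : AlgebraicClosure ℚ) = n • x :=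
        congrArg (fun z : IntermediateField.fixedField H => (z : AlgebraicClosure ℚ)) hy
      have h1 := congrArg (fun z : FixedPoints.subalgebra ℤ 𝒪̄ H => ((z : 𝒪̄) : AlgebraicClosure ℚ))
        (hg y)
      have h2 : a ((y : 𝒪̄) : AlgebraicClosure ℚ) = b ((y : 𝒪̄) : AlgebraicClosure ℚ) := h1
      rw [hy', zsmul_eq_mul, map_mul, map_mul, map_intCast, map_intCast] at h2
      exact mul_left_cancel₀ (Int.cast_ne_zero.mpr hn0) h2
    show (a⁻¹ * b) x = x
    rw [AlgEquiv.mul_apply, ← key]
    exact a.symm_apply_apply x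
  have hGG : IsGaloisGroup (Γℚ ⧸ H) ℤ (FixedPoints.subalgebra ℤ 𝒪̄ H) :=
    { faithful := hfaith
      commutes := inferInstance
      isInvariant := inferInstance }
  have hcard : Nat.card (P.inertia (Γℚ ⧸ H)) =
      (P.under ℤ).ramificationIdxIn (FixedPoints.subalgebra ℤ 𝒪̄ H) :=
    Ideal.card_inertia_eq_ramificationIdxIn (G := Γℚ ⧸ H) (P.under ℤ) P
  have hidx : (P.under ℤ).ramificationIdxIn (FixedPoints.subalgebra ℤ 𝒪̄ H) =
      P.ramificationIdx ℤ :=
    Ideal.ramificationIdxIn_eq_ramificationIdx (P.under ℤ) P (Γℚ ⧸ H)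
  have hne1 : P.ramificationIdx ℤ ≠ 1 := fun h => hunr (Ideal.ramificationIdx_eq_one_iff.mp h)
  by_contra hcon
  push Not at hcon
  have hbot : P.inertia (Γℚ ⧸ H) = ⊥ := by
    rw [Subgroup.eq_bot_iff_forall]
    intro τ hτ
    by_contra h1
    exact hcon τ h1 hτ
  rw [hbot, Subgroup.card_bot, hidx] at hcard
  exact hne1 hcard.symm

/-- **Minkowski bridge.** An open normal proper subgroup `H` of the absolute Galois group of
`ℚ` does not contain the inertia group of any place above some prime `q`. -/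
theorem h46_minkowski_bridge (H : Subgroup Γℚ) [H.Normal] (hopen : IsOpen (H : Set Γℚ))
    (hne : H ≠ ⊤) :
    ∃ q : ℕ, q.Prime ∧ ∀ A : ValuationSubring (AlgebraicClosure ℚ), A.LiesOverPrime q →
      ∃ σ ∈ A.inertiaSubgroupIn ℚ, σ ∉ H := by
  obtain ⟨q, hq, h⟩ := h46_exists_inertia H hopen hne
  refine ⟨q, hq, fun A hA => ?_⟩
  have hcp : (centre A).IsPrime := centre_isPrime A
  have hclosed : IsClosed (H : Set Γℚ) := Subgroup.isClosed_of_isOpen H hopen
  have hqP : (q : FixedPoints.subalgebra ℤ 𝒪̄ H) ∈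
      (centre A).under (FixedPoints.subalgebra ℤ 𝒪̄ H) := by
    rw [Ideal.under_def, Ideal.mem_comap]
    have := natCast_mem_centre A q hA
    simpa using this
  obtain ⟨τ, hτ1, hτ⟩ := h _ inferInstance hqP
  obtain ⟨σ, hστ, hσQ, hσ⟩ := h46_lift_inertia (A := ℤ) H hclosed (centre A) τ hτ
  refine ⟨σ, h46_mem_inertiaSubgroupIn A q hq hA σ hσQ hσ, fun hσH => hτ1 ?_⟩
  rw [← hστ]
  exact (QuotientGroup.eq_one_iff σ).mpr hσH

/-- The bridge in the form `¬ I_A ≤ H`. -/
theorem h46_exists_prime_forall_not_le (H : Subgroup Γℚ) [H.Normal]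
    (hopen : IsOpen (H : Set Γℚ)) (hne : H ≠ ⊤) :
    ∃ q : ℕ, q.Prime ∧ ∀ A : ValuationSubring (AlgebraicClosure ℚ), A.LiesOverPrime q →
      ¬ A.inertiaSubgroupIn ℚ ≤ H := by
  obtain ⟨q, hq, h⟩ := h46_minkowski_bridge H hopen hne
  refine ⟨q, hq, fun A hA hle => ?_⟩
  obtain ⟨σ, hσ, hσH⟩ := h A hA
  exact hσH (hle hσ)

/-- An open normal subgroup of the absolute Galois group of `ℚ` containing, for every prime
`q`, the inertia group of some place above `q`, is everything. -/
theorem h46_eq_top_of_inertia_le (H : Subgroup Γℚ) [H.Normal] (hopen : IsOpen (H : Set Γℚ))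
    (h : ∀ q : ℕ, q.Prime → ∃ A : ValuationSubring (AlgebraicClosure ℚ),
      A.LiesOverPrime q ∧ A.inertiaSubgroupIn ℚ ≤ H) : H = ⊤ := by
  by_contra hne
  obtain ⟨q, hq, hq'⟩ := h46_exists_prime_forall_not_le H hopen hne
  obtain ⟨A, hA, hle⟩ := h q hq
  exact hq' A hA hle

/-- Two open normal subgroups, both containing inertia at some place above every prime
`q ≠ p`, and such that at some place above `p` one of them contains inertia: one of the two
is everything. -/
theorem h46_eq_top_or_eq_top (p : ℕ) (H₁ H₂ : Subgroup Γℚ) [H₁.Normal] [H₂.Normal]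
    (h₁ : IsOpen (H₁ : Set Γℚ)) (h₂ : IsOpen (H₂ : Set Γℚ))
    (hq : ∀ q : ℕ, q.Prime → q ≠ p → ∃ A : ValuationSubring (AlgebraicClosure ℚ),
      A.LiesOverPrime q ∧ A.inertiaSubgroupIn ℚ ≤ H₁ ⊓ H₂)
    (hp : ∃ A : ValuationSubring (AlgebraicClosure ℚ), A.LiesOverPrime p ∧
      (A.inertiaSubgroupIn ℚ ≤ H₁ ∨ A.inertiaSubgroupIn ℚ ≤ H₂)) :
    H₁ = ⊤ ∨ H₂ = ⊤ := by
  by_contra hcon
  push Not at hcon
  obtain ⟨hne₁, hne₂⟩ := hcon
  obtain ⟨q₁, hq₁, hq₁'⟩ := h46_exists_prime_forall_not_le H₁ h₁ hne₁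
  obtain ⟨q₂, hq₂, hq₂'⟩ := h46_exists_prime_forall_not_le H₂ h₂ hne₂
  have e₁ : q₁ = p := by
    by_contra hne
    obtain ⟨A, hA, hle⟩ := hq q₁ hq₁ hne
    exact hq₁' A hA (hle.trans inf_le_left)
  have e₂ : q₂ = p := by
    by_contra hne
    obtain ⟨A, hA, hle⟩ := hq q₂ hq₂ hne
    exact hq₂' A hA (hle.trans inf_le_right)
  subst e₁
  subst e₂
  obtain ⟨A, hA, hle | hle⟩ := hp
  · exact hq₁' A hA hle
  · exact hq₂' A hA hle

/-- A homomorphism from the absolute Galois group of `ℚ` with open kernel which is trivial on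
the inertia group of some place above every prime is trivial (Minkowski). -/
theorem h46_hom_eq_one_of_unramified {M : Type*} [Group M] (χ : Γℚ →* M)
    (hopen : IsOpen (χ.ker : Set Γℚ))
    (hunr : ∀ q : ℕ, q.Prime → ∃ A : ValuationSubring (AlgebraicClosure ℚ),
      A.LiesOverPrime q ∧ ∀ σ ∈ A.inertiaSubgroupIn ℚ, χ σ = 1) (σ : Γℚ) : χ σ = 1 := by
  have h : χ.ker = ⊤ := h46_eq_top_of_inertia_le χ.ker hopen (fun q hq => by
    obtain ⟨A, hA, hσ⟩ := hunr q hq
    exact ⟨A, hA, fun τ hτ => MonoidHom.mem_ker.mpr (hσ τ hτ)⟩)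
  have : σ ∈ χ.ker := by rw [h]; exact Subgroup.mem_top σ
  exact MonoidHom.mem_ker.mp this

/-- A subgroup of the absolute Galois group of `ℚ` containing every automorphism fixing a
given finite set of algebraic numbers is open. -/
theorem h46_isOpen_of_fixes (H : Subgroup Γℚ) (s : Set (AlgebraicClosure ℚ)) (hs : s.Finite)
    (h : ∀ σ : Γℚ, (∀ x ∈ s, σ x = x) → σ ∈ H) : IsOpen (H : Set Γℚ) := by
  have : Finite s := hs
  have hfd : FiniteDimensional ℚ (IntermediateField.adjoin ℚ s) :=
    IntermediateField.finiteDimensional_adjoin (fun x _ => Algebra.IsIntegral.isIntegral x)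
  have hopen : IsOpen ((IntermediateField.adjoin ℚ s).fixingSubgroup : Set Γℚ) :=
    IntermediateField.fixingSubgroup_isOpen (IntermediateField.adjoin ℚ s)
  refine Subgroup.isOpen_mono ?_ hopen
  intro σ hσ
  rw [IntermediateField.mem_fixingSubgroup_iff] at hσ
  exact h σ (fun x hx => hσ x (IntermediateField.subset_adjoin ℚ s hx))

end Val

end Fermat.Agent.S13
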