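import Fermat.Agent.S13.h48_Frey2

/-
helper48, project S13, blocks [C1] and [C2] for the Frey curve at the prime `2`:
* `h48_inertia_two_unipotent_of`: `(σ - 1)² = 0` on `E[p]` for `σ` in an inertia group over `2`;
* `h48_no_rational_torsion_of`: no nonzero `G_ℚ`-fixed point in `E[p]`.
The node-theoretic inputs (`Key'`, no odd torsion in the middle component, the level formula) are
hypotheses, in the language of `h45_NodalDefs`.
-/

set_option autoImplicit false

namespace Fermat.Agent.S13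

open WeierstrassCurve

local notation "Qbar" => AlgebraicClosure ℚ

/-- A root of `ρ (ρ + 1) = n`, `n` an integer, is integral at every place. -/
theorem h48_rho_mem (A : ValuationSubring Qbar) (ρ : Qbar) (n : ℤ) (h : ρ * (ρ + 1) = n) :
    A.valuation ρ ≤ 1 := by
  by_contra h1
  rw [not_le] at h1
  have h2 : A.valuation (ρ + 1) = A.valuation ρ :=
    Valuation.map_add_eq_of_lt_left _ (by rw [map_one]; exact h1)
  have h3 : A.valuation (ρ * (ρ + 1)) = A.valuation ρ * A.valuation ρ := by rw [map_mul, h2]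
  have h4 : (1 : A.ValueGroup) < A.valuation ρ * A.valuation ρ := by
    calc (1 : A.ValueGroup) = 1 * 1 := (one_mul 1).symm
      _ < A.valuation ρ * A.valuation ρ := mul_lt_mul'' h1 h1 zero_le zero_le
  rw [← h3, h] at h4
  have h5 : A.valuation ((n : ℤ) : Qbar) ≤ 1 := by
    rw [A.valuation_le_one_iff]
    exact intCast_mem A n
  exact absurd h4 (not_lt.mpr h5)

/-- Inertia at a place over `2` fixes the square roots of `b ^ p - a ^ p`. -/
theorem h48_sigma_d (P : FreyPackage) (A : ValuationSubring Qbar) (hA : A.LiesOverPrime 2)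
    (σ : Qbar ≃ₐ[ℚ] Qbar)
    (hσm : ∀ x, A.valuation x ≤ 1 → A.valuation (σ x - x) < 1) (d : Qbar)
    (hd : d ^ 2 = ((P.b ^ P.p - P.a ^ P.p : ℤ) : Qbar)) : σ d = d := by
  have hσd : (σ d) ^ 2 = d ^ 2 := by
    rw [← map_pow, hd, map_intCast]
  have hcases : σ d = d ∨ σ d = -d := by
    have h1 : (σ d - d) * (σ d + d) = 0 := by linear_combination hσd
    rcases mul_eq_zero.mp h1 with h | h
    · exact Or.inl (sub_eq_zero.mp h)
    · exact Or.inr (eq_neg_of_add_eq_zero_left h)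
  rcases hcases with h | h
  · exact h
  exfalso
  obtain ⟨n, hn⟩ := h48_frey_a2_int P
  have hρ : ((d - 1) / 2) * ((d - 1) / 2 + 1) = ((n : ℤ) : Qbar) := by
    have h4 : ((P.b ^ P.p - P.a ^ P.p : ℤ) : Qbar) = 4 * (n : Qbar) + 1 := by
      have : P.b ^ P.p - P.a ^ P.p = 4 * n + 1 := by linarith
      rw [this]
      push_cast
      ring
    rw [h4] at hd
    linear_combination (1 / 4 : Qbar) * hd
  have hmem := h48_rho_mem A _ n hρ
  have h5 := hσm _ hmem
  have h6 : σ ((d - 1) / 2) - (d - 1) / 2 = -d := by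
    rw [map_div₀, map_sub, map_one, map_ofNat, h]
    ring
  rw [h6, Valuation.map_neg, h48_val_d A hA P d hd] at h5
  exact lt_irrefl _ h5

open WeierstrassCurve.Affine in
/-- **(C1)** for the Frey curve: inertia at a place over `2` acts unipotently on the `p`-torsion.
The two node-theoretic inputs are hypotheses. -/
theorem h48_inertia_two_unipotent_of
    (hkey : ∀ (A : ValuationSubring Qbar) (d c : Qbar), A.valuation d = 1 → A.valuation c < 1 →
      c ≠ 0 → ∀ (g : A.ValueGroup) (P P' : (h45_nodalW d c).toAffine.Point),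
      h45_InC d c A g P → h45_InC d c A g P' → ¬ h45_IsN d c A (P - P'))
    (hM : ∀ (A : ValuationSubring Qbar) (d c : Qbar), A.valuation d = 1 → A.valuation c < 1 →
      c ≠ 0 → ∀ p : ℕ, p.Prime → p ≠ 2 → ∀ T : (h45_nodalW d c).toAffine.Point,
      h45_InM d c A T → p • T ≠ 0)
    (P : FreyPackage) (A : ValuationSubring Qbar) (hA : A.LiesOverPrime 2)
    (σ : Qbar ≃ₐ[ℚ] Qbar) (hσ : σ ∈ A.inertiaSubgroupIn ℚ)
    (x : Submodule.torsionBy ℤ (P.freyCurve⁄Qbar).Point P.p) :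
    σ • (σ • x - x) = σ • x - x := by
  obtain ⟨T, hT⟩ := x
  apply Subtype.ext
  change Affine.Point.map σ.toAlgHom (Affine.Point.map σ.toAlgHom T - T) =
    Affine.Point.map σ.toAlgHom T - T
  rw [Submodule.mem_torsionBy_iff] at hT
  have hT' : P.p • T = 0 := by
    rw [← hT]
    exact (natCast_zsmul T P.p).symm
  obtain ⟨hσA, hσm⟩ := S05.inertia_valuation A σ hσ
  have hσv := h48_val_sigma A σ hσA
  obtain ⟨d, hd⟩ := IsAlgClosed.exists_pow_nat_eq ((P.b ^ P.p - P.a ^ P.p : ℤ) : Qbar)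
    (n := 2) two_pos
  have hσd := h48_sigma_d P A hA σ hσm d hd
  have hvd := h48_val_d A hA P d hd
  obtain ⟨e, he, -, hce⟩ := h48_val_c A hA P
  have h2 := h48_val_two_lt A hA
  have hc1 : A.valuation (algebraMap ℚ Qbar P.freyCurve.a₄) < 1 := by
    rw [hce]
    exact pow_lt_one₀ zero_le h2 he.ne'
  have hp2 : P.p ≠ 2 := by have := P.hp5; omega
  have hvp : A.valuation (P.p : Qbar) = 1 :=
    S05.valuation_natCast_eq_one A 2 Nat.prime_two hA P.p
      (fun h => hp2 ((Nat.prime_dvd_prime_iff_eq Nat.prime_two P.pp).mp h).symm)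
  exact h48_c1_generic A (P.freyCurve.map (algebraMap ℚ Qbar)) d
    (algebraMap ℚ Qbar P.freyCurve.a₄) _ (h48_frey_model P d hd) P.p hvp h2 hvd hc1
    σ.toRingEquiv hσv hσm (by simp) (by simp)
    (by
      change σ (-((d - 1) / 2)) = -((d - 1) / 2)
      rw [map_neg, map_div₀, map_sub, map_one, map_ofNat, hσd])
    (by simp)
    (Affine.Point.map σ.toAlgHom)
    (fun x y h => ⟨_, Affine.Point.map_some σ.toAlgHom h⟩)
    (hkey A d _ hvd hc1 (h48_frey_c_ne_zero P))
    (hM A d _ hvd hc1 (h48_frey_c_ne_zero P) P.p P.pp hp2) T hT'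

theorem h48_rat_of_fixed (x : Qbar) (h : ∀ σ : Qbar ≃ₐ[ℚ] Qbar, σ x = x) :
    ∃ q : ℚ, (q : Qbar) = x := by
  have h1 : Algebra.IsAlgebraic ℚ Qbar := AlgebraicClosure.isAlgebraic ℚ
  have h2 : IsAlgClosure ℚ Qbar := ⟨inferInstance, h1⟩
  have h3 : IsGalois ℚ Qbar := IsAlgClosure.isGalois ℚ Qbar
  obtain ⟨q, hq⟩ := (InfiniteGalois.mem_range_algebraMap_iff_fixed (k := ℚ) (K := Qbar) x).2 h
  exact ⟨q, by rw [← hq, eq_ratCast]⟩

section rat

variable (A : ValuationSubring Qbar) (hA : A.LiesOverPrime 2)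

include hA in
theorem h48_val_even (n : ℤ) (hn : (2 : ℤ) ∣ n) : A.valuation (n : Qbar) < 1 :=
  (S05.valuation_intCast A 2 Nat.prime_two hA n).2.mpr (by exact_mod_cast hn)

include hA in
theorem h48_rat_den_odd (r : ℚ) (hr : A.valuation (r : Qbar) ≤ 1) : ¬ (2 : ℤ) ∣ (r.den : ℤ) := by
  intro h
  have hnum : ¬ (2 : ℤ) ∣ r.num := by
    intro h'
    have hcop := r.reduced
    have h1 : (2 : ℕ) ∣ r.num.natAbs := by
      have := Int.natAbs_dvd_natAbs.mpr h'
      simpa using this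
    have h2 : (2 : ℕ) ∣ r.den := by exact_mod_cast h
    have := Nat.Coprime.eq_one_of_dvd (Nat.Coprime.coprime_dvd_left h1 hcop) h2
    omega
  have hvnum := h48_val_odd A hA _ hnum
  have hvden : A.valuation ((r.den : ℤ) : Qbar) < 1 := h48_val_even A hA _ h
  have hden0 : ((r.den : ℤ) : Qbar) ≠ 0 := by
    have := r.den_ne_zero
    exact_mod_cast this
  have hpos : 0 < A.valuation ((r.den : ℤ) : Qbar) := (Valuation.pos_iff _).mpr hden0
  have hr' : (r : Qbar) = (r.num : Qbar) / ((r.den : ℤ) : Qbar) := by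
    rw [Rat.cast_def]
    push_cast
    rfl
  rw [hr', map_div₀, hvnum, div_le_iff₀ hpos, one_mul] at hr
  exact absurd hvden (not_lt.mpr hr)

include hA in
theorem h48_rat_val_eq (r : ℚ) (hr : A.valuation (r : Qbar) ≤ 1) :
    A.valuation (r : Qbar) = A.valuation (r.num : Qbar) := by
  have hden := h48_val_odd A hA _ (h48_rat_den_odd A hA r hr)
  have hr' : (r : Qbar) = (r.num : Qbar) / ((r.den : ℤ) : Qbar) := by
    rw [Rat.cast_def]
    push_cast
    rfl
  rw [hr', map_div₀, hden, div_one]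

include hA in
/-- The residue field of a place over `2` restricted to `ℚ` has two elements. -/
theorem h48_rat_parity (r : ℚ) (hr : A.valuation (r : Qbar) ≤ 1) :
    A.valuation (r : Qbar) < 1 ∨ A.valuation ((r : Qbar) - 1) < 1 := by
  have hdodd := h48_rat_den_odd A hA r hr
  by_cases hnum : (2 : ℤ) ∣ r.num
  · left
    rw [h48_rat_val_eq A hA r hr]
    exact h48_val_even A hA _ hnum
  · right
    have hden := h48_val_odd A hA _ hdodd
    have hden0 : ((r.den : ℤ) : Qbar) ≠ 0 := by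
      have := r.den_ne_zero
      exact_mod_cast this
    have hr' : (r : Qbar) - 1 = ((r.num - (r.den : ℤ) : ℤ) : Qbar) / ((r.den : ℤ) : Qbar) := by
      rw [Rat.cast_def]
      push_cast
      field_simp
    rw [hr', map_div₀, hden, div_one]
    exact h48_val_even A hA _ (by omega)

include hA in
theorem h48_rat_val_pow (r : ℚ) (hr0 : r ≠ 0) (hr : A.valuation (r : Qbar) ≤ 1) :
    ∃ m : ℕ, A.valuation (r : Qbar) = A.valuation (2 : Qbar) ^ m := by
  rw [h48_rat_val_eq A hA r hr]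
  have hnum0 : r.num ≠ 0 := Rat.num_ne_zero.mpr hr0
  have hfin : FiniteMultiplicity (2 : ℤ) r.num :=
    Int.finiteMultiplicity_iff.mpr ⟨by decide, hnum0⟩
  obtain ⟨n', hn', hnd⟩ := hfin.exists_eq_pow_mul_and_not_dvd
  refine ⟨multiplicity (2 : ℤ) r.num, ?_⟩
  have h1 : (r.num : Qbar) = (2 : Qbar) ^ (multiplicity (2 : ℤ) r.num) * (n' : Qbar) := by
    have := congrArg (Int.cast : ℤ → Qbar) hn'
    push_cast at this
    exact this
  rw [h1, map_mul, map_pow, h48_val_odd A hA _ hnd, mul_one]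

end rat

/-- **(C2), generic nodal step**: transport of `h48_c2_node` along a change of variables which
does not move the `X`-coordinate. -/
theorem h48_c2_generic {K : Type*} [Field K] [DecidableEq K] (A : ValuationSubring K)
    (W : WeierstrassCurve K) (d c : K) (C : VariableChange K) (hu : (C.u : K) = 1)
    (hr : C.r = 0) (hW : C • h45_nodalW d c = W) (p : ℕ) (hp : p.Prime) (hp2 : p ≠ 2)
    (h2 : A.valuation (2 : K) < 1) (h20 : (2 : K) ≠ 0)
    (e : ℕ) (hce : A.valuation c = A.valuation (2 : K) ^ e) (hpe : ¬ p ∣ e)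
    (htors : ∀ (g : A.ValueGroup) (T : (h45_nodalW d c).toAffine.Point),
      h45_InC d c A g T → p • T = 0 → ∃ k : ℕ, g ^ p = A.valuation c ^ (2 * k))
    (hM : ∀ T : (h45_nodalW d c).toAffine.Point, h45_InM d c A T → p • T ≠ 0)
    {X Y : K} (h : W.toAffine.Nonsingular X Y) (hT : p • Affine.Point.some X Y h = 0)
    (hX : X = 0 ∨ ∃ m : ℕ, A.valuation X = A.valuation (2 : K) ^ m) :
    ¬ A.valuation X < 1 := by
  subst hW
  have h1 : p • S51.vc_addEquiv (h45_nodalW d c) C (Affine.Point.some X Y h) = 0 := by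
    rw [← map_nsmul, hT, map_zero]
  rw [S51.vc_addEquiv_apply, S51.vc_fun_some] at h1
  have hXeq : S51.vc_X C X = X := by simp [S51.vc_X, hu, hr]
  have hns' : (h45_nodalW d c).toAffine.Nonsingular X (S51.vc_Y C X Y) := by
    have := (S51.vc_nonsingular_iff (h45_nodalW d c) C X Y).mp h
    rwa [hXeq] at this
  have h1' : p • (Affine.Point.some X (S51.vc_Y C X Y) hns' :
      (h45_nodalW d c).toAffine.Point) = 0 := by
    rw [← h1]
    congr 1
    rw [Affine.Point.some.injEq]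
    exact ⟨hXeq.symm, rfl⟩
  rcases hX with rfl | ⟨m, hm⟩
  · intro _
    exact hM _ ⟨0, _, hns', rfl, by rw [map_zero]; exact zero_le⟩ h1'
  · exact h48_c2_node A d c p hp hp2 h2 h20 e hce hpe htors hM hns' h1' m hm

/-- Two torsion points with integral coordinates, nonsingular reduction and the same reduction
are equal (curves with `a₁ = 1`, `a₃ = 0` in residue characteristic `2`, unit `X`). -/
theorem h48_eq_of_congr {K : Type*} [Field K] [DecidableEq K] (A : ValuationSubring K)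
    (W : WeierstrassCurve K) (hW : S05.h18_Integral A W.toAffine) (ha₁ : W.a₁ = 1)
    (ha₃ : W.a₃ = 0) (h2 : A.valuation (2 : K) < 1) (p : ℕ) (hvp : (p : K) ∉ A.nonunits)
    {X Y X' Y' : K} (h : W.toAffine.Nonsingular X Y) (h' : W.toAffine.Nonsingular X' Y')
    (hX : A.valuation X = 1) (hXX : A.valuation (X' - X) < 1) (hYY : A.valuation (Y' - Y) < 1)
    (hp : p • (Affine.Point.some X' Y' h' - Affine.Point.some X Y h) = 0) :
    Affine.Point.some X' Y' h' = Affine.Point.some X Y h := by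
  have hXA : X ∈ A := (A.valuation_le_one_iff X).mp hX.le
  have hYA : Y ∈ A := S05.h18_y_mem hW h.1 hXA
  have hns : ¬ (W.toAffine.polynomialX.evalEval X Y ∈ A.nonunits ∧
      W.toAffine.polynomialY.evalEval X Y ∈ A.nonunits) := by
    rintro ⟨-, hY⟩
    rw [Affine.evalEval_polynomialY, A.mem_nonunits_iff] at hY
    have e1 : 2 * Y + W.toAffine.a₁ * X + W.toAffine.a₃ = 2 * Y + X := by
      change 2 * Y + W.a₁ * X + W.a₃ = 2 * Y + X
      rw [ha₁, ha₃, one_mul, add_zero]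
    have h1 : A.valuation (2 * Y) < 1 := by
      rw [map_mul]
      exact mul_lt_one_of_lt_of_le h2 ((A.valuation_le_one_iff Y).mpr hYA)
    rw [e1, Valuation.map_add_eq_of_lt_right _ (by rw [hX]; exact h1), hX] at hY
    exact lt_irrefl _ hY
  rcases S05.h18_sub_mem_E1 hW h h' hXA hYA (A.mem_nonunits_iff.mpr hXX)
    (A.mem_nonunits_iff.mpr hYY) hns with h0 | ⟨x₃, y₃, h₃, e3, hx3⟩
  · exact sub_eq_zero.mp h0
  · exfalso
    rw [e3] at hp
    exact S05.h86_nsmul_ne_zero_of_notMem A W hW.a₁ hW.a₂ hW.a₃ hW.a₄ hW.a₆ h₃ hx3 hvp hp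

theorem h48_frey_integral (P : FreyPackage) (A : ValuationSubring Qbar) (hA : A.LiesOverPrime 2) :
    S05.h18_Integral A (P.freyCurve.map (algebraMap ℚ Qbar)).toAffine := by
  obtain ⟨n, hn⟩ := h48_frey_a2_int P
  obtain ⟨e, he, -, hce⟩ := h48_val_c A hA P
  refine ⟨?_, ?_, ?_, ?_, ?_⟩
  · change algebraMap ℚ Qbar P.freyCurve.a₁ ∈ A
    have : P.freyCurve.a₁ = 1 := rfl
    rw [this, map_one]
    exact A.one_mem
  · change algebraMap ℚ Qbar P.freyCurve.a₂ ∈ A
    have : P.freyCurve.a₂ = ((n : ℤ) : ℚ) := by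
      have h1 : ((P.b : ℚ) ^ P.p - 1 - (P.a : ℚ) ^ P.p) = 4 * (n : ℚ) := by exact_mod_cast hn
      simp only [FreyPackage.freyCurve]
      rw [h1]
      ring
    rw [this, map_intCast]
    exact intCast_mem A n
  · change algebraMap ℚ Qbar P.freyCurve.a₃ ∈ A
    have : P.freyCurve.a₃ = 0 := rfl
    rw [this, map_zero]
    exact A.zero_mem
  · change algebraMap ℚ Qbar P.freyCurve.a₄ ∈ A
    rw [← A.valuation_le_one_iff, hce]
    exact pow_le_one₀ zero_le (h48_val_two_lt A hA).le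
  · change algebraMap ℚ Qbar P.freyCurve.a₆ ∈ A
    have : P.freyCurve.a₆ = 0 := rfl
    rw [this, map_zero]
    exact A.zero_mem

open WeierstrassCurve.Affine in
theorem h48_map_some_eq (W' : Affine ℚ) (σ : Qbar ≃ₐ[ℚ] Qbar) {X Y : Qbar}
    (h : (W'⁄Qbar).Nonsingular X Y)
    (hQ : Affine.Point.map σ.toAlgHom (Affine.Point.some X Y h) = Affine.Point.some X Y h) :
    σ X = X ∧ σ Y = Y := by
  rw [Affine.Point.map_some, Affine.Point.some.injEq] at hQ
  exact hQ

open WeierstrassCurve.Affine in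
/-- **(C2)** for the Frey curve: no nonzero point of `E[p]` is fixed by the whole Galois group.
The two node-theoretic inputs are hypotheses. -/
theorem h48_no_rational_torsion_of
    (htors : ∀ (A : ValuationSubring Qbar) (d c : Qbar), A.valuation d = 1 → A.valuation c < 1 →
      c ≠ 0 → ∀ p : ℕ, p.Prime → p ≠ 2 →
      ∀ (g : A.ValueGroup) (T : (h45_nodalW d c).toAffine.Point),
      h45_InC d c A g T → p • T = 0 → ∃ k : ℕ, g ^ p = A.valuation c ^ (2 * k))
    (hM : ∀ (A : ValuationSubring Qbar) (d c : Qbar), A.valuation d = 1 → A.valuation c < 1 →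
      c ≠ 0 → ∀ p : ℕ, p.Prime → p ≠ 2 → ∀ T : (h45_nodalW d c).toAffine.Point,
      h45_InM d c A T → p • T ≠ 0)
    (P : FreyPackage) (A : ValuationSubring Qbar) (hA : A.LiesOverPrime 2)
    (x : Submodule.torsionBy ℤ (P.freyCurve⁄Qbar).Point P.p)
    (hfix : ∀ σ : Qbar ≃ₐ[ℚ] Qbar, σ • x = x) : x = 0 := by
  obtain ⟨T, hT⟩ := x
  have hfix' : ∀ σ : Qbar ≃ₐ[ℚ] Qbar, Affine.Point.map σ.toAlgHom T = T :=
    fun σ => congrArg Subtype.val (hfix σ)
  apply Subtype.ext
  change T = 0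
  rw [Submodule.mem_torsionBy_iff] at hT
  have hT' : P.p • T = 0 := by
    rw [← hT]
    exact (natCast_zsmul T P.p).symm
  by_contra hT0
  -- data at `2`
  obtain ⟨d, hd⟩ := IsAlgClosed.exists_pow_nat_eq ((P.b ^ P.p - P.a ^ P.p : ℤ) : Qbar)
    (n := 2) two_pos
  have hvd := h48_val_d A hA P d hd
  obtain ⟨e, he, hpe, hce⟩ := h48_val_c A hA P
  have h2 := h48_val_two_lt A hA
  have hc1 : A.valuation (algebraMap ℚ Qbar P.freyCurve.a₄) < 1 := by
    rw [hce]
    exact pow_lt_one₀ zero_le h2 he.ne'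
  have hp2 : P.p ≠ 2 := by have := P.hp5; omega
  have hvp : (P.p : Qbar) ∉ A.nonunits := by
    rw [A.mem_nonunits_iff, S05.valuation_natCast_eq_one A 2 Nat.prime_two hA P.p
      (fun h => hp2 ((Nat.prime_dvd_prime_iff_eq Nat.prime_two P.pp).mp h).symm)]
    exact lt_irrefl _
  have hWint := h48_frey_integral P A hA
  have hc0 := h48_frey_c_ne_zero P
  -- fixed torsion points have rational coordinates, unit `X`, integral `Y`
  have claim : ∀ Q : (P.freyCurve.map (algebraMap ℚ Qbar)).toAffine.Point,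
      (∀ σ : Qbar ≃ₐ[ℚ] Qbar, Affine.Point.map σ.toAlgHom Q = Q) → P.p • Q = 0 → Q ≠ 0 →
      ∃ (r s : ℚ) (h : (P.freyCurve.map (algebraMap ℚ Qbar)).toAffine.Nonsingular
        (r : Qbar) (s : Qbar)), Q = Affine.Point.some (r : Qbar) (s : Qbar) h ∧
        A.valuation (r : Qbar) = 1 ∧ A.valuation (s : Qbar) ≤ 1 := by
    intro Q hQfix hQp hQ0
    rcases Q with _ | ⟨X, Y, h⟩
    · exact absurd rfl hQ0
    · have hX : ∀ σ : Qbar ≃ₐ[ℚ] Qbar, σ X = X := fun σ =>
        (h48_map_some_eq P.freyCurve σ h (hQfix σ)).1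
      have hY : ∀ σ : Qbar ≃ₐ[ℚ] Qbar, σ Y = Y := fun σ =>
        (h48_map_some_eq P.freyCurve σ h (hQfix σ)).2
      obtain ⟨r, rfl⟩ := h48_rat_of_fixed X hX
      obtain ⟨s, rfl⟩ := h48_rat_of_fixed Y hY
      have hle : A.valuation (r : Qbar) ≤ 1 := by
        by_contra hgt
        exact S05.h86_nsmul_ne_zero_of_notMem A (P.freyCurve.map (algebraMap ℚ Qbar))
          hWint.a₁ hWint.a₂ hWint.a₃ hWint.a₄ hWint.a₆ h
          (by rwa [← A.valuation_le_one_iff]) hvp hQp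
      have hge : ¬ A.valuation (r : Qbar) < 1 :=
        h48_c2_generic A (P.freyCurve.map (algebraMap ℚ Qbar)) d
          (algebraMap ℚ Qbar P.freyCurve.a₄) _ (by simp) (by simp) (h48_frey_model P d hd)
          P.p P.pp hp2 h2 two_ne_zero e hce hpe
          (htors A d _ hvd hc1 hc0 P.p P.pp hp2) (hM A d _ hvd hc1 hc0 P.p P.pp hp2) h hQp
          (by
            by_cases hr0 : r = 0
            · left; rw [hr0, Rat.cast_zero]
            · right; exact h48_rat_val_pow A hA r hr0 hle)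
      refine ⟨r, s, h, rfl, le_antisymm hle (not_lt.mp hge), ?_⟩
      rw [A.valuation_le_one_iff]
      exact S05.h18_y_mem hWint h.1 ((A.valuation_le_one_iff _).mp hle)
  -- two fixed torsion points with `Y`-coordinates of the same parity are equal
  have pair : ∀ (Q Q' : (P.freyCurve.map (algebraMap ℚ Qbar)).toAffine.Point) (r s r' s' : ℚ)
      (h : (P.freyCurve.map (algebraMap ℚ Qbar)).toAffine.Nonsingular (r : Qbar) (s : Qbar))
      (h' : (P.freyCurve.map (algebraMap ℚ Qbar)).toAffine.Nonsingular (r' : Qbar) (s' : Qbar)),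
      Q = Affine.Point.some (r : Qbar) (s : Qbar) h →
      Q' = Affine.Point.some (r' : Qbar) (s' : Qbar) h' →
      A.valuation (r : Qbar) = 1 → A.valuation (r' : Qbar) = 1 →
      P.p • Q = 0 → P.p • Q' = 0 →
      ((A.valuation (s : Qbar) < 1 ∧ A.valuation (s' : Qbar) < 1) ∨
        (A.valuation ((s : Qbar) - 1) < 1 ∧ A.valuation ((s' : Qbar) - 1) < 1)) → Q' = Q := by
    intro Q Q' r s r' s' h h' eQ eQ' hr hr' hpQ hpQ' hpar
    rw [eQ, eQ']
    have hr1 : A.valuation ((r : Qbar) - 1) < 1 := by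
      rcases h48_rat_parity A hA r hr.le with h0 | h0
      · rw [hr] at h0; exact absurd h0 (lt_irrefl _)
      · exact h0
    have hr1' : A.valuation ((r' : Qbar) - 1) < 1 := by
      rcases h48_rat_parity A hA r' hr'.le with h0 | h0
      · rw [hr'] at h0; exact absurd h0 (lt_irrefl _)
      · exact h0
    have hXX : A.valuation ((r' : Qbar) - (r : Qbar)) < 1 := by
      have e1 : (r' : Qbar) - (r : Qbar) = ((r' : Qbar) - 1) - ((r : Qbar) - 1) := by ring
      rw [e1]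
      exact lt_of_le_of_lt (Valuation.map_sub _ _ _) (max_lt hr1' hr1)
    have hYY : A.valuation ((s' : Qbar) - (s : Qbar)) < 1 := by
      rcases hpar with ⟨h0, h0'⟩ | ⟨h0, h0'⟩
      · exact lt_of_le_of_lt (Valuation.map_sub _ _ _) (max_lt h0' h0)
      · have e1 : (s' : Qbar) - (s : Qbar) = ((s' : Qbar) - 1) - ((s : Qbar) - 1) := by ring
        rw [e1]
        exact lt_of_le_of_lt (Valuation.map_sub _ _ _) (max_lt h0' h0)
    refine h48_eq_of_congr A (P.freyCurve.map (algebraMap ℚ Qbar)) hWint ?_ ?_ h2 P.p hvp h h' hr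
      hXX hYY ?_
    · change algebraMap ℚ Qbar P.freyCurve.a₁ = 1
      have : P.freyCurve.a₁ = 1 := rfl
      rw [this, map_one]
    · change algebraMap ℚ Qbar P.freyCurve.a₃ = 0
      have : P.freyCurve.a₃ = 0 := rfl
      rw [this, map_zero]
    · rw [← eQ, ← eQ', smul_sub, hpQ, hpQ', sub_zero]
  -- the multiples `T`, `2 T`, `3 T`
  have hord : addOrderOf T = P.p := by
    rcases (Nat.dvd_prime P.pp).mp (addOrderOf_dvd_of_nsmul_eq_zero hT') with h1 | h1
    · exact absurd (AddMonoid.addOrderOf_eq_one_iff.mp h1) hT0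
    · exact h1
  have hne : ∀ j : ℕ, 0 < j → j < P.p → j • T ≠ 0 := by
    intro j hj hjp h0
    have := addOrderOf_dvd_of_nsmul_eq_zero h0
    rw [hord] at this
    exact absurd (Nat.le_of_dvd hj this) (not_le.mpr hjp)
  have hp5 := P.hp5
  have hfixj : ∀ j : ℕ, ∀ σ : Qbar ≃ₐ[ℚ] Qbar, Affine.Point.map σ.toAlgHom (j • T) = j • T :=
    fun j σ => by rw [map_nsmul, hfix' σ]
  have hpj : ∀ j : ℕ, P.p • (j • T) = 0 := fun j => by rw [smul_comm, hT', nsmul_zero]
  obtain ⟨r₁, s₁, h₁, e₁, hr₁, hs₁⟩ := claim (1 • T) (hfixj 1) (hpj 1) (hne 1 (by omega) (by omega))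
  obtain ⟨r₂, s₂, h₂, e₂, hr₂, hs₂⟩ := claim (2 • T) (hfixj 2) (hpj 2) (hne 2 (by omega) (by omega))
  obtain ⟨r₃, s₃, h₃, e₃, hr₃, hs₃⟩ := claim (3 • T) (hfixj 3) (hpj 3) (hne 3 (by omega) (by omega))
  have key : 2 • T = 1 • T ∨ 3 • T = 1 • T ∨ 3 • T = 2 • T := by
    rcases h48_rat_parity A hA s₁ hs₁ with p1 | p1 <;>
    rcases h48_rat_parity A hA s₂ hs₂ with p2 | p2 <;>
    rcases h48_rat_parity A hA s₃ hs₃ with p3 | p3
    · exact Or.inl (pair _ _ r₁ s₁ r₂ s₂ h₁ h₂ e₁ e₂ hr₁ hr₂ (hpj 1) (hpj 2) (Or.inl ⟨p1, p2⟩))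
    · exact Or.inl (pair _ _ r₁ s₁ r₂ s₂ h₁ h₂ e₁ e₂ hr₁ hr₂ (hpj 1) (hpj 2) (Or.inl ⟨p1, p2⟩))
    · exact Or.inr (Or.inl
        (pair _ _ r₁ s₁ r₃ s₃ h₁ h₃ e₁ e₃ hr₁ hr₃ (hpj 1) (hpj 3) (Or.inl ⟨p1, p3⟩)))
    · exact Or.inr (Or.inr
        (pair _ _ r₂ s₂ r₃ s₃ h₂ h₃ e₂ e₃ hr₂ hr₃ (hpj 2) (hpj 3) (Or.inr ⟨p2, p3⟩)))
    · exact Or.inr (Or.inr
        (pair _ _ r₂ s₂ r₃ s₃ h₂ h₃ e₂ e₃ hr₂ hr₃ (hpj 2) (hpj 3) (Or.inl ⟨p2, p3⟩)))
    · exact Or.inr (Or.inl
        (pair _ _ r₁ s₁ r₃ s₃ h₁ h₃ e₁ e₃ hr₁ hr₃ (hpj 1) (hpj 3) (Or.inr ⟨p1, p3⟩)))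
    · exact Or.inl (pair _ _ r₁ s₁ r₂ s₂ h₁ h₂ e₁ e₂ hr₁ hr₂ (hpj 1) (hpj 2) (Or.inr ⟨p1, p2⟩))
    · exact Or.inl (pair _ _ r₁ s₁ r₂ s₂ h₁ h₂ e₁ e₂ hr₁ hr₂ (hpj 1) (hpj 2) (Or.inr ⟨p1, p2⟩))
  rcases key with h0 | h0 | h0
  · apply hne 1 (by omega) (by omega)
    have e : (2 : ℕ) • T = 1 • T + 1 • T := by rw [← add_nsmul]
    rw [e] at h0
    exact add_eq_right.mp h0
  · apply hne 2 (by omega) (by omega)
    have e : (3 : ℕ) • T = 2 • T + 1 • T := by rw [← add_nsmul]
    rw [e] at h0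
    exact add_eq_right.mp h0
  · apply hne 1 (by omega) (by omega)
    have e : (3 : ℕ) • T = 1 • T + 2 • T := by rw [← add_nsmul]
    rw [e] at h0
    exact add_eq_right.mp h0

end Fermat.Agent.S13
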