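import Mathlib
import Fermat.Agent.S13.h45_NodalDefs
import Fermat.Agent.S05.h18_Red
import Fermat.Agent.S05.h86_Formal

/-
helper48, project S13, block [C1]/[C2] cores (prime 2), on the split nodal form
`Y² + d X Y = X³ + c X` of helper45 (`h45_nodalW d c`).  The node-theory inputs
(`Key'`, no odd torsion in the middle component, level formula) are hypotheses here; they
are discharged in the glue file from the node files.
-/

set_option autoImplicit false

namespace Fermat.Agent.S13

open WeierstrassCurve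

variable {K : Type*} [Field K] [DecidableEq K] (A : ValuationSubring K)

/-- A torsion point (of order prime to the residue characteristic) with integral coordinates and
nonsingular reduction is fixed by any additive map of the points which moves coordinates only
inside their residue classes. -/
theorem h48_fixed_of_unit (W : WeierstrassCurve K) (hW : S05.h18_Integral A W.toAffine) (p : ℕ)
    (hvp : (p : K) ∉ A.nonunits) (σ : K → K) (hσm : ∀ x, x ∈ A → σ x - x ∈ A.nonunits)
    (φ : W.toAffine.Point →+ W.toAffine.Point)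
    (hφ : ∀ (X Y : K) (h : W.toAffine.Nonsingular X Y),
      ∃ h', φ (Affine.Point.some X Y h) = Affine.Point.some (σ X) (σ Y) h')
    {X Y : K} (h : W.toAffine.Nonsingular X Y) (hX : X ∈ A)
    (hns : ¬ (W.toAffine.polynomialX.evalEval X Y ∈ A.nonunits ∧
      W.toAffine.polynomialY.evalEval X Y ∈ A.nonunits))
    (hT : p • Affine.Point.some X Y h = 0) :
    φ (Affine.Point.some X Y h) = Affine.Point.some X Y h := by
  obtain ⟨h', e⟩ := hφ X Y h
  have hY : Y ∈ A := S05.h18_y_mem hW h.1 hX
  rcases S05.h18_sub_mem_E1 hW h h' hX hY (hσm X hX) (hσm Y hY) hns with h0 | ⟨x₃, y₃, h₃, e3, hx3⟩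
  · rw [e]
    exact sub_eq_zero.mp h0
  · exfalso
    have hp : p • (Affine.Point.some x₃ y₃ h₃ : W.toAffine.Point) = 0 := by
      rw [← e3, ← e, smul_sub, ← map_nsmul, hT, map_zero, sub_zero]
    exact S05.h86_nsmul_ne_zero_of_notMem A W hW.a₁ hW.a₂ hW.a₃ hW.a₄ hW.a₆ h₃ hx3 hvp hp

variable (d c : K)

omit [DecidableEq K] in
lemma h48_nodal_integral (hd : A.valuation d = 1) (hc : A.valuation c < 1) :
    S05.h18_Integral A (h45_nodalW d c).toAffine :=
  ⟨(A.valuation_le_one_iff d).mp hd.le, A.zero_mem, A.zero_mem,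
    (A.valuation_le_one_iff c).mp hc.le, A.zero_mem⟩

/-- In residue characteristic `2`, a `p`-torsion point of the nodal curve outside the node region
is fixed by inertia. -/
theorem h48_nodal_fixed_of_not_isN (p : ℕ) (hvp : A.valuation (p : K) = 1)
    (h2 : A.valuation (2 : K) < 1) (hd : A.valuation d = 1) (hc : A.valuation c < 1)
    (σ : K → K) (hσm : ∀ x, A.valuation x ≤ 1 → A.valuation (σ x - x) < 1)
    (φ : (h45_nodalW d c).toAffine.Point →+ (h45_nodalW d c).toAffine.Point)
    (hφ : ∀ (X Y : K) (h : (h45_nodalW d c).toAffine.Nonsingular X Y),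
      ∃ h', φ (Affine.Point.some X Y h) = Affine.Point.some (σ X) (σ Y) h')
    (D : (h45_nodalW d c).toAffine.Point) (hD : ¬ h45_IsN d c A D) (hpD : p • D = 0) :
    φ D = D := by
  have hW := h48_nodal_integral A d c hd hc
  have hvp' : (p : K) ∉ A.nonunits := by
    rw [A.mem_nonunits_iff, hvp]
    exact lt_irrefl _
  rcases D with _ | ⟨X, Y, h⟩
  · exact map_zero φ
  · have hXge : 1 ≤ A.valuation X := by
      by_contra hlt
      exact hD ⟨X, Y, h, rfl, not_le.mp hlt⟩
    rcases hXge.lt_or_eq with hgt | heq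
    · exfalso
      have hXA : X ∉ A := by
        rw [← A.valuation_le_one_iff]
        exact not_le.mpr hgt
      exact S05.h86_nsmul_ne_zero_of_notMem A (h45_nodalW d c) hW.a₁ hW.a₂ hW.a₃ hW.a₄ hW.a₆ h
        hXA hvp' hpD
    · have hXA : X ∈ A := (A.valuation_le_one_iff X).mp heq.symm.le
      have hYA : Y ∈ A := S05.h18_y_mem hW h.1 hXA
      refine h48_fixed_of_unit A (h45_nodalW d c) hW p hvp' σ
        (fun x hx => A.mem_nonunits_iff.mpr
          (hσm x ((A.valuation_le_one_iff x).mpr hx))) φ hφ h hXA ?_ hpD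
      rintro ⟨-, hY⟩
      rw [Affine.evalEval_polynomialY, A.mem_nonunits_iff] at hY
      have h1 : A.valuation (2 * Y) < 1 := by
        rw [map_mul]
        exact mul_lt_one_of_lt_of_le h2 ((A.valuation_le_one_iff Y).mpr hYA)
      have h3 : A.valuation ((h45_nodalW d c).toAffine.a₁ * X) = 1 := by
        change A.valuation (d * X) = 1
        rw [map_mul, hd, ← heq, one_mul]
      have h4 : A.valuation (2 * Y + (h45_nodalW d c).toAffine.a₁ * X +
          (h45_nodalW d c).toAffine.a₃) = 1 := by
        have : (h45_nodalW d c).toAffine.a₃ = 0 := rfl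
        rw [this, add_zero, Valuation.map_add_eq_of_lt_right _ (by rw [h3]; exact h1), h3]
      rw [h4] at hY
      exact lt_irrefl _ hY

omit [DecidableEq K] in
/-- The branch dichotomy in the node region. -/
lemma h48_branch {X Y : K}
    (h : (h45_nodalW d c).toAffine.Equation X Y) (hX1 : A.valuation X < 1)
    (hcX : A.valuation c < A.valuation X) :
    A.valuation Y < A.valuation X ∨ A.valuation (Y + d * X) < A.valuation X := by
  have hst := h45_nodalW_st d c h
  have hXpos : 0 < A.valuation X := lt_of_le_of_lt zero_le hcX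
  by_contra hcon
  rw [not_or, not_lt, not_lt] at hcon
  have h1 : A.valuation X * A.valuation X ≤ A.valuation Y * A.valuation (Y + d * X) :=
    mul_le_mul' hcon.1 hcon.2
  rw [← map_mul (A.valuation) Y, hst, map_mul] at h1
  have h2 : A.valuation (X ^ 2 + c) < A.valuation X := by
    refine lt_of_le_of_lt (A.valuation.map_add _ _) (max_lt ?_ hcX)
    rw [map_pow, pow_two]
    exact mul_lt_of_lt_one_left hXpos hX1
  have h3 : A.valuation X * A.valuation (X ^ 2 + c) < A.valuation X * A.valuation X :=
    mul_lt_mul_of_pos_left h2 hXpos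
  exact absurd h1 (not_le.mpr h3)

/-- **(C1) core.** Residue characteristic `2`, `p` prime to it: for `σ` in the inertia group and a
`p`-torsion point `T` of the nodal curve, the point `σ T - T` is fixed by `σ`. -/
theorem h48_c1_core (p : ℕ) (hvp : A.valuation (p : K) = 1)
    (h2 : A.valuation (2 : K) < 1) (hd : A.valuation d = 1) (hc : A.valuation c < 1)
    (σ : K → K) (hσv : ∀ x, A.valuation (σ x) = A.valuation x)
    (hσm : ∀ x, A.valuation x ≤ 1 → A.valuation (σ x - x) < 1)
    (φ : (h45_nodalW d c).toAffine.Point →+ (h45_nodalW d c).toAffine.Point)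
    (hφ : ∀ (X Y : K) (h : (h45_nodalW d c).toAffine.Nonsingular X Y),
      ∃ h', φ (Affine.Point.some X Y h) = Affine.Point.some (σ X) (σ Y) h')
    (hkey : ∀ (g : A.ValueGroup) (P P' : (h45_nodalW d c).toAffine.Point),
      h45_InC d c A g P → h45_InC d c A g P' → ¬ h45_IsN d c A (P - P'))
    (hM : ∀ T : (h45_nodalW d c).toAffine.Point, h45_InM d c A T → p • T ≠ 0)
    (T : (h45_nodalW d c).toAffine.Point) (hT : p • T = 0) :
    φ (φ T - T) = φ T - T := by
  have hpQ : p • (φ T - T) = 0 := by
    rw [smul_sub, ← map_nsmul, hT, map_zero, sub_zero]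
  refine h48_nodal_fixed_of_not_isN A d c p hvp h2 hd hc σ hσm φ hφ _ ?_ hpQ
  by_cases hN : h45_IsN d c A T
  · obtain ⟨X, Y, h, rfl, hX1⟩ := hN
    have hcX : A.valuation c < A.valuation X := by
      by_contra hle
      exact hM _ ⟨X, Y, h, rfl, not_lt.mp hle⟩ hT
    obtain ⟨h', e⟩ := hφ X Y h
    rcases h48_branch A d c h.1 hX1 hcX with hs | ht
    · have hC : h45_InC d c A (A.valuation X) (Affine.Point.some X Y h) :=
        ⟨X, Y, h, rfl, rfl, hcX, hX1, hs⟩
      have hC' : h45_InC d c A (A.valuation X) (φ (Affine.Point.some X Y h)) := by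
        rw [e]
        exact ⟨σ X, σ Y, h', rfl, hσv X, hcX, hX1, by rw [hσv Y]; exact hs⟩
      exact hkey _ _ _ hC' hC
    · -- the other branch: work with `-T`
      have hneg : -(Affine.Point.some X Y h : (h45_nodalW d c).toAffine.Point) =
          Affine.Point.some X ((h45_nodalW d c).toAffine.negY X Y)
            ((Affine.nonsingular_neg _ _).mpr h) := Affine.Point.neg_some h
      have hnegY : (h45_nodalW d c).toAffine.negY X Y = -(Y + d * X) := by
        rw [h45_nodalW_negY]; ring
      have hC : h45_InC d c A (A.valuation X) (-(Affine.Point.some X Y h)) := by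
        rw [hneg]
        exact ⟨X, _, _, rfl, rfl, hcX, hX1, by rw [hnegY, Valuation.map_neg]; exact ht⟩
      obtain ⟨h'', e'⟩ := hφ X _ ((Affine.nonsingular_neg _ _).mpr h)
      have hC' : h45_InC d c A (A.valuation X) (φ (-(Affine.Point.some X Y h))) := by
        rw [hneg, e']
        exact ⟨σ X, _, h'', rfl, hσv X, hcX, hX1, by
          rw [hσv, hnegY, Valuation.map_neg]; exact ht⟩
      have h5 := hkey _ _ _ hC hC'
      have h6 : -(Affine.Point.some X Y h : (h45_nodalW d c).toAffine.Point) -
          φ (-(Affine.Point.some X Y h)) =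
          φ (Affine.Point.some X Y h) - Affine.Point.some X Y h := by
        rw [map_neg]; abel
      rw [h6] at h5
      exact h5
  · have h1 := h48_nodal_fixed_of_not_isN A d c p hvp h2 hd hc σ hσm φ hφ T hN hT
    rw [h1, sub_self]
    rintro ⟨X, Y, h, h0, -⟩
    exact Affine.Point.some_ne_zero h h0.symm

omit [DecidableEq K] in
lemma h48_pow_lt_pow_iff {x : A.ValueGroup} (hx0 : 0 < x) (hx1 : x < 1) {m n : ℕ} :
    x ^ m < x ^ n ↔ n < m := by
  have hanti : StrictAnti (fun k : ℕ => x ^ k) := pow_right_strictAnti₀ hx0 hx1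
  exact StrictAnti.lt_iff_gt hanti

omit [DecidableEq K] in
lemma h48_pow_eq_pow_iff {x : A.ValueGroup} (hx0 : 0 < x) (hx1 : x < 1) {m n : ℕ} :
    x ^ m = x ^ n ↔ m = n := by
  have hanti : StrictAnti (fun k : ℕ => x ^ k) := pow_right_strictAnti₀ hx0 hx1
  exact hanti.injective.eq_iff

/-- **(C2) node core.** A `p`-torsion point of the nodal curve whose `X`-coordinate has valuation
`v(2) ^ m` is not in the node region, when `v(c) = v(2) ^ e` with `p ∤ 2 e`. -/
theorem h48_c2_node (p : ℕ) (hp : p.Prime) (hp2 : p ≠ 2)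
    (h2 : A.valuation (2 : K) < 1) (h20 : (2 : K) ≠ 0)
    (e : ℕ) (hce : A.valuation c = A.valuation (2 : K) ^ e) (hpe : ¬ p ∣ e)
    (htors : ∀ (g : A.ValueGroup) (T : (h45_nodalW d c).toAffine.Point),
      h45_InC d c A g T → p • T = 0 → ∃ k : ℕ, g ^ p = A.valuation c ^ (2 * k))
    (hM : ∀ T : (h45_nodalW d c).toAffine.Point, h45_InM d c A T → p • T ≠ 0)
    {X Y : K} (h : (h45_nodalW d c).toAffine.Nonsingular X Y)
    (hT : p • Affine.Point.some X Y h = 0) (m : ℕ)
    (hX : A.valuation X = A.valuation (2 : K) ^ m) : ¬ A.valuation X < 1 := by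
  intro hX1
  have hv2pos : 0 < A.valuation (2 : K) := (Valuation.pos_iff _).mpr h20
  have hcX : A.valuation c < A.valuation X := by
    by_contra hle
    exact hM _ ⟨X, Y, h, rfl, not_lt.mp hle⟩ hT
  have hk : ∃ k : ℕ, A.valuation X ^ p = A.valuation c ^ (2 * k) := by
    rcases h48_branch A d c h.1 hX1 hcX with hs | ht
    · exact htors _ _ ⟨X, Y, h, rfl, rfl, hcX, hX1, hs⟩ hT
    · have hneg : -(Affine.Point.some X Y h : (h45_nodalW d c).toAffine.Point) =
          Affine.Point.some X ((h45_nodalW d c).toAffine.negY X Y)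
            ((Affine.nonsingular_neg _ _).mpr h) := Affine.Point.neg_some h
      have hnegY : (h45_nodalW d c).toAffine.negY X Y = -(Y + d * X) := by
        rw [h45_nodalW_negY]; ring
      refine htors _ (-(Affine.Point.some X Y h)) ?_ (by rw [smul_neg, hT, neg_zero])
      rw [hneg]
      exact ⟨X, _, _, rfl, rfl, hcX, hX1, by rw [hnegY, Valuation.map_neg]; exact ht⟩
  obtain ⟨k, hk⟩ := hk
  rw [hX, hce, ← pow_mul, ← pow_mul, h48_pow_eq_pow_iff A hv2pos h2] at hk
  rw [hX, hce, h48_pow_lt_pow_iff A hv2pos h2] at hcX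
  have hm0 : m ≠ 0 := by
    rintro rfl
    rw [hX, pow_zero] at hX1
    exact lt_irrefl _ hX1
  -- `m * p = e * (2 * k)`, `m < e`, `0 < m`
  have hdvd : p ∣ e * (2 * k) := ⟨m, by rw [← hk, mul_comm]⟩
  have hpk : p ∣ k := by
    rcases (Nat.Prime.dvd_mul hp).mp hdvd with h1 | h1
    · exact absurd h1 hpe
    · rcases (Nat.Prime.dvd_mul hp).mp h1 with h3 | h3
      · exact absurd ((Nat.prime_dvd_prime_iff_eq hp Nat.prime_two).mp h3) hp2
      · exact h3
  obtain ⟨k', rfl⟩ := hpk
  have hm : m = e * (2 * k') := by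
    have h5 : m * p = (e * (2 * k')) * p := by rw [hk]; ring
    exact Nat.eq_of_mul_eq_mul_right hp.pos h5
  have hk'0 : k' ≠ 0 := by
    rintro rfl
    exact hm0 (by rw [hm]; ring)
  have : e ≤ m := by
    rw [hm]
    calc e = e * 1 := (mul_one e).symm
      _ ≤ e * (2 * k') := Nat.mul_le_mul_left e (by omega)
  omega

end Fermat.Agent.S13
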