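import Mathlib
import Fermat.Prelude.Def_FLTPrelim_FreyPackage
import Fermat.Prelude.Def_FLTPrelim_GaloisRep
import Fermat.Prelude.Def_FLTPrelim_Ramification
import Fermat.Agent.S05.InertiaVal
import Fermat.Agent.S51.VarChange
import Fermat.Agent.S13.h48_At2Core

/-
helper48, project S13, block [C-FREY2]: the Frey curve at the prime `2`.
* arithmetic of the Frey package at `2` (`a₂` is an integer, `v(a₄) = v(2) ^ (p k - 4)`,
  `b ^ p - a ^ p` is odd);
* the split nodal model `Y² + d X Y = X³ + c X` of the Frey curve over `Qbar`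
  (`d ^ 2 = b ^ p - a ^ p`, `c = a₄`, change of variables `Y ↦ Y - ((d - 1) / 2) X`);
* automorphisms in a decomposition group preserve the valuation; inertia fixes `d`;
* generic transport of the (C1) core along the change of variables.
-/

set_option autoImplicit false

namespace Fermat.Agent.S13

open WeierstrassCurve

local notation "Qbar" => AlgebraicClosure ℚ

theorem h48_two_dvd_b (P : FreyPackage) : (2 : ℤ) ∣ P.b :=
  (ZMod.intCast_zmod_eq_zero_iff_dvd P.b 2).1 P.hb2

theorem h48_four_dvd_a_add_one (P : FreyPackage) : (4 : ℤ) ∣ P.a + 1 := by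
  have h := P.ha4
  have h1 : ((P.a + 1 : ℤ) : ZMod 4) = 0 := by
    push_cast
    rw [h]
    decide
  exact (ZMod.intCast_zmod_eq_zero_iff_dvd (P.a + 1) 4).1 h1

theorem h48_not_two_dvd_a (P : FreyPackage) : ¬ (2 : ℤ) ∣ P.a := by
  intro h
  have h1 := h48_four_dvd_a_add_one P
  omega

theorem h48_frey_a2_int (P : FreyPackage) : ∃ n : ℤ, P.b ^ P.p - 1 - P.a ^ P.p = 4 * n := by
  have hb : (4 : ℤ) ∣ P.b ^ P.p := by
    have h1 : (2 : ℤ) ^ P.p ∣ P.b ^ P.p := pow_dvd_pow_of_dvd (h48_two_dvd_b P) _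
    have h2 : (4 : ℤ) ∣ 2 ^ P.p := by
      have : (2 : ℤ) ^ 2 ∣ 2 ^ P.p := pow_dvd_pow 2 (by have := P.hp5; omega)
      simpa using this
    exact h2.trans h1
  have ha : (4 : ℤ) ∣ P.a ^ P.p + 1 := by
    have h1 : P.a + 1 ∣ P.a ^ P.p + 1 ^ P.p := Odd.add_dvd_pow_add_pow P.a 1 P.hp_odd
    rw [one_pow] at h1
    exact (h48_four_dvd_a_add_one P).trans h1
  obtain ⟨n, hn⟩ := dvd_sub hb ha
  exact ⟨n, by rw [← hn]; ring⟩

theorem h48_not_two_dvd_sub (P : FreyPackage) : ¬ (2 : ℤ) ∣ P.b ^ P.p - P.a ^ P.p := by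
  intro h
  have hb : (2 : ℤ) ∣ P.b ^ P.p := dvd_pow (h48_two_dvd_b P) P.hp0
  have ha : (2 : ℤ) ∣ P.a ^ P.p := by
    have := dvd_sub hb h
    simpa using this
  exact h48_not_two_dvd_a P (Int.prime_two.dvd_of_dvd_pow ha)

/-- `b = 2 ^ k * b'` with `b'` odd and `k ≥ 1`. -/
theorem h48_b_decomp (P : FreyPackage) :
    ∃ (k : ℕ) (b' : ℤ), 0 < k ∧ ¬ (2 : ℤ) ∣ b' ∧ P.b = 2 ^ k * b' := by
  have hfin : FiniteMultiplicity (2 : ℤ) P.b :=
    Int.finiteMultiplicity_iff.mpr ⟨by decide, P.hb0⟩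
  obtain ⟨b', hb', hnd⟩ := hfin.exists_eq_pow_mul_and_not_dvd
  refine ⟨multiplicity (2 : ℤ) P.b, b', ?_, hnd, hb'⟩
  by_contra h0
  have h1 : multiplicity (2 : ℤ) P.b = 0 := by omega
  rw [h1, pow_zero, one_mul] at hb'
  exact hnd (hb' ▸ h48_two_dvd_b P)

section val

variable (A : ValuationSubring Qbar) (hA : A.LiesOverPrime 2)

include hA in
theorem h48_val_two_lt : A.valuation (2 : Qbar) < 1 := by
  have h : ((2 : ℕ) : Qbar) ∈ A.nonunits := hA
  rw [A.mem_nonunits_iff] at h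
  exact_mod_cast h

theorem h48_val_two_pos : 0 < A.valuation (2 : Qbar) :=
  (Valuation.pos_iff _).mpr two_ne_zero

include hA in
theorem h48_val_odd (n : ℤ) (hn : ¬ (2 : ℤ) ∣ n) : A.valuation (n : Qbar) = 1 :=
  S05.valuation_intCast_eq_one A 2 Nat.prime_two hA n (by exact_mod_cast hn)

include hA in
/-- The valuation of `a₄` of the Frey curve at a place over `2`. -/
theorem h48_val_c (P : FreyPackage) :
    ∃ e : ℕ, 0 < e ∧ ¬ P.p ∣ e ∧
      A.valuation (algebraMap ℚ Qbar P.freyCurve.a₄) = A.valuation (2 : Qbar) ^ e := by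
  obtain ⟨k, b', hk, hb', hb⟩ := h48_b_decomp P
  have hp5 := P.hp5
  have hpk : 5 ≤ P.p * k := le_trans hp5 (Nat.le_mul_of_pos_right _ hk)
  refine ⟨P.p * k - 4, by omega, ?_, ?_⟩
  · intro hdvd
    have h1 : P.p ∣ 4 := by
      have h2 : P.p ∣ P.p * k := dvd_mul_right _ _
      have h3 := Nat.dvd_sub h2 hdvd
      have h4 : P.p * k - (P.p * k - 4) = 4 := by omega
      rwa [h4] at h3
    have := Nat.le_of_dvd (by norm_num) h1
    omega
  · have hv2pos := h48_val_two_pos A
    have hc : algebraMap ℚ Qbar P.freyCurve.a₄ * (2 : Qbar) ^ 4 =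
        -((P.a : Qbar) ^ P.p * (b' : Qbar) ^ P.p * (2 : Qbar) ^ (P.p * k)) := by
      have h1 : P.freyCurve.a₄ * 16 = -((P.a : ℚ) ^ P.p * (P.b : ℚ) ^ P.p) := by
        simp only [FreyPackage.freyCurve]
        ring
      have h2 := congrArg (algebraMap ℚ Qbar) h1
      rw [hb] at h2
      push_cast at h2
      simp only [map_intCast, map_ofNat] at h2
      rw [mul_pow, ← pow_mul, mul_comm k P.p] at h2
      rw [show (2 : Qbar) ^ 4 = 16 by norm_num, h2]
      ring
    have h3 := congrArg A.valuation hc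
    rw [map_mul, Valuation.map_neg, map_mul, map_mul, map_pow, map_pow, map_pow, map_pow,
      h48_val_odd A hA _ (h48_not_two_dvd_a P), h48_val_odd A hA _ hb', one_pow, one_mul,
      one_mul] at h3
    have h4 : A.valuation (2 : Qbar) ^ (P.p * k) =
        A.valuation (2 : Qbar) ^ (P.p * k - 4) * A.valuation (2 : Qbar) ^ 4 := by
      rw [← pow_add]
      congr 1
      omega
    rw [h4] at h3
    exact mul_right_cancel₀ (pow_ne_zero 4 hv2pos.ne') h3

include hA in
/-- A square root of `b ^ p - a ^ p` is a unit at every place over `2`. -/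
theorem h48_val_d (P : FreyPackage) (d : Qbar)
    (hd : d ^ 2 = ((P.b ^ P.p - P.a ^ P.p : ℤ) : Qbar)) : A.valuation d = 1 := by
  have h1 : A.valuation d ^ 2 = 1 ^ 2 := by
    rw [← map_pow, hd, h48_val_odd A hA _ (h48_not_two_dvd_sub P), one_pow]
  exact (pow_left_inj₀ zero_le zero_le two_ne_zero).mp h1

end val

theorem h48_frey_c_ne_zero (P : FreyPackage) : algebraMap ℚ Qbar P.freyCurve.a₄ ≠ 0 := by
  rw [Ne, map_eq_zero_iff _ (algebraMap ℚ Qbar).injective]
  simp only [FreyPackage.freyCurve]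
  have ha : (P.a : ℚ) ≠ 0 := by exact_mod_cast P.ha0
  have hb : (P.b : ℚ) ≠ 0 := by exact_mod_cast P.hb0
  have : (-(P.a : ℚ) ^ P.p) * (P.b : ℚ) ^ P.p / 16 ≠ 0 := by
    have h1 : (P.a : ℚ) ^ P.p ≠ 0 := pow_ne_zero _ ha
    have h2 : (P.b : ℚ) ^ P.p ≠ 0 := pow_ne_zero _ hb
    exact div_ne_zero (mul_ne_zero (neg_ne_zero.mpr h1) h2) (by norm_num)
  exact_mod_cast this

/-- The split nodal model of the Frey curve over `Qbar`. -/
theorem h48_frey_model (P : FreyPackage) (d : Qbar)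
    (hd : d ^ 2 = ((P.b ^ P.p - P.a ^ P.p : ℤ) : Qbar)) :
    (⟨1, 0, -((d - 1) / 2), 0⟩ : VariableChange Qbar) •
      h45_nodalW d (algebraMap ℚ Qbar P.freyCurve.a₄) =
      P.freyCurve.map (algebraMap ℚ Qbar) := by
  push_cast at hd
  ext
  · simp [h45_nodalW, FreyPackage.freyCurve, variableChange_a₁]
    ring
  · simp [h45_nodalW, FreyPackage.freyCurve, variableChange_a₂]
    linear_combination (1 / 4 : Qbar) * hd
  · simp [h45_nodalW, FreyPackage.freyCurve, variableChange_a₃]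
  · simp [h45_nodalW, FreyPackage.freyCurve, variableChange_a₄]
  · simp [h45_nodalW, FreyPackage.freyCurve, variableChange_a₆]

/-- Conjugating a coordinatewise additive map of points along a variable change with `σ`-fixed
coefficients gives a coordinatewise additive map. -/
theorem h48_conj_hom {K : Type*} [Field K] [DecidableEq K] (W₀ : WeierstrassCurve K)
    (C : VariableChange K) (σ : K ≃+* K) (hu : σ (C.u : K) = C.u) (hr : σ C.r = C.r)
    (hs : σ C.s = C.s) (ht : σ C.t = C.t)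
    (φ : (C • W₀).toAffine.Point →+ (C • W₀).toAffine.Point)
    (hφ : ∀ (x y : K) (h : (C • W₀).toAffine.Nonsingular x y),
      ∃ h', φ (Affine.Point.some x y h) = Affine.Point.some (σ x) (σ y) h') :
    ∃ φ₀ : W₀.toAffine.Point →+ W₀.toAffine.Point,
      (∀ (X Y : K) (h : W₀.toAffine.Nonsingular X Y),
        ∃ h', φ₀ (Affine.Point.some X Y h) = Affine.Point.some (σ X) (σ Y) h') ∧
      ∀ T, S51.vc_addEquiv W₀ C (φ T) = φ₀ (S51.vc_addEquiv W₀ C T) := by
  refine ⟨((S51.vc_addEquiv W₀ C).toAddMonoidHom.comp φ).comp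
    (S51.vc_addEquiv W₀ C).symm.toAddMonoidHom, ?_, ?_⟩
  · intro X Y h
    obtain ⟨Q, hQ⟩ : ∃ Q, S51.vc_addEquiv W₀ C Q = Affine.Point.some X Y h :=
      ⟨(S51.vc_addEquiv W₀ C).symm _, (S51.vc_addEquiv W₀ C).apply_symm_apply _⟩
    have hQ' : (S51.vc_addEquiv W₀ C).symm (Affine.Point.some X Y h) = Q := by
      rw [← hQ, AddEquiv.symm_apply_apply]
    rcases Q with _ | ⟨x, y, hq⟩
    · exfalso
      have h0 : S51.vc_addEquiv W₀ C (Affine.Point.zero) = 0 := map_zero _
      rw [h0] at hQ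
      exact Affine.Point.some_ne_zero h hQ.symm
    · rw [S51.vc_addEquiv_apply, S51.vc_fun_some, Affine.Point.some.injEq] at hQ
      obtain ⟨hX, hY⟩ := hQ
      obtain ⟨h', e⟩ := hφ x y hq
      have hX' : S51.vc_X C (σ x) = σ X := by
        rw [← hX]
        simp only [S51.vc_X, map_add, map_mul, map_pow, hu, hr]
      have hY' : S51.vc_Y C (σ x) (σ y) = σ Y := by
        rw [← hY]
        simp only [S51.vc_Y, map_add, map_mul, map_pow, hu, hs, ht]
      have hns : W₀.toAffine.Nonsingular (σ X) (σ Y) := by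
        rw [← hX', ← hY']
        exact (S51.vc_nonsingular_iff W₀ C (σ x) (σ y)).mp h'
      refine ⟨hns, ?_⟩
      change S51.vc_addEquiv W₀ C (φ ((S51.vc_addEquiv W₀ C).symm (Affine.Point.some X Y h))) = _
      rw [hQ', e, S51.vc_addEquiv_apply, S51.vc_fun_some, Affine.Point.some.injEq]
      exact ⟨hX', hY'⟩
  · intro T
    change _ = S51.vc_addEquiv W₀ C (φ ((S51.vc_addEquiv W₀ C).symm (S51.vc_addEquiv W₀ C T)))
    rw [AddEquiv.symm_apply_apply]

/-- **(C1), generic form**: transport of the core along a variable change to the nodal form. -/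
theorem h48_c1_generic {K : Type*} [Field K] [DecidableEq K] (A : ValuationSubring K)
    (W : WeierstrassCurve K) (d c : K) (C : VariableChange K) (hW : C • h45_nodalW d c = W)
    (p : ℕ) (hvp : A.valuation (p : K) = 1)
    (h2 : A.valuation (2 : K) < 1) (hd : A.valuation d = 1) (hc : A.valuation c < 1)
    (σ : K ≃+* K) (hσv : ∀ x, A.valuation (σ x) = A.valuation x)
    (hσm : ∀ x, A.valuation x ≤ 1 → A.valuation (σ x - x) < 1)
    (hu : σ (C.u : K) = C.u) (hr : σ C.r = C.r) (hs : σ C.s = C.s) (ht : σ C.t = C.t)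
    (φ : W.toAffine.Point →+ W.toAffine.Point)
    (hφ : ∀ (x y : K) (h : W.toAffine.Nonsingular x y),
      ∃ h', φ (Affine.Point.some x y h) = Affine.Point.some (σ x) (σ y) h')
    (hkey : ∀ (g : A.ValueGroup) (P P' : (h45_nodalW d c).toAffine.Point),
      h45_InC d c A g P → h45_InC d c A g P' → ¬ h45_IsN d c A (P - P'))
    (hM : ∀ T : (h45_nodalW d c).toAffine.Point, h45_InM d c A T → p • T ≠ 0)
    (T : W.toAffine.Point) (hT : p • T = 0) : φ (φ T - T) = φ T - T := by
  subst hW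
  obtain ⟨φ₀, hφ₀, hcomm⟩ := h48_conj_hom (h45_nodalW d c) C σ hu hr hs ht φ hφ
  have h1 := h48_c1_core A d c p hvp h2 hd hc σ hσv hσm φ₀ hφ₀ hkey hM
    (S51.vc_addEquiv _ C T) (by rw [← map_nsmul, hT, map_zero])
  rw [← hcomm, ← map_sub, ← hcomm] at h1
  exact (S51.vc_addEquiv _ C).injective h1

/-- Every element of `Qbar` has a finite orbit under a Galois automorphism. -/
theorem h48_exists_pow_fixed (σ : Qbar ≃ₐ[ℚ] Qbar) (x : Qbar) :
    ∃ n : ℕ, 0 < n ∧ (σ ^ n) x = x := by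
  have halg : Algebra.IsAlgebraic ℚ Qbar := AlgebraicClosure.isAlgebraic ℚ
  have hint : IsIntegral ℚ x := (halg.isAlgebraic x).isIntegral
  have hfin : ((minpoly ℚ x).rootSet Qbar).Finite := Polynomial.rootSet_finite _ _
  have hmem : ∀ k : ℕ, (σ ^ k) x ∈ (minpoly ℚ x).rootSet Qbar := by
    intro k
    rw [Polynomial.mem_rootSet]
    refine ⟨minpoly.ne_zero hint, ?_⟩
    have := Polynomial.aeval_algHom_apply ((σ ^ k : Qbar ≃ₐ[ℚ] Qbar) : Qbar →ₐ[ℚ] Qbar) x
      (minpoly ℚ x)
    rw [minpoly.aeval, map_zero] at this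
    exact this
  have : Finite ((minpoly ℚ x).rootSet Qbar) := hfin
  obtain ⟨i, j, hij, hf⟩ := Finite.exists_ne_map_eq_of_infinite
    (fun k : ℕ => (⟨(σ ^ k) x, hmem k⟩ : (minpoly ℚ x).rootSet Qbar))
  have hf' : (σ ^ i) x = (σ ^ j) x := congrArg Subtype.val hf
  have key : ∀ i j : ℕ, i < j → (σ ^ i) x = (σ ^ j) x → ∃ n : ℕ, 0 < n ∧ (σ ^ n) x = x := by
    intro i j hlt h
    refine ⟨j - i, by omega, ?_⟩
    have h1 : σ ^ j = σ ^ i * σ ^ (j - i) := by
      rw [← pow_add]
      congr 1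
      omega
    rw [h1, AlgEquiv.mul_apply] at h
    exact ((σ ^ i).injective h).symm
  rcases lt_or_gt_of_ne hij with h | h
  · exact key i j h hf'
  · exact key j i h hf'.symm

/-- An automorphism stabilising the valuation ring (for instance an element of the decomposition
group) preserves the valuation. -/
theorem h48_val_sigma (A : ValuationSubring Qbar) (σ : Qbar ≃ₐ[ℚ] Qbar)
    (hσA : ∀ x, A.valuation (σ x) ≤ 1 ↔ A.valuation x ≤ 1) (x : Qbar) :
    A.valuation (σ x) = A.valuation x := by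
  have hlt : ∀ y, A.valuation (σ y) < 1 ↔ A.valuation y < 1 := by
    intro y
    by_cases hy : y = 0
    · rw [hy, map_zero]
    · have hσy : σ y ≠ 0 := (map_ne_zero σ).mpr hy
      have h1 : ∀ z : Qbar, z ≠ 0 → (A.valuation z < 1 ↔ ¬ A.valuation z⁻¹ ≤ 1) := by
        intro z hz
        have hvz : 0 < A.valuation z := (Valuation.pos_iff _).mpr hz
        rw [map_inv₀, not_le, one_lt_inv₀ hvz]
      rw [h1 y hy, h1 (σ y) hσy, ← map_inv₀, hσA]
  -- no strict decrease along a finite orbit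
  have aux : ∀ y : Qbar, y ≠ 0 → ¬ A.valuation (σ y / y) < 1 := by
    intro y hy hu
    obtain ⟨n, hn, hfix⟩ := h48_exists_pow_fixed σ y
    have hind : ∀ k : ℕ, 0 < k → A.valuation ((σ ^ k) y / y) < 1 := by
      intro k hk
      induction k with
      | zero => exact absurd hk (lt_irrefl _)
      | succ k ih =>
        rcases Nat.eq_zero_or_pos k with h0 | hpos
        · subst h0
          simpa using hu
        · have h1 : (σ ^ (k + 1)) y / y = σ ((σ ^ k) y / y) * (σ y / y) := by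
            rw [pow_succ', AlgEquiv.mul_apply, map_div₀]
            have hσy : σ y ≠ 0 := (map_ne_zero σ).mpr hy
            field_simp
          rw [h1, map_mul]
          exact mul_lt_one_of_lt_of_le ((hlt _).mpr (ih hpos)) hu.le
    have h2 := hind n hn
    rw [hfix, div_self hy, map_one] at h2
    exact lt_irrefl _ h2
  by_cases hx : x = 0
  · rw [hx, map_zero]
  have hσx : σ x ≠ 0 := (map_ne_zero σ).mpr hx
  have hvx : 0 < A.valuation x := (Valuation.pos_iff _).mpr hx
  have hvσx : 0 < A.valuation (σ x) := (Valuation.pos_iff _).mpr hσx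
  rcases lt_trichotomy (A.valuation (σ x)) (A.valuation x) with h | h | h
  · exfalso
    apply aux x hx
    rw [map_div₀]
    exact (div_lt_one₀ hvx).mpr h
  · exact h
  · exfalso
    apply aux x⁻¹ (inv_ne_zero hx)
    rw [map_inv₀, map_div₀, map_inv₀, map_inv₀]
    rw [div_lt_one₀ (inv_pos.mpr hvx)]
    exact (inv_lt_inv₀ hvσx hvx).mpr h

end Fermat.Agent.S13
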