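import Fermat.Agent.S05.Defs

/-!
# `X`-only addition formulas on `Y² = X³ + a X² + b X` (helper5)

For two affine points `P₁ = (X₁, Y₁)`, `P₂ = (X₂, Y₂)` with `X₁ ≠ X₂` the `X`-coordinates
`X₃ = X(P₁ + P₂)`, `X₄ = X(P₁ - P₂)` satisfy

* `X₃ * X₄ * (X₁ - X₂)² = (X₁ X₂ - b)²`,
* `(X₃ + X₄) * (X₁ - X₂)² = 2 ((X₁ + X₂)(X₁ X₂ + b) + 2 a X₁ X₂)`,

and the duplication formula is `X(2P) * 4 Y² = (X² - b)²`.
-/

set_option autoImplicit false

namespace Fermat.Agent.S13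

open WeierstrassCurve Fermat.Agent.S05

variable {K : Type*} [Field K] [DecidableEq K] (a b : K)

/-- Sum and difference of two points with distinct `X`-coordinates: the two `X`-coordinates
`X₃ = X(P+Q)`, `X₄ = X(P-Q)` have explicit elementary symmetric functions. -/
theorem h5_add_sub_of_X_ne {X₁ Y₁ X₂ Y₂ : K}
    (h₁ : (shortW a b).toAffine.Nonsingular X₁ Y₁) (h₂ : (shortW a b).toAffine.Nonsingular X₂ Y₂)
    (hX : X₁ ≠ X₂) :
    ∃ (X₃ Y₃ X₄ Y₄ : K) (h₃ : (shortW a b).toAffine.Nonsingular X₃ Y₃)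
      (h₄ : (shortW a b).toAffine.Nonsingular X₄ Y₄),
      Affine.Point.some X₁ Y₁ h₁ + Affine.Point.some X₂ Y₂ h₂ = Affine.Point.some X₃ Y₃ h₃ ∧
      Affine.Point.some X₁ Y₁ h₁ - Affine.Point.some X₂ Y₂ h₂ = Affine.Point.some X₄ Y₄ h₄ ∧
      X₃ * X₄ * (X₁ - X₂) ^ 2 = (X₁ * X₂ - b) ^ 2 ∧
      (X₃ + X₄) * (X₁ - X₂) ^ 2 = 2 * ((X₁ + X₂) * (X₁ * X₂ + b) + 2 * a * X₁ * X₂) := by
  have e₁ : Y₁ ^ 2 = X₁ ^ 3 + a * X₁ ^ 2 + b * X₁ := (shortW_equation_iff a b X₁ Y₁).1 h₁.1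
  have e₂ : Y₂ ^ 2 = X₂ ^ 3 + a * X₂ ^ 2 + b * X₂ := (shortW_equation_iff a b X₂ Y₂).1 h₂.1
  have hD : X₁ - X₂ ≠ 0 := sub_ne_zero.2 hX
  have h₂' : (shortW a b).toAffine.Nonsingular X₂ (-Y₂) := by
    have := (Affine.nonsingular_neg (W' := (shortW a b).toAffine) X₂ Y₂).2 h₂
    rwa [shortW_negY] at this
  have hneg : -Affine.Point.some X₂ Y₂ h₂ = Affine.Point.some X₂ (-Y₂) h₂' := by
    rw [Affine.Point.neg_some]
    congr 1
    exact shortW_negY a b X₂ Y₂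
  refine ⟨_, _, _, _, Affine.nonsingular_add h₁ h₂ (fun hxy => hX hxy.1),
    Affine.nonsingular_add h₁ h₂' (fun hxy => hX hxy.1),
    Affine.Point.add_of_X_ne hX, ?_, ?_, ?_⟩
  · rw [sub_eq_add_neg, hneg]
    exact Affine.Point.add_of_X_ne hX
  · rw [Affine.slope_of_X_ne hX, Affine.slope_of_X_ne hX]
    simp only [Affine.addX, shortW_a₁, shortW_a₂]
    field_simp
    linear_combination (Y₁^2 + (X₁ ^ 3 + a * X₁ ^ 2 + b * X₁) - 2 * Y₂^2
      - 2 * (a + X₁ + X₂) * (X₁ - X₂)^2) * e₁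
      + (Y₂^2 + (X₂ ^ 3 + a * X₂ ^ 2 + b * X₂) - 2 * (X₁ ^ 3 + a * X₁ ^ 2 + b * X₁)
      - 2 * (a + X₁ + X₂) * (X₁ - X₂)^2) * e₂
  · rw [Affine.slope_of_X_ne hX, Affine.slope_of_X_ne hX]
    simp only [Affine.addX, shortW_a₁, shortW_a₂]
    field_simp
    linear_combination 2 * e₁ + 2 * e₂

/-- Duplication formula in the `X`-coordinate. -/
theorem h5_add_self_of_Y_ne {X Y : K} (h : (shortW a b).toAffine.Nonsingular X Y) (hY : Y ≠ 0)
    (h2 : (2 : K) ≠ 0) :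
    ∃ (X₅ Y₅ : K) (h₅ : (shortW a b).toAffine.Nonsingular X₅ Y₅),
      Affine.Point.some X Y h + Affine.Point.some X Y h = Affine.Point.some X₅ Y₅ h₅ ∧
      X₅ * (4 * Y ^ 2) = (X ^ 2 - b) ^ 2 := by
  have e : Y ^ 2 = X ^ 3 + a * X ^ 2 + b * X := (shortW_equation_iff a b X Y).1 h.1
  have hne : Y ≠ (shortW a b).toAffine.negY X Y := by
    rw [shortW_negY]
    intro h0
    have : 2 * Y = 0 := by linear_combination h0
    rcases mul_eq_zero.1 this with h' | h'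
    · exact h2 h'
    · exact hY h'
  refine ⟨_, _, Affine.nonsingular_add h h (fun hxy => hne hxy.2),
    Affine.Point.add_self_of_Y_ne hne, ?_⟩
  rw [Affine.slope_of_Y_ne rfl hne, shortW_negY]
  simp only [Affine.addX, shortW_a₁, shortW_a₂, shortW_a₄]
  have h2Y : Y - -Y = 2 * Y := by ring
  rw [h2Y]
  field_simp
  linear_combination (-(16 : K) * a - 32 * X) * e

theorem h5_add_self_of_Y_eq {X Y : K} (h : (shortW a b).toAffine.Nonsingular X Y) (hY : Y = 0) :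
    Affine.Point.some X Y h + Affine.Point.some X Y h = 0 := by
  apply Affine.Point.add_self_of_Y_eq
  rw [shortW_negY, hY, neg_zero]

end Fermat.Agent.S13
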