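import Fermat.Agent.S13.h99_NodeLevel
import Fermat.Agent.S13.h45_RedSigma

/-
helper99, project S13, block [C2], curve level (no Frey curve, no Galois group):
 (C2-node) on the split nodal form, an odd-order torsion point whose `X`-coordinate has
           valuation in `v(π)^ℤ` (e.g. a rational `X`) does not reduce to the node, when
           `v(c) = v(π)^e` with `e` prime to the order;
 (C2-E0)   on an integral Weierstrass model with `a₁ = 1`, `a₃ = 0` and residue characteristic
           two, a torsion point of order prime to `6` such that `T` and `2 T` have coordinates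
           in a set `S` of elements with residues in `{0, 1}` and do not reduce to a point with
           `x ≡ 0`, is zero.
-/

set_option autoImplicit false

namespace Fermat.Agent.S13

open WeierstrassCurve
open Fermat.Agent.S05 (h86_Integral h86_E1 h86_mem_E1_iff h86_some_mem_E1_iff
  h86_E1_nsmul_eq_zero h18_sub_mem_E1 h18_y_mem h18_nu_mul_mem)

/-! ### (C2-node) -/

section node

variable {K : Type*} [Field K] [DecidableEq K] (A : ValuationSubring K) (d c : K)

theorem h99_not_isN_of_rational (hd : A.valuation d = 1) (hc : A.valuation c < 1) (hc0 : c ≠ 0)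
    (π : K) (hπ0 : π ≠ 0) (hπ : A.valuation π < 1) (e : ℕ)
    (hce : A.valuation c = A.valuation π ^ e)
    (n : ℕ) (hn : Odd n) (hne : n.Coprime e)
    (T : (h45_nodalW d c).toAffine.Point) (hT : n • T = 0)
    (hx : ∀ (X Y : K) (h : (h45_nodalW d c).toAffine.Nonsingular X Y),
      T = Affine.Point.some X Y h → X ≠ 0 → ∃ m : ℤ, A.valuation X = A.valuation π ^ m) :
    ¬ h45_IsN d c A T := by
  rcases h99_torsion_cases A d c hd hc hc0 hn hT with h | ⟨g, hg, j, hj⟩
  · exact h
  · exfalso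
    have hgX : ∃ (X Y : K) (h : (h45_nodalW d c).toAffine.Nonsingular X Y),
        T = Affine.Point.some X Y h ∧ A.valuation X = g ∧ A.valuation c < g ∧ g < 1 := by
      rcases hg with ⟨X, Y, h, rfl, hX, hcg, hg1, -⟩ | ⟨X, Y, h, he, hX, hcg, hg1, -⟩
      · exact ⟨X, Y, h, rfl, hX, hcg, hg1⟩
      · have hT' : T = -Affine.Point.some X Y h := by rw [← he, neg_neg]
        rw [Affine.Point.neg_some] at hT'
        exact ⟨X, _, _, hT', hX, hcg, hg1⟩
    obtain ⟨X, Y, h, hTe, hX, hcg, hg1⟩ := hgX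
    have hg0 : 0 < g := lt_of_le_of_lt zero_le hcg
    have hX0 : X ≠ 0 := by
      rw [← A.valuation.ne_zero_iff, hX]; exact ne_of_gt hg0
    obtain ⟨m, hm⟩ := hx X Y h hTe hX0
    have ha0 : 0 < A.valuation π := A.valuation.pos_iff.mpr hπ0
    rw [hX] at hm
    -- `0 < m < e`
    have hm_pos : 0 < m := by
      by_contra hle
      rw [not_lt] at hle
      have h1 : A.valuation π ^ (0 : ℤ) ≤ A.valuation π ^ m :=
        (zpow_le_zpow_iff_right_of_lt_one₀ ha0 hπ).mpr hle
      rw [zpow_zero, ← hm] at h1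
      exact absurd hg1 (not_lt.mpr h1)
    have hm_lt : m < (e : ℤ) := by
      rw [hce, hm, ← zpow_natCast] at hcg
      exact (zpow_lt_zpow_iff_right_of_lt_one₀ ha0 hπ).mp hcg
    -- `m * n = 2 * e * j`
    have heq : m * (n : ℤ) = 2 * (e : ℤ) * (j : ℤ) := by
      rw [hm, hce] at hj
      have h1 : A.valuation π ^ (m * (n : ℤ)) = A.valuation π ^ (((e * (2 * j) : ℕ)) : ℤ) := by
        rw [zpow_mul, zpow_natCast, zpow_natCast, pow_mul]
        exact hj
      have h2 := zpow_right_injective₀ ha0 (ne_of_lt hπ) h1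
      rw [h2]
      push_cast
      ring
    -- arithmetic
    have hn0 : (n : ℤ) ≠ 0 := by
      obtain ⟨k, rfl⟩ := hn
      push_cast
      omega
    have hcop : IsCoprime (n : ℤ) (2 * (e : ℤ)) := by
      have h2 : IsCoprime (n : ℤ) 2 := by
        have : Nat.Coprime n 2 := Nat.coprime_two_right.mpr hn
        exact_mod_cast Nat.isCoprime_iff_coprime.mpr this
      have he : IsCoprime (n : ℤ) (e : ℤ) := Nat.isCoprime_iff_coprime.mpr hne
      exact h2.mul_right he
    have hdvd : (n : ℤ) ∣ (j : ℤ) := by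
      have h1 : (n : ℤ) ∣ 2 * (e : ℤ) * (j : ℤ) := ⟨m, by rw [← heq]; ring⟩
      exact hcop.dvd_of_dvd_mul_left h1
    obtain ⟨j', hj'⟩ := hdvd
    have hm2 : m = 2 * (e : ℤ) * j' := by
      have h1 : m * (n : ℤ) = (2 * (e : ℤ) * j') * (n : ℤ) := by
        rw [heq, hj']; ring
      exact mul_right_cancel₀ hn0 h1
    have he0 : (0 : ℤ) ≤ (e : ℤ) := Int.natCast_nonneg e
    have hj'pos : 0 < j' := by
      by_contra hle
      rw [not_lt] at hle
      have : 2 * (e : ℤ) * j' ≤ 0 := mul_nonpos_of_nonneg_of_nonpos (by positivity) hle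
      omega
    have : 2 * (e : ℤ) * 1 ≤ 2 * (e : ℤ) * j' :=
      mul_le_mul_of_nonneg_left (by omega) (by positivity)
    omega

end node

/-! ### (C2-E0) -/

section E0

variable {K : Type*} [Field K] [DecidableEq K] (A : ValuationSubring K) (W : WeierstrassCurve K)

theorem h99_torsion_eq_zero_of_F2 (hW : h86_Integral A W) (ha₁ : W.a₁ = 1) (ha₃ : W.a₃ = 0)
    (h2 : (2 : K) ∈ A.nonunits) (S : Set K)
    (hres : ∀ z ∈ S, z ∈ A → z ∈ A.nonunits ∨ z - 1 ∈ A.nonunits)
    (n : ℕ) (hn : n.Coprime 6) (T : W.toAffine.Point) (hT : n • T = 0)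
    (hT1 : T = 0 ∨ ∃ (x y : K) (h : W.toAffine.Nonsingular x y),
      T = Affine.Point.some x y h ∧ x ∈ S ∧ y ∈ S ∧ x ∉ A.nonunits)
    (hT2 : 2 • T = 0 ∨ ∃ (x y : K) (h : W.toAffine.Nonsingular x y),
      2 • T = Affine.Point.some x y h ∧ x ∈ S ∧ y ∈ S ∧ x ∉ A.nonunits) :
    T = 0 := by
  have hW18 := h45_integral18 A W hW
  have hadd : ∀ {s t : K}, s ∈ A.nonunits → t ∈ A.nonunits → s + t ∈ A.nonunits := by
    intro s t hs ht
    rw [ValuationSubring.mem_nonunits_iff] at hs ht ⊢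
    exact Valuation.map_add_lt _ hs ht
  have hsub : ∀ {s t : K}, s ∈ A.nonunits → t ∈ A.nonunits → s - t ∈ A.nonunits := by
    intro s t hs ht
    rw [ValuationSubring.mem_nonunits_iff] at hs ht ⊢
    exact Valuation.map_sub_lt _ hs ht
  have h1 : (1 : K) ∉ A.nonunits := by
    rw [ValuationSubring.mem_nonunits_iff, map_one]; exact lt_irrefl 1
  have hn2 : n.Coprime 2 := Nat.Coprime.coprime_dvd_right (by norm_num : 2 ∣ 6) hn
  have hn3 : n.Coprime 3 := Nat.Coprime.coprime_dvd_right (by norm_num : 3 ∣ 6) hn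
  have hodd : Odd n := Nat.Coprime.odd_of_right hn2
  have hnK : (n : K) ∉ A.nonunits := by
    obtain ⟨m, rfl⟩ := hodd
    intro hmem
    apply h1
    have h2m : (2 : K) * (m : K) ∈ A.nonunits := h18_nu_mul_mem A h2 (natCast_mem A m)
    have : (1 : K) = ((2 * m + 1 : ℕ) : K) - 2 * (m : K) := by push_cast; ring
    rw [this]
    exact hsub hmem h2m
  have hE1 : ∀ Q : W.toAffine.Point, Q ∈ h86_E1 A W hW → n • Q = 0 → Q = 0 :=
    fun Q hQ h0 => h86_E1_nsmul_eq_zero A W hW hQ hnK h0
  have hcop : ∀ a : ℕ, a.Coprime n → a • T = 0 → T = 0 := by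
    intro a ha h0
    have h1 := addOrderOf_dvd_of_nsmul_eq_zero h0
    have h2 := addOrderOf_dvd_of_nsmul_eq_zero hT
    have h3 : addOrderOf T ∣ 1 := by
      have := Nat.dvd_gcd h1 h2
      rwa [Nat.Coprime.gcd_eq_one ha] at this
    exact AddMonoid.addOrderOf_eq_one_iff.mp (Nat.dvd_one.mp h3)
  rcases hT1 with h0 | ⟨x, y, h, hTe, hxS, hyS, hxu⟩
  · exact h0
  by_cases hxA : x ∈ A
  swap
  · exact hE1 T (by rw [hTe]; exact (h86_some_mem_E1_iff A W hW h).mpr hxA) hT
  have hyA : y ∈ A := h18_y_mem hW18 h.1 hxA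
  rcases hT2 with h0 | ⟨x₂, y₂, h₂, hTe₂, hx₂S, hy₂S, hx₂u⟩
  · exact hcop 2 hn2.symm h0
  have hn2T : n • (2 • T) = 0 := by rw [smul_comm, hT, smul_zero]
  by_cases hx₂A : x₂ ∈ A
  swap
  · have : 2 • T = 0 :=
      hE1 _ (by rw [hTe₂]; exact (h86_some_mem_E1_iff A W hW h₂).mpr hx₂A) hn2T
    exact hcop 2 hn2.symm this
  have hy₂A : y₂ ∈ A := h18_y_mem hW18 h₂.1 hx₂A
  -- residues of the `x`-coordinates
  have hx1 : x - 1 ∈ A.nonunits := (hres x hxS hxA).resolve_left hxu
  have hx₂1 : x₂ - 1 ∈ A.nonunits := (hres x₂ hx₂S hx₂A).resolve_left hx₂u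
  have hxx : x₂ - x ∈ A.nonunits := by
    have : x₂ - x = (x₂ - 1) - (x - 1) := by ring
    rw [this]; exact hsub hx₂1 hx1
  -- the reduction of a point with `x ≡ 1` is nonsingular
  have hpolyY : ∀ y' : K, y' ∈ A → W.toAffine.polynomialY.evalEval x y' ∉ A.nonunits := by
    intro y' hy' hmem
    rw [Affine.evalEval_polynomialY] at hmem
    change 2 * y' + W.a₁ * x + W.a₃ ∈ A.nonunits at hmem
    rw [ha₁, ha₃] at hmem
    apply hxu
    have : x = (2 * y' + 1 * x + 0) - 2 * y' := by ring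
    rw [this]
    exact hsub hmem (h18_nu_mul_mem A h2 hy')
  have hnegY : W.toAffine.negY x y = -y - 1 * x - 0 := by
    change -y - W.a₁ * x - W.a₃ = _
    rw [ha₁, ha₃]
  have hcase : y₂ - y ∈ A.nonunits ∨ y₂ - W.toAffine.negY x y ∈ A.nonunits := by
    rw [hnegY]
    rcases hres y hyS hyA with hy | hy <;> rcases hres y₂ hy₂S hy₂A with hy' | hy'
    · left; exact hsub hy' hy
    · right
      have : y₂ - (-y - 1 * x - 0) = (y₂ - 1) + y + (x - 1) + 2 := by ring
      rw [this]; exact hadd (hadd (hadd hy' hy) hx1) h2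
    · right
      have : y₂ - (-y - 1 * x - 0) = y₂ + (y - 1) + (x - 1) + 2 := by ring
      rw [this]; exact hadd (hadd (hadd hy' hy) hx1) h2
    · left
      have : y₂ - y = (y₂ - 1) - (y - 1) := by ring
      rw [this]; exact hsub hy' hy
  rcases hcase with hyy | hyy
  · -- `2 T - T` lies in the kernel of reduction
    have hmem : 2 • T - T ∈ h86_E1 A W hW := by
      have e1 : 2 • T - T = Affine.Point.some x₂ y₂ h₂ - Affine.Point.some x y h := by
        rw [hTe₂]; congr 1
      rw [e1, h86_mem_E1_iff]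
      exact h18_sub_mem_E1 hW18 h h₂ hxA hyA hxx hyy (fun hh => hpolyY y hyA hh.2)
    have h1T : 2 • T - T = T := by rw [two_nsmul, add_sub_cancel_right]
    rw [h1T] at hmem
    exact hE1 T hmem hT
  · -- `2 T - (-T) = 3 T` lies in the kernel of reduction
    have hnegA : W.toAffine.negY x y ∈ A := by
      rw [hnegY]
      exact A.sub_mem (A.sub_mem (A.neg_mem _ hyA) (A.mul_mem _ _ A.one_mem hxA)) A.zero_mem
    have hnegns : W.toAffine.Nonsingular x (W.toAffine.negY x y) :=
      (Affine.nonsingular_neg x y).mpr h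
    have hmem : 2 • T - (-T) ∈ h86_E1 A W hW := by
      have e1 : 2 • T - (-T) =
          Affine.Point.some x₂ y₂ h₂ - Affine.Point.some x (W.toAffine.negY x y) hnegns := by
        rw [hTe₂, ← Affine.Point.neg_some h]; congr 2
      rw [e1, h86_mem_E1_iff]
      exact h18_sub_mem_E1 hW18 hnegns h₂ hxA hnegA hxx hyy (fun hh => hpolyY _ hnegA hh.2)
    have h3T : 2 • T - (-T) = 3 • T := by rw [sub_neg_eq_add, ← succ_nsmul]
    rw [h3T] at hmem
    have : 3 • T = 0 := hE1 _ hmem (by rw [smul_comm, hT, smul_zero])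
    exact hcop 3 hn3.symm this

end E0

end Fermat.Agent.S13
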