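import Fermat.Agent.S13.h99_NodeS
import Fermat.Agent.S13.h45_RedSigma

/-
helper99, project S13, block [C1], curve level:
 (V)   an automorphism preserving a valuation subring preserves the valuation of every element
       with finite orbit (in particular of every element, for an algebraic extension);
 (C1a) on the split nodal form, `φ T - T` never reduces to the node, where `φ` is the action
       of a valuation-preserving automorphism `σ` on points;
 (C1b) if moreover `σ` acts trivially on the residue field, then `φ (φ T - T) = φ T - T` for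
       every `n`-torsion point `T`, `n` a unit.
-/

set_option autoImplicit false

namespace Fermat.Agent.S13

open WeierstrassCurve

/-! ### (V) automorphisms preserving the valuation ring preserve the valuation -/

section V

variable {K : Type*} [Field K] (A : ValuationSubring K) (σ : K ≃+* K)

/-- An automorphism preserving `A` preserves the order of valuations. -/
lemma h99_val_sigma_le_iff (hσA : ∀ x, A.valuation (σ x) ≤ 1 ↔ A.valuation x ≤ 1) (a b : K) :
    A.valuation (σ a) ≤ A.valuation (σ b) ↔ A.valuation a ≤ A.valuation b := by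
  by_cases hb : b = 0
  · subst hb
    rw [map_zero, map_zero, le_zero_iff, le_zero_iff, Valuation.zero_iff, Valuation.zero_iff]
    exact EmbeddingLike.map_eq_zero_iff
  · have hσb : σ b ≠ 0 := by
      rwa [Ne, EmbeddingLike.map_eq_zero_iff]
    have hvb : 0 < A.valuation b := A.valuation.pos_iff.mpr hb
    have hvσb : 0 < A.valuation (σ b) := A.valuation.pos_iff.mpr hσb
    have h1 : A.valuation (σ a) ≤ A.valuation (σ b) ↔ A.valuation (σ (a / b)) ≤ 1 := by
      rw [map_div₀, map_div₀, div_le_one₀ hvσb]
    have h2 : A.valuation a ≤ A.valuation b ↔ A.valuation (a / b) ≤ 1 := by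
      rw [map_div₀, div_le_one₀ hvb]
    rw [h1, h2]
    exact hσA (a / b)

lemma h99_val_sigma_lt_iff (hσA : ∀ x, A.valuation (σ x) ≤ 1 ↔ A.valuation x ≤ 1) (a b : K) :
    A.valuation (σ a) < A.valuation (σ b) ↔ A.valuation a < A.valuation b := by
  rw [← not_le, ← not_le, h99_val_sigma_le_iff A σ hσA]

/-- An automorphism preserving `A` preserves the valuation of every element with a finite
orbit. -/
theorem h99_val_sigma_eq (hσA : ∀ x, A.valuation (σ x) ≤ 1 ↔ A.valuation x ≤ 1) (x : K)
    {n : ℕ} (hn : 0 < n) (hx : (⇑σ)^[n] x = x) : A.valuation (σ x) = A.valuation x := by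
  rcases lt_trichotomy (A.valuation (σ x)) (A.valuation x) with h | h | h
  · exfalso
    have hstep : ∀ k : ℕ, A.valuation ((⇑σ)^[k + 1] x) < A.valuation ((⇑σ)^[k] x) := by
      intro k
      induction k with
      | zero => simpa using h
      | succ k ih =>
        rw [Function.iterate_succ_apply' (⇑σ) (k + 1) x, Function.iterate_succ_apply' (⇑σ) k x]
        exact (h99_val_sigma_lt_iff A σ hσA _ _).mpr
          (by rwa [Function.iterate_succ_apply' (⇑σ) k x] at ih)
    have hanti : StrictAnti (fun k : ℕ => A.valuation ((⇑σ)^[k] x)) :=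
      strictAnti_nat_of_succ_lt hstep
    have := hanti hn
    simp only [Function.iterate_zero, id_eq] at this
    rw [hx] at this
    exact lt_irrefl _ this
  · exact h
  · exfalso
    have hstep : ∀ k : ℕ, A.valuation ((⇑σ)^[k] x) < A.valuation ((⇑σ)^[k + 1] x) := by
      intro k
      induction k with
      | zero => simpa using h
      | succ k ih =>
        rw [Function.iterate_succ_apply' (⇑σ) (k + 1) x, Function.iterate_succ_apply' (⇑σ) k x]
        exact (h99_val_sigma_lt_iff A σ hσA _ _).mpr
          (by rwa [Function.iterate_succ_apply' (⇑σ) k x] at ih)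
    have hmono : StrictMono (fun k : ℕ => A.valuation ((⇑σ)^[k] x)) :=
      strictMono_nat_of_lt_succ hstep
    have := hmono hn
    simp only [Function.iterate_zero, id_eq] at this
    rw [hx] at this
    exact lt_irrefl _ this

end V

section Valg

variable {k K : Type*} [Field k] [Field K] [Algebra k K] [Algebra.IsAlgebraic k K]

/-- In an algebraic extension every element has a finite orbit under an automorphism. -/
lemma h99_exists_iterate_eq (σ : K ≃ₐ[k] K) (x : K) : ∃ n : ℕ, 0 < n ∧ (⇑σ)^[n] x = x := by
  have hint : IsIntegral k x := Algebra.IsIntegral.isIntegral x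
  have hmem : ∀ i : ℕ, (⇑σ)^[i] x ∈ (minpoly k x).rootSet K := by
    intro i
    rw [Polynomial.mem_rootSet_of_ne (minpoly.ne_zero hint)]
    induction i with
    | zero => exact minpoly.aeval k x
    | succ i ih =>
      rw [Function.iterate_succ_apply' (⇑σ) i x]
      have := Polynomial.aeval_algHom_apply (σ : K →ₐ[k] K) ((⇑σ)^[i] x) (minpoly k x)
      rw [ih, map_zero] at this
      exact this
  have hfin : Finite ((minpoly k x).rootSet K) := Polynomial.rootSet_finite _ _
  obtain ⟨i, j, hij, he⟩ := Finite.exists_ne_map_eq_of_infinite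
    (fun i : ℕ => (⟨(⇑σ)^[i] x, hmem i⟩ : (minpoly k x).rootSet K))
  have he' : (⇑σ)^[i] x = (⇑σ)^[j] x := congrArg Subtype.val he
  have key : ∀ i j : ℕ, i < j → (⇑σ)^[i] x = (⇑σ)^[j] x → ∃ n : ℕ, 0 < n ∧ (⇑σ)^[n] x = x := by
    intro i j hlt h
    refine ⟨j - i, Nat.sub_pos_of_lt hlt, ?_⟩
    have hj : j = i + (j - i) := by omega
    rw [hj, Function.iterate_add_apply] at h
    exact ((Function.Injective.iterate σ.injective i) h).symm
  rcases lt_or_gt_of_ne hij with h | h
  · exact key i j h he'
  · exact key j i h he'.symm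

/-- In an algebraic extension, an automorphism preserving a valuation subring preserves its
valuation (e.g. the elements of the decomposition group). -/
theorem h99_val_algEquiv_eq (A : ValuationSubring K) (σ : K ≃ₐ[k] K)
    (hσA : ∀ x, A.valuation (σ x) ≤ 1 ↔ A.valuation x ≤ 1) (x : K) :
    A.valuation (σ x) = A.valuation x := by
  obtain ⟨n, hn, hx⟩ := h99_exists_iterate_eq σ x
  exact h99_val_sigma_eq A (σ : K ≃+* K) hσA x hn hx

end Valg

/-! ### (C1) the action of a valuation-preserving automorphism on the split nodal form -/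

section C1

variable {K : Type*} [Field K] [DecidableEq K] (A : ValuationSubring K) (d c : K)

/-- `φ T - T` never reduces to the node. -/
theorem h99_sigma_sub_not_isN (hd : A.valuation d = 1) (hc : A.valuation c < 1) (hc0 : c ≠ 0)
    (σ : K ≃+* K) (hσv : ∀ x, A.valuation (σ x) = A.valuation x)
    (φ : (h45_nodalW d c).toAffine.Point →+ (h45_nodalW d c).toAffine.Point)
    (hφ : ∀ (X Y : K) (h : (h45_nodalW d c).toAffine.Nonsingular X Y),
      ∃ h', φ (Affine.Point.some X Y h) = Affine.Point.some (σ X) (σ Y) h')
    (T : (h45_nodalW d c).toAffine.Point) : ¬ h45_IsN d c A (φ T - T) := by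
  have hφN : ∀ P : (h45_nodalW d c).toAffine.Point, ¬ h45_IsN d c A P →
      ¬ h45_IsN d c A (φ P) := by
    intro P hP
    rcases P with _ | ⟨X, Y, h⟩
    · have : φ (Affine.Point.zero : (h45_nodalW d c).toAffine.Point) = 0 := map_zero φ
      rw [this]
      exact h99_not_isN_zero A d c
    · obtain ⟨h', e⟩ := hφ X Y h
      rw [e, h99_isN_some, hσv]
      rwa [h99_isN_some] at hP
  have hφC : ∀ (g : A.ValueGroup) (P : (h45_nodalW d c).toAffine.Point),
      h45_InC d c A g P → h45_InC d c A g (φ P) := by
    rintro g P ⟨X, Y, h, rfl, hX, hcg, hg1, hs⟩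
    obtain ⟨h', e⟩ := hφ X Y h
    rw [e, h99_inC_some, hσv, hσv]
    exact ⟨hX, hcg, hg1, hs⟩
  have hφM : ∀ P : (h45_nodalW d c).toAffine.Point, h45_InM d c A P →
      h45_InM d c A (φ P) := by
    rintro P ⟨X, Y, h, rfl, hX⟩
    obtain ⟨h', e⟩ := hφ X Y h
    rw [e, h99_inM_some, hσv]
    exact hX
  by_cases hN : h45_IsN d c A T
  · rcases h99_trichotomy A d c hN with ⟨g, hg⟩ | ⟨g, hg⟩ | hM
    · exact h99_inC_sub_not_isN A d c hd (hφC g T hg) hg
    · have h1 := h99_inC_sub_not_isN A d c hd (hφC g (-T) hg) hg
      have e : φ (-T) - -T = -(φ T - T) := by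
        rw [map_neg]; abel
      rw [e, h99_isN_neg_iff] at h1
      exact h1
    · have h1 : ¬ h45_IsN d c A (T + h99_T0 d c hc0) := h99_inM_add_T0 A d c hc0 hM
      have h2 : ¬ h45_IsN d c A (φ T + h99_T0 d c hc0) :=
        h99_inM_add_T0 A d c hc0 (hφM T hM)
      have h3 := (h99_E0 A d c hd hc).sub_mem h2 h1
      rw [add_sub_add_right_eq_sub] at h3
      exact h3
  · exact (h99_E0 A d c hd hc).sub_mem (hφN T hN) hN

/-- **Unipotency** on the split nodal form: if `σ` preserves the valuation and acts trivially
on the residue field, then `(φ - 1)² = 0` on the `n`-torsion, `n` a unit. -/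
theorem h99_sigma_unipotent (hd : A.valuation d = 1) (hc : A.valuation c < 1) (hc0 : c ≠ 0)
    (σ : K ≃+* K) (hσv : ∀ x, A.valuation (σ x) = A.valuation x)
    (hσm : ∀ x, A.valuation x ≤ 1 → A.valuation (σ x - x) < 1)
    (φ : (h45_nodalW d c).toAffine.Point →+ (h45_nodalW d c).toAffine.Point)
    (hφ : ∀ (X Y : K) (h : (h45_nodalW d c).toAffine.Nonsingular X Y),
      ∃ h', φ (Affine.Point.some X Y h) = Affine.Point.some (σ X) (σ Y) h')
    (n : ℕ) (hn : A.valuation (n : K) = 1)
    (T : (h45_nodalW d c).toAffine.Point) (hT : n • T = 0) :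
    φ (φ T - T) = φ T - T := by
  have hD := h99_sigma_sub_not_isN A d c hd hc hc0 σ hσv φ hφ T
  have hnD : n • (φ T - T) = 0 := by
    rw [smul_sub, ← map_nsmul, hT, map_zero, sub_zero]
  exact h45_fixed_of_not_isN A d c hd.le hc σ (fun x => by rw [hσv]) hσm φ hφ n hn _ hD hnD

end C1

end Fermat.Agent.S13
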